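import Fermat.Agent.L.Pivot.Geom.DefsPV

/-!
# PIVOT, package PV-GEOM, Part I (design (C)): the field statements on `W'` (helper19)

Mirror of the second half of `NEB/Geom/AsmDefs.lean` and of the leaves of `NEB/Geom/AsmTop.lean`.

For `Dm : MinSetup 𝒪 ϖ p N1 S θ` (helper84's level-`N1` setup) and
`D : PvSetup 𝒪 ϖ p N1 S θ ρbar eP n qP qv` (`DefsPV.lean`):

* `Stmt_P_gal D`      : continuity / commutation of the twisted Galois action, the diamonds;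
* `Stmt_P_es D`       : Eichler–Shimura on `W'` (level `pvLevel`);
* `Stmt_P_hstepC D`   : norm surjectivity along the PIVOT tower on `W'[ϖ]`;
* `Stmt_P_hstepD D`   : norm surjectivity along the Taylor–Wiles tower on `(W'[ϖ])^{Δ_Σ}`;
* `Stmt_P_pi Dm D`    : `π : W' → MD.W`, `πup : MD.W → W'`, `πup ∘ π = Nm_{Δ_Q} ∘ Nm_{Δ_Σ}`, INV for `Δ'`;
* `Stmt_P_frob_nil D` : `(F - a)(F - a')` nilpotent on `W'[ϖ]` at the Taylor–Wiles primes;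
* `Stmt_P_lg D`       : local–global compatibility at the Taylor–Wiles primes on `W'`;
* `PvStd`             : the standing hypotheses of `Stmt_PVDIV` (with `5 ≤ p` or an aux prime);
* `Stmt_P_GAL`, `Stmt_P_ES`, `Stmt_P_HSTEPC`, `Stmt_P_HSTEPD`, `Stmt_P_PI`, `Stmt_P_FROBNIL`,
  `Stmt_P_LG` : the leaves, universally quantified.

Statements only; no `sorry`.
-/

set_option autoImplicit false
set_option linter.unusedSectionVars false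
set_option linter.style.haveILetI false
set_option linter.unusedVariables false

noncomputable section

open ModularCurve AlgebraicCurve IsLocalRing TensorProduct Polynomial

namespace Fermat.Agent.L.Pivot.Geom

open Fermat.Agent.NEB Fermat.Agent.NEB.JH Fermat.Agent.NEB.Geom Fermat.Agent.S59.Lim
  Fermat.Agent.S59.Lim.H2 Fermat.Agent.S59.Asm

/-! ## The fields on `W'` as leaves -/

section Fields

variable {𝒪 : Type} [CommRing 𝒪] [IsDomain 𝒪] [IsDiscreteValuationRing 𝒪]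
  {ϖ : 𝒪} {p : ℕ} {N1 : ℕ} [NeZero N1] {S : Finset ℕ}
  {θ : CuspForm.heckeAlgebra N1 2 (↑S : Set ℕ) →+* ResidueField 𝒪}
  {ρbar : ResidualGaloisRep (ResidueField 𝒪)} {k : ℕ} {eP : Fin k → ℕ} {n : ℕ}
  {qP : Fin k → ℕ} {r : ℕ} {qv : Fin r → ℕ}
  [NeZero (N1 * twC qv)] [NeZero (pvC qP qv)] [NeZero (twLevel N1 qv)]
  [NeZero (pvLevel N1 qP qv)]
  (Dm : MinSetup 𝒪 ϖ p N1 S θ) (D : PvSetup 𝒪 ϖ p N1 S θ ρbar eP n qP qv)

/-- **P-GAL**: continuity and commutation of the twisted Galois action on `W'`; the diamond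
operators (all of them: `D.dia u`, in particular `D.c j` and `D.d i`). -/
def Stmt_P_gal : Prop :=
  (∀ x : D.WD.W, ∃ L : IntermediateField ℚ Kbar, FiniteDimensional ℚ L ∧
    ∀ σ : GalK, (∀ y ∈ L, σ y = y) → D.gal σ x = x) ∧
  (∀ (g : GalK) (t : CuspForm.heckeAlgebra (pvLevel N1 qP qv) 2 (↑(twSet S qv) : Set ℕ)),
    Commute (D.gal g) (D.WD.η t)) ∧
  (∀ j, D.c j ^ (p ^ eP j) = 1) ∧
  (∀ i, D.d i ^ (p ^ n) = 1) ∧
  (∀ u v : (ZMod (pvC qP qv))ˣ, Commute (D.dia u) (D.dia v)) ∧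
  (∀ (u : (ZMod (pvC qP qv))ˣ)
    (t : CuspForm.heckeAlgebra (pvLevel N1 qP qv) 2 (↑(twSet S qv) : Set ℕ)),
    Commute (D.dia u) (D.WD.η t)) ∧
  (∀ (u : (ZMod (pvC qP qv))ˣ) (g : GalK), Commute (D.dia u) (D.gal g))

/-- **P-ES**: Eichler–Shimura on `W'`. -/
def Stmt_P_es : Prop :=
  ∀ (ℓ : ℕ) (hℓ : ℓ.Prime) (hℓN : ¬ ℓ ∣ pvLevel N1 qP qv)
    (hℓS : ℓ ∉ (↑(twSet S qv) : Set ℕ)),
    ∀ A : ValuationSubring Kbar, A.LiesOverPrime ℓ →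
      ∀ σ : GalK, A.IsFrobeniusAt σ ℓ →
        D.gal σ * D.gal σ - D.WD.η (CuspForm.heckeAlgebra.T hℓ hℓN hℓS) * D.gal σ
          + (ℓ : 𝒪) • (1 : Module.End 𝒪 D.WD.W) = 0

/-- **P-HSTEP (C)**: norm surjectivity along the tower of the pivot primes, on `W'[ϖ]`
(the field `hstep` of `PVDiv`). -/
def Stmt_P_hstepC : Prop :=
  ∀ (j : Fin k) (v : D.WD.W), ϖ • v = 0 → (∀ i, i ≤ j → D.c i v = v) →
    ∃ w : D.WD.W, ϖ • w = 0 ∧ (∀ i, i < j → D.c i w = w) ∧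
      Fermat.Agent.S59.TWH.H90.nm (p ^ eP j) (D.c j) w = v

/-- **P-HSTEP (D)**: norm surjectivity along the tower of the Taylor–Wiles primes, on the
`Δ_Σ`-invariants of `W'[ϖ]` (the tower continues: pivots first, then Taylor–Wiles primes). -/
def Stmt_P_hstepD : Prop :=
  ∀ (i : Fin r) (v : D.WD.W), ϖ • v = 0 → (∀ j, D.c j v = v) → (∀ i', i' ≤ i → D.d i' v = v) →
    ∃ w : D.WD.W, ϖ • w = 0 ∧ (∀ j, D.c j w = w) ∧ (∀ i', i' < i → D.d i' w = w) ∧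
      Fermat.Agent.S59.TWH.H90.nm (p ^ n) (D.d i) w = v

/-- **P-PI**: the maps `π : W' → MD.W`, `πup : MD.W → W'` (through `Y'`, level `Γ₀(M1)`, and
helper14's `ω`), with `πup ∘ π = Nm_{Δ_Q} ∘ Nm_{Δ_Σ}`, (INV) for the whole of `Δ'` on `W'[ϖ]`,
Hecke-equivariance of `π`, and Galois equivariance of `πup` for the untwisted action. -/
def Stmt_P_pi : Prop :=
  ∃ (π : D.WD.W →ₗ[𝒪] Dm.MD.W) (πup : Dm.MD.W →ₗ[𝒪] D.WD.W),
    Function.Injective πup ∧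
    (∀ x : D.WD.W, πup (π x) = Fermat.Agent.S59.TWH.H90.nmTot (p ^ n) D.d
      (H59.nmTotE (fun j => p ^ eP j) D.c x)) ∧
    (∀ (u : (ZMod (pvC qP qv))ˣ) (y : Dm.MD.W), D.dia u (πup y) = πup y) ∧
    (∀ v : D.WD.W, ϖ • v = 0 → (∀ j, D.c j v = v) → (∀ i, D.d i v = v) →
      ∃ y : Dm.MD.W, πup y = v) ∧
    (∀ (t : CuspForm.heckeAlgebra (pvLevel N1 qP qv) 2 (↑(twSet S qv) : Set ℕ)) (v : D.WD.W),
      π (D.WD.η t v) = Dm.MD.η (Fermat.Agent.S59.Asm.H41.restTW N1 S qv D.hPV.prime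
        (H4.restPV N1 S qP qv D.hPV.dvdP t)) (π v)) ∧
    (∀ (σ : GalK) (y : Dm.MD.W),
      D.val (πup (Dm.gal σ y))
        = (galZ (N1 * twC qv) (pvC qP qv) (pvH qP qv p eP n) p σ).baseChange 𝒪
            (D.val (πup y)))

/-- **P-FROBNIL**: `(F - a)(F - a')` is nilpotent on `W'[ϖ]`, `F = gal (frob i)`. -/
def Stmt_P_frob_nil : Prop :=
  ∀ (i : Fin r) (x : D.WD.W), ϖ • x = 0 → ∃ m : ℕ,
    (((D.gal (D.frob i) - D.a i • (1 : Module.End 𝒪 D.WD.W)) *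
      (D.gal (D.frob i) - D.a' i • (1 : Module.End 𝒪 D.WD.W))) ^ m) x = 0

/-- **P-LG**: the inertia element `σ_i` acts on the generalised `a_i`-eigenspace of `frob_i`
as `d_i`, on `W'`. -/
def Stmt_P_lg : Prop :=
  ∀ (i : Fin r) (x : D.WD.W),
    x ∈ gk (D.gal (D.frob i) - D.a i • (1 : Module.End 𝒪 D.WD.W)) →
    D.gal (D.σ i) x = D.d i x

end Fields

/-! ## The standing hypotheses and the universally quantified leaves -/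

/-- The standing hypotheses of `Stmt_PVDIV` (with a chosen uniformiser and `5 ≤ p` or an
auxiliary prime `r ≡ 2 mod 3` dividing `N1`). -/
structure PvStd (𝒪 : Type) [CommRing 𝒪] [IsLocalRing 𝒪] (ϖ : 𝒪) (p : ℕ) (N1 : ℕ) [NeZero N1]
    (S Smin : Finset ℕ) (θ : CuspForm.heckeAlgebra N1 2 (↑S : Set ℕ) →+* ResidueField 𝒪)
    (ρbar : ResidualGaloisRep (ResidueField 𝒪)) {k : ℕ} (Pv : PivotPrimes k) (eP : Fin k → ℕ) :
    Prop where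
  hϖ : Irreducible ϖ
  /-- `5 ≤ p`, or an auxiliary prime `r ≡ 2 mod 3` in the level (`UnrCond` at the pivot primes) -/
  hU : 5 ≤ p ∨ ∃ r : ℕ, r.Prime ∧ r ∣ N1 ∧ r % 3 = 2
  hyp : Fermat.Agent.S56.Hyp 𝒪 p ρbar S Smin
  hNS : ∀ q : ℕ, q.Prime → q ∣ N1 → q ∈ S
  hsq : Squarefree N1
  hfrob : Fermat.Agent.S59.Datum.FrobHyp ρbar N1 S θ
  hint : CuspForm.HasIntegralStructure N1 2
  hex : Pv.IsExceptional p ρbar
  hdvd : ∀ j, Pv.q j ∣ N1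
  heP : ∀ j, p ^ eP j ∣ Pv.q j - 1 ∧ ¬ p ^ (eP j + 1) ∣ Pv.q j - 1

/-- **P-GAL** (universally quantified). -/
def Stmt_P_GAL : Prop :=
  ∀ (𝒪 : Type) [CommRing 𝒪] [IsDomain 𝒪] [IsDiscreteValuationRing 𝒪]
    [IsAdicComplete (maximalIdeal 𝒪) 𝒪] [Finite (ResidueField 𝒪)] [CharZero 𝒪]
    (ϖ : 𝒪) (p : ℕ) [Fact p.Prime] (N1 : ℕ) [NeZero N1] (S Smin : Finset ℕ)
    (θ : CuspForm.heckeAlgebra N1 2 (↑S : Set ℕ) →+* ResidueField 𝒪)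
    (ρbar : ResidualGaloisRep (ResidueField 𝒪)) (k : ℕ) (Pv : PivotPrimes k)
    (eP : Fin k → ℕ), PvStd 𝒪 ϖ p N1 S Smin θ ρbar Pv eP →
    ∀ (Dm : MinSetup 𝒪 ϖ p N1 S θ) (n r : ℕ) (qv : Fin r → ℕ)
      [NeZero (N1 * twC qv)] [NeZero (pvC Pv.q qv)] [NeZero (twLevel N1 qv)]
      [NeZero (pvLevel N1 Pv.q qv)]
      (D : PvSetup 𝒪 ϖ p N1 S θ ρbar eP n Pv.q qv),
      Stmt_P_gal D

/-- **P-ES** (universally quantified). -/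
def Stmt_P_ES : Prop :=
  ∀ (𝒪 : Type) [CommRing 𝒪] [IsDomain 𝒪] [IsDiscreteValuationRing 𝒪]
    [IsAdicComplete (maximalIdeal 𝒪) 𝒪] [Finite (ResidueField 𝒪)] [CharZero 𝒪]
    (ϖ : 𝒪) (p : ℕ) [Fact p.Prime] (N1 : ℕ) [NeZero N1] (S Smin : Finset ℕ)
    (θ : CuspForm.heckeAlgebra N1 2 (↑S : Set ℕ) →+* ResidueField 𝒪)
    (ρbar : ResidualGaloisRep (ResidueField 𝒪)) (k : ℕ) (Pv : PivotPrimes k)
    (eP : Fin k → ℕ), PvStd 𝒪 ϖ p N1 S Smin θ ρbar Pv eP →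
    ∀ (Dm : MinSetup 𝒪 ϖ p N1 S θ) (n r : ℕ) (qv : Fin r → ℕ)
      [NeZero (N1 * twC qv)] [NeZero (pvC Pv.q qv)] [NeZero (twLevel N1 qv)]
      [NeZero (pvLevel N1 Pv.q qv)]
      (D : PvSetup 𝒪 ϖ p N1 S θ ρbar eP n Pv.q qv),
      Stmt_P_es D

/-- **P-HSTEP (C)** (universally quantified). -/
def Stmt_P_HSTEPC : Prop :=
  ∀ (𝒪 : Type) [CommRing 𝒪] [IsDomain 𝒪] [IsDiscreteValuationRing 𝒪]
    [IsAdicComplete (maximalIdeal 𝒪) 𝒪] [Finite (ResidueField 𝒪)] [CharZero 𝒪]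
    (ϖ : 𝒪) (p : ℕ) [Fact p.Prime] (N1 : ℕ) [NeZero N1] (S Smin : Finset ℕ)
    (θ : CuspForm.heckeAlgebra N1 2 (↑S : Set ℕ) →+* ResidueField 𝒪)
    (ρbar : ResidualGaloisRep (ResidueField 𝒪)) (k : ℕ) (Pv : PivotPrimes k)
    (eP : Fin k → ℕ), PvStd 𝒪 ϖ p N1 S Smin θ ρbar Pv eP →
    ∀ (Dm : MinSetup 𝒪 ϖ p N1 S θ) (n r : ℕ) (qv : Fin r → ℕ)
      [NeZero (N1 * twC qv)] [NeZero (pvC Pv.q qv)] [NeZero (twLevel N1 qv)]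
      [NeZero (pvLevel N1 Pv.q qv)]
      (D : PvSetup 𝒪 ϖ p N1 S θ ρbar eP n Pv.q qv),
      Stmt_P_hstepC D

/-- **P-HSTEP (D)** (universally quantified). -/
def Stmt_P_HSTEPD : Prop :=
  ∀ (𝒪 : Type) [CommRing 𝒪] [IsDomain 𝒪] [IsDiscreteValuationRing 𝒪]
    [IsAdicComplete (maximalIdeal 𝒪) 𝒪] [Finite (ResidueField 𝒪)] [CharZero 𝒪]
    (ϖ : 𝒪) (p : ℕ) [Fact p.Prime] (N1 : ℕ) [NeZero N1] (S Smin : Finset ℕ)
    (θ : CuspForm.heckeAlgebra N1 2 (↑S : Set ℕ) →+* ResidueField 𝒪)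
    (ρbar : ResidualGaloisRep (ResidueField 𝒪)) (k : ℕ) (Pv : PivotPrimes k)
    (eP : Fin k → ℕ), PvStd 𝒪 ϖ p N1 S Smin θ ρbar Pv eP →
    ∀ (Dm : MinSetup 𝒪 ϖ p N1 S θ) (n r : ℕ) (qv : Fin r → ℕ)
      [NeZero (N1 * twC qv)] [NeZero (pvC Pv.q qv)] [NeZero (twLevel N1 qv)]
      [NeZero (pvLevel N1 Pv.q qv)]
      (D : PvSetup 𝒪 ϖ p N1 S θ ρbar eP n Pv.q qv),
      Stmt_P_hstepD D

/-- **P-PI** (universally quantified). -/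
def Stmt_P_PI : Prop :=
  ∀ (𝒪 : Type) [CommRing 𝒪] [IsDomain 𝒪] [IsDiscreteValuationRing 𝒪]
    [IsAdicComplete (maximalIdeal 𝒪) 𝒪] [Finite (ResidueField 𝒪)] [CharZero 𝒪]
    (ϖ : 𝒪) (p : ℕ) [Fact p.Prime] (N1 : ℕ) [NeZero N1] (S Smin : Finset ℕ)
    (θ : CuspForm.heckeAlgebra N1 2 (↑S : Set ℕ) →+* ResidueField 𝒪)
    (ρbar : ResidualGaloisRep (ResidueField 𝒪)) (k : ℕ) (Pv : PivotPrimes k)
    (eP : Fin k → ℕ), PvStd 𝒪 ϖ p N1 S Smin θ ρbar Pv eP →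
    ∀ (Dm : MinSetup 𝒪 ϖ p N1 S θ) (n r : ℕ) (qv : Fin r → ℕ)
      [NeZero (N1 * twC qv)] [NeZero (pvC Pv.q qv)] [NeZero (twLevel N1 qv)]
      [NeZero (pvLevel N1 Pv.q qv)]
      (D : PvSetup 𝒪 ϖ p N1 S θ ρbar eP n Pv.q qv),
      Stmt_P_pi Dm D

/-- **P-FROBNIL** (universally quantified). -/
def Stmt_P_FROBNIL : Prop :=
  ∀ (𝒪 : Type) [CommRing 𝒪] [IsDomain 𝒪] [IsDiscreteValuationRing 𝒪]
    [IsAdicComplete (maximalIdeal 𝒪) 𝒪] [Finite (ResidueField 𝒪)] [CharZero 𝒪]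
    (ϖ : 𝒪) (p : ℕ) [Fact p.Prime] (N1 : ℕ) [NeZero N1] (S Smin : Finset ℕ)
    (θ : CuspForm.heckeAlgebra N1 2 (↑S : Set ℕ) →+* ResidueField 𝒪)
    (ρbar : ResidualGaloisRep (ResidueField 𝒪)) (k : ℕ) (Pv : PivotPrimes k)
    (eP : Fin k → ℕ), PvStd 𝒪 ϖ p N1 S Smin θ ρbar Pv eP →
    ∀ (Dm : MinSetup 𝒪 ϖ p N1 S θ) (n r : ℕ) (qv : Fin r → ℕ)
      [NeZero (N1 * twC qv)] [NeZero (pvC Pv.q qv)] [NeZero (twLevel N1 qv)]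
      [NeZero (pvLevel N1 Pv.q qv)]
      (D : PvSetup 𝒪 ϖ p N1 S θ ρbar eP n Pv.q qv),
      Stmt_P_frob_nil D

/-- **P-LG** (universally quantified). -/
def Stmt_P_LG : Prop :=
  ∀ (𝒪 : Type) [CommRing 𝒪] [IsDomain 𝒪] [IsDiscreteValuationRing 𝒪]
    [IsAdicComplete (maximalIdeal 𝒪) 𝒪] [Finite (ResidueField 𝒪)] [CharZero 𝒪]
    (ϖ : 𝒪) (p : ℕ) [Fact p.Prime] (N1 : ℕ) [NeZero N1] (S Smin : Finset ℕ)
    (θ : CuspForm.heckeAlgebra N1 2 (↑S : Set ℕ) →+* ResidueField 𝒪)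
    (ρbar : ResidualGaloisRep (ResidueField 𝒪)) (k : ℕ) (Pv : PivotPrimes k)
    (eP : Fin k → ℕ), PvStd 𝒪 ϖ p N1 S Smin θ ρbar Pv eP →
    ∀ (Dm : MinSetup 𝒪 ϖ p N1 S θ) (n r : ℕ) (qv : Fin r → ℕ)
      [NeZero (N1 * twC qv)] [NeZero (pvC Pv.q qv)] [NeZero (twLevel N1 qv)]
      [NeZero (pvLevel N1 Pv.q qv)]
      (D : PvSetup 𝒪 ϖ p N1 S θ ρbar eP n Pv.q qv),
      Stmt_P_lg D

end Fermat.Agent.L.Pivot.Geom

end
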