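import Fermat.Agent.L.Pivot.Geom.Defs

/-!
# PIVOT, package PV-GEOM (owner-planner helper59): the base datum `PVBase` (design (C))

Plan: `NOTES/plan/PV_GEOM.md` (v2).  The ONLY geometric object of PV-GEOM is the divisible module
`W' ⊆ 𝒪 ⊗ J_{H'}[p^∞]` (`H' ⊂ (ℤ/c')ˣ`, `c' = c_Σ c_Q`, mixed exponents; localised at `U_q` only at
the Taylor–Wiles primes).  The Taylor–Wiles datum `G1D` of unipotent type is NOT a second
geometric object: its module is the range of the total norm of the pivot diamonds,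

  `G1D.WD.W := range (Nm_{Δ_Σ} : W' → W')`,

so that `κ = Nm_{Δ_Σ}` and `κup` = inclusion, and all the `κ`-fields of `PVDiv` are formal
(`H59_LayerB*.lean`: `pvDiv_of_base`).

* `PVBase`      : the data on `W'` (fields = leaves P-SETUP, P-GAL, P-ES, P-HSTEP, P-PI, P-EIGPART,
  P-FROBNIL, P-LG, and `new`).
* `Stmt_PVBASE` : the base data exist (hypotheses of `Stmt_PVDIV`).

Definitions only; no `sorry`.
-/

set_option autoImplicit false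

noncomputable section

namespace Fermat.Agent.L.Pivot.Geom

open Polynomial IsLocalRing CuspForm Fermat.Agent.S56 Fermat.Agent.S59 Fermat.Agent.S59.Asm
  Fermat.Agent.S59.Lim Fermat.Agent.L.Pivot

set_option maxHeartbeats 2000000 in
/-- **The base datum of PV-GEOM**: the divisible module `W'` of level `Γ_{H'}` with its diamond
operators `c j` (pivot primes), `d i` (Taylor–Wiles primes), the twisted Galois action, the maps
`π`, `πup` to the minimal level `N1` (through `Γ₀(N1 ∏ qv_i)`), and the local data at the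
Taylor–Wiles primes. -/
structure PVBase (𝒪 : Type) [CommRing 𝒪] [IsLocalRing 𝒪] (ϖ : 𝒪) (p : ℕ)
    (ρbar : ResidualGaloisRep (ResidueField 𝒪))
    (N1 : ℕ) [NeZero N1] (S : Finset ℕ)
    (θ : CuspForm.heckeAlgebra N1 2 (↑S : Set ℕ) →+* ResidueField 𝒪)
    (MD : HDiv 𝒪 ϖ N1 (↑S : Set ℕ) θ) {k : ℕ} (qP : Fin k → ℕ) (eP : Fin k → ℕ)
    {r : ℕ} (n : ℕ) (qv : Fin r → ℕ)
    [NeZero (twLevel N1 qv)] [NeZero (pvLevel N1 qP qv)] : Type 1 where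
  /-- restriction of Hecke operators `twLevel → N1` (package REST) -/
  rest1 : CuspForm.heckeAlgebra (twLevel N1 qv) 2 (↑(twSet S qv) : Set ℕ) →+*
    CuspForm.heckeAlgebra N1 2 (↑S : Set ℕ)
  rest1_T : ∀ (ℓ : ℕ) (hℓ : ℓ.Prime) (hℓN' : ¬ ℓ ∣ twLevel N1 qv)
    (hℓS' : ℓ ∉ (↑(twSet S qv) : Set ℕ)) (hℓN : ¬ ℓ ∣ N1) (hℓS : ℓ ∉ (↑S : Set ℕ)),
    rest1 (CuspForm.heckeAlgebra.T hℓ hℓN' hℓS') = CuspForm.heckeAlgebra.T hℓ hℓN hℓS
  /-- restriction of Hecke operators `pvLevel → twLevel` (PVG-REST: `H4.restPV`) -/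
  rest : CuspForm.heckeAlgebra (pvLevel N1 qP qv) 2 (↑(twSet S qv) : Set ℕ) →+*
    CuspForm.heckeAlgebra (twLevel N1 qv) 2 (↑(twSet S qv) : Set ℕ)
  rest_T : ∀ (ℓ : ℕ) (hℓ : ℓ.Prime) (hℓN' : ¬ ℓ ∣ pvLevel N1 qP qv)
    (hℓS : ℓ ∉ (↑(twSet S qv) : Set ℕ)) (hℓN : ¬ ℓ ∣ twLevel N1 qv),
    rest (CuspForm.heckeAlgebra.T hℓ hℓN' hℓS) = CuspForm.heckeAlgebra.T hℓ hℓN hℓS
  /-- the two Hecke algebras have the same generators -/
  rest_surj : Function.Surjective rest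
  /-- the divisible Hecke module at the level `M₀ ∏ q_j² ∏ qv_i²` -/
  WD : HDiv 𝒪 ϖ (pvLevel N1 qP qv) (↑(twSet S qv) : Set ℕ) ((θ.comp rest1).comp rest)
  /-- the twisted Galois action -/
  gal : GalQ →* Module.End 𝒪 WD.W
  gal_cont : ∀ x : WD.W, ∃ L : IntermediateField ℚ (AlgebraicClosure ℚ),
    FiniteDimensional ℚ L ∧ ∀ σ : GalQ, (∀ y ∈ L, σ y = y) → gal σ x = x
  gal_η : ∀ (g : GalQ)
    (t : CuspForm.heckeAlgebra (pvLevel N1 qP qv) 2 (↑(twSet S qv) : Set ℕ)),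
    Commute (gal g) (WD.η t)
  /-- Eichler–Shimura -/
  es : ∀ (ℓ : ℕ) (hℓ : ℓ.Prime) (hℓN : ¬ ℓ ∣ pvLevel N1 qP qv)
    (hℓS : ℓ ∉ (↑(twSet S qv) : Set ℕ)),
    ∀ A : ValuationSubring (AlgebraicClosure ℚ), A.LiesOverPrime ℓ →
      ∀ σ : GalQ, A.IsFrobeniusAt σ ℓ →
        gal σ * gal σ - WD.η (CuspForm.heckeAlgebra.T hℓ hℓN hℓS) * gal σ
          + (ℓ : 𝒪) • (1 : Module.End 𝒪 WD.W) = 0
  /-- the diamond operators at the pivot primes -/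
  c : Fin k → Module.End 𝒪 WD.W
  c_pow : ∀ j, c j ^ (p ^ eP j) = 1
  /-- the diamond operators at the Taylor–Wiles primes -/
  d : Fin r → Module.End 𝒪 WD.W
  d_pow : ∀ i, d i ^ (p ^ n) = 1
  c_comm : ∀ i j, Commute (c i) (c j)
  d_comm : ∀ i j, Commute (d i) (d j)
  c_d : ∀ j i, Commute (c j) (d i)
  c_η : ∀ (j : Fin k)
    (t : CuspForm.heckeAlgebra (pvLevel N1 qP qv) 2 (↑(twSet S qv) : Set ℕ)),
    Commute (c j) (WD.η t)
  d_η : ∀ (i : Fin r)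
    (t : CuspForm.heckeAlgebra (pvLevel N1 qP qv) 2 (↑(twSet S qv) : Set ℕ)),
    Commute (d i) (WD.η t)
  c_gal : ∀ (j : Fin k) (g : GalQ), Commute (c j) (gal g)
  d_gal : ∀ (i : Fin r) (g : GalQ), Commute (d i) (gal g)
  /-- (P-HSTEP, pivot part) norm surjectivity along the tower of the pivot primes, on `W'[ϖ]` -/
  hstepC : ∀ (j : Fin k) (v : WD.W), ϖ • v = 0 → (∀ i, i ≤ j → c i v = v) →
    ∃ w : WD.W, ϖ • w = 0 ∧ (∀ i, i < j → c i w = w) ∧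
      Fermat.Agent.S59.TWH.H90.nm (p ^ eP j) (c j) w = v
  /-- (P-HSTEP, Taylor–Wiles part) norm surjectivity along the tower of the Taylor–Wiles primes,
  on the `Δ_Σ`-invariants of `W'[ϖ]` -/
  hstepD : ∀ (i : Fin r) (v : WD.W), ϖ • v = 0 → (∀ j, c j v = v) →
    (∀ i', i' ≤ i → d i' v = v) →
    ∃ w : WD.W, ϖ • w = 0 ∧ (∀ j, c j w = w) ∧ (∀ i', i' < i → d i' w = w) ∧
      Fermat.Agent.S59.TWH.H90.nm (p ^ n) (d i) w = v
  /-- (P-PI) the projection to the minimal level -/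
  π : WD.W →ₗ[𝒪] MD.W
  /-- (P-PI) the pull-back from the minimal level -/
  πup : MD.W →ₗ[𝒪] WD.W
  πup_injective : Function.Injective πup
  /-- `π^* π_* = ∑_{δ ∈ Δ_Σ × Δ_Q} δ` -/
  πup_π : ∀ x : WD.W, πup (π x) =
    Fermat.Agent.S59.TWH.H90.nmTot (p ^ n) d (H59.nmTotE (fun j => p ^ eP j) c x)
  c_πup : ∀ (j : Fin k) (y : MD.W), c j (πup y) = πup y
  d_πup : ∀ (i : Fin r) (y : MD.W), d i (πup y) = πup y
  /-- (INV) on `W'[ϖ]`: the invariants under all diamond operators are pull-backs -/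
  invAll : ∀ v : WD.W, ϖ • v = 0 → (∀ j, c j v = v) → (∀ i, d i v = v) →
    ∃ y : MD.W, πup y = v
  π_η : ∀ (t : CuspForm.heckeAlgebra (pvLevel N1 qP qv) 2 (↑(twSet S qv) : Set ℕ)) (v : WD.W),
    π (WD.η t v) = MD.η (rest1 (rest t)) (π v)
  /-- (P-EIGPART) the Hecke algebra of level `twLevel` acts on the `Δ_Σ`-norms -/
  eigpart : ∀ t : CuspForm.heckeAlgebra (pvLevel N1 qP qv) 2 (↑(twSet S qv) : Set ℕ),
    rest t = 0 → ∀ x : WD.W, WD.η t (H59.nmTotE (fun j => p ^ eP j) c x) = 0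
  /-- the local data at the Taylor–Wiles primes -/
  P : Fin r → ValuationSubring (AlgebraicClosure ℚ)
  P_over : ∀ i, (P i).LiesOverPrime (qv i)
  frob : Fin r → GalQ
  frob_spec : ∀ i, (P i).IsFrobeniusAt (frob i) (qv i)
  σ : Fin r → GalQ
  σ_mem : ∀ i, σ i ∈ (P i).inertiaSubgroupIn ℚ
  a : Fin r → 𝒪
  a' : Fin r → 𝒪
  a_ne : ∀ i, residue 𝒪 (a i) ≠ residue 𝒪 (a' i)
  charpoly_frob : ∀ i, LinearMap.charpoly (ρbar.ρ (frob i)) =
    (X - C (residue 𝒪 (a i))) * (X - C (residue 𝒪 (a' i)))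
  /-- (P-FROBNIL) `(F - a)(F - a')` is nilpotent on `W'[ϖ]` -/
  frob_nil : ∀ (i : Fin r) (x : WD.W), ϖ • x = 0 → ∃ m : ℕ,
    (((gal (frob i) - a i • (1 : Module.End 𝒪 WD.W)) *
      (gal (frob i) - a' i • (1 : Module.End 𝒪 WD.W))) ^ m) x = 0
  /-- (P-LG) local–global compatibility at the Taylor–Wiles primes on `W'` -/
  lg : ∀ (i : Fin r) (x : WD.W),
    x ∈ gk (gal (frob i) - a i • (1 : Module.End 𝒪 WD.W)) →
    gal (σ i) x = d i x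
  /-- **the ramified types are new at the pivot primes** (the field `PVGeom.new`, verbatim). -/
  new : ∀ (ψ : Fin k → 𝒪), (∀ j, ψ j ^ (p ^ eP j) = 1 ∧ ψ j ≠ 1) →
    ∀ (D : Type) [CommRing D] [IsDomain D] [CharZero D]
      (χ : CuspForm.heckeAlgebra (pvLevel N1 qP qv) 2 (↑(twSet S qv) : Set ℕ) →+* D),
      (∀ t, (∀ v : H2.tate ϖ WD.W, H2.mapEnd ϖ WD.W (WD.η t) v ∈
        typeSub (fun j => H2.mapEnd ϖ WD.W (c j)) ψ) → χ t = 0) →
      ∀ (j : Fin k) [NeZero (pvLevel N1 qP qv / qP j)]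
        (χ' : CuspForm.heckeAlgebra (pvLevel N1 qP qv / qP j) 2 (↑(twSet S qv) : Set ℕ) →+* D),
        ¬ ∀ (ℓ : ℕ) (hℓ : ℓ.Prime) (hℓN' : ¬ ℓ ∣ pvLevel N1 qP qv)
          (hℓS : ℓ ∉ (↑(twSet S qv) : Set ℕ)) (hℓN : ¬ ℓ ∣ pvLevel N1 qP qv / qP j),
          χ' (CuspForm.heckeAlgebra.T hℓ hℓN hℓS) = χ (CuspForm.heckeAlgebra.T hℓ hℓN' hℓS)

/-- **PV-BASE**: the base data of PIVOT exist for every Taylor–Wiles family (the geometric
content of PV-GEOM in design (C); hypotheses = those of `Stmt_PVDIV`, in particular `5 ≤ p`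
[no elliptic ramification in the pivot tower] and `0 < k` [the conductor `c'` is `≥ 2`]). -/
def Stmt_PVBASE : Prop :=
  ∀ (𝒪 : Type) [CommRing 𝒪] [IsDomain 𝒪] [IsDiscreteValuationRing 𝒪]
    [IsAdicComplete (maximalIdeal 𝒪) 𝒪] [Finite (ResidueField 𝒪)] [CharZero 𝒪]
    (ϖ : 𝒪), Irreducible ϖ →
    ∀ (p : ℕ) [Fact p.Prime] (ρbar : ResidualGaloisRep (ResidueField 𝒪)) (S Smin : Finset ℕ),
    Hyp 𝒪 p ρbar S Smin →
    ∀ (N1 : ℕ) [NeZero N1] [Fact (CuspForm.HasIntegralStructure N1 2)],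
    (∀ q : ℕ, q.Prime → q ∣ N1 → q ∈ S) → Squarefree N1 →
    (5 ≤ p ∨ ∃ r : ℕ, r.Prime ∧ r ∣ N1 ∧ r % 3 = 2) →
    ∀ (θ : CuspForm.heckeAlgebra N1 2 (↑S : Set ℕ) →+* ResidueField 𝒪),
      Fermat.Agent.S59.Datum.FrobHyp ρbar N1 S θ →
    ∀ (k : ℕ) (Pv : PivotPrimes k), 0 < k → Pv.IsExceptional p ρbar → (∀ j, Pv.q j ∣ N1) →
    ∀ (eP : Fin k → ℕ), (∀ j, p ^ eP j ∣ Pv.q j - 1 ∧ ¬ p ^ (eP j + 1) ∣ Pv.q j - 1) →
    ∃ MD : HDiv 𝒪 ϖ N1 (↑S : Set ℕ) θ, Nontrivial MD.W ∧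
      ∀ (r n : ℕ) (qv : Fin r → ℕ), IsTWFamily ρbar p n S qv →
        ∀ [NeZero (twLevel N1 qv)] [NeZero (pvLevel N1 Pv.q qv)]
          [Fact (CuspForm.HasIntegralStructure (twLevel N1 qv) 2)]
          [Fact (CuspForm.HasIntegralStructure (pvLevel N1 Pv.q qv) 2)],
          Nonempty (PVBase 𝒪 ϖ p ρbar N1 S θ MD Pv.q eP n qv)

end Fermat.Agent.L.Pivot.Geom

end
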