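import Fermat.Agent.S59.TWH.H90_Tower

/-!
# PIVOT, package PV-GEOM, leaf PVG-A' (helper59): the tower with MIXED exponents

The freeness criterion `H90.tower_basis` for commuting automorphisms `c j` of order dividing
`p ^ e j` (the exponents depend on `j`): if the layer norms are onto and the total norms
`nmTotE c (b i)` are a basis of the totally fixed elements, then the `mon c x (b i)`,
`x ∈ ∏ j, Fin (p ^ e j)`, are a basis.  Also: the kernel of the total norm on such a module.

Pure algebra; only `H90_Tower` (and through it `AbsFree`) is used.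
-/

set_option autoImplicit false

namespace Fermat.Agent.L.Pivot.Geom.H59

open Fermat.Agent.S59.TWH Fermat.Agent.S59.TWH.H90

universe u

section defs

variable {A : Type*} [CommRing A] {V : Type*} [AddCommGroup V] [Module A V]

/-- the total norm `nm (m 0) (c 0) * nm (m 1) (c 1) * …` with exponents `m j`. -/
def nmTotE {r : ℕ} (m : Fin r → ℕ) (c : Fin r → Module.End A V) : Module.End A V :=
  (List.ofFn fun j => nm (m j) (c j)).prod

theorem nmTotE_zero (m : Fin 0 → ℕ) (c : Fin 0 → Module.End A V) : nmTotE m c = 1 := by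
  simp [nmTotE]

theorem nmTotE_succ {r : ℕ} (m : Fin (r + 1) → ℕ) (c : Fin (r + 1) → Module.End A V) :
    nmTotE m c = nm (m 0) (c 0) * nmTotE (fun j => m j.succ) (fun j => c j.succ) := by
  simp [nmTotE, List.ofFn_succ]

theorem nmTotE_const (m : ℕ) {r : ℕ} (c : Fin r → Module.End A V) :
    nmTotE (fun _ => m) c = nmTot m c := rfl

theorem commute_nmTotE {r : ℕ} (m : Fin r → ℕ) (c : Fin r → Module.End A V)
    {d : Module.End A V} (h : ∀ j, Commute d (c j)) : Commute d (nmTotE m c) := by
  rw [nmTotE]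
  apply Commute.list_prod_right
  intro y hy
  obtain ⟨j, rfl⟩ := (List.mem_ofFn' _ _).mp hy
  exact (commute_nm (m j) (h j).symm).symm

end defs

section rest

variable {A : Type*} [CommRing A] {V : Type*} [AddCommGroup V] [Module A V]

variable {r : ℕ} (c : Fin (r + 1) → Module.End A V) (hcomm : ∀ i j, Commute (c i) (c j))

theorem coe_nmTotE_rst (m : Fin r → ℕ) (v : fx (c 0)) :
    ((nmTotE m (rst c hcomm) v : fx (c 0)) : V) = nmTotE m (fun j => c j.succ) v :=
  coe_list_prod (c 0) _ _ (fun j v => coe_nm_rs (m j) (c 0) (c j.succ) (hcomm 0 j.succ) v) v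

theorem rst_powE (j : Fin r) {m : ℕ} (hc : c j.succ ^ m = 1) : rst c hcomm j ^ m = 1 := by
  apply LinearMap.ext
  intro v
  apply Subtype.ext
  rw [rst, coe_rs_pow, hc]
  rfl

theorem rst_stepE {m : Fin (r + 1) → ℕ}
    (hstep : ∀ (j : Fin (r + 1)) (v : V), (∀ i, i ≤ j → c i v = v) →
        ∃ w, (∀ i, i < j → c i w = w) ∧ nm (m j) (c j) w = v)
    (j : Fin r) (v : fx (c 0)) (hv : ∀ i, i ≤ j → rst c hcomm i v = v) :
    ∃ w, (∀ i, i < j → rst c hcomm i w = w) ∧ nm (m j.succ) (rst c hcomm j) w = v := by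
  obtain ⟨w, hw1, hw2⟩ := hstep j.succ (v : V) (by
    intro i hi
    refine Fin.cases ?_ (fun i' => ?_) i hi
    · intro _
      exact mem_fx.mp v.2
    · intro hi'
      have := hv i' (Fin.succ_le_succ_iff.mp hi')
      exact congrArg Subtype.val this)
  have hw0 : w ∈ fx (c 0) := mem_fx.mpr (hw1 0 (Fin.succ_pos j))
  refine ⟨⟨w, hw0⟩, ?_, ?_⟩
  · intro i hi
    apply Subtype.ext
    rw [coe_rst]
    exact hw1 i.succ (Fin.succ_lt_succ_iff.mpr hi)
  · apply Subtype.ext
    rw [rst, coe_nm_rs]
    exact hw2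

end rest

section main

variable {A : Type*} [CommRing A] {ι : Type*} [Fintype ι]

/-- the family `c ^ x (b i)`, `x ∈ ∏ j, Fin (m j)`. -/
def famE {V : Type*} [AddCommGroup V] [Module A V] {r : ℕ} (m : Fin r → ℕ)
    (c : Fin r → Module.End A V) (b : ι → V) : ι × (∀ j : Fin r, Fin (m j)) → V :=
  fun x => mon c (fun j => (x.2 j : ℕ)) (b x.1)

theorem towerE_aux {p : ℕ} [Fact p.Prime] :
    ∀ (r : ℕ) (e : Fin r → ℕ) (V : Type u) [AddCommGroup V] [Module A V] [Finite V]
      (_ : ∀ v : V, ∃ k : ℕ, (p ^ k) • v = 0)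
      (c : Fin r → Module.End A V) (_ : ∀ i j, Commute (c i) (c j))
      (_ : ∀ j, c j ^ (p ^ e j) = 1)
      (_ : ∀ (j : Fin r) (v : V), (∀ i, i ≤ j → c i v = v) →
        ∃ w, (∀ i, i < j → c i w = w) ∧ nm (p ^ e j) (c j) w = v)
      (b : ι → V)
      (_ : LinearIndependent A (fun i => nmTotE (fun j => p ^ e j) c (b i)))
      (_ : ∀ v, (∀ j, c j v = v) →
        v ∈ Submodule.span A (Set.range fun i => nmTotE (fun j => p ^ e j) c (b i))),
      LinearIndependent A (famE (fun j => p ^ e j) c b) ∧
        Submodule.span A (Set.range (famE (fun j => p ^ e j) c b)) = ⊤ := by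
  intro r
  induction r with
  | zero =>
    intro e V _ _ _ hV c hcomm hc hstep b hli hspan
    have hfam : famE (fun j => p ^ e j) c b
        = (fun i => nmTotE (fun j => p ^ e j) c (b i)) ∘ Prod.fst := by
      funext x
      simp [famE, mon_zero, nmTotE_zero]
    constructor
    · rw [hfam]
      exact hli.comp _ (fun x y h => Prod.ext h (Subsingleton.elim _ _))
    · have hs : Function.Surjective
          (Prod.fst : ι × (∀ j : Fin 0, Fin (p ^ e j)) → ι) :=
        fun i => ⟨(i, fun j => j.elim0), rfl⟩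
      rw [hfam, Set.range_comp, hs.range_eq, Set.image_univ, eq_top_iff]
      intro v _
      exact hspan v (fun j => j.elim0)
  | succ r ih =>
    intro e V _ _ _ hV c hcomm hc hstep b hli hspan
    classical
    have hne : NeZero (p ^ e 0) := ⟨(pow_pos (Fact.out : p.Prime).pos (e 0)).ne'⟩
    have hN₀cs : ∀ j : Fin r, Commute (nm (p ^ e 0) (c 0)) (c j.succ) :=
      fun j => commute_nm _ (hcomm 0 j.succ)
    have hN₀mem : ∀ v, nm (p ^ e 0) (c 0) v ∈ fx (c 0) :=
      fun v => mem_fx.mpr (nm_fixed (hc 0) v)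
    let b' : ι → fx (c 0) := fun i => ⟨nm (p ^ e 0) (c 0) (b i), hN₀mem (b i)⟩
    -- total norm relation
    have htot : ∀ i, ((nmTotE (fun j : Fin r => p ^ e j.succ) (rst c hcomm) (b' i) :
        fx (c 0)) : V) = nmTotE (fun j => p ^ e j) c (b i) := by
      intro i
      rw [coe_nmTotE_rst, nmTotE_succ, Module.End.mul_apply]
      have := (commute_nmTotE (fun j : Fin r => p ^ e j.succ) (fun j : Fin r => c j.succ)
        hN₀cs).eq
      exact (congrArg (fun f : Module.End A V => f (b i)) this).symm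
    have hli' : LinearIndependent A
        (fun i => nmTotE (fun j : Fin r => p ^ e j.succ) (rst c hcomm) (b' i)) := by
      apply LinearIndependent.of_comp (fx (c 0)).subtype
      have : (fx (c 0)).subtype ∘
          (fun i => nmTotE (fun j : Fin r => p ^ e j.succ) (rst c hcomm) (b' i))
          = fun i => nmTotE (fun j => p ^ e j) c (b i) := by
        funext i
        exact htot i
      rw [this]
      exact hli
    have hspan' : ∀ v : fx (c 0), (∀ j, rst c hcomm j v = v) →
        v ∈ Submodule.span A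
          (Set.range fun i => nmTotE (fun j : Fin r => p ^ e j.succ) (rst c hcomm) (b' i)) := by
      intro v hv
      have h1 : (v : V) ∈ Submodule.span A
          (Set.range fun i => nmTotE (fun j => p ^ e j) c (b i)) := by
        apply hspan
        intro j
        refine Fin.cases ?_ (fun j' => ?_) j
        · exact mem_fx.mp v.2
        · exact congrArg Subtype.val (hv j')
      have h2 : (Set.range fun i => nmTotE (fun j => p ^ e j) c (b i))
          = (fx (c 0)).subtype ''
            (Set.range fun i => nmTotE (fun j : Fin r => p ^ e j.succ) (rst c hcomm) (b' i)) := by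
        rw [← Set.range_comp]
        congr 1
        funext i
        exact (htot i).symm
      rw [h2, ← Submodule.map_span] at h1
      obtain ⟨y, hy, hyv⟩ := h1
      have : y = v := Subtype.ext hyv
      rw [← this]
      exact hy
    have hV' : ∀ v : fx (c 0), ∃ k : ℕ, (p ^ k) • v = 0 := by
      intro v
      obtain ⟨k, hk⟩ := hV (v : V)
      exact ⟨k, Subtype.ext (by simpa using hk)⟩
    obtain ⟨hLI, hSP⟩ := ih (fun j => e j.succ) (fx (c 0)) hV' (rst c hcomm)
      (rst_commute c hcomm) (fun j => rst_powE c hcomm j (hc j.succ))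
      (rst_stepE c hcomm (m := fun j => p ^ e j) hstep) b' hli' hspan'
    let e' : Module.Basis (ι × (∀ j : Fin r, Fin (p ^ e j.succ))) A (fx (c 0)) :=
      Module.Basis.mk hLI hSP.ge
    have he' : ∀ x, e' x = famE (fun j : Fin r => p ^ e j.succ) (rst c hcomm) b' x := fun x => by
      simp [e']
    let πd : V →ₗ[A] fx (c 0) := (nm (p ^ e 0) (c 0)).codRestrict (fx (c 0)) hN₀mem
    let w : ι × (∀ j : Fin r, Fin (p ^ e j.succ)) → V :=
      famE (fun j : Fin r => p ^ e j.succ) (fun j : Fin r => c j.succ) b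
    have hbij := sumMap_bijective hV (c 0) (e 0) (hc 0) πd (fx (c 0)).subtype
      (fun v => by
        show nm (p ^ e 0) (c 0) v = _
        rw [nm_apply])
      (Submodule.injective_subtype _)
      (fun y => by
        obtain ⟨w, -, hw⟩ := hstep 0 (y : V) (fun i hi => by
          have : i = 0 := Fin.le_zero_iff.mp hi
          rw [this]
          exact mem_fx.mp y.2)
        exact ⟨w, Subtype.ext hw⟩)
      (fun v hv => ⟨⟨v, mem_fx.mpr hv⟩, rfl⟩)
      e' w (fun x => by
        apply Subtype.ext
        rw [he']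
        show nm (p ^ e 0) (c 0)
          (famE (fun j : Fin r => p ^ e j.succ) (fun j : Fin r => c j.succ) b x) = _
        rw [famE, famE, coe_mon_rst]
        have := (commute_mon (fun j : Fin r => c j.succ) (fun j => (x.2 j : ℕ)) hN₀cs).eq
        exact congrArg (fun f : Module.End A V => f (b x.1)) this)
    let G : (ι × (∀ j : Fin r, Fin (p ^ e j.succ))) × ZMod (p ^ e 0) → V :=
      fun x => (c 0 ^ x.2.val) (w x.1)
    have hGli : LinearIndependent A G := by
      rw [Fintype.linearIndependent_iff]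
      intro g hg i
      have : sumMap (p ^ e 0) (c 0) w g = sumMap (p ^ e 0) (c 0) w 0 := by
        rw [sumMap_apply, map_zero]
        exact hg
      exact congrFun (hbij.1 this) i
    have hGsp : Submodule.span A (Set.range G) = ⊤ := by
      rw [eq_top_iff]
      intro v _
      obtain ⟨f, rfl⟩ := hbij.2 v
      rw [sumMap_apply]
      exact Submodule.sum_mem _ fun x _ =>
        Submodule.smul_mem _ _ (Submodule.subset_span ⟨x, rfl⟩)
    let φ : ι × (∀ j : Fin (r + 1), Fin (p ^ e j)) →
        (ι × (∀ j : Fin r, Fin (p ^ e j.succ))) × ZMod (p ^ e 0) :=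
      fun x => ((x.1, fun j => x.2 j.succ), ((x.2 0 : ℕ) : ZMod (p ^ e 0)))
    have hφinj : Function.Injective φ := by
      rintro ⟨i, y⟩ ⟨i', y'⟩ h
      simp only [φ, Prod.mk.injEq] at h
      obtain ⟨⟨h1, h2⟩, h3⟩ := h
      have h4 : ((y 0 : ℕ) : ZMod (p ^ e 0)).val = ((y' 0 : ℕ) : ZMod (p ^ e 0)).val := by
        rw [h3]
      rw [ZMod.val_natCast_of_lt (y 0).2, ZMod.val_natCast_of_lt (y' 0).2] at h4
      refine Prod.ext h1 ?_
      funext j
      refine Fin.cases ?_ (fun j' => ?_) j
      · exact Fin.ext h4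
      · exact congrFun h2 j'
    have hφsurj : Function.Surjective φ := by
      rintro ⟨⟨i, x⟩, z⟩
      refine ⟨(i, Fin.cons (α := fun j : Fin (r + 1) => Fin (p ^ e j))
        ⟨z.val, ZMod.val_lt z⟩ x), ?_⟩
      simp only [φ, Fin.cons_succ, Fin.cons_zero, ZMod.natCast_zmod_val]
    have hfam : famE (fun j => p ^ e j) c b = G ∘ φ := by
      funext x
      show mon c _ (b x.1) = (c 0 ^ ((x.2 0 : ℕ) : ZMod (p ^ e 0)).val)
        (mon (fun j : Fin r => c j.succ) _ (b x.1))
      rw [mon_succ, Module.End.mul_apply, ZMod.val_natCast_of_lt (x.2 0).2]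
    constructor
    · rw [hfam]
      exact hGli.comp φ hφinj
    · rw [hfam, Set.range_comp, hφsurj.range_eq, Set.image_univ]
      exact hGsp

/-- the total norm is onto the totally fixed elements (mixed exponents). -/
theorem exists_nmTotE_eq :
    ∀ (r : ℕ) (m : Fin r → ℕ) (V : Type u) [AddCommGroup V] [Module A V]
      (c : Fin r → Module.End A V) (_ : ∀ i j, Commute (c i) (c j))
      (_ : ∀ (j : Fin r) (v : V), (∀ i, i ≤ j → c i v = v) →
        ∃ w, (∀ i, i < j → c i w = w) ∧ nm (m j) (c j) w = v)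
      (v : V) (_ : ∀ j, c j v = v), ∃ w, nmTotE m c w = v := by
  intro r
  induction r with
  | zero =>
    intro m V _ _ c _ _ v _
    exact ⟨v, by rw [nmTotE_zero]; rfl⟩
  | succ r ih =>
    intro m V _ _ c hcomm hstep v hv
    have hv0 : v ∈ fx (c 0) := mem_fx.mpr (hv 0)
    obtain ⟨w', hw'⟩ := ih (fun j => m j.succ) (fx (c 0)) (rst c hcomm) (rst_commute c hcomm)
      (rst_stepE c hcomm hstep) ⟨v, hv0⟩ (fun j => Subtype.ext (hv j.succ))
    obtain ⟨w, -, hw⟩ := hstep 0 (w' : V) (fun i hi => by
      have : i = 0 := Fin.le_zero_iff.mp hi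
      rw [this]
      exact mem_fx.mp w'.2)
    refine ⟨w, ?_⟩
    have h1 := congrArg Subtype.val hw'
    rw [coe_nmTotE_rst] at h1
    rw [nmTotE_succ, Module.End.mul_apply]
    have h2 := (commute_nmTotE (fun j : Fin r => m j.succ) (fun j : Fin r => c j.succ)
      (fun j => commute_nm (m 0) (hcomm 0 j.succ))).eq
    have h3 := congrArg (fun f : Module.End A V => f w) h2
    simp only [Module.End.mul_apply] at h3
    rw [h3, hw]
    exact h1

/-- **TOWER with mixed exponents, for given lifts.**  If `b i` has total norm `e i`, then the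
`c ^ x (b i)` form an `A`-basis of `V`. -/
theorem towerE_basis_of_lift {p : ℕ} [Fact p.Prime] (r : ℕ) (e : Fin r → ℕ)
    {V : Type u} [AddCommGroup V] [Module A V] [Finite V]
    (hV : ∀ v : V, ∃ k : ℕ, (p ^ k) • v = 0)
    (c : Fin r → Module.End A V) (hcomm : ∀ i j, Commute (c i) (c j))
    (hc : ∀ j, c j ^ (p ^ e j) = 1)
    (hstep : ∀ (j : Fin r) (v : V), (∀ i, i ≤ j → c i v = v) →
        ∃ w, (∀ i, i < j → c i w = w) ∧ nm (p ^ e j) (c j) w = v)
    (ε : ι → V) (he_li : LinearIndependent A ε)
    (he_span : ∀ v, (∀ j, c j v = v) → v ∈ Submodule.span A (Set.range ε))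
    (b : ι → V) (hb : ∀ i, nmTotE (fun j => p ^ e j) c (b i) = ε i) :
    LinearIndependent A (famE (fun j => p ^ e j) c b) ∧
      Submodule.span A (Set.range (famE (fun j => p ^ e j) c b)) = ⊤ ∧
      Function.Bijective
        (fun f : ι × (∀ j : Fin r, Fin (p ^ e j)) → A =>
          ∑ x, f x • famE (fun j => p ^ e j) c b x) := by
  have he : (fun i => nmTotE (fun j => p ^ e j) c (b i)) = ε := funext hb
  obtain ⟨h1, h2⟩ := towerE_aux r e V hV c hcomm hc hstep b (by rw [he]; exact he_li)
    (by rw [he]; exact he_span)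
  exact ⟨h1, h2, bijective_sum_of_li_span _ h1 h2⟩

end main

end Fermat.Agent.L.Pivot.Geom.H59
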