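import Fermat.Agent.L.Pivot.Asm
import Fermat.Agent.S59.Lim.Defs
import Fermat.Agent.L.Pivot.Geom.H59_TowerE

/-!
# PIVOT, package PV-GEOM (item 66/72; owner-planner helper59): the divisible level

Plan: `NOTES/plan/PV_GEOM.md`.  Target of the package: `L.Pivot.Stmt_PVGeom2` (`L/Pivot/Asm.lean`).

* `PVDiv`      : the MIRROR of `PVGeom2` at the divisible level (as `S59.Lim.TWDiv` is the mirror of
  `S59.Asm.TWGeom`).  It CONTAINS the Taylor–Wiles datum `G1D : TWDiv` of unipotent type (level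
  `Γ₀` at the pivot primes), the divisible module `WD` of level `Γ_H'` (diamond operators `c j` at
  the pivot primes, `d i` at the Taylor–Wiles primes), the relative norm `κ : WD.W → G1D.WD.W` and
  the relative pull-back `κup`.
* `Stmt_PVDIV` : the divisible data exist (geometry: NEB-GEOM for `Δ = Δ_Σ × Δ_Q`).
* Layer A' (`H59_LayerA.lean`, pure algebra): `Stmt_PVDIV → Stmt_PVGeom2`.

Definitions only; no `sorry`.
-/

set_option autoImplicit false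

noncomputable section

namespace Fermat.Agent.L.Pivot.Geom

open Polynomial IsLocalRing CuspForm Fermat.Agent.S56 Fermat.Agent.S59 Fermat.Agent.S59.Asm
  Fermat.Agent.S59.Lim Fermat.Agent.L.Pivot

set_option maxHeartbeats 2000000 in
/-- **The divisible data of PIVOT** at the pivot primes `qP` (`p ^ eP j ∥ qP j - 1`) and a
Taylor–Wiles family `qv` of level `n` (mirror of `PVGeom2`).  `gal` is the TWISTED Galois
action. -/
structure PVDiv (𝒪 : Type) [CommRing 𝒪] [IsLocalRing 𝒪] (ϖ : 𝒪) (p : ℕ)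
    (ρbar : ResidualGaloisRep (ResidueField 𝒪))
    (N1 : ℕ) [NeZero N1] (S : Finset ℕ)
    (θ : CuspForm.heckeAlgebra N1 2 (↑S : Set ℕ) →+* ResidueField 𝒪)
    (MD : HDiv 𝒪 ϖ N1 (↑S : Set ℕ) θ) {k : ℕ} (qP : Fin k → ℕ) (eP : Fin k → ℕ)
    {r : ℕ} (n : ℕ) (qv : Fin r → ℕ)
    [NeZero (twLevel N1 qv)] [NeZero (pvLevel N1 qP qv)] : Type 1 where
  /-- the Taylor–Wiles datum of unipotent type, divisible level -/
  G1D : TWDiv 𝒪 ϖ p ρbar N1 S θ MD n qv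
  /-- restriction of Hecke operators to the level `N1 ∏ qv_i²` (PVG-REST: `H4.restPV`) -/
  rest : CuspForm.heckeAlgebra (pvLevel N1 qP qv) 2 (↑(twSet S qv) : Set ℕ) →+*
    CuspForm.heckeAlgebra (twLevel N1 qv) 2 (↑(twSet S qv) : Set ℕ)
  rest_T : ∀ (ℓ : ℕ) (hℓ : ℓ.Prime) (hℓN' : ¬ ℓ ∣ pvLevel N1 qP qv)
    (hℓS : ℓ ∉ (↑(twSet S qv) : Set ℕ)) (hℓN : ¬ ℓ ∣ twLevel N1 qv),
    rest (CuspForm.heckeAlgebra.T hℓ hℓN' hℓS) = CuspForm.heckeAlgebra.T hℓ hℓN hℓS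
  /-- the divisible Hecke module at the level `M₀ ∏ q_j² ∏ qv_i²` -/
  WD : HDiv 𝒪 ϖ (pvLevel N1 qP qv) (↑(twSet S qv) : Set ℕ) ((θ.comp G1D.rest).comp rest)
  /-- the twisted Galois action -/
  gal : GalQ →* Module.End 𝒪 WD.W
  /-- every element is fixed by an open subgroup -/
  gal_cont : ∀ x : WD.W, ∃ L : IntermediateField ℚ (AlgebraicClosure ℚ),
    FiniteDimensional ℚ L ∧ ∀ σ : GalQ, (∀ y ∈ L, σ y = y) → gal σ x = x
  gal_η : ∀ (g : GalQ)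
    (t : CuspForm.heckeAlgebra (pvLevel N1 qP qv) 2 (↑(twSet S qv) : Set ℕ)),
    Commute (gal g) (WD.η t)
  /-- Eichler–Shimura -/
  es : ∀ (ℓ : ℕ) (hℓ : ℓ.Prime) (hℓN : ¬ ℓ ∣ pvLevel N1 qP qv)
    (hℓS : ℓ ∉ (↑(twSet S qv) : Set ℕ)),
    ∀ A : ValuationSubring (AlgebraicClosure ℚ), A.LiesOverPrime ℓ →
      ∀ σ : GalQ, A.IsFrobeniusAt σ ℓ →
        gal σ * gal σ - WD.η (CuspForm.heckeAlgebra.T hℓ hℓN hℓS) * gal σ
          + (ℓ : 𝒪) • (1 : Module.End 𝒪 WD.W) = 0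
  /-- the diamond operators at the pivot primes -/
  c : Fin k → Module.End 𝒪 WD.W
  c_pow : ∀ j, c j ^ (p ^ eP j) = 1
  /-- the diamond operators at the Taylor–Wiles primes -/
  d : Fin r → Module.End 𝒪 WD.W
  d_pow : ∀ i, d i ^ (p ^ n) = 1
  c_comm : ∀ i j, Commute (c i) (c j)
  d_comm : ∀ i j, Commute (d i) (d j)
  c_d : ∀ j i, Commute (c j) (d i)
  c_η : ∀ (j : Fin k)
    (t : CuspForm.heckeAlgebra (pvLevel N1 qP qv) 2 (↑(twSet S qv) : Set ℕ)),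
    Commute (c j) (WD.η t)
  d_η : ∀ (i : Fin r)
    (t : CuspForm.heckeAlgebra (pvLevel N1 qP qv) 2 (↑(twSet S qv) : Set ℕ)),
    Commute (d i) (WD.η t)
  c_gal : ∀ (j : Fin k) (g : GalQ), Commute (c j) (gal g)
  d_gal : ∀ (i : Fin r) (g : GalQ), Commute (d i) (gal g)
  /-- norm surjectivity along the tower of the pivot primes, on `W[ϖ]` -/
  hstep : ∀ (j : Fin k) (v : WD.W), ϖ • v = 0 → (∀ i, i ≤ j → c i v = v) →
    ∃ w : WD.W, ϖ • w = 0 ∧ (∀ i, i < j → c i w = w) ∧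
      Fermat.Agent.S59.TWH.H90.nm (p ^ eP j) (c j) w = v
  /-- the relative norm to the unipotent type (level `Γ₀` at the pivot primes) -/
  κ : WD.W →ₗ[𝒪] G1D.WD.W
  /-- the relative pull-back -/
  κup : G1D.WD.W →ₗ[𝒪] WD.W
  κup_injective : Function.Injective κup
  /-- `κ^* κ_* = ∑_{δ ∈ Δ_Σ} δ` -/
  κup_κ : ∀ x : WD.W, κup (κ x) = H59.nmTotE (fun j => p ^ eP j) c x
  c_κup : ∀ (j : Fin k) (y : G1D.WD.W), c j (κup y) = κup y
  /-- (INV) on `W[ϖ]`: the `Δ_Σ`-invariants are pull-backs -/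
  inv : ∀ v : WD.W, ϖ • v = 0 → (∀ j, c j v = v) → ∃ y : G1D.WD.W, κup y = v
  κ_η : ∀ (t : CuspForm.heckeAlgebra (pvLevel N1 qP qv) 2 (↑(twSet S qv) : Set ℕ)) (v : WD.W),
    κ (WD.η t v) = G1D.WD.η (rest t) (κ v)
  κ_d : ∀ (i : Fin r) (v : WD.W), κ (d i v) = G1D.d i (κ v)
  κ_gal : ∀ (g : GalQ) (v : WD.W), κ (gal g v) = G1D.gal g (κ v)
  /-- `(F - a)(F - a')` is nilpotent on `W[ϖ]` at the Taylor–Wiles primes -/
  frob_nil : ∀ (i : Fin r) (x : WD.W), ϖ • x = 0 → ∃ m : ℕ,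
    (((gal (G1D.frob i) - G1D.a i • (1 : Module.End 𝒪 WD.W)) *
      (gal (G1D.frob i) - G1D.a' i • (1 : Module.End 𝒪 WD.W))) ^ m) x = 0
  /-- local–global compatibility at the Taylor–Wiles primes on `W` -/
  lg : ∀ (i : Fin r) (x : WD.W),
    x ∈ gk (gal (G1D.frob i) - G1D.a i • (1 : Module.End 𝒪 WD.W)) →
    gal (G1D.σ i) x = d i x
  /-- **the ramified types are new at the pivot primes**, on the Tate module of `WD.W`
  (the field `PVGeom.new`, verbatim). -/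
  new : ∀ (ψ : Fin k → 𝒪), (∀ j, ψ j ^ (p ^ eP j) = 1 ∧ ψ j ≠ 1) →
    ∀ (D : Type) [CommRing D] [IsDomain D] [CharZero D]
      (χ : CuspForm.heckeAlgebra (pvLevel N1 qP qv) 2 (↑(twSet S qv) : Set ℕ) →+* D),
      (∀ t, (∀ v : H2.tate ϖ WD.W, H2.mapEnd ϖ WD.W (WD.η t) v ∈
        typeSub (fun j => H2.mapEnd ϖ WD.W (c j)) ψ) → χ t = 0) →
      ∀ (j : Fin k) [NeZero (pvLevel N1 qP qv / qP j)]
        (χ' : CuspForm.heckeAlgebra (pvLevel N1 qP qv / qP j) 2 (↑(twSet S qv) : Set ℕ) →+* D),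
        ¬ ∀ (ℓ : ℕ) (hℓ : ℓ.Prime) (hℓN' : ¬ ℓ ∣ pvLevel N1 qP qv)
          (hℓS : ℓ ∉ (↑(twSet S qv) : Set ℕ)) (hℓN : ¬ ℓ ∣ pvLevel N1 qP qv / qP j),
          χ' (CuspForm.heckeAlgebra.T hℓ hℓN hℓS) = χ (CuspForm.heckeAlgebra.T hℓ hℓN' hℓS)

/-- **PV-DIV**: the divisible data of PIVOT exist for every Taylor–Wiles family (the geometric
content of PV-GEOM; hypotheses = those of `Stmt_PVGeom2`, in particular `5 ≤ p` and `0 < k`). -/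
def Stmt_PVDIV : Prop :=
  ∀ (𝒪 : Type) [CommRing 𝒪] [IsDomain 𝒪] [IsDiscreteValuationRing 𝒪]
    [IsAdicComplete (maximalIdeal 𝒪) 𝒪] [Finite (ResidueField 𝒪)] [CharZero 𝒪]
    (ϖ : 𝒪), Irreducible ϖ →
    ∀ (p : ℕ) [Fact p.Prime] (ρbar : ResidualGaloisRep (ResidueField 𝒪)) (S Smin : Finset ℕ),
    Hyp 𝒪 p ρbar S Smin →
    ∀ (N1 : ℕ) [NeZero N1] [Fact (CuspForm.HasIntegralStructure N1 2)],
    (∀ q : ℕ, q.Prime → q ∣ N1 → q ∈ S) → Squarefree N1 →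
    (5 ≤ p ∨ ∃ r : ℕ, r.Prime ∧ r ∣ N1 ∧ r % 3 = 2) →
    ∀ (θ : CuspForm.heckeAlgebra N1 2 (↑S : Set ℕ) →+* ResidueField 𝒪),
      Fermat.Agent.S59.Datum.FrobHyp ρbar N1 S θ →
    ∀ (k : ℕ) (Pv : PivotPrimes k), 0 < k → Pv.IsExceptional p ρbar → (∀ j, Pv.q j ∣ N1) →
    ∀ (eP : Fin k → ℕ), (∀ j, p ^ eP j ∣ Pv.q j - 1 ∧ ¬ p ^ (eP j + 1) ∣ Pv.q j - 1) →
    ∃ MD : HDiv 𝒪 ϖ N1 (↑S : Set ℕ) θ, Nontrivial MD.W ∧
      ∀ (r n : ℕ) (qv : Fin r → ℕ), IsTWFamily ρbar p n S qv →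
        ∀ [NeZero (twLevel N1 qv)] [NeZero (pvLevel N1 Pv.q qv)]
          [Fact (CuspForm.HasIntegralStructure (twLevel N1 qv) 2)]
          [Fact (CuspForm.HasIntegralStructure (pvLevel N1 Pv.q qv) 2)],
          Nonempty (PVDiv 𝒪 ϖ p ρbar N1 S θ MD Pv.q eP n qv)

end Fermat.Agent.L.Pivot.Geom

end
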