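import Fermat.Agent.L.Pivot.Global
import Fermat.Agent.S59.Asm.H41_RestTW

/-!
# PIVOT (item 66), package PV-GEOM, leaf PVG-REST (helper4)

The restriction of Hecke operators
`heckeAlgebra (pvLevel N1 qP qv) 2 (twSet S qv) →+* heckeAlgebra (twLevel N1 qv) 2 (twSet S qv)`
in exactly the shape of the fields `rest`, `rest_T` of `PVGeom`: the pivot primes divide `N1`, so
the level `pvLevel N1 qP qv = twLevel N1 qv * ∏ qP j` has no new prime.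

Complete proofs, standard axioms only.
-/

set_option autoImplicit false

open CuspForm Fermat.Agent.S59 Fermat.Agent.S59.Asm

namespace Fermat.Agent.L.Pivot.Geom.H4

theorem twLevel_dvd_pvLevel (N1 : ℕ) {k r : ℕ} (qP : Fin k → ℕ) (qv : Fin r → ℕ) :
    twLevel N1 qv ∣ pvLevel N1 qP qv :=
  Dvd.intro _ rfl

/-- The level `pvLevel` has the same prime divisors as `twLevel` when the pivot primes divide
`N1`. -/
theorem prime_dvd_twLevel_of_dvd_pvLevel (N1 : ℕ) {k r : ℕ} (qP : Fin k → ℕ) (qv : Fin r → ℕ)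
    (hdvd : ∀ j, qP j ∣ N1) (q : ℕ) (hq : q.Prime) (hqN' : q ∣ pvLevel N1 qP qv) :
    q ∣ twLevel N1 qv := by
  rcases (Nat.Prime.dvd_mul hq).1 hqN' with h | h
  · exact h
  · obtain ⟨j, -, hj⟩ := (Prime.dvd_finsetProd_iff hq.prime _).1 h
    exact dvd_trans hj (dvd_trans (hdvd j) (H41.dvd_twLevel N1 qv))

theorem new_prime_mem (N1 : ℕ) (S : Finset ℕ) {k r : ℕ} (qP : Fin k → ℕ) (qv : Fin r → ℕ)
    (hdvd : ∀ j, qP j ∣ N1) (q : ℕ) (hq : q.Prime) (hqN' : q ∣ pvLevel N1 qP qv)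
    (hqN : ¬ q ∣ twLevel N1 qv) : q ∈ (↑(twSet S qv) : Set ℕ) :=
  absurd (prime_dvd_twLevel_of_dvd_pvLevel N1 qP qv hdvd q hq hqN') hqN

/-- **PVG-REST**: the restriction of Hecke operators from the level `pvLevel N1 qP qv` to the
level `twLevel N1 qv`. -/
noncomputable def restPV (N1 : ℕ) (S : Finset ℕ) {k r : ℕ} (qP : Fin k → ℕ) (qv : Fin r → ℕ)
    [NeZero (twLevel N1 qv)] [NeZero (pvLevel N1 qP qv)] (hdvd : ∀ j, qP j ∣ N1) :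
    CuspForm.heckeAlgebra (pvLevel N1 qP qv) 2 (↑(twSet S qv) : Set ℕ) →+*
      CuspForm.heckeAlgebra (twLevel N1 qv) 2 (↑(twSet S qv) : Set ℕ) :=
  H41.rest (twLevel_dvd_pvLevel N1 qP qv) 2 (le_refl _) (new_prime_mem N1 S qP qv hdvd)

theorem restPV_T (N1 : ℕ) (S : Finset ℕ) {k r : ℕ} (qP : Fin k → ℕ) (qv : Fin r → ℕ)
    [NeZero (twLevel N1 qv)] [NeZero (pvLevel N1 qP qv)] (hdvd : ∀ j, qP j ∣ N1)
    (ℓ : ℕ) (hℓ : ℓ.Prime) (hℓN' : ¬ ℓ ∣ pvLevel N1 qP qv)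
    (hℓS : ℓ ∉ (↑(twSet S qv) : Set ℕ)) (hℓN : ¬ ℓ ∣ twLevel N1 qv) :
    restPV N1 S qP qv hdvd (CuspForm.heckeAlgebra.T hℓ hℓN' hℓS) =
      CuspForm.heckeAlgebra.T hℓ hℓN hℓS :=
  H41.rest_T _ 2 _ _ hℓ hℓN' hℓS hℓN hℓS

theorem restPV_U (N1 : ℕ) (S : Finset ℕ) {k r : ℕ} (qP : Fin k → ℕ) (qv : Fin r → ℕ)
    [NeZero (twLevel N1 qv)] [NeZero (pvLevel N1 qP qv)] (hdvd : ∀ j, qP j ∣ N1)
    (q : ℕ) (hq : q.Prime) (hqN' : q ∣ pvLevel N1 qP qv)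
    (hqS : q ∉ (↑(twSet S qv) : Set ℕ)) (hqN : q ∣ twLevel N1 qv) :
    restPV N1 S qP qv hdvd (CuspForm.heckeAlgebra.U hq hqN' hqS) =
      CuspForm.heckeAlgebra.U hq hqN hqS :=
  H41.rest_U _ 2 _ _ hq hqN' hqS hqN hqS

/-- The level inclusion intertwines `t` and `restPV t`. -/
theorem restPV_spec (N1 : ℕ) (S : Finset ℕ) {k r : ℕ} (qP : Fin k → ℕ) (qv : Fin r → ℕ)
    [NeZero (twLevel N1 qv)] [NeZero (pvLevel N1 qP qv)] (hdvd : ∀ j, qP j ∣ N1)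
    (t : CuspForm.heckeAlgebra (pvLevel N1 qP qv) 2 (↑(twSet S qv) : Set ℕ))
    (f : CuspForm (CongruenceSubgroup.Gamma0 (twLevel N1 qv)) 2) :
    t.1 (H41.levelIncl (twLevel_dvd_pvLevel N1 qP qv) 2 f) =
      H41.levelIncl (twLevel_dvd_pvLevel N1 qP qv) 2 ((restPV N1 S qP qv hdvd t).1 f) :=
  H41.rest_spec _ 2 _ _ t f

/-- **PVG-REST**, as a statement: the fields `rest`, `rest_T` of `PVGeom` exist. -/
def Stmt_PVGRest : Prop :=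
  ∀ (N1 : ℕ) (S : Finset ℕ) (k r : ℕ) (qP : Fin k → ℕ) (qv : Fin r → ℕ)
    [NeZero (twLevel N1 qv)] [NeZero (pvLevel N1 qP qv)], (∀ j, qP j ∣ N1) →
    ∃ rest : CuspForm.heckeAlgebra (pvLevel N1 qP qv) 2 (↑(twSet S qv) : Set ℕ) →+*
        CuspForm.heckeAlgebra (twLevel N1 qv) 2 (↑(twSet S qv) : Set ℕ),
      ∀ (ℓ : ℕ) (hℓ : ℓ.Prime) (hℓN' : ¬ ℓ ∣ pvLevel N1 qP qv)
        (hℓS : ℓ ∉ (↑(twSet S qv) : Set ℕ)) (hℓN : ¬ ℓ ∣ twLevel N1 qv),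
        rest (CuspForm.heckeAlgebra.T hℓ hℓN' hℓS) = CuspForm.heckeAlgebra.T hℓ hℓN hℓS

theorem stmt_PVGRest : Stmt_PVGRest := fun N1 S _ _ qP qv _ _ hdvd =>
  ⟨restPV N1 S qP qv hdvd, restPV_T N1 S qP qv hdvd⟩

end Fermat.Agent.L.Pivot.Geom.H4
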