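import Fermat.Agent.NEB.Geom.AsmDefs
import Fermat.Agent.L.Pivot.Geom.Defs
import Fermat.Agent.L.Pivot.Geom.H4_Rest

/-!
# PIVOT, package PV-GEOM, Part I (design (C) of helper59): the concrete objects (helper19)

Mirror of `NEB/Geom/DefsC.lean`, `DefsL.lean`, `DefsWD.lean`, `AsmDefs.lean` for the module `W'`:

* `N1 = M₀ · c_Σ` squarefree (base level, the pivot primes `qP j` divide `N1`), `qv` a Taylor–Wiles
  family; `M1 := N1 * twC qv`;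
* `pvC qP qv = c_Σ · c_Q` (`= twC qP * twC qv`), the conductor of the nebentypus;
* `pvH p eP n qP qv ≤ (ℤ/c')ˣ` : the units which are `p ^ eP j`-th powers at `qP j` and
  `p ^ n`-th powers at `qv i` (MIXED exponents);
* `jPv p eP n = (p ^ (n + ∑ eP j) - 1) / 2` : the twisting exponent;
* `opsPv` : the operators `T'_ℓ = T_ℓ^H ⟨ℓ⟩^jPv` (good `ℓ`), `U_{qv i}` (ONLY at the Taylor–Wiles
  primes: no operator at the pivot primes), `⟨u⟩` on `AH M1 c' H' p = J_H'[p^∞]`;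
* `thetaPv` : `T'_ℓ ↦ θ (T_ℓ)`, `U_{qv i} ↦ α i`, `⟨u⟩ ↦ 1`;
* `Wpv` : the `θ⁺`-part of `𝒪 ⊗ J_H'[p^∞]`  (the ONLY geometric object of Part I);
* `PvHyp`, `IsDeltaGenPv`, `PvSetup` : hypotheses, generators of `Δ' = Δ_Σ × Δ_Q`, all choices;
* `PvSetup.WD`, `PvSetup.gal`, `PvSetup.c`, `PvSetup.d` : the objects of `PVDiv` on `W'`.

The index type of the polynomial Hecke ring is `IdxTw r (pvC qP qv)` (helper84's `IdxTw`), the good
primes are helper84's `GoodTw N1 S qv` (equivalent to `ℓ ∤ pvLevel`, `ℓ ∉ twSet S qv`: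
`goodTw_of_pv`, `goodTw_not_dvd_pvLevel`).

Definitions and elementary lemmas only; no `sorry`.
-/

set_option autoImplicit false
set_option linter.unusedSectionVars false
set_option linter.style.haveILetI false

noncomputable section

open ModularCurve AlgebraicCurve IsLocalRing TensorProduct Polynomial

namespace Fermat.Agent.L.Pivot.Geom

open Fermat.Agent.NEB Fermat.Agent.NEB.JH Fermat.Agent.NEB.Geom Fermat.Agent.S59.Lim
  Fermat.Agent.S59.Lim.H2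

/-- `Gal(ℚ̄/ℚ)` (the one of `NEB.Geom`). -/
abbrev GalK : Type := Fermat.Agent.NEB.Geom.GalQ

/-! ## The conductor `c' = c_Σ c_Q` and the subgroup `H'` -/

section Cond

variable {k r : ℕ} (qP : Fin k → ℕ) (qv : Fin r → ℕ)

/-- `c' = c_Σ · c_Q = ∏ qP j · ∏ qv i`. -/
def pvC : ℕ := twC qP * twC qv

theorem pvC_eq : pvC qP qv = (∏ j, qP j) * ∏ i, qv i := rfl

theorem dvd_twC_self {m : ℕ} (q : Fin m → ℕ) (j : Fin m) : q j ∣ twC q :=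
  Finset.dvd_prod_of_mem q (Finset.mem_univ j)

theorem dvd_pvC_P (j : Fin k) : qP j ∣ pvC qP qv :=
  dvd_trans (dvd_twC_self qP j) (dvd_mul_right _ _)

theorem dvd_pvC_Q (i : Fin r) : qv i ∣ pvC qP qv :=
  dvd_trans (dvd_twC_self qv i) (dvd_mul_left _ _)

theorem twC_P_dvd_pvC : twC qP ∣ pvC qP qv := dvd_mul_right _ _

theorem twC_Q_dvd_pvC : twC qv ∣ pvC qP qv := dvd_mul_left _ _

theorem twC_ne_zero_of_prime {m : ℕ} (q : Fin m → ℕ) (hq : ∀ j, (q j).Prime) : twC q ≠ 0 :=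
  Finset.prod_ne_zero_iff.mpr fun j _ => (hq j).ne_zero

theorem pvC_ne_zero (hP : ∀ j, (qP j).Prime) (hQ : ∀ i, (qv i).Prime) : pvC qP qv ≠ 0 :=
  mul_ne_zero (twC_ne_zero_of_prime qP hP) (twC_ne_zero_of_prime qv hQ)

/-- `c' ≥ 2` as soon as there is a pivot prime. -/
theorem two_le_pvC (hk : 0 < k) (hP : ∀ j, (qP j).Prime) (hQ : ∀ i, (qv i).Prime) :
    2 ≤ pvC qP qv :=
  le_trans (hP ⟨0, hk⟩).two_le
    (Nat.le_of_dvd (Nat.pos_of_ne_zero (pvC_ne_zero qP qv hP hQ)) (dvd_pvC_P qP qv ⟨0, hk⟩))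

/-- Distinct primes dividing `N` : their product divides `N`. -/
theorem twC_dvd_of_prime {m : ℕ} (q : Fin m → ℕ) (hinj : Function.Injective q)
    (hq : ∀ j, (q j).Prime) (N : ℕ) (hd : ∀ j, q j ∣ N) : twC q ∣ N := by
  unfold twC
  refine Finset.prod_dvd_of_isRelPrime ?_ (fun j _ => hd j)
  intro i _ j _ hij
  show IsRelPrime (q i) (q j)
  rw [← Nat.coprime_iff_isRelPrime]
  exact (Nat.coprime_primes (hq i) (hq j)).mpr (fun h => hij (hinj h))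

/-- `c' ∣ M1 = N1 · c_Q`. -/
theorem pvC_dvd (hinj : Function.Injective qP) (hP : ∀ j, (qP j).Prime) (N1 : ℕ)
    (hd : ∀ j, qP j ∣ N1) : pvC qP qv ∣ N1 * twC qv :=
  mul_dvd_mul (twC_dvd_of_prime qP hinj hP N1 hd) (dvd_refl _)

variable (p : ℕ) (eP : Fin k → ℕ) (n : ℕ)

/-- `H'` : the units of `ℤ/c'` which are `p ^ eP j`-th powers modulo `qP j` and `p ^ n`-th powers
modulo `qv i`. -/
def pvH : Subgroup (ZMod (pvC qP qv))ˣ :=
  (⨅ j, ((powMonoidHom (p ^ eP j) : (ZMod (qP j))ˣ →* (ZMod (qP j))ˣ).range).comap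
      (ZMod.unitsMap (dvd_pvC_P qP qv j))) ⊓
  (⨅ i, ((powMonoidHom (p ^ n) : (ZMod (qv i))ˣ →* (ZMod (qv i))ˣ).range).comap
      (ZMod.unitsMap (dvd_pvC_Q qP qv i)))

theorem mem_pvH {u : (ZMod (pvC qP qv))ˣ} :
    u ∈ pvH qP qv p eP n ↔
      (∀ j, ∃ y : (ZMod (qP j))ˣ, y ^ (p ^ eP j) = ZMod.unitsMap (dvd_pvC_P qP qv j) u) ∧
      (∀ i, ∃ y : (ZMod (qv i))ˣ, y ^ (p ^ n) = ZMod.unitsMap (dvd_pvC_Q qP qv i) u) := by
  simp only [pvH, Subgroup.mem_inf, Subgroup.mem_iInf, Subgroup.mem_comap, MonoidHom.mem_range,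
    powMonoidHom_apply]

/-- The twisting exponent `j' = (p ^ (n + ∑ eP j) - 1) / 2`: `2 j' + 1 = p ^ E` kills `Δ'`. -/
def jPv : ℕ := (p ^ (n + ∑ j, eP j) - 1) / 2

theorem two_jPv (hp : p.Prime) (hp2 : p ≠ 2) : 2 * jPv p eP n + 1 = p ^ (n + ∑ j, eP j) := by
  have hodd : Odd (p ^ (n + ∑ j, eP j)) := (hp.odd_of_ne_two hp2).pow
  obtain ⟨m, hm⟩ := hodd
  unfold jPv
  rw [hm]
  omega

/-- `p ^ E` is a multiple of every exponent of `Δ'`. -/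
theorem pow_n_dvd_pow_E : p ^ n ∣ p ^ (n + ∑ j, eP j) :=
  pow_dvd_pow p (Nat.le_add_right _ _)

theorem pow_eP_dvd_pow_E (j : Fin k) : p ^ eP j ∣ p ^ (n + ∑ j, eP j) :=
  pow_dvd_pow p (le_trans (Finset.single_le_sum (fun i _ => Nat.zero_le (eP i))
    (Finset.mem_univ j)) (Nat.le_add_left _ _))

/-- Every unit of `ℤ/c'` has its `p ^ E`-th power in `H'`. -/
theorem pow_mem_pvH (u : (ZMod (pvC qP qv))ˣ) : u ^ (p ^ (n + ∑ j, eP j)) ∈ pvH qP qv p eP n := by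
  rw [mem_pvH]
  constructor
  · intro j
    obtain ⟨m, hm⟩ := pow_eP_dvd_pow_E p eP n j
    exact ⟨ZMod.unitsMap (dvd_pvC_P qP qv j) u ^ m, by rw [map_pow, hm, pow_mul, pow_right_comm]⟩
  · intro i
    obtain ⟨m, hm⟩ := pow_n_dvd_pow_E p eP n
    exact ⟨ZMod.unitsMap (dvd_pvC_Q qP qv i) u ^ m, by rw [map_pow, hm, pow_mul, pow_right_comm]⟩

end Cond

/-! ## The operators on `J_H'[p^∞]` and the modules `Wpv`, `Ypv` -/

section PV

open Fermat.Agent.S59.Asm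

variable (N1 : ℕ) (S : Finset ℕ) (p : ℕ) {k : ℕ} (eP : Fin k → ℕ) (n : ℕ) (qP : Fin k → ℕ)
  {r : ℕ} (qv : Fin r → ℕ)

/-- A prime which is good at the level `pvLevel` is good at the level `twLevel`. -/
theorem goodTw_of_pv {ℓ : ℕ} (hℓ : ℓ.Prime) (hℓN : ¬ ℓ ∣ pvLevel N1 qP qv)
    (hℓS : ℓ ∉ (↑(twSet S qv) : Set ℕ)) : GoodTw N1 S qv ℓ :=
  ⟨hℓ, fun h => hℓN (dvd_trans h (H4.twLevel_dvd_pvLevel N1 qP qv)), hℓS⟩

/-- A good prime at the level `twLevel` does not divide `pvLevel` (the pivot primes divide `N1`). -/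
theorem goodTw_not_dvd_pvLevel {N1 : ℕ} {S : Finset ℕ} {k : ℕ} {qP : Fin k → ℕ} {r : ℕ}
    {qv : Fin r → ℕ} {ℓ : ℕ} (h : GoodTw N1 S qv ℓ) (hdvd : ∀ j, qP j ∣ N1) :
    ¬ ℓ ∣ pvLevel N1 qP qv :=
  fun hd => h.2.1 (H4.prime_dvd_twLevel_of_dvd_pvLevel N1 qP qv hdvd ℓ h.1 hd)

variable [NeZero (N1 * twC qv)] (h2 : 2 ≤ pvC qP qv) (hc : pvC qP qv ∣ N1 * twC qv)

/-- `J_H'[p^∞]`, `H' = pvH`, at the level `Γ_H'(M1)`, `M1 = N1 · c_Q`. -/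
abbrev AHpv : Type := AH (N1 * twC qv) (pvC qP qv) (pvH qP qv p eP n) p

open Classical in
/-- The operators on `J_H'[p^∞]`: `T'_ℓ = T_ℓ^H ⟨ℓ⟩^jPv` (good `ℓ`), `U_{qv i}`, `⟨u⟩`.
No operator at the pivot primes. -/
def opsPv : IdxTw r (pvC qP qv) → Module.End ℤ (AHpv N1 p eP n qP qv)
  | Sum.inl ℓ => if GoodTw N1 S qv ℓ then
      TzTw (N1 * twC qv) (pvC qP qv) (pvH qP qv p eP n) h2 hc p (jPv p eP n) ℓ else 0
  | Sum.inr (Sum.inl i) => Uz (N1 * twC qv) (pvC qP qv) (pvH qP qv p eP n) h2 hc p (qv i)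
  | Sum.inr (Sum.inr u) => diaZ (N1 * twC qv) (pvC qP qv) (pvH qP qv p eP n) h2 hc p u

open Classical in
/-- The operators on `J₀(M1)[p^∞]`: `T_ℓ` (good `ℓ`), `U_{qv i}`, `1` (index type at `c'`). -/
def opsPv0 : IdxTw r (pvC qP qv) → Module.End ℤ (A0 (N1 * twC qv) p)
  | Sum.inl ℓ => if GoodTw N1 S qv ℓ then Tz0 (N1 * twC qv) p ℓ else 0
  | Sum.inr (Sum.inl i) => Uz0 (N1 * twC qv) p (qv i)
  | Sum.inr (Sum.inr _) => 1

section Theta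

variable {κ : Type} [Field κ] [NeZero N1]

open Classical in
/-- The values of `θ⁺` on the generators. -/
def thetaPvVal (θ : CuspForm.heckeAlgebra N1 2 (↑S : Set ℕ) →+* κ) (α : Fin r → κ) :
    IdxTw r (pvC qP qv) → κ
  | Sum.inl ℓ => if h : GoodTw N1 S qv ℓ then
      θ (CuspForm.heckeAlgebra.T h.1 h.not_dvd h.not_mem) else 0
  | Sum.inr (Sum.inl i) => α i
  | Sum.inr (Sum.inr _) => 1

/-- `θ⁺ : 𝕋⁺ = ℤ[x_ℓ, y_i, z_u] → κ`. -/
def thetaPv (θ : CuspForm.heckeAlgebra N1 2 (↑S : Set ℕ) →+* κ) (α : Fin r → κ) :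
    PolyTw r (pvC qP qv) →+* κ :=
  MvPolynomial.eval₂Hom (Int.castRingHom κ) (thetaPvVal N1 S qP qv θ α)

theorem thetaPv_X (θ : CuspForm.heckeAlgebra N1 2 (↑S : Set ℕ) →+* κ) (α : Fin r → κ)
    (i : IdxTw r (pvC qP qv)) :
    thetaPv N1 S qP qv θ α (MvPolynomial.X i) = thetaPvVal N1 S qP qv θ α i := by
  simp [thetaPv]

theorem thetaPv_T (θ : CuspForm.heckeAlgebra N1 2 (↑S : Set ℕ) →+* κ) (α : Fin r → κ)
    {ℓ : ℕ} (h : GoodTw N1 S qv ℓ) :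
    thetaPv N1 S qP qv θ α (MvPolynomial.X (Sum.inl ℓ))
      = θ (CuspForm.heckeAlgebra.T h.1 h.not_dvd h.not_mem) := by
  rw [thetaPv_X]
  simp only [thetaPvVal, dif_pos h]

theorem thetaPv_U (θ : CuspForm.heckeAlgebra N1 2 (↑S : Set ℕ) →+* κ) (α : Fin r → κ)
    (i : Fin r) :
    thetaPv N1 S qP qv θ α (MvPolynomial.X (Sum.inr (Sum.inl i))) = α i := by
  rw [thetaPv_X]
  rfl

theorem thetaPv_dia (θ : CuspForm.heckeAlgebra N1 2 (↑S : Set ℕ) →+* κ) (α : Fin r → κ)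
    (u : (ZMod (pvC qP qv))ˣ) :
    thetaPv N1 S qP qv θ α (MvPolynomial.X (Sum.inr (Sum.inr u))) = 1 := by
  rw [thetaPv_X]
  rfl

end Theta

section Modules

variable (𝒪 : Type) [CommRing 𝒪] [IsLocalRing 𝒪] [NeZero N1]

/-- `η⁺ : 𝕋⁺ → End_ℤ J_H'[p^∞]`. -/
abbrev etaPv (hcomm : ∀ i j, Commute (opsPv N1 S p eP n qP qv h2 hc i)
    (opsPv N1 S p eP n qP qv h2 hc j)) :
    PolyTw r (pvC qP qv) →+* Module.End ℤ (AHpv N1 p eP n qP qv) :=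
  polyHom (opsPv N1 S p eP n qP qv h2 hc) hcomm

/-- `η⁺₀ : 𝕋⁺ → End_ℤ J₀(M1)[p^∞]`. -/
abbrev etaPv0 (hcomm0 : ∀ i j, Commute (opsPv0 N1 S p qP qv i) (opsPv0 N1 S p qP qv j)) :
    PolyTw r (pvC qP qv) →+* Module.End ℤ (A0 (N1 * twC qv) p) :=
  polyHom (opsPv0 N1 S p qP qv) hcomm0

/-- **`W'`**: the `θ⁺`-part of `𝒪 ⊗ J_H'[p^∞]`. -/
abbrev Wpv (hcomm : ∀ i j, Commute (opsPv N1 S p eP n qP qv h2 hc i)
    (opsPv N1 S p eP n qP qv h2 hc j))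
    (θ : CuspForm.heckeAlgebra N1 2 (↑S : Set ℕ) →+* ResidueField 𝒪)
    (α : Fin r → ResidueField 𝒪) :
    Submodule 𝒪 (𝒪 ⊗[ℤ] AHpv N1 p eP n qP qv) :=
  thetaPart (etaPv N1 S p eP n qP qv h2 hc hcomm) (thetaPv N1 S qP qv θ α)

/-- `Y'`: the `θ⁺`-part of `𝒪 ⊗ J₀(M1)[p^∞]`. -/
abbrev Ypv (hcomm0 : ∀ i j, Commute (opsPv0 N1 S p qP qv i) (opsPv0 N1 S p qP qv j))
    (θ : CuspForm.heckeAlgebra N1 2 (↑S : Set ℕ) →+* ResidueField 𝒪)
    (α : Fin r → ResidueField 𝒪) :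
    Submodule 𝒪 (𝒪 ⊗[ℤ] A0 (N1 * twC qv) p) :=
  thetaPart (etaPv0 N1 S p qP qv hcomm0) (thetaPv N1 S qP qv θ α)

end Modules

/-- The kernel of reduction `K_A ∩ J_H'[p^∞]` at the place `P` (helper70's uniform kernel). -/
def KZpv (P : ValuationSubring Kbar) : AddSubgroup (AHpv N1 p eP n qP qv) :=
  (Fermat.Agent.NEB.Geom.H70.KU P p
    (diamondData (N1 * twC qv) (pvC qP qv) (pvH qP qv p eP n) h2 hc)).comap
    (ptors p (JH (N1 * twC qv) (pvC qP qv) (pvH qP qv p eP n))).subtype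

/-- The Eisenstein operator `T_ℓ₀^H - (ℓ₀ + 1)` on `J_H'[p^∞]`. -/
def tEisPv (ℓ₀ : ℕ) : Module.End ℤ (AHpv N1 p eP n qP qv) :=
  Tz (N1 * twC qv) (pvC qP qv) (pvH qP qv p eP n) h2 hc p ℓ₀
    - ((ℓ₀ + 1 : ℕ) : ℤ) • (1 : Module.End ℤ (AHpv N1 p eP n qP qv))

end PV

/-! ## Hypotheses and generators of `Δ' = Δ_Σ × Δ_Q` -/

section Hyp

variable (N1 : ℕ) (S : Finset ℕ) (p : ℕ) {k : ℕ} (eP : Fin k → ℕ) (n : ℕ) (qP : Fin k → ℕ)
  {r : ℕ} (qv : Fin r → ℕ)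

/-- The standing hypotheses on the pivot primes and a Taylor–Wiles family (without the Galois
part).  `0 < k` (at least one pivot prime; for `k = 0` the datum is a Taylor–Wiles datum);
`r = 0` is allowed. -/
structure PvHyp : Prop where
  hp : p.Prime
  hp2 : p ≠ 2
  /-- needed for `UnrCond` at the pivot primes (helper70: for `p = 3` the covering
  `X_H' → X₀(M1)` can ramify at elliptic points of order `3`, unless a prime `r ≡ 2 mod 3`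
  divides the level) -/
  hU : 5 ≤ p ∨ ∃ r : ℕ, r.Prime ∧ r ∣ N1 ∧ r % 3 = 2
  hN : N1 ≠ 0
  hsq : Squarefree N1
  hk : 0 < k
  injP : Function.Injective qP
  primeP : ∀ j, (qP j).Prime
  dvdP : ∀ j, qP j ∣ N1
  neP : ∀ j, qP j ≠ p
  congP : ∀ j, p ^ eP j ∣ qP j - 1 ∧ ¬ p ^ (eP j + 1) ∣ qP j - 1
  posP : ∀ j, 0 < eP j
  memP : ∀ j, qP j ∈ S
  inj : Function.Injective qv
  prime : ∀ i, (qv i).Prime
  cong : ∀ i, p ^ (n + 1) ∣ qv i - 1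
  notS : ∀ i, qv i ∉ S
  hNS : ∀ q : ℕ, q.Prime → q ∣ N1 → q ∈ S
  hpS : p ∈ S

variable {N1 S p eP n qP qv}

theorem PvHyp.two_le (h : PvHyp N1 S p eP n qP qv) : 2 ≤ pvC qP qv :=
  two_le_pvC qP qv h.hk h.primeP h.prime

theorem PvHyp.dvd (h : PvHyp N1 S p eP n qP qv) : pvC qP qv ∣ N1 * twC qv :=
  pvC_dvd qP qv h.injP h.primeP N1 h.dvdP

theorem PvHyp.pvC_ne_zero (h : PvHyp N1 S p eP n qP qv) : pvC qP qv ≠ 0 :=
  Geom.pvC_ne_zero qP qv h.primeP h.prime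

theorem PvHyp.twC_ne_zero (h : PvHyp N1 S p eP n qP qv) : twC qv ≠ 0 :=
  twC_ne_zero_of_prime qv h.prime

theorem PvHyp.level_ne_zero (h : PvHyp N1 S p eP n qP qv) : N1 * twC qv ≠ 0 :=
  mul_ne_zero h.hN h.twC_ne_zero

/-- A pivot prime is not a Taylor–Wiles prime. -/
theorem PvHyp.qP_ne_qv (h : PvHyp N1 S p eP n qP qv) (j : Fin k) (i : Fin r) : qP j ≠ qv i :=
  fun e => h.notS i (e ▸ h.memP j)

/-- The Taylor–Wiles part of the hypotheses, for `0 < r`. -/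
theorem PvHyp.twHyp (h : PvHyp N1 S p eP n qP qv) (hr : 0 < r) : TwHyp N1 S p n qv where
  hp := h.hp
  hp2 := h.hp2
  hN := h.hN
  hr := hr
  inj := h.inj
  prime := h.prime
  cong := h.cong
  notS := h.notS
  hNS := h.hNS
  hpS := h.hpS

variable (p eP n qP qv)

/-- Generators of `Δ' = (ℤ/c')ˣ / H'`: `δP j` (pivot primes) is `≡ 1` modulo all the other
primes of `c'` and has order exactly `p ^ eP j` modulo `H'`; `δQ i` (Taylor–Wiles primes) is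
`≡ 1` modulo all the other primes of `c'` and has order exactly `p ^ n` modulo `H'`. -/
structure IsDeltaGenPv (δP : Fin k → (ZMod (pvC qP qv))ˣ) (δQ : Fin r → (ZMod (pvC qP qv))ˣ) :
    Prop where
  P_P : ∀ j j', j' ≠ j → ZMod.unitsMap (dvd_pvC_P qP qv j') (δP j) = 1
  P_Q : ∀ j i, ZMod.unitsMap (dvd_pvC_Q qP qv i) (δP j) = 1
  P_ord : ∀ j e, δP j ^ e ∈ pvH qP qv p eP n → p ^ eP j ∣ e
  Q_Q : ∀ i i', i' ≠ i → ZMod.unitsMap (dvd_pvC_Q qP qv i') (δQ i) = 1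
  Q_P : ∀ i j, ZMod.unitsMap (dvd_pvC_P qP qv j) (δQ i) = 1
  Q_ord : ∀ i e, δQ i ^ e ∈ pvH qP qv p eP n → p ^ n ∣ e

end Hyp

/-! ## The setup at the pivot primes and a Taylor–Wiles family -/

section Setup

open Fermat.Agent.S59.Asm

variable (𝒪 : Type) [CommRing 𝒪] [IsDomain 𝒪] [IsDiscreteValuationRing 𝒪]
  (ϖ : 𝒪) (p : ℕ) (N1 : ℕ) [NeZero N1] (S : Finset ℕ)
  (θ : CuspForm.heckeAlgebra N1 2 (↑S : Set ℕ) →+* ResidueField 𝒪)

/-- The character `θ' = θ ∘ restTW ∘ restPV` of the Hecke ring of level `pvLevel`. -/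
def thetaLvl {k : ℕ} (qP : Fin k → ℕ) {r : ℕ} (qv : Fin r → ℕ)
    [NeZero (twLevel N1 qv)] [NeZero (pvLevel N1 qP qv)]
    (hprime : ∀ i, (qv i).Prime) (hdvd : ∀ j, qP j ∣ N1) :
    CuspForm.heckeAlgebra (pvLevel N1 qP qv) 2 (↑(twSet S qv) : Set ℕ) →+* ResidueField 𝒪 :=
  (θ.comp (Fermat.Agent.S59.Asm.H41.restTW N1 S qv hprime)).comp (H4.restPV N1 S qP qv hdvd)

/-- All choices at the pivot primes and a Taylor–Wiles family (mirror of helper84's `TwSetup`). -/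
structure PvSetup (ρbar : ResidualGaloisRep (ResidueField 𝒪)) {k : ℕ} (eP : Fin k → ℕ)
    (n : ℕ) (qP : Fin k → ℕ) {r : ℕ} (qv : Fin r → ℕ)
    [NeZero (N1 * twC qv)] [NeZero (pvC qP qv)] [NeZero (twLevel N1 qv)]
    [NeZero (pvLevel N1 qP qv)] where
  hPV : PvHyp N1 S p eP n qP qv
  h2 : 2 ≤ pvC qP qv
  hc : pvC qP qv ∣ N1 * twC qv
  hcomm : ∀ i j, Commute (opsPv N1 S p eP n qP qv h2 hc i) (opsPv N1 S p eP n qP qv h2 hc j)
  hcommG : ∀ i σ, Commute (opsPv N1 S p eP n qP qv h2 hc i)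
    (galZ (N1 * twC qv) (pvC qP qv) (pvH qP qv p eP n) p σ)
  /-- the chosen eigenvalue of `ρbar(frob_i)` and the other one -/
  α : Fin r → ResidueField 𝒪
  β : Fin r → ResidueField 𝒪
  eig : TwEig 𝒪 N1 S qv θ α β
  a : Fin r → 𝒪
  a' : Fin r → 𝒪
  ha : ∀ i, residue 𝒪 (a i) = α i
  ha' : ∀ i, residue 𝒪 (a' i) = β i
  /-- a non-Eisenstein good prime -/
  ℓ₀ : ℕ
  hℓ₀ : GoodTw N1 S qv ℓ₀
  hne : θ (CuspForm.heckeAlgebra.T hℓ₀.1 hℓ₀.not_dvd hℓ₀.not_mem) ≠ ((ℓ₀ : ResidueField 𝒪) + 1)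
  /-- places, Frobenius elements and inertia elements at the Taylor–Wiles primes -/
  P : Fin r → ValuationSubring Kbar
  P_over : ∀ i, (P i).LiesOverPrime (qv i)
  frob : Fin r → GalK
  frob_spec : ∀ i, (P i).IsFrobeniusAt (frob i) (qv i)
  σ : Fin r → GalK
  σ_mem : ∀ i, σ i ∈ (P i).inertiaSubgroupIn ℚ
  /-- generators of `Δ_Σ` -/
  δP : Fin k → (ZMod (pvC qP qv))ˣ
  hδ : IsDeltaGenPv p eP n qP qv δP
    (fun i => Fermat.Agent.NEB.Geom.H6.chiC (pvC qP qv) (σ i) ^ (jPv p eP n + 1))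
  charpoly_frob : ∀ i, LinearMap.charpoly (ρbar.ρ (frob i)) =
    (X - C (residue 𝒪 (a i))) * (X - C (residue 𝒪 (a' i)))
  isDiv : IsDiv ϖ ↥(Wpv N1 S p eP n qP qv h2 hc 𝒪 hcomm θ α)
  η : CuspForm.heckeAlgebra (pvLevel N1 qP qv) 2 (↑(twSet S qv) : Set ℕ) →+*
    Module.End 𝒪 ↥(Wpv N1 S p eP n qP qv h2 hc 𝒪 hcomm θ α)
  η_T : ∀ (ℓ : ℕ) (hℓ : ℓ.Prime) (hℓN : ¬ ℓ ∣ pvLevel N1 qP qv)
    (hℓS : ℓ ∉ (↑(twSet S qv) : Set ℕ)),
    η (CuspForm.heckeAlgebra.T hℓ hℓN hℓS) =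
      thetaEta (etaPv N1 S p eP n qP qv h2 hc hcomm) (thetaPv N1 S qP qv θ α)
        (MvPolynomial.X (Sum.inl ℓ))
  η_local : ∀ (t : CuspForm.heckeAlgebra (pvLevel N1 qP qv) 2 (↑(twSet S qv) : Set ℕ))
    (a₀ : 𝒪), residue 𝒪 a₀ = thetaLvl 𝒪 N1 S θ qP qv hPV.prime hPV.dvdP t →
    ∀ x : ↥(Wpv N1 S p eP n qP qv h2 hc 𝒪 hcomm θ α), ϖ • x = 0 →
      ∃ m : ℕ, ((η t - a₀ • (1 : Module.End 𝒪
        ↥(Wpv N1 S p eP n qP qv h2 hc 𝒪 hcomm θ α))) ^ m) x = 0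

variable {𝒪 ϖ p N1 S θ}

section Objects

variable {ρbar : ResidualGaloisRep (ResidueField 𝒪)} {k : ℕ} {eP : Fin k → ℕ} {n : ℕ}
  {qP : Fin k → ℕ} {r : ℕ} {qv : Fin r → ℕ}
  [NeZero (N1 * twC qv)] [NeZero (pvC qP qv)] [NeZero (twLevel N1 qv)]
  [NeZero (pvLevel N1 qP qv)]
  (D : PvSetup 𝒪 ϖ p N1 S θ ρbar eP n qP qv)

/-- The generators of `Δ_Q`: `δQ i = χ_c'(σ_i)^{j'+1}`. -/
def PvSetup.δQ (i : Fin r) : (ZMod (pvC qP qv))ˣ :=
  Fermat.Agent.NEB.Geom.H6.chiC (pvC qP qv) (D.σ i) ^ (jPv p eP n + 1)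

/-- The underlying module `W'`. -/
abbrev PvSetup.Wsub : Submodule 𝒪 (𝒪 ⊗[ℤ] AHpv N1 p eP n qP qv) :=
  Wpv N1 S p eP n qP qv D.h2 D.hc 𝒪 D.hcomm θ D.α

/-- The divisible Hecke module `W'` at the level `pvLevel`. -/
def PvSetup.WD : Fermat.Agent.S59.Lim.HDiv 𝒪 ϖ (pvLevel N1 qP qv) (↑(twSet S qv) : Set ℕ)
    (thetaLvl 𝒪 N1 S θ qP qv D.hPV.prime D.hPV.dvdP) where
  W := ↥(Wpv N1 S p eP n qP qv D.h2 D.hc 𝒪 D.hcomm θ D.α)
  isDiv := D.isDiv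
  η := D.η
  η_local := D.η_local

/-- The diamond operators commute with `η⁺`. -/
theorem PvSetup.comm_dia (u : (ZMod (pvC qP qv))ˣ) (t : PolyTw r (pvC qP qv)) :
    Commute (etaPv N1 S p eP n qP qv D.h2 D.hc D.hcomm t)
      (diaZ (N1 * twC qv) (pvC qP qv) (pvH qP qv p eP n) D.h2 D.hc p u) := by
  have h : etaPv N1 S p eP n qP qv D.h2 D.hc D.hcomm (MvPolynomial.X (Sum.inr (Sum.inr u)))
      = diaZ (N1 * twC qv) (pvC qP qv) (pvH qP qv p eP n) D.h2 D.hc p u :=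
    polyHom_X _ _ _
  rw [← h]
  exact (Commute.all t _).map (etaPv N1 S p eP n qP qv D.h2 D.hc D.hcomm)

/-- The Galois action commutes with `η⁺`. -/
theorem PvSetup.comm_gal (σ : GalK) (t : PolyTw r (pvC qP qv)) :
    Commute (etaPv N1 S p eP n qP qv D.h2 D.hc D.hcomm t)
      (galZ (N1 * twC qv) (pvC qP qv) (pvH qP qv p eP n) p σ) := by
  induction t using MvPolynomial.induction_on with
  | C a =>
    have : etaPv N1 S p eP n qP qv D.h2 D.hc D.hcomm (MvPolynomial.C a)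
        = (a : Module.End ℤ (AHpv N1 p eP n qP qv)) := by
      rw [show (MvPolynomial.C a : PolyTw r (pvC qP qv)) = ((a : ℤ) : PolyTw r (pvC qP qv)) from
        (eq_intCast (MvPolynomial.C : ℤ →+* PolyTw r (pvC qP qv)) a), map_intCast]
    rw [this]
    exact Int.cast_commute a _
  | add f g hf hg =>
    rw [map_add]
    exact hf.add_left hg
  | mul_X f i hf =>
    rw [map_mul]
    refine hf.mul_left ?_
    have h : etaPv N1 S p eP n qP qv D.h2 D.hc D.hcomm (MvPolynomial.X i)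
        = opsPv N1 S p eP n qP qv D.h2 D.hc i :=
      polyHom_X _ _ _
    rw [h]
    exact D.hcommG i σ

/-- The twisted Galois action `σ ↦ σ ⟨χ_c' σ⟩^{j'+1}` on `J_H'[p^∞]`. -/
def PvSetup.galHom : GalK →* Module.End ℤ (AHpv N1 p eP n qP qv) :=
  twistHom (galZ (N1 * twC qv) (pvC qP qv) (pvH qP qv p eP n) p)
    (diaZ (N1 * twC qv) (pvC qP qv) (pvH qP qv p eP n) D.h2 D.hc p)
    (Fermat.Agent.NEB.Geom.H6.chiC (pvC qP qv)) (jPv p eP n + 1)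
    (fun u τ => D.hcommG (Sum.inr (Sum.inr u)) τ)

theorem PvSetup.galHom_apply (σ : GalK) :
    D.galHom σ = galZ (N1 * twC qv) (pvC qP qv) (pvH qP qv p eP n) p σ *
      diaZ (N1 * twC qv) (pvC qP qv) (pvH qP qv p eP n) D.h2 D.hc p
        (Fermat.Agent.NEB.Geom.H6.chiC (pvC qP qv) σ) ^ (jPv p eP n + 1) := rfl

theorem PvSetup.comm_galHom (σ : GalK) (t : PolyTw r (pvC qP qv)) :
    Commute (etaPv N1 S p eP n qP qv D.h2 D.hc D.hcomm t) (D.galHom σ) := by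
  rw [D.galHom_apply]
  exact (D.comm_gal σ t).mul_right ((D.comm_dia _ t).pow_right _)

/-- The underlying element of `𝒪 ⊗ J_H'[p^∞]`. -/
def PvSetup.val (x : D.WD.W) : 𝒪 ⊗[ℤ] AHpv N1 p eP n qP qv :=
  Subtype.val (p := fun y => y ∈ Wpv N1 S p eP n qP qv D.h2 D.hc 𝒪 D.hcomm θ D.α) x

/-- The twisted Galois action on `W'`. -/
def PvSetup.gal : GalK →* Module.End 𝒪 D.WD.W :=
  thetaGal (thetaPv N1 S qP qv θ D.α) D.galHom D.comm_galHom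

/-- The restriction to `W'` of a diamond operator. -/
def PvSetup.dia (u : (ZMod (pvC qP qv))ˣ) : Module.End 𝒪 D.WD.W :=
  thetaZ (thetaPv N1 S qP qv θ D.α)
    (diaZ (N1 * twC qv) (pvC qP qv) (pvH qP qv p eP n) D.h2 D.hc p u)
    (fun t => D.comm_dia u t)

/-- The diamond operators `c_j = ⟨δP j⟩` at the pivot primes, on `W'`. -/
def PvSetup.c (j : Fin k) : Module.End 𝒪 D.WD.W := D.dia (D.δP j)

/-- The diamond operators `d_i = ⟨δQ i⟩` at the Taylor–Wiles primes, on `W'`. -/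
def PvSetup.d (i : Fin r) : Module.End 𝒪 D.WD.W := D.dia (D.δQ i)

/-- The untwisted Galois action on `W'` (used by P-FROBNIL and P-LG). -/
def PvSetup.galU : GalK →* Module.End 𝒪 D.WD.W :=
  thetaGal (thetaPv N1 S qP qv θ D.α)
    (galZ (N1 * twC qv) (pvC qP qv) (pvH qP qv p eP n) p) D.comm_gal

end Objects

end Setup

end Fermat.Agent.L.Pivot.Geom

end
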