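import Fermat.Agent.L.Pivot.Geom.H4_EigPartZ
import Fermat.Agent.NEB.Geom.H39_WEig2

/-!
# PIVOT / PV-GEOM, leaf P-EIGPART (helper4), part 4: the level-`M` form and the `𝒪`-level form

* `stmt_EigPart_M` : `stmt_EigPart` with the level written as a variable `M`, `hM : M = N * c`
  (the level of `AHpv` is `N1 * twC qv`, which is `M₀ * pvC` only propositionally).
* `eigPart_W` : the `𝒪`-level statement in the abstract setting of `NEB.Geom.H39.stmt_EIG_W`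
  (`A` a `p`-power torsion group with `A[p]` finite, NO divisibility; `W = thetaPart etaT θ`
  `p`-divisible): if `etaW : 𝕋(N') → End W` is ANY ring homomorphism with
  `etaW (T_ℓ) = thetaEta etaT θ (z ℓ)` and `ν : 𝕋` is an operator with values in the invariants of
  the pivot diamonds (`diaA d * etaT ν = etaT ν` for `d ≡ 1 mod cQ`), then
  `rest t = 0 → etaW t * thetaEta etaT θ ν = 0`.

Complete proofs, standard axioms only.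
-/

set_option autoImplicit false

namespace Fermat.Agent.L.Pivot.Geom.H4

open CongruenceSubgroup Matrix.SpecialLinearGroup ModularForm Finset
open scoped MatrixGroups
open IsLocalRing TensorProduct
open Fermat.Agent.NEB.EIG.H39 Fermat.Agent.Betti ModularCurve.Period
open Fermat.Agent.S59.Lim Fermat.Agent.S59.Lim.H2
open Fermat.Agent.NEB.Geom.H39

/-- **P-EIGPART** (`ℤ`-level), with the level as a variable `M = N c`. -/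
theorem stmt_EigPart_M (p : ℕ) [Fact p.Prime] (N : ℕ) (hN : N ≠ 0) (qsP qsQ : List ℕ)
    (hnd : (qsP ++ qsQ).Nodup)
    (hpr : ∀ q ∈ qsP ++ qsQ, q.Prime) (hqN : ∀ q ∈ qsP ++ qsQ, ¬ q ∣ N)
    (c cP cQ N' N'' M : ℕ) (hcP : cP = qsP.prod) (hcQ : cQ = qsQ.prod) (hc : c = cP * cQ)
    (hM : M = N * c) (hcM : c ∣ M)
    (hN' : N' = N * c * c) (hN'' : N'' = N * cP * cQ * cQ) [NeZero N'] [NeZero N'']
    (S : Set ℕ) (hS : ∀ q : ℕ, q.Prime → q ∣ N' → q ∈ S)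
    (A : Type) [AddCommGroup A] (hdiv : ∀ x : A, ∃ y : A, p • y = x)
    (htors : ∀ x : A, ∃ k : ℕ, p ^ k • x = 0)
    (ms : MonoSys p M c A)
    (TA : ℕ → Module.End ℤ A)
    (hTA : ∀ (ℓ : ℕ) (hℓ : ℓ.Prime) (hℓM : ¬ ℓ ∣ M) (k : ℕ) (x : A), p ^ k • x = 0 →
      ms.m k (TA ℓ x) = TDg M c hcM hℓ hℓM (ms.m k x))
    (diaA : (ZMod c)ˣ →* Module.End ℤ A)
    (hdiaA : ∀ (g : SL(2, ℤ)) (hg : ((M : ℕ) : ℤ) ∣ g 1 0) (d : (ZMod c)ˣ),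
      (d : ZMod c) = ((g 0 0 : ℤ) : ZMod c) → ∀ (k : ℕ) (x : A), p ^ k • x = 0 →
      ms.m k (diaA d x) = Dg hcM g hg (ms.m k x))
    (hcomm : ∀ (ℓ : ℕ), ℓ.Prime → ¬ ℓ ∣ M → ∀ d, Commute (TA ℓ) (diaA d))
    (j : ℕ) (hdn : ∀ d, diaA d ^ (2 * j + 1) = 1)
    (eta : CuspForm.heckeAlgebra N' 2 S →+* Module.End ℤ A)
    (heta : ∀ (ℓ : ℕ) (hℓ : ℓ.Prime) (hℓN : ¬ ℓ ∣ N') (hℓS : ℓ ∉ S),
        eta (CuspForm.heckeAlgebra.T hℓ hℓN hℓS) = TA ℓ * diaA (unitOf c ℓ) ^ j)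
    (rest : CuspForm.heckeAlgebra N' 2 S →+* CuspForm.heckeAlgebra N'' 2 S)
    (hrest : ∀ (ℓ : ℕ) (hℓ : ℓ.Prime) (hℓN' : ¬ ℓ ∣ N') (hℓS : ℓ ∉ S) (hℓN'' : ¬ ℓ ∣ N''),
      rest (CuspForm.heckeAlgebra.T hℓ hℓN' hℓS) = CuspForm.heckeAlgebra.T hℓ hℓN'' hℓS)
    (hcQc : cQ ∣ c) (t : CuspForm.heckeAlgebra N' 2 S) (ht : rest t = 0)
    (e : Module.End ℤ A)
    (he : ∀ d : (ZMod c)ˣ, ZMod.unitsMap hcQc d = 1 → diaA d * e = e) :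
    eta t * e = 0 := by
  subst hM
  exact stmt_EigPart p N hN qsP qsQ hnd hpr hqN c cP cQ N' N'' hcP hcQ hc hN' hN'' S hS A hdiv
    htors ms TA hTA diaA hdiaA hcomm j hdn eta heta rest hrest hcQc t ht e he

/-- `NEB.EIG.H39.stmt_EIG_A` with the level as a variable `M = N c`. -/
theorem stmt_EIG_A_M (p : ℕ) [Fact p.Prime] (N : ℕ) (hN : N ≠ 0) (qs : List ℕ) (hnd : qs.Nodup)
    (hpr : ∀ q ∈ qs, q.Prime) (hqN : ∀ q ∈ qs, ¬ q ∣ N)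
    (c N' M : ℕ) (hc : c = qs.prod) (hM : M = N * c) (hcM : c ∣ M) (hN' : N' = N * c * c)
    [NeZero N'] (S : Set ℕ)
    (hS : ∀ q : ℕ, q.Prime → q ∣ N' → q ∈ S)
    (A : Type) [AddCommGroup A] (hdiv : ∀ x : A, ∃ y : A, p • y = x)
    (htors : ∀ x : A, ∃ k : ℕ, p ^ k • x = 0)
    (ms : MonoSys p M c A)
    (TA : ℕ → Module.End ℤ A)
    (hTA : ∀ (ℓ : ℕ) (hℓ : ℓ.Prime) (hℓM : ¬ ℓ ∣ M) (k : ℕ) (x : A), p ^ k • x = 0 →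
      ms.m k (TA ℓ x) = TDg M c hcM hℓ hℓM (ms.m k x))
    (diaA : (ZMod c)ˣ →* Module.End ℤ A)
    (hdiaA : ∀ (g : SL(2, ℤ)) (hg : ((M : ℕ) : ℤ) ∣ g 1 0) (d : (ZMod c)ˣ),
      (d : ZMod c) = ((g 0 0 : ℤ) : ZMod c) → ∀ (k : ℕ) (x : A), p ^ k • x = 0 →
      ms.m k (diaA d x) = Dg hcM g hg (ms.m k x))
    (hcomm : ∀ (ℓ : ℕ), ℓ.Prime → ¬ ℓ ∣ M → ∀ d, Commute (TA ℓ) (diaA d))
    (j : ℕ) (hdn : ∀ d, diaA d ^ (2 * j + 1) = 1) :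
    ∃ eta : CuspForm.heckeAlgebra N' 2 S →+* Module.End ℤ A,
      ∀ (ℓ : ℕ) (hℓ : ℓ.Prime) (hℓN : ¬ ℓ ∣ N') (hℓS : ℓ ∉ S),
        eta (CuspForm.heckeAlgebra.T hℓ hℓN hℓS) = TA ℓ * diaA (unitOf c ℓ) ^ j := by
  subst hM
  exact stmt_EIG_A p N hN qs hnd hpr hqN c N' hc hN' S hS A hdiv htors ms TA hTA diaA hdiaA
    hcomm j hdn

/-- `NEB.Geom.H39.stmt_EIG_W` with the level as a variable `M = N c`. -/
theorem stmt_EIG_W_M (p : ℕ) [Fact p.Prime] (N : ℕ) (hN : N ≠ 0) (qs : List ℕ) (hnd : qs.Nodup)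
    (hpr : ∀ q ∈ qs, q.Prime) (hqN : ∀ q ∈ qs, ¬ q ∣ N)
    (c N' M : ℕ) (hc : c = qs.prod) (hM : M = N * c) (hcM : c ∣ M) (hN' : N' = N * c * c)
    [NeZero N'] (S : Set ℕ)
    (hS : ∀ q : ℕ, q.Prime → q ∣ N' → q ∈ S)
    (A : Type) [AddCommGroup A] (htors : ∀ x : A, ∃ k : ℕ, p ^ k • x = 0)
    (hfin : Finite {x : A // p • x = 0})
    (ms : MonoSys p M c A)
    (TA : ℕ → Module.End ℤ A)
    (hTA : ∀ (ℓ : ℕ) (hℓ : ℓ.Prime) (hℓM : ¬ ℓ ∣ M) (k : ℕ) (x : A), p ^ k • x = 0 →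
      ms.m k (TA ℓ x) = TDg M c hcM hℓ hℓM (ms.m k x))
    (diaA : (ZMod c)ˣ →* Module.End ℤ A)
    (hdiaA : ∀ (g : SL(2, ℤ)) (hg : ((M : ℕ) : ℤ) ∣ g 1 0) (d : (ZMod c)ˣ),
      (d : ZMod c) = ((g 0 0 : ℤ) : ZMod c) → ∀ (k : ℕ) (x : A), p ^ k • x = 0 →
      ms.m k (diaA d x) = Dg hcM g hg (ms.m k x))
    (hcomm : ∀ (ℓ : ℕ), ℓ.Prime → ¬ ℓ ∣ M → ∀ d, Commute (TA ℓ) (diaA d))
    (j : ℕ) (hdn : ∀ d, diaA d ^ (2 * j + 1) = 1)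
    {𝒪 : Type} [CommRing 𝒪] [IsLocalRing 𝒪] {𝕋 : Type} [CommRing 𝕋]
    (etaT : 𝕋 →+* Module.End ℤ A) (θ : 𝕋 →+* ResidueField 𝒪)
    (hWdiv : ∀ w : ↥(thetaPart etaT θ), ∃ w' : ↥(thetaPart etaT θ), (p : 𝒪) • w' = w)
    (z : ℕ → 𝕋)
    (hz : ∀ (ℓ : ℕ), ℓ.Prime → ¬ ℓ ∣ N' → ℓ ∉ S → etaT (z ℓ) = TA ℓ * diaA (unitOf c ℓ) ^ j)
    (θ' : CuspForm.heckeAlgebra N' 2 S →+* ResidueField 𝒪)
    (hθ : ∀ (ℓ : ℕ) (hℓ : ℓ.Prime) (hℓN : ¬ ℓ ∣ N') (hℓS : ℓ ∉ S),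
      θ' (CuspForm.heckeAlgebra.T hℓ hℓN hℓS) = θ (z ℓ)) :
    ∃ etaW : CuspForm.heckeAlgebra N' 2 S →+* Module.End 𝒪 ↥(thetaPart etaT θ),
      (∀ (ℓ : ℕ) (hℓ : ℓ.Prime) (hℓN : ¬ ℓ ∣ N') (hℓS : ℓ ∉ S),
        etaW (CuspForm.heckeAlgebra.T hℓ hℓN hℓS) = thetaEta etaT θ (z ℓ)) ∧
      (∀ x, ∃ t : 𝕋, etaW x = thetaEta etaT θ t ∧ θ' x = θ t) ∧
      (∀ (x : CuspForm.heckeAlgebra N' 2 S) (a : 𝒪), residue 𝒪 a = θ' x →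
        ∀ w : ↥(thetaPart etaT θ),
          ∃ m : ℕ, ((etaW x - a • (1 : Module.End 𝒪 ↥(thetaPart etaT θ))) ^ m) w = 0) := by
  subst hM
  exact stmt_EIG_W p N hN qs hnd hpr hqN c N' hc hN' S hS A htors hfin ms TA hTA diaA hdiaA
    hcomm j hdn etaT θ hWdiv z hz θ' hθ

/-- **P-EIGPART**, `𝒪`-level, abstract form.  In the setting of `stmt_EIG_W` (level `M = N c`,
`qs = qsP ++ qsQ`), for ANY ring homomorphism `etaW` with `etaW (T_ℓ) = thetaEta etaT θ (z ℓ)` and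
any `ν : 𝕋` such that `etaT ν` has values in the invariants of the diamonds `d ≡ 1 mod cQ`:
the kernel of `rest` kills the range of `thetaEta etaT θ ν`. -/
theorem eigPart_W (p : ℕ) [Fact p.Prime] (N : ℕ) (hN : N ≠ 0) (qsP qsQ : List ℕ)
    (hnd : (qsP ++ qsQ).Nodup)
    (hpr : ∀ q ∈ qsP ++ qsQ, q.Prime) (hqN : ∀ q ∈ qsP ++ qsQ, ¬ q ∣ N)
    (c cP cQ N' N'' M : ℕ) (hcP : cP = qsP.prod) (hcQ : cQ = qsQ.prod) (hc : c = cP * cQ)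
    (hM : M = N * c) (hcM : c ∣ M)
    (hN' : N' = N * c * c) (hN'' : N'' = N * cP * cQ * cQ) [NeZero N'] [NeZero N'']
    (S : Set ℕ) (hS : ∀ q : ℕ, q.Prime → q ∣ N' → q ∈ S)
    (A : Type) [AddCommGroup A] (htors : ∀ x : A, ∃ k : ℕ, p ^ k • x = 0)
    (hfin : Finite {x : A // p • x = 0})
    (ms : MonoSys p M c A)
    (TA : ℕ → Module.End ℤ A)
    (hTA : ∀ (ℓ : ℕ) (hℓ : ℓ.Prime) (hℓM : ¬ ℓ ∣ M) (k : ℕ) (x : A), p ^ k • x = 0 →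
      ms.m k (TA ℓ x) = TDg M c hcM hℓ hℓM (ms.m k x))
    (diaA : (ZMod c)ˣ →* Module.End ℤ A)
    (hdiaA : ∀ (g : SL(2, ℤ)) (hg : ((M : ℕ) : ℤ) ∣ g 1 0) (d : (ZMod c)ˣ),
      (d : ZMod c) = ((g 0 0 : ℤ) : ZMod c) → ∀ (k : ℕ) (x : A), p ^ k • x = 0 →
      ms.m k (diaA d x) = Dg hcM g hg (ms.m k x))
    (hcomm : ∀ (ℓ : ℕ), ℓ.Prime → ¬ ℓ ∣ M → ∀ d, Commute (TA ℓ) (diaA d))
    (j : ℕ) (hdn : ∀ d, diaA d ^ (2 * j + 1) = 1)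
    {𝒪 : Type} [CommRing 𝒪] [IsLocalRing 𝒪] {𝕋 : Type} [CommRing 𝕋]
    (etaT : 𝕋 →+* Module.End ℤ A) (θ : 𝕋 →+* ResidueField 𝒪)
    (hWdiv : ∀ w : ↥(thetaPart etaT θ), ∃ w' : ↥(thetaPart etaT θ), (p : 𝒪) • w' = w)
    (z : ℕ → 𝕋)
    (hz : ∀ (ℓ : ℕ), ℓ.Prime → ¬ ℓ ∣ N' → ℓ ∉ S → etaT (z ℓ) = TA ℓ * diaA (unitOf c ℓ) ^ j)
    (etaW : CuspForm.heckeAlgebra N' 2 S →+* Module.End 𝒪 ↥(thetaPart etaT θ))
    (hetaW : ∀ (ℓ : ℕ) (hℓ : ℓ.Prime) (hℓN : ¬ ℓ ∣ N') (hℓS : ℓ ∉ S),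
      etaW (CuspForm.heckeAlgebra.T hℓ hℓN hℓS) = thetaEta etaT θ (z ℓ))
    (rest : CuspForm.heckeAlgebra N' 2 S →+* CuspForm.heckeAlgebra N'' 2 S)
    (hrest : ∀ (ℓ : ℕ) (hℓ : ℓ.Prime) (hℓN' : ¬ ℓ ∣ N') (hℓS : ℓ ∉ S) (hℓN'' : ¬ ℓ ∣ N''),
      rest (CuspForm.heckeAlgebra.T hℓ hℓN' hℓS) = CuspForm.heckeAlgebra.T hℓ hℓN'' hℓS)
    (hcQc : cQ ∣ c) (ν : 𝕋)
    (hν : ∀ d : (ZMod c)ˣ, ZMod.unitsMap hcQc d = 1 → diaA d * etaT ν = etaT ν)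
    (t : CuspForm.heckeAlgebra N' 2 S) (ht : rest t = 0) :
    etaW t * thetaEta etaT θ ν = 0 := by
  have hcqs : c = (qsP ++ qsQ).prod := by
    rw [List.prod_append, ← hcP, ← hcQ, hc]
  obtain ⟨e, he⟩ := exists_pow_smul_stable p htors hfin
  -- the operators on the divisible part
  have hTAD : ∀ (ℓ : ℕ) (hℓ : ℓ.Prime) (hℓM : ¬ ℓ ∣ M) (k : ℕ) (x : ↥(divSub p e A)),
      p ^ k • x = 0 → (monoRestrict ms (divSub p e A)).m k (resEnd p e (TA ℓ) x)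
        = TDg M c hcM hℓ hℓM ((monoRestrict ms (divSub p e A)).m k x) :=
    fun ℓ hℓ hℓM k x hx => hTA ℓ hℓ hℓM k x (congrArg Subtype.val hx)
  have hdiaD : ∀ (g : SL(2, ℤ)) (hg : ((M : ℕ) : ℤ) ∣ g 1 0) (d : (ZMod c)ˣ),
      (d : ZMod c) = ((g 0 0 : ℤ) : ZMod c) → ∀ (k : ℕ) (x : ↥(divSub p e A)), p ^ k • x = 0 →
      (monoRestrict ms (divSub p e A)).m k
          (((resEnd p e : Module.End ℤ A →+* _).toMonoidHom.comp diaA) d x)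
        = Dg hcM g hg ((monoRestrict ms (divSub p e A)).m k x) :=
    fun g hg d hd k x hx => hdiaA g hg d hd k x (congrArg Subtype.val hx)
  have hcommD : ∀ (ℓ : ℕ), ℓ.Prime → ¬ ℓ ∣ M → ∀ d, Commute (resEnd p e (TA ℓ))
      (((resEnd p e : Module.End ℤ A →+* _).toMonoidHom.comp diaA) d) :=
    fun ℓ hℓ hℓM d => (hcomm ℓ hℓ hℓM d).map (resEnd p e)
  have hdnD : ∀ d, ((resEnd p e : Module.End ℤ A →+* _).toMonoidHom.comp diaA) d ^ (2 * j + 1)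
      = 1 := by
    intro d
    show resEnd p e (diaA d) ^ (2 * j + 1) = 1
    rw [← map_pow, hdn d, map_one]
  obtain ⟨etaD, hetaD⟩ := stmt_EIG_A_M p N hN (qsP ++ qsQ) hnd hpr hqN c N' M hcqs hM hcM hN' S
    hS ↥(divSub p e A) (divSub_div he) (divSub_tors htors) (monoRestrict ms (divSub p e A))
    (fun ℓ => resEnd p e (TA ℓ)) hTAD
    ((resEnd p e : Module.End ℤ A →+* _).toMonoidHom.comp diaA) hdiaD hcommD j hdnD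
  -- the correspondence `etaD x ↔ etaT τ ↔ etaW x`
  have hall : ∀ x : CuspForm.heckeAlgebra N' 2 S, ∃ τ : 𝕋,
      (∀ y : ↥(divSub p e A), ((etaD x y : ↥(divSub p e A)) : A) = etaT τ (y : A)) ∧
        etaW x = thetaEta etaT θ τ := by
    refine hecke_induction hS (fun ℓ hℓ hℓN hℓS => ⟨z ℓ, fun y => ?_, hetaW ℓ hℓ hℓN hℓS⟩)
      (fun n => ⟨(n : 𝕋), fun y => ?_, ?_⟩) (fun x x' hx hx' => ?_) (fun x x' hx hx' => ?_)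
    · rw [hetaD ℓ hℓ hℓN hℓS, hz ℓ hℓ hℓN hℓS]
      show ((resEnd p e (TA ℓ) * resEnd p e (diaA (unitOf c ℓ)) ^ j) y : A) = _
      rw [← map_pow, ← map_mul, coe_resEnd]
    · rw [map_intCast, map_intCast, Module.End.intCast_apply, Module.End.intCast_apply]
      rfl
    · rw [map_intCast, map_intCast]
    · obtain ⟨τ, hτ, hτ'⟩ := hx
      obtain ⟨u, hu, hu'⟩ := hx'
      refine ⟨τ + u, fun y => ?_, by rw [map_add, map_add, hτ', hu']⟩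
      rw [map_add, map_add, LinearMap.add_apply, LinearMap.add_apply, AddSubgroup.coe_add,
        hτ y, hu y]
    · obtain ⟨τ, hτ, hτ'⟩ := hx
      obtain ⟨u, hu, hu'⟩ := hx'
      refine ⟨τ * u, fun y => ?_, by rw [map_mul, map_mul, hτ', hu']⟩
      rw [map_mul, map_mul, Module.End.mul_apply, Module.End.mul_apply, hτ, hu]
  obtain ⟨τ, hτ, hτW⟩ := hall t
  -- `etaD t` kills the range of `etaT ν` on the divisible part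
  have hkill : etaD t * resEnd p e (etaT ν) = 0 :=
    stmt_EigPart_M p N hN qsP qsQ hnd hpr hqN c cP cQ N' N'' M hcP hcQ hc hM hcM hN' hN'' S hS
      ↥(divSub p e A) (divSub_div he) (divSub_tors htors) (monoRestrict ms (divSub p e A))
      (fun ℓ => resEnd p e (TA ℓ)) hTAD
      ((resEnd p e : Module.End ℤ A →+* _).toMonoidHom.comp diaA) hdiaD hcommD j hdnD
      etaD hetaD rest hrest hcQc t ht (resEnd p e (etaT ν))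
      (fun d hd => by
        show resEnd p e (diaA d) * resEnd p e (etaT ν) = resEnd p e (etaT ν)
        rw [← map_mul, hν d hd])
  rw [hτW, ← map_mul]
  apply thetaEta_eq_zero_of etaT θ p e hWdiv
  intro a
  rw [map_mul, Module.End.mul_apply]
  have h1 := hτ (resEnd p e (etaT ν) ⟨p ^ e • a, pow_smul_mem_divSub a⟩)
  rw [coe_resEnd] at h1
  rw [← h1, ← Module.End.mul_apply, hkill]
  rfl

end Fermat.Agent.L.Pivot.Geom.H4
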