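import Fermat.Agent.NEB.Geom.H29_TwGroup

/-!
# PIVOT, package PV-GEOM, leaf P-HSTEP: group theory with MIXED exponents (helper70)

Pure group theory (Mathlib + `H29_TwGroup`).  `G` a commutative group with homomorphisms
`φ j : G →* C j` (`j : Fin R`) to finite cyclic groups, exponents `P j ∣ |C j|`, and
`mixSub φ P = {x | ∀ j, φ j x ∈ (C j)^(P j)}`;  elements `δ j` with `φ i (δ j) = 1` for `i ≠ j`
and `φ j (δ j) ^ e ∈ (C j)^(P j) → P j ∣ e`.
(`G = (ℤ/c)ˣ`, `c = ∏ q_j`, `φ j` = reduction mod `q_j`, `P j = p ^ e j`.)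

* `IsGenFamM.chain_top`     : the top of the chain `mixSub ⊔ ⟨δ_i : i < R⟩` is everything;
* `IsGenFamM.orderOf_chain` : `δ_j` has order `P j` modulo the `j`-th step of the chain;
* `IsGenFamM.monomial_injective`, `IsGenFamM.monomial_surjective` : the monomials
  `∏ δ_j ^ x_j`, `x_j < P j`, represent `G / mixSub` exactly once.
-/

set_option autoImplicit false
set_option linter.unusedVariables false

namespace Fermat.Agent.L.Pivot.Geom.H70

open Fermat.Agent.NEB.Geom.H29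

section mix

variable {G : Type*} [CommGroup G] {R : ℕ} {C : Fin R → Type*} [∀ j, CommGroup (C j)]
  (φ : ∀ j, G →* C j) (P : Fin R → ℕ)

/-- The subgroup of the elements whose `j`-th component is a `P j`-th power. -/
def compPowM (j : Fin R) : Subgroup G :=
  ((powMonoidHom (P j) : C j →* C j).range).comap (φ j)

theorem mem_compPowM {j : Fin R} {x : G} :
    x ∈ compPowM φ P j ↔ φ j x ∈ (powMonoidHom (P j) : C j →* C j).range := Iff.rfl

/-- The subgroup of the elements all of whose components are `P j`-th powers. -/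
def mixSub : Subgroup G := ⨅ j, compPowM φ P j

theorem mem_mixSub {x : G} :
    x ∈ mixSub φ P ↔ ∀ j, φ j x ∈ (powMonoidHom (P j) : C j →* C j).range := by
  rw [mixSub, Subgroup.mem_iInf]
  rfl

theorem mixSub_le_compPowM (j : Fin R) : mixSub φ P ≤ compPowM φ P j :=
  iInf_le _ j

variable (δ : Fin R → G)

/-- The hypotheses on the generators `δ_j` (mixed exponents). -/
structure IsGenFamM : Prop where
  triv : ∀ i j, i ≠ j → φ i (δ j) = 1
  ord : ∀ j (e : ℕ), φ j (δ j) ^ e ∈ (powMonoidHom (P j) : C j →* C j).range → P j ∣ e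

variable {φ P δ}

theorem IsGenFamM.delta_mem_compPowM (h : IsGenFamM φ P δ) {i j : Fin R} (hij : i ≠ j) :
    δ i ∈ compPowM φ P j := by
  rw [mem_compPowM, h.triv j i hij.symm]
  exact one_mem _

theorem IsGenFamM.dvd_of_pow_mem (h : IsGenFamM φ P δ) {j : Fin R} {e : ℕ}
    (he : δ j ^ e ∈ compPowM φ P j) : P j ∣ e := by
  apply h.ord j
  rw [mem_compPowM, map_pow] at he
  exact he

/-- The `P j`-th power of `δ j` lies in `mixSub`. -/
theorem IsGenFamM.pow_mem_mixSub (h : IsGenFamM φ P δ) (j : Fin R) :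
    δ j ^ P j ∈ mixSub φ P := by
  rw [mem_mixSub]
  intro i
  by_cases hij : i = j
  · subst hij
    exact ⟨φ i (δ i), by rw [powMonoidHom_apply, map_pow]⟩
  · rw [map_pow, h.triv i j hij, one_pow]
    exact one_mem _

/-- The components of a monomial. -/
theorem IsGenFamM.monomial_apply (h : IsGenFamM φ P δ) (s : Fin R → ℕ) (j : Fin R) :
    φ j (∏ i, δ i ^ s i) = φ j (δ j) ^ s j := by
  rw [map_prod, Finset.prod_eq_single j]
  · rw [map_pow]
  · intro i _ hij
    rw [map_pow, h.triv j i hij.symm, one_pow]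
  · intro hj
    exact absurd (Finset.mem_univ j) hj

/-- **Decomposition**: every element is an element of `mixSub` times a monomial in the `δ_j`. -/
theorem IsGenFamM.exists_decomp [∀ j, Finite (C j)] [∀ j, IsCyclic (C j)]
    (h : IsGenFamM φ P δ) (hP : ∀ j, P j ∣ Nat.card (C j)) (x : G) :
    ∃ (s : Fin R → ℕ) (y : G), y ∈ mixSub φ P ∧ x = y * ∏ j, δ j ^ s j := by
  have key : ∀ j, ∃ (s : ℕ) (y : C j), φ j x = φ j (δ j) ^ s * y ^ P j := by
    intro j
    exact cyc_gen (P j) (hP j) (φ j (δ j)) (fun e he => h.ord j e he) (φ j x)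
  choose s y hy using key
  refine ⟨s, x * (∏ j, δ j ^ s j)⁻¹, ?_, by rw [inv_mul_cancel_right]⟩
  rw [mem_mixSub]
  intro j
  rw [map_mul, map_inv, h.monomial_apply, hy j, mul_comm (φ j (δ j) ^ s j), mul_assoc,
    mul_inv_cancel, mul_one]
  exact ⟨y j, rfl⟩

/-- The chain below `k` lies in `compPowM k`. -/
theorem IsGenFamM.chain_le_compPowM (h : IsGenFamM φ P δ) (k : Fin R) :
    ∀ j : ℕ, j ≤ (k : ℕ) → chain (mixSub φ P) δ j ≤ compPowM φ P k := by
  intro j
  induction j with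
  | zero => intro _; exact mixSub_le_compPowM φ P k
  | succ j ih =>
    intro hj
    rw [chain_succ]
    refine sup_le (ih (Nat.le_of_succ_le hj)) ?_
    rw [Subgroup.zpowers_le]
    have hjr : j < R := lt_of_lt_of_le (Nat.lt_of_succ_le hj) (Nat.le_of_lt k.2)
    rw [deltaExt_of_lt δ hjr]
    apply h.delta_mem_compPowM
    intro hjk
    have : j = (k : ℕ) := by rw [← hjk]
    omega

/-- The top of the chain is everything. -/
theorem IsGenFamM.chain_top [∀ j, Finite (C j)] [∀ j, IsCyclic (C j)]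
    (h : IsGenFamM φ P δ) (hP : ∀ j, P j ∣ Nat.card (C j)) (x : G) :
    x ∈ chain (mixSub φ P) δ R := by
  obtain ⟨s, y, hy, rfl⟩ := h.exists_decomp hP x
  refine Subgroup.mul_mem _ (le_chain _ δ R hy) (Subgroup.prod_mem _ fun j _ => ?_)
  refine Subgroup.pow_mem _ ?_ _
  have := delta_mem_chain (mixSub φ P) δ j.2
  rwa [deltaExt_val] at this

/-- The order of `δ_j` modulo the `j`-th step of the chain is `P j`. -/
theorem IsGenFamM.orderOf_chain (h : IsGenFamM φ P δ) {A : Type*} [Group A] (ρ : G →* A)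
    (j : ℕ) (hj : j < R)
    (hker : ∀ d, ρ d = 1 ↔ d ∈ chain (mixSub φ P) δ j) :
    orderOf (ρ (deltaExt δ j)) = P ⟨j, hj⟩ := by
  apply Nat.dvd_antisymm
  · apply orderOf_dvd_of_pow_eq_one
    rw [← map_pow, hker, deltaExt_of_lt δ hj]
    exact le_chain _ δ j (h.pow_mem_mixSub ⟨j, hj⟩)
  · have key : ∀ m : ℕ, ρ (deltaExt δ j) ^ m = 1 → P ⟨j, hj⟩ ∣ m := by
      intro m h1
      rw [← map_pow, hker] at h1
      have h2 := h.chain_le_compPowM ⟨j, hj⟩ j le_rfl h1
      rw [deltaExt_of_lt δ hj] at h2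
      exact h.dvd_of_pow_mem h2
    exact key _ (pow_orderOf_eq_one _)

/-! ### Monomials -/

/-- `x ↦ ρ (∏ δ_j ^ x_j)` is injective on the box `∏ Fin (P j)` if `ker ρ ⊆ mixSub`. -/
theorem IsGenFamM.monomial_injective (h : IsGenFamM φ P δ) {A : Type*} [Group A] (ρ : G →* A)
    (hker : ∀ d, ρ d = 1 → d ∈ mixSub φ P) :
    Function.Injective fun x : (∀ j, Fin (P j)) => ρ (∏ j, δ j ^ (x j : ℕ)) := by
  intro x y hxy
  have hxy' : ρ (∏ j, δ j ^ (x j : ℕ)) = ρ (∏ j, δ j ^ (y j : ℕ)) := hxy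
  have key : ∀ (x y : ∀ j, Fin (P j)),
      ρ (∏ j, δ j ^ (x j : ℕ)) = ρ (∏ j, δ j ^ (y j : ℕ)) →
      ∀ k, (y k : ℕ) ≤ (x k : ℕ) → x k = y k := by
    intro x y hxy k hle
    have h1 : ρ ((∏ j, δ j ^ (x j : ℕ)) * (∏ j, δ j ^ (y j : ℕ))⁻¹) = 1 := by
      rw [map_mul, map_inv, hxy, mul_inv_cancel]
    have h2 := mixSub_le_compPowM φ P k (hker _ h1)
    rw [mem_compPowM, map_mul, map_inv, h.monomial_apply, h.monomial_apply] at h2
    have h3 : φ k (δ k) ^ ((x k : ℕ) - (y k : ℕ)) ∈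
        (powMonoidHom (P k) : C k →* C k).range := by
      rw [pow_sub _ hle]
      exact h2
    have h4 : P k ∣ (x k : ℕ) - (y k : ℕ) := h.ord k _ h3
    have h5 : (x k : ℕ) - (y k : ℕ) = 0 :=
      Nat.eq_zero_of_dvd_of_lt h4 (lt_of_le_of_lt (Nat.sub_le _ _) (x k).2)
    apply Fin.ext
    omega
  funext k
  rcases le_total (y k : ℕ) (x k : ℕ) with hle | hle
  · exact key x y hxy' k hle
  · exact (key y x hxy'.symm k hle).symm

/-- **Decomposition**, with exponents in the box `∏ Fin (P j)`. -/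
theorem IsGenFamM.exists_decomp_box [∀ j, Finite (C j)] [∀ j, IsCyclic (C j)]
    (h : IsGenFamM φ P δ) (hP0 : ∀ j, P j ≠ 0) (hP : ∀ j, P j ∣ Nat.card (C j)) (d : G) :
    ∃ (x : ∀ j, Fin (P j)) (y : G), y ∈ mixSub φ P ∧ d = y * ∏ j, δ j ^ (x j : ℕ) := by
  obtain ⟨s, y, hy, rfl⟩ := h.exists_decomp hP d
  refine ⟨fun j => ⟨s j % P j, Nat.mod_lt _ (Nat.pos_of_ne_zero (hP0 j))⟩,
    y * ∏ j, (δ j ^ P j) ^ (s j / P j), ?_, ?_⟩
  · refine Subgroup.mul_mem _ hy (Subgroup.prod_mem _ fun j _ => ?_)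
    exact Subgroup.pow_mem _ (h.pow_mem_mixSub j) _
  · rw [mul_assoc, ← Finset.prod_mul_distrib]
    congr 1
    refine Finset.prod_congr rfl fun j _ => ?_
    show δ j ^ s j = (δ j ^ P j) ^ (s j / P j) * δ j ^ (s j % P j)
    rw [← pow_mul, ← pow_add, Nat.div_add_mod (s j) (P j)]

/-- `x ↦ ρ (∏ δ_j ^ x_j)` maps the box onto the range of `ρ` if `mixSub ⊆ ker ρ`. -/
theorem IsGenFamM.monomial_surjective [∀ j, Finite (C j)] [∀ j, IsCyclic (C j)]
    (h : IsGenFamM φ P δ) (hP0 : ∀ j, P j ≠ 0) (hP : ∀ j, P j ∣ Nat.card (C j))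
    {A : Type*} [Group A] (ρ : G →* A)
    (hker : ∀ d, d ∈ mixSub φ P → ρ d = 1) (d : G) :
    ∃ x : (∀ j, Fin (P j)), ρ (∏ j, δ j ^ (x j : ℕ)) = ρ d := by
  obtain ⟨x, y, hy, rfl⟩ := h.exists_decomp_box hP0 hP d
  refine ⟨x, ?_⟩
  rw [map_mul, hker y hy, one_mul]

end mix

end Fermat.Agent.L.Pivot.Geom.H70
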