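import Fermat.Agent.NEB.H29_TowerJH

/-!
# PIVOT, package PV-GEOM, leaf P-HSTEP part (i): the tower with MIXED exponents (helper70)

Clone of `NEB/H29_TowerJH.lean` (helper29) for a tower `H = Hs 0 ≤ Hs 1 ≤ ⋯ ≤ Hs r` of subgroups of
`(ℤ/c)ˣ` with `Hs (j + 1) = Hs j ⊔ ⟨δ j⟩`, `⟨δ j⟩` of order `p ^ e j` on `F_{Hs j}` (the exponent
depends on the step), and `± Hs r = (ℤ/c)ˣ`;  `t = T^H_ℓ - (ℓ + 1)`.

* `divExpM`              : the exponents of `t`;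
* `stmt_DIV_chain_mix`   : `t ^ divExpM p e r i J_{Hs j} ⊆ p J_{Hs j}`, `j + i = r`;
* `stmt_DIV_tower_mix`   : `t ^ divExpM p e r r J_H ⊆ p J_H`;
* `stmt_HSTEP_tower_mix` : the norm steps on `J_H[p ^ k]`, up to a power of `t`.
-/

set_option autoImplicit false
set_option linter.style.haveILetI false

noncomputable section

namespace Fermat.Agent.L.Pivot.Geom.H70

open AlgebraicCurve ModularCurve
open Fermat.Agent.NEB Fermat.Agent.NEB.H14 Fermat.Agent.NEB.JH Fermat.Agent.RED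
open Fermat.Agent.NEB.H29

/-- The exponents of `t` in the divisibility along the tower with mixed exponents:
`divExpM p e r i` is the exponent at the level `r - i` (`i` steps below the top). -/
def divExpM (p : ℕ) (e : ℕ → ℕ) (r : ℕ) : ℕ → ℕ
  | 0 => 0
  | i + 1 => (divExpM p e r i + 1) * p ^ e (r - (i + 1))

@[simp] theorem divExpM_zero (p : ℕ) (e : ℕ → ℕ) (r : ℕ) : divExpM p e r 0 = 0 := rfl

theorem divExpM_succ (p : ℕ) (e : ℕ → ℕ) (r i : ℕ) :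
    divExpM p e r (i + 1) = (divExpM p e r i + 1) * p ^ e (r - (i + 1)) := rfl

section Tower

variable {M c ℓ : ℕ} [NeZero M] [NeZero c] [NeZero ℓ]

/-- **Divisibility along the tower** (mixed exponents), at every level. -/
theorem stmt_DIV_chain_mix (Hs : ℕ → Subgroup (ZMod c)ˣ) (hds : ∀ j, HeckeData M c ℓ (Hs j))
    (hℓ : ℓ.Prime) (hM : ¬ ℓ ∣ M) (r : ℕ) (δ : ℕ → (ZMod c)ˣ)
    (hsucc : ∀ j < r, Hs (j + 1) = Hs j ⊔ Subgroup.zpowers (δ j))
    (p : ℕ) (e : ℕ → ℕ) [Fact p.Prime]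
    (hord : ∀ j < r, orderOf ((hds j).dd.ρ (δ j)) = p ^ e j)
    (htop : ∀ d, d ∈ Hs r ∨ -d ∈ Hs r)
    (hdiv0 : ∀ x : JZero M, ∃ y : JZero M, p • y = x) :
    ∀ i j, j + i = r → ∀ x : JH M c (Hs j), ∃ y : JH M c (Hs j),
      (tEnd (TH (hds j).hβ) ((ℓ + 1 : ℕ) : ℤ) ^ divExpM p e r i) x = p • y := by
  intro i
  induction i with
  | zero =>
    intro j hj x
    rw [add_zero] at hj
    subst hj
    obtain ⟨y, hy⟩ := jh_divisible_top (hds j) htop p hdiv0 x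
    exact ⟨y, by rw [divExpM_zero, pow_zero]; exact hy.symm⟩
  | succ i ih =>
    intro j hj x
    have hjr : j < r := by omega
    have hje : r - (i + 1) = j := by omega
    have hH : Hs j ≤ Hs (j + 1) := by
      rw [hsucc j hjr]
      exact le_sup_left
    have hgen : relGal (hds j).dd (Hs (j + 1)) = Subgroup.zpowers ((hds j).dd.ρ (δ j)) := by
      rw [hsucc j hjr]
      exact relGal_sup_zpowers _ _
    rw [divExpM_succ, hje]
    exact (stmt_PIONTO_JH hH (hds j) (hds (j + 1)) hℓ hM (δ j) hgen p (e j) (hord j hjr)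
      (divExpM p e r i) (ih (j + 1) (by omega))).1 x

/-- **Divisibility at the bottom of the tower**: `t ^ N J_H ⊆ p J_H`, `N = divExpM p e r r`. -/
theorem stmt_DIV_tower_mix {H : Subgroup (ZMod c)ˣ} (hd : HeckeData M c ℓ H)
    (Hs : ℕ → Subgroup (ZMod c)ˣ) (h0 : Hs 0 = H) (hds : ∀ j, HeckeData M c ℓ (Hs j))
    (hℓ : ℓ.Prime) (hM : ¬ ℓ ∣ M) (r : ℕ) (δ : ℕ → (ZMod c)ˣ)
    (hsucc : ∀ j < r, Hs (j + 1) = Hs j ⊔ Subgroup.zpowers (δ j))
    (p : ℕ) (e : ℕ → ℕ) [Fact p.Prime]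
    (hord : ∀ j < r, orderOf ((hds j).dd.ρ (δ j)) = p ^ e j)
    (htop : ∀ d, d ∈ Hs r ∨ -d ∈ Hs r)
    (hdiv0 : ∀ x : JZero M, ∃ y : JZero M, p • y = x) (x : JH M c H) :
    ∃ y : JH M c H, (tEnd (TH hd.hβ) ((ℓ + 1 : ℕ) : ℤ) ^ divExpM p e r r) x = p • y := by
  subst h0
  exact stmt_DIV_chain_mix Hs hds hℓ hM r δ hsucc p e hord htop hdiv0 r 0 (zero_add r) x

/-- **The norm steps of the tower** (mixed exponents) on `J_H[p ^ k]`, up to a power of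
`t = T^H_ℓ - (ℓ + 1)`. -/
theorem stmt_HSTEP_tower_mix {H : Subgroup (ZMod c)ˣ} (hd : HeckeData M c ℓ H)
    (Hs : ℕ → Subgroup (ZMod c)ˣ) (h0 : Hs 0 = H) (hds : ∀ j, HeckeData M c ℓ (Hs j))
    (hℓ : ℓ.Prime) (hM : ¬ ℓ ∣ M)
    (hunr : ∀ w : Place Kbar ↥(FHbar M c H),
      ∃ x : ↥(modularFunctionFieldBar M), w.ord (inclBar M c H x) = 1)
    (r : ℕ) (δ : ℕ → (ZMod c)ˣ)
    (hsucc : ∀ j < r, Hs (j + 1) = Hs j ⊔ Subgroup.zpowers (δ j))
    (p : ℕ) (e : ℕ → ℕ) [Fact p.Prime]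
    (hord : ∀ j < r, orderOf ((hds j).dd.ρ (δ j)) = p ^ e j)
    (htop : ∀ d, d ∈ Hs r ∨ -d ∈ Hs r)
    (hdiv0 : ∀ x : JZero M, ∃ y : JZero M, p • y = x)
    (j : ℕ) (hj : j < r) (k : ℕ) (v : JH M c H) (hv : p ^ k • v = 0)
    (hvG : ∀ i ≤ j, hd.dd.ρ (δ i) • v = v) :
    ∃ w : JH M c H, p ^ k • w = 0 ∧ (∀ i < j, hd.dd.ρ (δ i) • w = w) ∧
      ∑ a ∈ Finset.range (p ^ e j), (hd.dd.ρ (δ j)) ^ a • w
        = (tEnd (TH hd.hβ) ((ℓ + 1 : ℕ) : ℤ)
            ^ ((divExpM p e r (r - (j + 1)) + 1) * p ^ e j * k + 1 + 1)) v := by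
  have hmono := tower_mono Hs r δ hsucc
  have hH₁ : H ≤ Hs j := h0 ▸ hmono 0 j (Nat.zero_le j) hj.le
  have hH₂ : Hs j ≤ Hs (j + 1) := hmono j (j + 1) (Nat.le_succ j) hj
  have hgen : relGal (hds j).dd (Hs (j + 1)) = Subgroup.zpowers ((hds j).dd.ρ (δ j)) := by
    rw [hsucc j hj]
    exact relGal_sup_zpowers _ _
  -- `v` is fixed by `Hs (j + 1)`
  have hfix : ∀ i, i ≤ j + 1 → ∀ d ∈ Hs i, hd.dd.ρ d • v = v := by
    set S : Subgroup (ZMod c)ˣ := (MulAction.stabilizer _ v).comap hd.dd.ρ with hS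
    have hmemS : ∀ d, d ∈ S ↔ hd.dd.ρ d • v = v := fun d => by
      rw [hS, Subgroup.mem_comap, MulAction.mem_stabilizer_iff]
    have hle : ∀ i, i ≤ j + 1 → Hs i ≤ S := by
      intro i
      induction i with
      | zero =>
        intro _ d hdH
        rw [h0] at hdH
        rw [hmemS, rho_eq_one_of_mem hd.dd hdH, one_smul]
      | succ i ih =>
        intro hi
        have hir : i < r := by omega
        rw [hsucc i hir]
        refine sup_le (ih (by omega)) ?_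
        rw [Subgroup.zpowers_le, hmemS]
        exact hvG i (by omega)
    exact fun i hi d hdH => (hmemS d).mp (hle i hi hdH)
  obtain ⟨w, hw1, hw2, hw3⟩ := stmt_HSTEP_JH hH₁ hH₂ hd (hds j) (hds (j + 1)) hℓ hM hunr (δ j)
    hgen p (e j) (hord j hj) (divExpM p e r (r - (j + 1)))
    (stmt_DIV_chain_mix Hs hds hℓ hM r δ hsucc p e hord htop hdiv0 (r - (j + 1)) (j + 1)
      (by omega))
    k v hv (hfix (j + 1) le_rfl)
  refine ⟨w, hw1, fun i hi => ?_, hw3⟩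
  exact hw2 (δ i) (hmono (i + 1) j hi hj.le (delta_mem_tower Hs r δ hsucc i (by omega)))

end Tower

end Fermat.Agent.L.Pivot.Geom.H70
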