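import Fermat.Agent.S59.Asm.H57_UnrCond

/-!
# PIVOT, package PV-GEOM, leaf P-HSTEP: the unramifiedness condition for `p ≥ 5` (helper70)

For a prime `p ≥ 5`, a squarefree `c ∣ M` and a subgroup `H` of `(ℤ/c)ˣ` containing all
`p^E`-th powers, every elliptic and every parabolic element of `Γ₀(M)` has its upper left entry
in `± H`:  `unrCond_of_five_le`.  (No congruence condition on the primes dividing `c`; for
`p = 3` the statement is false in general at primes `q` with `3^E ∥ q - 1`.)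
-/

set_option autoImplicit false

open Matrix
open scoped MatrixGroups

namespace Fermat.Agent.L.Pivot.Geom.H70

/-- A twelfth root of unity in a group is a `P`-th power, `P` prime to `12`. -/
theorem exists_pow_eq_of_pow_twelve {G : Type*} [Group G] (u : G) (hu : u ^ 12 = 1) (P : ℕ)
    (hP : Nat.Coprime P 12) : ∃ e : ℕ, (u ^ e) ^ P = u := by
  obtain ⟨e, he⟩ := Nat.exists_mul_mod_eq_one_of_coprime hP (by norm_num : 1 < 12)
  refine ⟨e, ?_⟩
  have h1 : e * P = 12 * (e * P / 12) + 1 := by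
    have := Nat.div_add_mod (e * P) 12
    rw [mul_comm P e] at he
    omega
  rw [← pow_mul, h1, pow_succ, pow_mul, hu, one_pow, one_mul]

/-- **UNRCOND for `p ≥ 5`**, with arbitrary exponents. -/
theorem unrCond_of_five_le (p E : ℕ) (hp : p.Prime) (h5 : 5 ≤ p) (c M : ℕ) (hsq : Squarefree c)
    (hcM : c ∣ M) (H : Subgroup (ZMod c)ˣ) (hH : ∀ x : (ZMod c)ˣ, x ^ (p ^ E) ∈ H) :
    Fermat.Agent.NEB.UnrCond M c H := by
  intro γ hγ
  classical
  haveI : IsReduced (ZMod c) := isReduced_zmod.2 (Or.inl hsq)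
  set A : Matrix (Fin 2) (Fin 2) ℤ := (((γ : SL(2, ℤ)) : Matrix (Fin 2) (Fin 2) ℤ)) with hA
  show ((A 0 0 : ℤ) : ZMod c) ∈ Fermat.Agent.NEB.cosetSet c H 1
  have hdet : A 0 0 * A 1 1 - A 0 1 * A 1 0 = 1 := by
    have h := (γ : SL(2, ℤ)).2
    rwa [Matrix.det_fin_two] at h
  have hM : (M : ℤ) ∣ A 1 0 := by
    have h := γ.2
    rw [CongruenceSubgroup.Gamma0_mem] at h
    exact (ZMod.intCast_zmod_eq_zero_iff_dvd _ _).mp h
  have hcM' : ((c : ℕ) : ℤ) ∣ A 1 0 := (Int.natCast_dvd_natCast.mpr hcM).trans hM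
  have hrelc : ((A 0 0 : ℤ) : ZMod c) * ((A 1 1 : ℤ) : ZMod c) = 1 := by
    have h0 : ((A 1 0 : ℤ) : ZMod c) = 0 :=
      (ZMod.intCast_zmod_eq_zero_iff_dvd _ _).mpr hcM'
    have h1 := congrArg (fun z : ℤ => (z : ZMod c)) hdet
    simp only [Int.cast_sub, Int.cast_mul, Int.cast_one, h0, mul_zero, sub_zero] at h1
    exact h1
  -- the trace
  have htr : (A 0 0 + A 1 1) ^ 2 = 4 ∨ |A 0 0 + A 1 1| ≤ 1 := by
    rcases hγ with h | h
    · refine Fermat.Agent.S59.Asm.H57.trace_of_finOrder (γ : SL(2, ℤ)) ?_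
      obtain ⟨k, hk, hγk⟩ := (isOfFinOrder_iff_pow_eq_one).mp h
      refine (isOfFinOrder_iff_pow_eq_one).mpr ⟨k, hk, ?_⟩
      have := congrArg Subtype.val hγk
      simpa using this
    · exact Or.inl h
  rcases htr with h4 | h1
  · -- parabolic or central: `a ≡ ±1`
    have hs : A 0 0 + A 1 1 = 2 ∨ A 0 0 + A 1 1 = -2 := by
      have : (A 0 0 + A 1 1 - 2) * (A 0 0 + A 1 1 + 2) = 0 := by linear_combination h4
      rcases mul_eq_zero.mp this with h | h
      · left; linarith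
      · right; linarith
    have key : ∀ s : ℤ, s ^ 2 = 1 → A 0 0 + A 1 1 = 2 * s →
        ((A 0 0 : ℤ) : ZMod c) = ((s : ℤ) : ZMod c) := by
      intro s hs2 hsum
      have hsum' : ((A 0 0 : ℤ) : ZMod c) + ((A 1 1 : ℤ) : ZMod c)
          = 2 * ((s : ℤ) : ZMod c) := by
        have := congrArg (fun z : ℤ => (z : ZMod c)) hsum
        simpa using this
      have hs2' : ((s : ℤ) : ZMod c) ^ 2 = 1 := by
        have := congrArg (fun z : ℤ => (z : ZMod c)) hs2
        simpa using this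
      have hsq' : (((A 0 0 : ℤ) : ZMod c) - ((s : ℤ) : ZMod c)) ^ 2 = 0 := by
        linear_combination (-1 : ZMod c) * hrelc
          + ((A 0 0 : ℤ) : ZMod c) * hsum' + hs2'
      exact sub_eq_zero.mp (pow_eq_zero_iff (two_ne_zero)|>.mp hsq')
    rcases hs with h | h
    · have h1 := key 1 (by norm_num) (by rw [h]; norm_num)
      refine ⟨1, H.one_mem, Or.inl ?_⟩
      rw [h1, mul_one, Units.val_one, Int.cast_one]
    · have h1 := key (-1) (by norm_num) (by rw [h]; norm_num)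
      refine ⟨1, H.one_mem, Or.inr ?_⟩
      rw [h1, mul_one, Units.val_one, Int.cast_neg, Int.cast_one]
  · -- elliptic: `a ^ 12 ≡ 1`
    have h12 : ((A 0 0 : ℤ) : ZMod c) ^ 12 = 1 := by
      refine Fermat.Agent.S59.Asm.H57.pow_twelve_eq_one _ (A 0 0 + A 1 1) h1 ?_
      push_cast
      linear_combination (-1 : ZMod c) * hrelc
    have hunitA : IsUnit ((A 0 0 : ℤ) : ZMod c) := IsUnit.of_mul_eq_one _ hrelc
    obtain ⟨u, hu⟩ := hunitA
    have hu12 : u ^ 12 = 1 := by
      apply Units.ext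
      rw [Units.val_pow_eq_pow_val, hu, h12, Units.val_one]
    have hcop : Nat.Coprime (p ^ E) 12 := by
      apply Nat.Coprime.pow_left
      have h2 : Nat.Coprime p 2 :=
        (Nat.coprime_primes hp Nat.prime_two).mpr (by omega)
      have h3 : Nat.Coprime p 3 :=
        (Nat.coprime_primes hp Nat.prime_three).mpr (by omega)
      have e12 : (12 : ℕ) = 2 * 2 * 3 := by norm_num
      rw [e12]
      exact (h2.mul_right h2).mul_right h3
    obtain ⟨e, he⟩ := exists_pow_eq_of_pow_twelve u hu12 (p ^ E) hcop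
    refine ⟨u, ?_, Or.inl ?_⟩
    · rw [← he]
      exact hH (u ^ e)
    · rw [one_mul, hu]

end Fermat.Agent.L.Pivot.Geom.H70
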