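import Fermat.Agent.NEB.Geom.DefsC
import Fermat.Agent.NEB.H29_InvJH
import Fermat.Agent.NEB.H34_Unr
import Fermat.Agent.S43.Old.H75_DivAll
import Fermat.Agent.L.Pivot.Geom.H70_TowerMix
import Fermat.Agent.L.Pivot.Geom.H70_GroupMix
import Fermat.Agent.L.Pivot.Geom.H70_UnrFive
import Fermat.Agent.L.Pivot3.H9_UnrAux2

/-!
# PIVOT, package PV-GEOM, leaf P-HSTEP: the tower on `J_H[p^∞]` with mixed exponents (helper70)

Generic form of `NEB/Geom/H29_TowerInst.lean` (helper29): level `M`, conductor `c ∣ M` squarefree,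
primes `q j ∣ c` (`j : Fin R`) with `p ^ e j ∣ q j - 1`, `p ≥ 5`,
`H = {u | ∀ j, u mod q j is a p ^ e j-th power}` (hypothesis `hH`), generators `δ j` of
`Δ = (ℤ/c)ˣ / H` (`IsGenFamM`).  On `AH M c H p = J_H[p^∞]`, `t = T_ℓ₀^H - (ℓ₀ + 1)`:

* `mix_unr`       : `F_H / F₀` is unramified;
* `mix_div`       : DIV, `t ^ N A ⊆ p A`;
* `mix_hstep`     : HSTEP on `A[p]` (exponent `p ^ e j` at the step `j`);
* `mix_inv`       : INV on `A[p]`;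
* `mix_diaZ_pow`  : `⟨δ j⟩ ^ (p ^ e j) = 1`;
* `mix_sigma`     : SIGMA on `J₀[p^∞]`.
-/

set_option autoImplicit false
set_option linter.unusedSectionVars false
set_option linter.unusedVariables false
set_option linter.style.haveILetI false

noncomputable section

namespace Fermat.Agent.L.Pivot.Geom.H70

open AlgebraicCurve ModularCurve
open Fermat.Agent.NEB Fermat.Agent.NEB.H14 Fermat.Agent.NEB.JH Fermat.Agent.RED
open Fermat.Agent.NEB.H29 Fermat.Agent.NEB.Geom Fermat.Agent.NEB.Geom.H29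

/-! ## 1. Generalities -/

section gen

variable (M c : ℕ) [NeZero M] (H : Subgroup (ZMod c)ˣ) (h2 : 2 ≤ c) (hc : c ∣ M) (p : ℕ)

/-- The Eisenstein operator `T_ℓ₀^H - (ℓ₀ + 1)` on `J_H[p^∞]`. -/
def tEisZ (ℓ₀ : ℕ) : Module.End ℤ (AH M c H p) :=
  Tz M c H h2 hc p ℓ₀ - ((ℓ₀ + 1 : ℕ) : ℤ) • (1 : Module.End ℤ (AH M c H p))

theorem coe_diaZ_pow_mix (u : (ZMod c)ˣ) (a : ℕ) (x : AH M c H p) :
    (((diaZ M c H h2 hc p u ^ a) x : AH M c H p) : JH M c H)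
      = ((diamondData M c H h2 hc).ρ u) ^ a • (x : JH M c H) := by
  rw [← map_pow, diaZ_apply, map_pow]

theorem coe_sum_ptors_mix {X : Type*} [AddCommGroup X] {ι : Type*} (s : Finset ι)
    (f : ι → ↥(ptors p X)) : ((∑ i ∈ s, f i : ↥(ptors p X)) : X) = ∑ i ∈ s, (f i : X) :=
  AddSubgroup.val_finsetSum _ _ _

theorem coe_nsmul_ptors_mix {X : Type*} [AddCommGroup X] (k : ℕ) (x : ↥(ptors p X)) :
    ((k • x : ↥(ptors p X)) : X) = k • (x : X) :=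
  AddSubgroup.coe_nsmul _ _ _

theorem coe_zsmul_ptors_mix {X : Type*} [AddCommGroup X] (k : ℤ) (x : ↥(ptors p X)) :
    ((k • x : ↥(ptors p X)) : X) = k • (x : X) :=
  AddSubgroup.coe_zsmul _ _ _

/-- The Eisenstein operator, on the underlying classes. -/
theorem coe_tEisZ (ℓ₀ : ℕ) [NeZero ℓ₀] (x : AH M c H p) :
    ((tEisZ M c H h2 hc p ℓ₀ x : AH M c H p) : JH M c H)
      = tEnd (TH (heckeData M c ℓ₀ H h2 hc).hβ) ((ℓ₀ + 1 : ℕ) : ℤ) (x : JH M c H) := by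
  rw [tEnd_apply, ← Tz_apply M c H h2 hc p ℓ₀ x]
  rfl

theorem coe_tEisZ_pow (ℓ₀ : ℕ) [NeZero ℓ₀] (m : ℕ) (x : AH M c H p) :
    (((tEisZ M c H h2 hc p ℓ₀ ^ m) x : AH M c H p) : JH M c H)
      = (tEnd (TH (heckeData M c ℓ₀ H h2 hc).hβ) ((ℓ₀ + 1 : ℕ) : ℤ) ^ m) (x : JH M c H) := by
  induction m with
  | zero => rfl
  | succ m ih =>
    rw [pow_succ', pow_succ', Module.End.mul_apply, coe_tEisZ, ih]
    rfl

end gen

/-! ## 2. The mixed setting -/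

section Mix

variable (M c : ℕ) (p : ℕ) {R : ℕ} (q : Fin R → ℕ) (hqc : ∀ j, q j ∣ c) (e : Fin R → ℕ)

/-- The standing hypotheses of the mixed tower. -/
structure MixHyp : Prop where
  hp : p.Prime
  hp2 : p ≠ 2
  /-- `5 ≤ p`, or an auxiliary prime `r ≡ 2 mod 3` in the level -/
  hU : 5 ≤ p ∨ ∃ r : ℕ, r.Prime ∧ r ∣ M ∧ r % 3 = 2
  hM : M ≠ 0
  hcM : c ∣ M
  hsq : Squarefree c
  prime : ∀ j, (q j).Prime
  cong : ∀ j, p ^ e j ∣ q j - 1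

/-- The components `(ℤ/c)ˣ → (ℤ/q_j)ˣ`. -/
def compHom (j : Fin R) : (ZMod c)ˣ →* (ZMod (q j))ˣ := ZMod.unitsMap (hqc j)

/-- The subgroup `H = {u | ∀ j, u mod q_j is a p^(e j)-th power}`. -/
def mixH : Subgroup (ZMod c)ˣ := mixSub (compHom c q hqc) (fun j => p ^ e j)

variable {M c p q hqc e}

theorem mixHyp_dvd_card (hyp : MixHyp M c p q e) (j : Fin R) :
    p ^ e j ∣ Nat.card (ZMod (q j))ˣ := by
  rw [card_units_of_prime (hyp.prime j)]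
  exact hyp.cong j

theorem mixHyp_odd (hyp : MixHyp M c p q e) (a : ℕ) : Odd (p ^ a) :=
  (hyp.hp.odd_of_ne_two hyp.hp2).pow

theorem mixHyp_neg_one_mem (hyp : MixHyp M c p q e) :
    (-1 : (ZMod c)ˣ) ∈ mixH c p q hqc e := by
  rw [mixH, mem_mixSub]
  intro j
  refine ⟨-1, ?_⟩
  rw [powMonoidHom_apply, (mixHyp_odd hyp (e j)).neg_one_pow]
  apply Units.ext
  show (-1 : ZMod (q j)) = ZMod.castHom (hqc j) (ZMod (q j)) ((-1 : (ZMod c)ˣ) : ZMod c)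
  rw [Units.val_neg, Units.val_one, map_neg, map_one]

/-- every `p ^ E`-th power lies in `H`, `E = ∑ e j`. -/
theorem pow_mem_mixH (u : (ZMod c)ˣ) : u ^ (p ^ (∑ j, e j)) ∈ mixH c p q hqc e := by
  rw [mixH, mem_mixSub]
  intro j
  have hle : e j ≤ ∑ j, e j := Finset.single_le_sum (f := e) (fun _ _ => Nat.zero_le _)
    (Finset.mem_univ j)
  obtain ⟨d, hd⟩ := Nat.exists_eq_add_of_le hle
  refine ⟨compHom c q hqc j u ^ (p ^ d), ?_⟩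
  rw [powMonoidHom_apply, map_pow, ← pow_mul, ← pow_add, add_comm d, ← hd]

theorem mix_unrCond (hyp : MixHyp M c p q e) :
    Fermat.Agent.NEB.UnrCond M c (mixH c p q hqc e) :=
  Fermat.Agent.L.Pivot3.H9.unrCond_of_hU p (∑ j, e j) hyp.hp hyp.hp2 c M M hyp.hsq hyp.hcM
    dvd_rfl hyp.hU _ pow_mem_mixH

variable [NeZero M] (h2 : 2 ≤ c) (hyp : MixHyp M c p q e)
  {H : Subgroup (ZMod c)ˣ} (hH : H = mixH c p q hqc e)
  {δ : Fin R → (ZMod c)ˣ} (hδ : IsGenFamM (compHom c q hqc) (fun j => p ^ e j) δ)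

include hyp hH

include h2 in
/-- **FH-UNR** for the mixed subgroup: `F_H / F₀` is unramified (`p ≥ 5`). -/
theorem mix_unr (w : Place Kbar ↥(FHbar M c H)) :
    ∃ x : ↥(modularFunctionFieldBar M), w.ord (inclBar M c H x) = 1 := by
  subst hH
  exact Fermat.Agent.NEB.H34.fh_unr c M _ h2 hyp.hcM hyp.hM (mix_unrCond hyp) w

/-- The kernel of `ρ` for `H`. -/
theorem mix_ker (d : (ZMod c)ˣ) :
    (diamondData M c H h2 hyp.hcM).ρ d = 1 ↔ d ∈ H := by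
  subst hH
  rw [DiamondData.ker]
  constructor
  · rintro (h | h)
    · exact h
    · have h1 := Subgroup.mul_mem _ (mixHyp_neg_one_mem (hqc := hqc) hyp) h
      rwa [neg_mul_neg, one_mul] at h1
  · exact Or.inl

include hδ

/-- The kernel of `ρ` at the `j`-th step of the chain. -/
theorem mix_ker_chain {ℓ₀ : ℕ} [NeZero ℓ₀] (j : ℕ) (d : (ZMod c)ˣ) :
    (heckeData M c ℓ₀ (chain H δ j) h2 hyp.hcM).dd.ρ d = 1 ↔ d ∈ chain H δ j := by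
  subst hH
  rw [DiamondData.ker]
  constructor
  · rintro (h | h)
    · exact h
    · have h1 := Subgroup.mul_mem _
        (le_chain (mixH c p q hqc e) δ j (mixHyp_neg_one_mem (hqc := hqc) hyp)) h
      rwa [neg_mul_neg, one_mul] at h1
  · exact Or.inl

theorem mix_hord {ℓ₀ : ℕ} [NeZero ℓ₀] (j : ℕ) (hj : j < R) :
    orderOf ((heckeData M c ℓ₀ (chain H δ j) h2 hyp.hcM).dd.ρ (deltaExt δ j))
      = p ^ e ⟨j, hj⟩ := by
  have hk := mix_ker_chain h2 hyp hH hδ (ℓ₀ := ℓ₀) j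
  subst hH
  exact hδ.orderOf_chain _ j hj hk

theorem mix_htop (d : (ZMod c)ˣ) : d ∈ chain H δ R ∨ -d ∈ chain H δ R := by
  subst hH
  haveI : ∀ j, Finite (ZMod (q j))ˣ := fun j => finite_units_of_prime (hyp.prime j)
  haveI : ∀ j, IsCyclic (ZMod (q j))ˣ := fun j => isCyclic_units_of_prime (hyp.prime j)
  exact Or.inl (hδ.chain_top (mixHyp_dvd_card hyp) d)

/-- the exponents, extended to `ℕ` -/
def expExt (e : Fin R → ℕ) (j : ℕ) : ℕ := if h : j < R then e ⟨j, h⟩ else 0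

omit hyp hH hδ in
theorem expExt_of_lt (e : Fin R → ℕ) {j : ℕ} (h : j < R) : expExt e j = e ⟨j, h⟩ := by
  rw [expExt, dif_pos h]

omit hyp hH hδ in
theorem expExt_val (e : Fin R → ℕ) (j : Fin R) : expExt e (j : ℕ) = e j :=
  expExt_of_lt e j.2

theorem mix_hord' {ℓ₀ : ℕ} [NeZero ℓ₀] (j : ℕ) (hj : j < R) :
    orderOf ((heckeData M c ℓ₀ (chain H δ j) h2 hyp.hcM).dd.ρ (deltaExt δ j))
      = p ^ expExt e j := by
  rw [expExt_of_lt e hj]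
  exact mix_hord h2 hyp hH hδ j hj

/-- **DIV**: `t^N J_H[p^∞] ⊆ p J_H[p^∞]`. -/
theorem mix_div (ℓ₀ : ℕ) (hℓ₀ : ℓ₀.Prime) (hℓ₀M : ¬ ℓ₀ ∣ M) :
    ∃ Nn : ℕ, ∀ x : AH M c H p, ∃ y : AH M c H p,
      (tEisZ M c H h2 hyp.hcM p ℓ₀ ^ Nn) x = p • y := by
  haveI : Fact p.Prime := ⟨hyp.hp⟩
  haveI : NeZero ℓ₀ := ⟨hℓ₀.ne_zero⟩
  haveI : NeZero c := ⟨by omega⟩
  refine ⟨divExpM p (expExt e) R R, fun x => ?_⟩
  obtain ⟨y, hy⟩ := stmt_DIV_tower_mix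
    (heckeData M c ℓ₀ H h2 hyp.hcM) (chain H δ) rfl
    (fun j => heckeData M c ℓ₀ (chain H δ j) h2 hyp.hcM)
    hℓ₀ hℓ₀M R (deltaExt δ) (fun j _ => rfl) p (expExt e)
    (fun j hj => mix_hord' h2 hyp hH hδ j hj)
    (mix_htop hyp hH hδ)
    (fun x => Fermat.Agent.S43.Old.H75.divisible_all M p hyp.hp.ne_zero x)
    (x : JH M c H)
  rw [← coe_tEisZ_pow M c H h2 hyp.hcM p ℓ₀] at hy
  have hy' : IsPTors p y := by
    obtain ⟨k, hk⟩ := ((tEisZ M c H h2 hyp.hcM p ℓ₀ ^ divExpM p (expExt e) R R) x).2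
    refine ⟨k + 1, ?_⟩
    rw [pow_succ, mul_smul, ← hy]
    exact hk
  exact ⟨⟨y, hy'⟩, Subtype.ext (by rw [coe_nsmul_ptors_mix]; exact hy)⟩

/-- **HSTEP** on `J_H[p]`, with the exponent `p ^ e j` at the step `j`. -/
theorem mix_hstep (ℓ₀ : ℕ) (hℓ₀ : ℓ₀.Prime) (hℓ₀M : ¬ ℓ₀ ∣ M) (j : Fin R)
    (v : AH M c H p) (hv : p • v = 0)
    (hfix : ∀ i, i ≤ j → diaZ M c H h2 hyp.hcM p (δ i) v = v) :
    ∃ (w : AH M c H p) (m : ℕ), p • w = 0 ∧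
      (∀ i, i < j → diaZ M c H h2 hyp.hcM p (δ i) w = w) ∧
      ∑ a ∈ Finset.range (p ^ e j), (diaZ M c H h2 hyp.hcM p (δ j) ^ a) w
          = (tEisZ M c H h2 hyp.hcM p ℓ₀ ^ m) v := by
  haveI : Fact p.Prime := ⟨hyp.hp⟩
  haveI : NeZero ℓ₀ := ⟨hℓ₀.ne_zero⟩
  haveI : NeZero c := ⟨by omega⟩
  have hv' : p ^ 1 • (v : JH M c H) = 0 := by
    rw [pow_one, ← coe_nsmul_ptors_mix, hv]
    rfl
  have hvG : ∀ i ≤ (j : ℕ),
      (heckeData M c ℓ₀ H h2 hyp.hcM).dd.ρ (deltaExt δ i) • (v : JH M c H)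
        = (v : JH M c H) := by
    intro i hi
    have hir : i < R := lt_of_le_of_lt hi j.2
    rw [deltaExt_of_lt δ hir]
    exact congrArg Subtype.val (hfix ⟨i, hir⟩ hi)
  obtain ⟨w, hw, hwfix, hsum⟩ := stmt_HSTEP_tower_mix
    (heckeData M c ℓ₀ H h2 hyp.hcM) (chain H δ) rfl
    (fun j => heckeData M c ℓ₀ (chain H δ j) h2 hyp.hcM)
    hℓ₀ hℓ₀M (mix_unr h2 hyp hH) R (deltaExt δ) (fun j _ => rfl) p (expExt e)
    (fun j hj => mix_hord' h2 hyp hH hδ j hj) (mix_htop hyp hH hδ)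
    (fun x => Fermat.Agent.S43.Old.H75.divisible_all M p hyp.hp.ne_zero x)
    (j : ℕ) j.2 1 (v : JH M c H) hv' hvG
  rw [expExt_val] at hsum
  refine ⟨⟨w, ⟨1, hw⟩⟩,
    (divExpM p (expExt e) R (R - ((j : ℕ) + 1)) + 1) * p ^ e j * 1 + 1 + 1, ?_, ?_, ?_⟩
  · apply Subtype.ext
    rw [coe_nsmul_ptors_mix]
    rw [pow_one] at hw
    exact hw
  · intro i hi
    apply Subtype.ext
    have h1 := hwfix (i : ℕ) hi
    rw [deltaExt_val] at h1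
    exact h1
  · apply Subtype.ext
    rw [coe_sum_ptors_mix, coe_tEisZ_pow]
    rw [deltaExt_val] at hsum
    rw [← hsum]
    refine Finset.sum_congr rfl fun a _ => ?_
    exact coe_diaZ_pow_mix _ _ _ h2 _ p (δ j) a _

omit hδ in
/-- **INV** on `J_H[p]`. -/
theorem mix_inv (ℓ₀ : ℕ) (hℓ₀ : ℓ₀.Prime) (hℓ₀M : ¬ ℓ₀ ∣ M)
    (y : AH M c H p) (hy : p • y = 0)
    (hfix : ∀ u, diaZ M c H h2 hyp.hcM p u y = y) :
    ∃ (y₀ : A0 M p) (m : ℕ), p • y₀ = 0 ∧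
      upZ M c H p y₀ = (tEisZ M c H h2 hyp.hcM p ℓ₀ ^ m) y := by
  haveI : NeZero ℓ₀ := ⟨hℓ₀.ne_zero⟩
  have hy' : ((p : ℕ) : ℤ) • (y : JH M c H) = 0 := by
    rw [natCast_zsmul, ← coe_nsmul_ptors_mix, hy]
    rfl
  obtain ⟨y₀, hy₀, hup⟩ := stmt_INV_JH'
    (heckeData M c ℓ₀ H h2 hyp.hcM)
    hℓ₀ hℓ₀M (mix_unr h2 hyp hH) p hyp.hp.ne_zero
    (y : JH M c H) hy'
    (fun d => congrArg Subtype.val (hfix d))
  rw [natCast_zsmul] at hy₀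
  have hmem : IsPTors p y₀ := ⟨1, by rw [pow_one]; exact hy₀⟩
  refine ⟨⟨y₀, hmem⟩, 1, Subtype.ext ?_, Subtype.ext ?_⟩
  · rw [coe_nsmul_ptors_mix]
    exact hy₀
  · show piUp M c H y₀ = _
    rw [coe_tEisZ_pow, pow_one, tEnd_apply, natCast_zsmul]
    exact hup

/-- The diamond operators at the generators have order dividing `p ^ e j`. -/
theorem mix_diaZ_pow (j : Fin R) :
    diaZ M c H h2 hyp.hcM p (δ j) ^ (p ^ e j) = 1 := by
  rw [← map_pow]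
  refine LinearMap.ext fun x => Subtype.ext ?_
  have hmem : δ j ^ (p ^ e j) ∈ H := by
    rw [hH]
    exact hδ.pow_mem_mixSub j
  rw [diaZ_apply, (mix_ker h2 hyp hH (δ j ^ (p ^ e j))).2 hmem, one_smul]
  rfl

omit hδ hH in
include h2 in
/-- **SIGMA** on `J₀[p^∞]`. -/
theorem mix_sigma (H : Subgroup (ZMod c)ˣ) (ℓ₀ : ℕ) (hℓ₀ : ℓ₀.Prime) (hℓ₀M : ¬ ℓ₀ ∣ M)
    (y₀ : A0 M p) (hker : upZ M c H p y₀ = 0) :
    Tz0 M p ℓ₀ y₀ - ((ℓ₀ + 1 : ℕ) : ℤ) • y₀ = 0 := by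
  haveI : NeZero ℓ₀ := ⟨hℓ₀.ne_zero⟩
  obtain ⟨k, hk⟩ := y₀.2
  have hk' : ((p ^ k : ℕ) : ℤ) • (y₀ : JZero M) = 0 := by
    rw [natCast_zsmul]
    exact hk
  have h := stmt_SIGMA_JH'
    (heckeData M c ℓ₀ H h2 hyp.hcM)
    hℓ₀ hℓ₀M (p ^ k) (pow_ne_zero k hyp.hp.ne_zero) (y₀ : JZero M) hk'
    (congrArg Subtype.val hker)
  apply Subtype.ext
  rw [AddSubgroup.coe_sub, coe_zsmul_ptors_mix, Tz0_apply, natCast_zsmul]
  exact h

end Mix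

end Fermat.Agent.L.Pivot.Geom.H70
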