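import Fermat.Agent.L.Pivot.Geom.DefsPV
import Fermat.Agent.L.Pivot.Geom.H70_TowerZ

/-!
# PIVOT, package PV-GEOM, leaf P-HSTEP: the PV objects as an instance of the mixed tower (helper70)

The family of the primes of `c' = pvC qP qv` is `pvQ qP qv = Fin.append qP qv : Fin (k + r) → ℕ`
(pivot primes FIRST), with exponents `pvE eP n = Fin.append eP (fun _ => n)` and generators
`pvDelta δP δQ = Fin.append δP δQ`.

* `pvQ_dvd`        : `pvQ qP qv j ∣ pvC qP qv`;
* `pvH_eq_mixH`    : `pvH qP qv p eP n = mixH (pvC qP qv) p (pvQ qP qv) pvQ_dvd (pvE eP n)`;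
* `pv_mixHyp`      : `PvHyp … → MixHyp (N1 * twC qv) (pvC qP qv) p (pvQ qP qv) (pvE eP n)`;
* `pv_isGenFamM`   : `IsDeltaGenPv … δP δQ → IsGenFamM … (pvDelta δP δQ)`.
-/

set_option autoImplicit false
set_option linter.unusedSectionVars false
set_option linter.unusedVariables false
set_option linter.style.haveILetI false

noncomputable section

namespace Fermat.Agent.L.Pivot.Geom.H70

open Fermat.Agent.NEB Fermat.Agent.NEB.Geom Fermat.Agent.L.Pivot.Geom

/-! ## Transport along equalities of the moduli -/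

theorem unitsMap_mem_range_congr {c q q' : ℕ} (h : q = q') (hq : q ∣ c) (hq' : q' ∣ c)
    {a a' : ℕ} (ha : a = a') (u : (ZMod c)ˣ) :
    ZMod.unitsMap hq u ∈ (powMonoidHom a : (ZMod q)ˣ →* (ZMod q)ˣ).range ↔
      ZMod.unitsMap hq' u ∈ (powMonoidHom a' : (ZMod q')ˣ →* (ZMod q')ˣ).range := by
  subst h
  subst ha
  rfl

theorem unitsMap_eq_one_congr {c q q' : ℕ} (h : q = q') (hq : q ∣ c) (hq' : q' ∣ c)
    (u : (ZMod c)ˣ) :
    ZMod.unitsMap hq u = 1 ↔ ZMod.unitsMap hq' u = 1 := by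
  subst h
  rfl

theorem unitsMap_pow_mem_range_congr {c q q' : ℕ} (h : q = q') (hq : q ∣ c) (hq' : q' ∣ c)
    {a a' : ℕ} (ha : a = a') (u : (ZMod c)ˣ) (m : ℕ) :
    ZMod.unitsMap hq u ^ m ∈ (powMonoidHom a : (ZMod q)ˣ →* (ZMod q)ˣ).range ↔
      ZMod.unitsMap hq' u ^ m ∈ (powMonoidHom a' : (ZMod q')ˣ →* (ZMod q')ˣ).range := by
  subst h
  subst ha
  rfl

section PV

variable {k r : ℕ} (qP : Fin k → ℕ) (qv : Fin r → ℕ) (p : ℕ) (eP : Fin k → ℕ) (n : ℕ)

/-- The primes of `c'`: pivot primes first, then the Taylor–Wiles primes. -/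
def pvQ : Fin (k + r) → ℕ := Fin.append qP qv

/-- The exponents. -/
def pvE : Fin (k + r) → ℕ := Fin.append eP (fun _ : Fin r => n)

/-- The generators. -/
def pvDelta (δP : Fin k → (ZMod (pvC qP qv))ˣ) (δQ : Fin r → (ZMod (pvC qP qv))ˣ) :
    Fin (k + r) → (ZMod (pvC qP qv))ˣ := Fin.append δP δQ

@[simp] theorem pvQ_left (j : Fin k) : pvQ qP qv (Fin.castAdd r j) = qP j :=
  Fin.append_left _ _ _

@[simp] theorem pvQ_right (i : Fin r) : pvQ qP qv (Fin.natAdd k i) = qv i :=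
  Fin.append_right _ _ _

@[simp] theorem pvE_left (j : Fin k) : pvE (r := r) eP n (Fin.castAdd r j) = eP j :=
  Fin.append_left _ _ _

@[simp] theorem pvE_right (i : Fin r) : pvE eP n (Fin.natAdd k i) = n :=
  Fin.append_right _ _ _

@[simp] theorem pvDelta_left (δP : Fin k → (ZMod (pvC qP qv))ˣ)
    (δQ : Fin r → (ZMod (pvC qP qv))ˣ) (j : Fin k) :
    pvDelta qP qv δP δQ (Fin.castAdd r j) = δP j :=
  Fin.append_left _ _ _

@[simp] theorem pvDelta_right (δP : Fin k → (ZMod (pvC qP qv))ˣ)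
    (δQ : Fin r → (ZMod (pvC qP qv))ˣ) (i : Fin r) :
    pvDelta qP qv δP δQ (Fin.natAdd k i) = δQ i :=
  Fin.append_right _ _ _

theorem pvQ_dvd (j : Fin (k + r)) : pvQ qP qv j ∣ pvC qP qv := by
  refine Fin.addCases (fun j => ?_) (fun i => ?_) j
  · rw [pvQ_left]
    exact dvd_pvC_P qP qv j
  · rw [pvQ_right]
    exact dvd_pvC_Q qP qv i

/-- membership in `mixH`, split into the two families -/
theorem mem_mixH_pv (u : (ZMod (pvC qP qv))ˣ) :
    u ∈ mixH (pvC qP qv) p (pvQ qP qv) (pvQ_dvd qP qv) (pvE eP n) ↔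
      (∀ j, ZMod.unitsMap (dvd_pvC_P qP qv j) u ∈
        (powMonoidHom (p ^ eP j) : (ZMod (qP j))ˣ →* (ZMod (qP j))ˣ).range) ∧
      (∀ i, ZMod.unitsMap (dvd_pvC_Q qP qv i) u ∈
        (powMonoidHom (p ^ n) : (ZMod (qv i))ˣ →* (ZMod (qv i))ˣ).range) := by
  rw [mixH, mem_mixSub, Fin.forall_fin_add]
  refine and_congr (forall_congr' fun j => ?_) (forall_congr' fun i => ?_)
  · exact unitsMap_mem_range_congr (pvQ_left qP qv j) _ _
      (by rw [pvE_left]) u
  · exact unitsMap_mem_range_congr (pvQ_right qP qv i) _ _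
      (by rw [pvE_right]) u

/-- **`H' = pvH` is the mixed subgroup.** -/
theorem pvH_eq_mixH :
    pvH qP qv p eP n = mixH (pvC qP qv) p (pvQ qP qv) (pvQ_dvd qP qv) (pvE eP n) := by
  ext u
  rw [mem_mixH_pv]
  simp only [pvH, Subgroup.mem_inf, Subgroup.mem_iInf, Subgroup.mem_comap]

variable {qP qv p eP n}

/-- `c'` is squarefree. -/
theorem squarefree_pvC {N1 : ℕ} {S : Finset ℕ} (h : PvHyp N1 S p eP n qP qv) :
    Squarefree (pvC qP qv) := by
  have h1 : Squarefree (twC qv) := by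
    unfold twC
    refine Finset.squarefree_prod_of_pairwise_isCoprime ?_ ?_
    · intro a _ b _ hab
      exact Nat.coprime_iff_isRelPrime.mp
        ((Nat.coprime_primes (h.prime a) (h.prime b)).2 (fun e => hab (h.inj e)))
    · intro a _
      exact (h.prime a).squarefree
  have hcop : Nat.Coprime N1 (twC qv) := by
    unfold twC
    refine Nat.Coprime.prod_right fun i _ => ?_
    rw [Nat.coprime_comm, Nat.Prime.coprime_iff_not_dvd (h.prime i)]
    exact fun hd => h.notS i (h.hNS _ (h.prime i) hd)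
  have h2 : Squarefree (N1 * twC qv) := (Nat.squarefree_mul hcop).mpr ⟨h.hsq, h1⟩
  exact h2.squarefree_of_dvd h.dvd

/-- The hypotheses of the mixed tower hold in the PV setting. -/
theorem pv_mixHyp {N1 : ℕ} {S : Finset ℕ} (h : PvHyp N1 S p eP n qP qv) :
    MixHyp (N1 * twC qv) (pvC qP qv) p (pvQ qP qv) (pvE eP n) where
  hp := h.hp
  hp2 := h.hp2
  hU := h.hU.imp id (fun ⟨r, hr, hrN, hr3⟩ => ⟨r, hr, Dvd.dvd.mul_right hrN _, hr3⟩)
  hM := h.level_ne_zero
  hcM := h.dvd
  hsq := squarefree_pvC h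
  prime := by
    intro j
    refine Fin.addCases (fun j => ?_) (fun i => ?_) j
    · rw [pvQ_left]
      exact h.primeP j
    · rw [pvQ_right]
      exact h.prime i
  cong := by
    intro j
    refine Fin.addCases (fun j => ?_) (fun i => ?_) j
    · rw [pvQ_left, pvE_left]
      exact (h.congP j).1
    · rw [pvQ_right, pvE_right]
      exact (pow_dvd_pow p (Nat.le_succ n)).trans (h.cong i)

/-- The generators of `Δ'` form a generating family of the mixed subgroup. -/
theorem pv_isGenFamM {δP : Fin k → (ZMod (pvC qP qv))ˣ} {δQ : Fin r → (ZMod (pvC qP qv))ˣ}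
    (hδ : IsDeltaGenPv p eP n qP qv δP δQ) :
    IsGenFamM (compHom (pvC qP qv) (pvQ qP qv) (pvQ_dvd qP qv)) (fun j => p ^ pvE eP n j)
      (pvDelta qP qv δP δQ) := by
  -- the components of the generators
  have hPP : ∀ j j' : Fin k, j' ≠ j →
      compHom (pvC qP qv) (pvQ qP qv) (pvQ_dvd qP qv) (Fin.castAdd r j') (δP j) = 1 :=
    fun j j' hj => (unitsMap_eq_one_congr (pvQ_left qP qv j') _ _ _).mpr (hδ.P_P j j' hj)
  have hPQ : ∀ (j : Fin k) (i : Fin r),
      compHom (pvC qP qv) (pvQ qP qv) (pvQ_dvd qP qv) (Fin.natAdd k i) (δP j) = 1 :=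
    fun j i => (unitsMap_eq_one_congr (pvQ_right qP qv i) _ _ _).mpr (hδ.P_Q j i)
  have hQQ : ∀ i i' : Fin r, i' ≠ i →
      compHom (pvC qP qv) (pvQ qP qv) (pvQ_dvd qP qv) (Fin.natAdd k i') (δQ i) = 1 :=
    fun i i' hi => (unitsMap_eq_one_congr (pvQ_right qP qv i') _ _ _).mpr (hδ.Q_Q i i' hi)
  have hQP : ∀ (i : Fin r) (j : Fin k),
      compHom (pvC qP qv) (pvQ qP qv) (pvQ_dvd qP qv) (Fin.castAdd r j) (δQ i) = 1 :=
    fun i j => (unitsMap_eq_one_congr (pvQ_left qP qv j) _ _ _).mpr (hδ.Q_P i j)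
  have htriv : ∀ i j : Fin (k + r), i ≠ j →
      compHom (pvC qP qv) (pvQ qP qv) (pvQ_dvd qP qv) i (pvDelta qP qv δP δQ j) = 1 := by
    intro i j
    refine Fin.addCases (fun j => ?_) (fun j => ?_) j <;>
      refine Fin.addCases (fun i => ?_) (fun i => ?_) i
    · intro hij
      rw [pvDelta_left]
      exact hPP j i (fun e => hij (by rw [e]))
    · intro _
      rw [pvDelta_left]
      exact hPQ j i
    · intro _
      rw [pvDelta_right]
      exact hQP j i
    · intro hij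
      rw [pvDelta_right]
      exact hQQ j i (fun e => hij (by rw [e]))
  refine ⟨htriv, ?_⟩
  -- the orders
  intro j a ha
  have hmem : pvDelta qP qv δP δQ j ^ a ∈
      mixH (pvC qP qv) p (pvQ qP qv) (pvQ_dvd qP qv) (pvE eP n) := by
    rw [mixH, mem_mixSub]
    intro i
    by_cases hij : i = j
    · subst hij
      rw [map_pow]
      exact ha
    · rw [map_pow, htriv i j hij, one_pow]
      exact one_mem _
  rw [← pvH_eq_mixH] at hmem
  revert hmem
  refine Fin.addCases (fun j => ?_) (fun i => ?_) j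
  · intro hmem
    rw [pvDelta_left] at hmem
    rw [pvE_left]
    exact hδ.P_ord j a hmem
  · intro hmem
    rw [pvDelta_right] at hmem
    rw [pvE_right]
    exact hδ.Q_ord i a hmem

end PV

end Fermat.Agent.L.Pivot.Geom.H70
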