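import Fermat.Agent.S59.Lim.H94_ThetaTw
import Fermat.Agent.S59.TWH.H90_Tower

/-!
# PIVOT, package PV-GEOM, leaf P-HSTEP part (ii): the norm steps on the `θ`-part (helper70)

Pure algebra on `X = 𝒪 ⊗_ℤ A` (`A` a `p`-primary torsion group with `A[p]` finite, `η : 𝕋 → End_ℤ A`,
`θ : 𝕋 → k`, `W = thetaPart η θ`), from the lifting lemma `S59.Lim.H94.theta_lift` (helper94).

* `whstep_mix`     : the general step: a `ℤ`-level norm-surjectivity statement "up to a power of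
  `t₀`" (`θ t₀ ≠ 0`) for operators `F i` (fixing `v`), `Hh i` (fixing `w`) and the norm
  `∑_{a < m} D ^ a` gives the clean statement on `W[ϖ]`;
* `hstepC_thetaZ`  : the shape of `PVBase.hstepC` (tower of the pivot primes, exponents `eP j`);
* `hstepD_thetaZ`  : the shape of `PVBase.hstepD` (tower of the Taylor–Wiles primes on the
  invariants of the pivot diamonds).
-/

set_option autoImplicit false
set_option linter.unusedSectionVars false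
set_option linter.unusedVariables false
set_option linter.style.haveILetI false

open IsLocalRing TensorProduct

noncomputable section

namespace Fermat.Agent.L.Pivot.Geom.H70

open Fermat.Agent.S59.Lim Fermat.Agent.S59.Lim.H2 Fermat.Agent.S59.Lim.H94

section Abs

variable {𝒪 : Type} [CommRing 𝒪] [IsDomain 𝒪] [IsDiscreteValuationRing 𝒪]
  [Finite (ResidueField 𝒪)] {A : Type} [AddCommGroup A] {𝕋 : Type} [CommRing 𝕋]

/-- **The general norm step** on the `ϖ`-torsion of the `θ`-part. -/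
theorem whstep_mix {ϖ : 𝒪} (hϖ : Irreducible ϖ) {p : ℕ} (hp : p.Prime)
    (hpm : (p : 𝒪) ∈ maximalIdeal 𝒪) (hp0 : (p : 𝒪) ≠ 0)
    (htors : ∀ x : A, ∃ k : ℕ, p ^ k • x = 0) (hfin : Finite {x : A // p • x = 0})
    (η : 𝕋 →+* Module.End ℤ A) (θ : 𝕋 →+* ResidueField 𝒪) (t₀ : 𝕋) (ht₀ : θ t₀ ≠ 0)
    {ι : Type} [Finite ι] (F : ι → Module.End ℤ A)
    {ι' : Type} (Hh : ι' → Module.End ℤ A) (hHh : ∀ i t, Commute (η t) (Hh i))
    (D : Module.End ℤ A) (hD : ∀ t, Commute (η t) D) (m : ℕ)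
    (hyp : ∀ v : A, p • v = 0 → (∀ i, F i v = v) →
      ∃ (w : A) (m' : ℕ), p • w = 0 ∧ (∀ i, Hh i w = w) ∧
        ∑ a ∈ Finset.range m, (D ^ a) w = (η t₀ ^ m') v)
    (v : 𝒪 ⊗[ℤ] A) (hv : v ∈ thetaPart η θ) (hϖv : ϖ • v = 0)
    (hFv : ∀ i, (F i).baseChange 𝒪 v = v) :
    ∃ w ∈ thetaPart η θ, ϖ • w = 0 ∧ (∀ i, (Hh i).baseChange 𝒪 w = w) ∧
      ∑ a ∈ Finset.range m, ((D.baseChange 𝒪) ^ a) w = v := by
  classical
  let g : Module.End ℤ A := ∑ a ∈ Finset.range m, D ^ a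
  have hgc : ∀ t, Commute (η t) g := fun t =>
    Commute.sum_right _ _ _ fun a _ => (hD t).pow_right a
  have hg : ∀ t, g ∘ₗ η t = η t ∘ₗ g := fun t => (hgc t).eq.symm
  have hh : ∀ i t, Commute (η t) (Hh i - 1) := fun i t =>
    (hHh i t).sub_right (Commute.one_right _)
  have hyp' : ∀ k : A, p • k = 0 → (∀ i, (F i - 1) k = 0) →
      ∃ (y : A) (m' : ℕ), p • y = 0 ∧ (∀ i, (Hh i - 1) y = 0) ∧ g y = (η t₀ ^ m') k := by
    intro k hk hfk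
    obtain ⟨w, m', h1, h2, h3⟩ := hyp k hk (fun i => by
      have := hfk i
      rw [LinearMap.sub_apply, Module.End.one_apply] at this
      exact sub_eq_zero.mp this)
    refine ⟨w, m', h1, fun i => ?_, ?_⟩
    · rw [LinearMap.sub_apply, Module.End.one_apply, h2 i, sub_self]
    · rw [← h3]
      exact LinearMap.sum_apply _ _ _
  have hfv : ∀ i, (F i - 1).baseChange 𝒪 v = 0 := fun i => by
    rw [sub_one_baseChange, hFv i, sub_self]
  obtain ⟨y, hy, hy1, hy2, hy3⟩ := theta_lift η η θ hϖ hp hpm hp0 htors hfin htors hfin t₀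
    ht₀ g hg (fun i => F i - 1) (fun i => Hh i - 1) hh hyp' hv hϖv hfv
  refine ⟨y, hy, hy1, fun i => ?_, ?_⟩
  · have := hy2 i
    rw [sub_one_baseChange] at this
    exact sub_eq_zero.mp this
  · rw [← sum_pow_baseChange]
    exact hy3

end Abs

section Sub

variable {𝒪 : Type} [CommRing 𝒪] [IsLocalRing 𝒪] {𝕋 : Type} [CommRing 𝕋]
  {A : Type} [AddCommGroup A]

theorem coe_pow_thetaZ_mix (η : 𝕋 →+* Module.End ℤ A) (θ : 𝕋 →+* ResidueField 𝒪)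
    (g : Module.End ℤ A) (hg : ∀ t, Commute (η t) g) (e : ℕ) (x : ↥(thetaPart η θ)) :
    ((((thetaZ θ g hg) ^ e) x : ↥(thetaPart η θ)) : 𝒪 ⊗[ℤ] A)
      = ((g.baseChange 𝒪) ^ e) x.1 := by
  induction e generalizing x with
  | zero => rfl
  | succ e ih =>
    rw [pow_succ, Module.End.mul_apply, ih, pow_succ, Module.End.mul_apply]
    rfl

theorem coe_nm_thetaZ_mix (η : 𝕋 →+* Module.End ℤ A) (θ : 𝕋 →+* ResidueField 𝒪)
    (g : Module.End ℤ A) (hg : ∀ t, Commute (η t) g) (m : ℕ) (x : ↥(thetaPart η θ)) :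
    ((Fermat.Agent.S59.TWH.H90.nm m (thetaZ θ g hg) x : ↥(thetaPart η θ)) : 𝒪 ⊗[ℤ] A)
      = ∑ e ∈ Finset.range m, ((g.baseChange 𝒪) ^ e) x.1 := by
  rw [Fermat.Agent.S59.TWH.H90.nm_apply]
  rw [← Finset.sum_congr rfl (fun e _ => coe_pow_thetaZ_mix η θ g hg e x)]
  exact map_sum (Submodule.subtype (thetaPart η θ)) _ _

theorem thetaZ_eq_self_iff (η : 𝕋 →+* Module.End ℤ A) (θ : 𝕋 →+* ResidueField 𝒪)
    (g : Module.End ℤ A) (hg : ∀ t, Commute (η t) g) (x : ↥(thetaPart η θ)) :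
    thetaZ θ g hg x = x ↔ (g.baseChange 𝒪) x.1 = x.1 :=
  ⟨fun h => congrArg Subtype.val h, fun h => Subtype.ext h⟩

end Sub

section PV

variable {𝒪 : Type} [CommRing 𝒪] [IsDomain 𝒪] [IsDiscreteValuationRing 𝒪]
  [Finite (ResidueField 𝒪)] {A : Type} [AddCommGroup A] {𝕋 : Type} [CommRing 𝕋]

/-- **The shape of `PVBase.hstepC`**: the norm steps along the tower of the pivot primes, on
`W[ϖ]`, `W = thetaPart η θ`, from the `ℤ`-level statement (up to a power of `t₀`). -/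
theorem hstepC_thetaZ {ϖ : 𝒪} (hϖ : Irreducible ϖ) {p : ℕ} (hp : p.Prime)
    (hpm : (p : 𝒪) ∈ maximalIdeal 𝒪) (hp0 : (p : 𝒪) ≠ 0)
    (htors : ∀ x : A, ∃ k : ℕ, p ^ k • x = 0) (hfin : Finite {x : A // p • x = 0})
    (η : 𝕋 →+* Module.End ℤ A) (θ : 𝕋 →+* ResidueField 𝒪) (t₀ : 𝕋) (ht₀ : θ t₀ ≠ 0)
    {k : ℕ} (eP : Fin k → ℕ) (cZ : Fin k → Module.End ℤ A)
    (hc : ∀ j t, Commute (η t) (cZ j))
    (hyp : ∀ (j : Fin k) (v : A), p • v = 0 → (∀ i, i ≤ j → cZ i v = v) →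
      ∃ (w : A) (m : ℕ), p • w = 0 ∧ (∀ i, i < j → cZ i w = w) ∧
        ∑ a ∈ Finset.range (p ^ eP j), (cZ j ^ a) w = (η t₀ ^ m) v)
    (j : Fin k) (v : ↥(thetaPart η θ)) (hv : ϖ • v = 0)
    (hcv : ∀ i, i ≤ j → thetaZ θ (cZ i) (hc i) v = v) :
    ∃ w : ↥(thetaPart η θ), ϖ • w = 0 ∧ (∀ i, i < j → thetaZ θ (cZ i) (hc i) w = w) ∧
      Fermat.Agent.S59.TWH.H90.nm (p ^ eP j) (thetaZ θ (cZ j) (hc j)) w = v := by
  obtain ⟨w, hw, hw1, hw2, hw3⟩ := whstep_mix hϖ hp hpm hp0 htors hfin η θ t₀ ht₀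
    (fun i : {i : Fin k // i ≤ j} => cZ i.1) (fun i : {i : Fin k // i < j} => cZ i.1)
    (fun i t => hc i.1 t) (cZ j) (hc j) (p ^ eP j)
    (fun v' hv' hfix => by
      obtain ⟨w', m, h1, h2, h3⟩ := hyp j v' hv' (fun i hij => hfix ⟨i, hij⟩)
      exact ⟨w', m, h1, fun i => h2 i.1 i.2, h3⟩)
    v.1 v.2 (congrArg Subtype.val hv)
    (fun i => (thetaZ_eq_self_iff η θ (cZ i.1) (hc i.1) v).mp (hcv i.1 i.2))
  refine ⟨⟨w, hw⟩, Subtype.ext hw1, fun i hij => Subtype.ext (hw2 ⟨i, hij⟩), Subtype.ext ?_⟩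
  exact (coe_nm_thetaZ_mix η θ (cZ j) (hc j) (p ^ eP j) ⟨w, hw⟩).trans hw3

/-- **The shape of `PVBase.hstepD`**: the norm steps along the tower of the Taylor–Wiles primes,
on the invariants of the pivot diamonds in `W[ϖ]`, from the `ℤ`-level statement. -/
theorem hstepD_thetaZ {ϖ : 𝒪} (hϖ : Irreducible ϖ) {p : ℕ} (hp : p.Prime)
    (hpm : (p : 𝒪) ∈ maximalIdeal 𝒪) (hp0 : (p : 𝒪) ≠ 0)
    (htors : ∀ x : A, ∃ k : ℕ, p ^ k • x = 0) (hfin : Finite {x : A // p • x = 0})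
    (η : 𝕋 →+* Module.End ℤ A) (θ : 𝕋 →+* ResidueField 𝒪) (t₀ : 𝕋) (ht₀ : θ t₀ ≠ 0)
    {k r : ℕ} (n : ℕ) (cZ : Fin k → Module.End ℤ A) (dZ : Fin r → Module.End ℤ A)
    (hc : ∀ j t, Commute (η t) (cZ j)) (hd : ∀ i t, Commute (η t) (dZ i))
    (hyp : ∀ (i : Fin r) (v : A), p • v = 0 → (∀ j, cZ j v = v) →
      (∀ i', i' ≤ i → dZ i' v = v) →
      ∃ (w : A) (m : ℕ), p • w = 0 ∧ (∀ j, cZ j w = w) ∧ (∀ i', i' < i → dZ i' w = w) ∧
        ∑ a ∈ Finset.range (p ^ n), (dZ i ^ a) w = (η t₀ ^ m) v)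
    (i : Fin r) (v : ↥(thetaPart η θ)) (hv : ϖ • v = 0)
    (hcv : ∀ j, thetaZ θ (cZ j) (hc j) v = v)
    (hdv : ∀ i', i' ≤ i → thetaZ θ (dZ i') (hd i') v = v) :
    ∃ w : ↥(thetaPart η θ), ϖ • w = 0 ∧ (∀ j, thetaZ θ (cZ j) (hc j) w = w) ∧
      (∀ i', i' < i → thetaZ θ (dZ i') (hd i') w = w) ∧
      Fermat.Agent.S59.TWH.H90.nm (p ^ n) (thetaZ θ (dZ i) (hd i)) w = v := by
  obtain ⟨w, hw, hw1, hw2, hw3⟩ := whstep_mix hϖ hp hpm hp0 htors hfin η θ t₀ ht₀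
    (fun x : Fin k ⊕ {i' : Fin r // i' ≤ i} => Sum.elim cZ (fun i' => dZ i'.1) x)
    (fun x : Fin k ⊕ {i' : Fin r // i' < i} => Sum.elim cZ (fun i' => dZ i'.1) x)
    (fun x t => by
      cases x with
      | inl j => exact hc j t
      | inr i' => exact hd i'.1 t)
    (dZ i) (hd i) (p ^ n)
    (fun v' hv' hfix => by
      obtain ⟨w', m, h1, h2, h3, h4⟩ := hyp i v' hv' (fun j => hfix (Sum.inl j))
        (fun i' hi' => hfix (Sum.inr ⟨i', hi'⟩))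
      refine ⟨w', m, h1, fun x => ?_, h4⟩
      cases x with
      | inl j => exact h2 j
      | inr i' => exact h3 i'.1 i'.2)
    v.1 v.2 (congrArg Subtype.val hv)
    (fun x => by
      cases x with
      | inl j => exact (thetaZ_eq_self_iff η θ (cZ j) (hc j) v).mp (hcv j)
      | inr i' => exact (thetaZ_eq_self_iff η θ (dZ i'.1) (hd i'.1) v).mp (hdv i'.1 i'.2))
  refine ⟨⟨w, hw⟩, Subtype.ext hw1, fun j => Subtype.ext (hw2 (Sum.inl j)),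
    fun i' hi' => Subtype.ext (hw2 (Sum.inr ⟨i', hi'⟩)), Subtype.ext ?_⟩
  exact (coe_nm_thetaZ_mix η θ (dZ i) (hd i) (p ^ n) ⟨w, hw⟩).trans hw3

end PV

end Fermat.Agent.L.Pivot.Geom.H70
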