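import Fermat.Agent.L.Pivot.Geom.AsmPV
import Fermat.Agent.L.Pivot.Geom.H70_PvMix
import Fermat.Agent.L.Pivot.Geom.H70_WHstepMix
import Fermat.Agent.NEB.Geom.H94_AHstep
import Fermat.Agent.NEB.Geom.H29_ZGalCont

/-!
# PIVOT, package PV-GEOM, leaf P-HSTEP (helper70)

* `tEisPolyPv`         : the Eisenstein element `X_ℓ₀ Z_{ℓ₀⁻¹}^{j'} - (ℓ₀ + 1)` of `𝕋⁺`;
* `etaPv_tEisPolyPv`   : `η⁺(tEisPolyPv) = tEisPv = T_ℓ₀^H - (ℓ₀ + 1)`;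
* `thetaPv_tEisPolyPv` : `θ⁺(tEisPolyPv) = θ(T_ℓ₀) - (ℓ₀ + 1)`;
* `pv_hstepZ_C`, `pv_hstepZ_D` : the `ℤ`-level norm steps on `J_H'[p]` (pivot tower, then the
  Taylor–Wiles tower on the invariants of the pivot diamonds), up to a power of `tEisPv`;
* `pv_divZ`            : DIV on `J_H'[p^∞]`;
* `p_hstepC`, `p_hstepD` : `Stmt_P_hstepC D`, `Stmt_P_hstepD D`;
* `isDiv_Wpv`          : `IsDiv ϖ Wpv` (for P-ETA);
* **`stmt_P_HSTEPC : Stmt_P_HSTEPC`**, **`stmt_P_HSTEPD : Stmt_P_HSTEPD`**.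
-/

set_option autoImplicit false
set_option linter.unusedSectionVars false
set_option linter.unusedVariables false
set_option linter.style.haveILetI false

noncomputable section

open ModularCurve AlgebraicCurve IsLocalRing TensorProduct Polynomial

namespace Fermat.Agent.L.Pivot.Geom.H70

open Fermat.Agent.NEB Fermat.Agent.NEB.JH Fermat.Agent.NEB.Geom Fermat.Agent.S59.Lim
  Fermat.Agent.S59.Lim.H2 Fermat.Agent.S59.Asm Fermat.Agent.L.Pivot.Geom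

/-! ## 1. The Eisenstein element -/

section Eis

variable (N1 : ℕ) (S : Finset ℕ) (p : ℕ) {k : ℕ} (eP : Fin k → ℕ) (n : ℕ) (qP : Fin k → ℕ)
  {r : ℕ} (qv : Fin r → ℕ)

/-- The Eisenstein element `X_ℓ₀ Z_{ℓ₀⁻¹}^{j'} - (ℓ₀ + 1)` of `𝕋⁺`. -/
def tEisPolyPv (ℓ₀ : ℕ) : PolyTw r (pvC qP qv) :=
  MvPolynomial.X (Sum.inl ℓ₀) *
      MvPolynomial.X (Sum.inr (Sum.inr (Fermat.Agent.NEB.EIG.H39.unitOf (pvC qP qv) ℓ₀)⁻¹))
        ^ jPv p eP n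
    - ((ℓ₀ + 1 : ℕ) : PolyTw r (pvC qP qv))

variable [NeZero (N1 * twC qv)] (h2 : 2 ≤ pvC qP qv) (hc : pvC qP qv ∣ N1 * twC qv)

theorem etaPv_tEisPolyPv
    (hcomm : ∀ i j, Commute (opsPv N1 S p eP n qP qv h2 hc i) (opsPv N1 S p eP n qP qv h2 hc j))
    (ℓ₀ : ℕ) (hℓ₀ : GoodTw N1 S qv ℓ₀) :
    etaPv N1 S p eP n qP qv h2 hc hcomm (tEisPolyPv p eP n qP qv ℓ₀)
      = tEisPv N1 p eP n qP qv h2 hc ℓ₀ := by
  classical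
  have hX : etaPv N1 S p eP n qP qv h2 hc hcomm (MvPolynomial.X (Sum.inl ℓ₀))
      = Tz (N1 * twC qv) (pvC qP qv) (pvH qP qv p eP n) h2 hc p ℓ₀ *
        diaZ (N1 * twC qv) (pvC qP qv) (pvH qP qv p eP n) h2 hc p
          (Fermat.Agent.NEB.EIG.H39.unitOf (pvC qP qv) ℓ₀) ^ jPv p eP n := by
    refine (polyHom_X _ _ _).trans ?_
    show (if GoodTw N1 S qv ℓ₀ then _ else _) = _
    rw [if_pos hℓ₀]
    rfl
  have hZ : etaPv N1 S p eP n qP qv h2 hc hcomm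
      (MvPolynomial.X (Sum.inr (Sum.inr (Fermat.Agent.NEB.EIG.H39.unitOf (pvC qP qv) ℓ₀)⁻¹)))
      = diaZ (N1 * twC qv) (pvC qP qv) (pvH qP qv p eP n) h2 hc p
          (Fermat.Agent.NEB.EIG.H39.unitOf (pvC qP qv) ℓ₀)⁻¹ :=
    polyHom_X _ _ _
  exact Fermat.Agent.NEB.Geom.H94.map_eis_eq (etaPv N1 S p eP n qP qv h2 hc hcomm) _ _
    (jPv p eP n) (ℓ₀ + 1) _ _ _ hX hZ
    (Fermat.Agent.NEB.Geom.H94.map_pow_mul_map_inv_pow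
      (diaZ (N1 * twC qv) (pvC qP qv) (pvH qP qv p eP n) h2 hc p) _ _)

omit [NeZero (N1 * twC qv)] in
theorem thetaPv_tEisPolyPv {κ : Type} [Field κ] [NeZero N1]
    (θ : CuspForm.heckeAlgebra N1 2 (↑S : Set ℕ) →+* κ) (α : Fin r → κ)
    (ℓ₀ : ℕ) (hℓ₀ : GoodTw N1 S qv ℓ₀) :
    thetaPv N1 S qP qv θ α (tEisPolyPv p eP n qP qv ℓ₀) =
      θ (CuspForm.heckeAlgebra.T hℓ₀.1 hℓ₀.not_dvd hℓ₀.not_mem) - ((ℓ₀ : κ) + 1) := by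
  classical
  have h1 := Fermat.Agent.NEB.Geom.H94.eval_eis_eq (thetaPvVal N1 S qP qv θ α) (Sum.inl ℓ₀)
    (Sum.inr (Sum.inr (Fermat.Agent.NEB.EIG.H39.unitOf (pvC qP qv) ℓ₀)⁻¹)) (jPv p eP n)
    (ℓ₀ + 1) rfl
  have h2' : thetaPvVal N1 S qP qv θ α (Sum.inl ℓ₀)
      = θ (CuspForm.heckeAlgebra.T hℓ₀.1 hℓ₀.not_dvd hℓ₀.not_mem) := by
    show (if h : GoodTw N1 S qv ℓ₀ then _ else _) = _
    rw [dif_pos hℓ₀]
  refine h1.trans ?_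
  rw [h2', Nat.cast_add, Nat.cast_one]

end Eis

/-! ## 2. The `ℤ`-level steps -/

section ZLevel

variable {N1 : ℕ} {S : Finset ℕ} {p : ℕ} {k : ℕ} {eP : Fin k → ℕ} {n : ℕ} {qP : Fin k → ℕ}
  {r : ℕ} {qv : Fin r → ℕ} [NeZero (N1 * twC qv)]
  (h2 : 2 ≤ pvC qP qv) (hc : pvC qP qv ∣ N1 * twC qv) (hPV : PvHyp N1 S p eP n qP qv)
  {δP : Fin k → (ZMod (pvC qP qv))ˣ} {δQ : Fin r → (ZMod (pvC qP qv))ˣ}
  (hδ : IsDeltaGenPv p eP n qP qv δP δQ)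

include hPV hδ

/-- **DIV** on `J_H'[p^∞]`. -/
theorem pv_divZ (ℓ₀ : ℕ) (hℓ₀ : ℓ₀.Prime) (hℓ₀M : ¬ ℓ₀ ∣ N1 * twC qv) :
    ∃ Nn : ℕ, ∀ x : AHpv N1 p eP n qP qv, ∃ y : AHpv N1 p eP n qP qv,
      (tEisPv N1 p eP n qP qv h2 hc ℓ₀ ^ Nn) x = p • y :=
  mix_div h2 (pv_mixHyp hPV) (pvH_eq_mixH qP qv p eP n) (pv_isGenFamM hδ) ℓ₀ hℓ₀ hℓ₀M

/-- **HSTEP (C)** on `J_H'[p]`: the tower of the pivot primes. -/
theorem pv_hstepZ_C (ℓ₀ : ℕ) (hℓ₀ : ℓ₀.Prime) (hℓ₀M : ¬ ℓ₀ ∣ N1 * twC qv) (j : Fin k)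
    (v : AHpv N1 p eP n qP qv) (hv : p • v = 0)
    (hfix : ∀ i, i ≤ j →
      diaZ (N1 * twC qv) (pvC qP qv) (pvH qP qv p eP n) h2 hc p (δP i) v = v) :
    ∃ (w : AHpv N1 p eP n qP qv) (m : ℕ), p • w = 0 ∧
      (∀ i, i < j →
        diaZ (N1 * twC qv) (pvC qP qv) (pvH qP qv p eP n) h2 hc p (δP i) w = w) ∧
      ∑ a ∈ Finset.range (p ^ eP j),
        (diaZ (N1 * twC qv) (pvC qP qv) (pvH qP qv p eP n) h2 hc p (δP j) ^ a) w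
          = (tEisPv N1 p eP n qP qv h2 hc ℓ₀ ^ m) v := by
  have hfix' : ∀ i : Fin (k + r), i ≤ Fin.castAdd r j →
      diaZ (N1 * twC qv) (pvC qP qv) (pvH qP qv p eP n) h2 hc p
        (pvDelta qP qv δP δQ i) v = v := by
    intro i
    refine Fin.addCases (fun i' => ?_) (fun i' => ?_) i
    · intro hi
      rw [pvDelta_left]
      exact hfix i' (by
        have : (i' : ℕ) ≤ (j : ℕ) := hi
        exact this)
    · intro hi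
      exfalso
      have h1 : k + (i' : ℕ) ≤ (j : ℕ) := hi
      have h2' := j.2
      omega
  obtain ⟨w, m, hw, hwfix, hsum⟩ := mix_hstep h2 (pv_mixHyp hPV) (pvH_eq_mixH qP qv p eP n)
    (pv_isGenFamM hδ) ℓ₀ hℓ₀ hℓ₀M (Fin.castAdd r j) v hv hfix'
  refine ⟨w, m, hw, fun i hi => ?_, ?_⟩
  · have := hwfix (Fin.castAdd r i) (by
      show (i : ℕ) < (j : ℕ)
      exact hi)
    rwa [pvDelta_left] at this
  · rw [pvE_left, pvDelta_left] at hsum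
    exact hsum

/-- **HSTEP (D)** on `J_H'[p]`: the tower of the Taylor–Wiles primes, on the invariants of the
pivot diamonds. -/
theorem pv_hstepZ_D (ℓ₀ : ℕ) (hℓ₀ : ℓ₀.Prime) (hℓ₀M : ¬ ℓ₀ ∣ N1 * twC qv) (i : Fin r)
    (v : AHpv N1 p eP n qP qv) (hv : p • v = 0)
    (hfixC : ∀ j, diaZ (N1 * twC qv) (pvC qP qv) (pvH qP qv p eP n) h2 hc p (δP j) v = v)
    (hfixD : ∀ i', i' ≤ i →
      diaZ (N1 * twC qv) (pvC qP qv) (pvH qP qv p eP n) h2 hc p (δQ i') v = v) :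
    ∃ (w : AHpv N1 p eP n qP qv) (m : ℕ), p • w = 0 ∧
      (∀ j, diaZ (N1 * twC qv) (pvC qP qv) (pvH qP qv p eP n) h2 hc p (δP j) w = w) ∧
      (∀ i', i' < i →
        diaZ (N1 * twC qv) (pvC qP qv) (pvH qP qv p eP n) h2 hc p (δQ i') w = w) ∧
      ∑ a ∈ Finset.range (p ^ n),
        (diaZ (N1 * twC qv) (pvC qP qv) (pvH qP qv p eP n) h2 hc p (δQ i) ^ a) w
          = (tEisPv N1 p eP n qP qv h2 hc ℓ₀ ^ m) v := by
  have hfix' : ∀ m : Fin (k + r), m ≤ Fin.natAdd k i →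
      diaZ (N1 * twC qv) (pvC qP qv) (pvH qP qv p eP n) h2 hc p
        (pvDelta qP qv δP δQ m) v = v := by
    intro m
    refine Fin.addCases (fun j' => ?_) (fun i' => ?_) m
    · intro _
      rw [pvDelta_left]
      exact hfixC j'
    · intro hi
      rw [pvDelta_right]
      exact hfixD i' (by
        have h1 : k + (i' : ℕ) ≤ k + (i : ℕ) := hi
        show (i' : ℕ) ≤ (i : ℕ)
        omega)
  obtain ⟨w, m, hw, hwfix, hsum⟩ := mix_hstep h2 (pv_mixHyp hPV) (pvH_eq_mixH qP qv p eP n)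
    (pv_isGenFamM hδ) ℓ₀ hℓ₀ hℓ₀M (Fin.natAdd k i) v hv hfix'
  refine ⟨w, m, hw, fun j => ?_, fun i' hi' => ?_, ?_⟩
  · have := hwfix (Fin.castAdd r j) (by
      show (j : ℕ) < k + (i : ℕ)
      have := j.2
      omega)
    rwa [pvDelta_left] at this
  · have := hwfix (Fin.natAdd k i') (by
      show k + (i' : ℕ) < k + (i : ℕ)
      have : (i' : ℕ) < (i : ℕ) := hi'
      omega)
    rwa [pvDelta_right] at this
  · rw [pvE_right, pvDelta_right] at hsum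
    exact hsum

end ZLevel

/-! ## 3. The leaves on `W'` -/

section Main

variable {𝒪 : Type} [CommRing 𝒪] [IsDomain 𝒪] [IsDiscreteValuationRing 𝒪]
  {ϖ : 𝒪} {p : ℕ} {N1 : ℕ} [NeZero N1] {S : Finset ℕ}
  {θ : CuspForm.heckeAlgebra N1 2 (↑S : Set ℕ) →+* ResidueField 𝒪}
  {ρbar : ResidualGaloisRep (ResidueField 𝒪)} {k : ℕ} {eP : Fin k → ℕ} {n : ℕ}
  {qP : Fin k → ℕ} {r : ℕ} {qv : Fin r → ℕ}
  [NeZero (N1 * twC qv)] [NeZero (pvC qP qv)] [NeZero (twLevel N1 qv)]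
  [NeZero (pvLevel N1 qP qv)]

/-- `θ⁺` does not vanish at the Eisenstein element. -/
theorem thetaPv_tEisPolyPv_ne (D : PvSetup 𝒪 ϖ p N1 S θ ρbar eP n qP qv) :
    thetaPv N1 S qP qv θ D.α (tEisPolyPv p eP n qP qv D.ℓ₀) ≠ 0 := by
  rw [thetaPv_tEisPolyPv N1 S p eP n qP qv θ D.α D.ℓ₀ D.hℓ₀]
  exact sub_ne_zero.mpr D.hne

/-- a good prime does not divide the level `M1 = N1 · c_Q` -/
theorem not_dvd_level_of_goodTw {ℓ : ℕ} (h : GoodTw N1 S qv ℓ) : ¬ ℓ ∣ N1 * twC qv := by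
  intro hd
  apply h.2.1
  have h1 : N1 * twC qv ∣ twLevel N1 qv := by
    unfold twLevel twC
    refine mul_dvd_mul_left N1 ?_
    rw [Finset.prod_pow]
    exact Dvd.intro _ (sq _).symm
  exact hd.trans h1

/-- `J_H'[p^∞][p]` is finite (Z-FIN). -/
theorem finite_AHpv [Fact p.Prime] (h2 : 2 ≤ pvC qP qv) (hc : pvC qP qv ∣ N1 * twC qv) :
    Finite {x : AHpv N1 p eP n qP qv // p • x = 0} := by
  have hfin := Fermat.Agent.NEB.Geom.H29.stmt_ZFIN_final (pvH qP qv p eP n) h2 hc p 1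
  haveI : Finite ↥{y : JH (N1 * twC qv) (pvC qP qv) (pvH qP qv p eP n) |
      ((p ^ 1 : ℕ) : ℤ) • y = 0} := hfin.to_subtype
  refine Finite.of_injective
    (fun x : {x : AHpv N1 p eP n qP qv // p • x = 0} =>
      (⟨((x.1 : AHpv N1 p eP n qP qv) : JH (N1 * twC qv) (pvC qP qv) (pvH qP qv p eP n)), ?_⟩ :
        ↥{y : JH (N1 * twC qv) (pvC qP qv) (pvH qP qv p eP n) | ((p ^ 1 : ℕ) : ℤ) • y = 0}))
    ?_
  · have h := x.2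
    have h' : ((p • (x.1 : AHpv N1 p eP n qP qv) : AHpv N1 p eP n qP qv) :
        JH (N1 * twC qv) (pvC qP qv) (pvH qP qv p eP n)) = 0 := by rw [h]; rfl
    show ((p ^ 1 : ℕ) : ℤ) •
      ((x.1 : AHpv N1 p eP n qP qv) : JH (N1 * twC qv) (pvC qP qv) (pvH qP qv p eP n)) = 0
    rw [pow_one, natCast_zsmul, ← coe_nsmul_ptors_mix]
    exact h'
  · intro x y hxy
    have h1 : ((x.1 : AHpv N1 p eP n qP qv) : JH (N1 * twC qv) (pvC qP qv) (pvH qP qv p eP n))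
        = ((y.1 : AHpv N1 p eP n qP qv) : JH (N1 * twC qv) (pvC qP qv) (pvH qP qv p eP n)) :=
      Subtype.mk.inj hxy
    exact Subtype.ext (Subtype.ext h1)

variable [Finite (ResidueField 𝒪)] [Fact p.Prime]

/-- **P-HSTEP (C)**: norm surjectivity along the tower of the pivot primes on `W'[ϖ]`. -/
theorem p_hstepC (hϖ : Irreducible ϖ) (hpm : (p : 𝒪) ∈ maximalIdeal 𝒪) (hp0 : (p : 𝒪) ≠ 0)
    (D : PvSetup 𝒪 ϖ p N1 S θ ρbar eP n qP qv) : Stmt_P_hstepC D := by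
  have hE := etaPv_tEisPolyPv N1 S p eP n qP qv D.h2 D.hc D.hcomm D.ℓ₀ D.hℓ₀
  exact hstepC_thetaZ hϖ (Fact.out : p.Prime) hpm hp0 (fun x => isPTors_coe x)
    (finite_AHpv D.h2 D.hc) (etaPv N1 S p eP n qP qv D.h2 D.hc D.hcomm)
    (thetaPv N1 S qP qv θ D.α) (tEisPolyPv p eP n qP qv D.ℓ₀) (thetaPv_tEisPolyPv_ne D) eP
    (fun j => diaZ (N1 * twC qv) (pvC qP qv) (pvH qP qv p eP n) D.h2 D.hc p (D.δP j))
    (fun j t => D.comm_dia (D.δP j) t)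
    (fun j v hv hfix => by
      obtain ⟨w, m, h1, h2, h3⟩ := pv_hstepZ_C D.h2 D.hc D.hPV D.hδ D.ℓ₀ D.hℓ₀.1
        (not_dvd_level_of_goodTw D.hℓ₀) j v hv hfix
      exact ⟨w, m, h1, h2, by rw [hE]; exact h3⟩)

/-- **P-HSTEP (D)**: norm surjectivity along the tower of the Taylor–Wiles primes on the
`Δ_Σ`-invariants of `W'[ϖ]`. -/
theorem p_hstepD (hϖ : Irreducible ϖ) (hpm : (p : 𝒪) ∈ maximalIdeal 𝒪) (hp0 : (p : 𝒪) ≠ 0)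
    (D : PvSetup 𝒪 ϖ p N1 S θ ρbar eP n qP qv) : Stmt_P_hstepD D := by
  have hE := etaPv_tEisPolyPv N1 S p eP n qP qv D.h2 D.hc D.hcomm D.ℓ₀ D.hℓ₀
  exact hstepD_thetaZ hϖ (Fact.out : p.Prime) hpm hp0 (fun x => isPTors_coe x)
    (finite_AHpv D.h2 D.hc) (etaPv N1 S p eP n qP qv D.h2 D.hc D.hcomm)
    (thetaPv N1 S qP qv θ D.α) (tEisPolyPv p eP n qP qv D.ℓ₀) (thetaPv_tEisPolyPv_ne D) n
    (fun j => diaZ (N1 * twC qv) (pvC qP qv) (pvH qP qv p eP n) D.h2 D.hc p (D.δP j))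
    (fun i => diaZ (N1 * twC qv) (pvC qP qv) (pvH qP qv p eP n) D.h2 D.hc p (D.δQ i))
    (fun j t => D.comm_dia (D.δP j) t) (fun i t => D.comm_dia (D.δQ i) t)
    (fun i v hv hfixC hfixD => by
      obtain ⟨w, m, h1, h2, h3, h4⟩ := pv_hstepZ_D D.h2 D.hc D.hPV D.hδ D.ℓ₀ D.hℓ₀.1
        (not_dvd_level_of_goodTw D.hℓ₀) i v hv hfixC hfixD
      exact ⟨w, m, h1, h2, h3, by rw [hE]; exact h4⟩)

/-- **P-ETA, field `isDiv`**: `W'` is `IsDiv`, from DIV and W-DIV. -/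
theorem isDiv_Wpv (hϖ : Irreducible ϖ) (hpm : (p : 𝒪) ∈ maximalIdeal 𝒪) (hp0 : (p : 𝒪) ≠ 0)
    (h2 : 2 ≤ pvC qP qv) (hc : pvC qP qv ∣ N1 * twC qv)
    (hcomm : ∀ i j, Commute (opsPv N1 S p eP n qP qv h2 hc i)
      (opsPv N1 S p eP n qP qv h2 hc j))
    (α : Fin r → ResidueField 𝒪) (hPV : PvHyp N1 S p eP n qP qv)
    {δP : Fin k → (ZMod (pvC qP qv))ˣ} {δQ : Fin r → (ZMod (pvC qP qv))ˣ}
    (hδ : IsDeltaGenPv p eP n qP qv δP δQ)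
    (ℓ₀ : ℕ) (hℓ₀ : GoodTw N1 S qv ℓ₀)
    (hne : θ (CuspForm.heckeAlgebra.T hℓ₀.1 hℓ₀.not_dvd hℓ₀.not_mem)
      ≠ ((ℓ₀ : ResidueField 𝒪) + 1)) :
    IsDiv ϖ ↥(Wpv N1 S p eP n qP qv h2 hc 𝒪 hcomm θ α) := by
  obtain ⟨Nn, hNn⟩ := pv_divZ h2 hc hPV hδ ℓ₀ hℓ₀.1 (not_dvd_level_of_goodTw hℓ₀)
  have hE := etaPv_tEisPolyPv N1 S p eP n qP qv h2 hc hcomm ℓ₀ hℓ₀
  have hθ : thetaPv N1 S qP qv θ α (tEisPolyPv p eP n qP qv ℓ₀) ≠ 0 := by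
    rw [thetaPv_tEisPolyPv N1 S p eP n qP qv θ α ℓ₀ hℓ₀]
    exact sub_ne_zero.mpr hne
  exact Fermat.Agent.NEB.Geom.H94.stmt_W_DIV 𝒪 ϖ hϖ p hpm hp0 (AHpv N1 p eP n qP qv)
    (fun x => isPTors_coe x) (finite_AHpv h2 hc) (PolyTw r (pvC qP qv))
    (etaPv N1 S p eP n qP qv h2 hc hcomm) (thetaPv N1 S qP qv θ α)
    (tEisPolyPv p eP n qP qv ℓ₀) hθ ⟨Nn, fun x => by rw [hE]; exact hNn x⟩

end Main

/-! ## 4. The universally quantified leaves -/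

/-- **P-HSTEP (C)**. -/
theorem stmt_P_HSTEPC : Stmt_P_HSTEPC := by
  intro 𝒪 _ _ _ _ _ _ ϖ p _ N1 _ S Smin θ ρbar k Pv eP hstd Dm n r qv _ _ _ _ D
  exact p_hstepC hstd.hϖ hstd.hyp.hp𝒪
    (Nat.cast_ne_zero.mpr (Fact.out : p.Prime).ne_zero) D

/-- **P-HSTEP (D)**. -/
theorem stmt_P_HSTEPD : Stmt_P_HSTEPD := by
  intro 𝒪 _ _ _ _ _ _ ϖ p _ N1 _ S Smin θ ρbar k Pv eP hstd Dm n r qv _ _ _ _ D
  exact p_hstepD hstd.hϖ hstd.hyp.hp𝒪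
    (Nat.cast_ne_zero.mpr (Fact.out : p.Prime).ne_zero) D

end Fermat.Agent.L.Pivot.Geom.H70
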