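import Fermat.Agent.L.Pivot.Geom.H19_Setup
import Fermat.Agent.L.Pivot.Geom.H4_EigPartW
import Fermat.Agent.L.Pivot.Geom.H70_PHstep
import Fermat.Agent.NEB.EIG.H98_Asm
import Fermat.Agent.NEB.Geom.H84_Eta
import Fermat.Agent.NEB.Geom.H6_WNonEis

/-!
# PIVOT, package PV-GEOM, Part I, leaf P-ETA, the `η` half (helper11)

The Hecke ring of level `pvLevel N1 qP qv = N1 ∏ qP_j ∏ qv_i²` acts on the module `W'`
(`Wpv`, the `θ⁺`-part of `𝒪 ⊗ J_H'[p^∞]`) through the twisted operators `T'_ℓ`, locally at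
`θ ∘ restTW ∘ restPV`, as soon as `W'` is divisible.

* `exists_etaW_JH` : W-EIG (helper39's `stmt_EIG_W`) for `A = J_H[p^∞]` at a level `M` which is
  only PROPOSITIONALLY equal to `N c` (EIG-ASM of helper98 transported along `M = N c`);
* `pvLevel_eq`, `pvM_eq`, `pvList_*`, `not_dvd_base`, `prime_mem_twSet` : the arithmetic of
  `N := N1 / ∏ qP_j`, `c' = ∏ qP_j ∏ qv_i`, `M1 = N1 ∏ qv_i = N c'`, `pvLevel = N c'²`;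
* `pdiv_of_isDiv` : a `ϖ`-divisible module is `p`-divisible;
* `peta_eta` : the `η` half of `Stmt_P_ETA` from `IsDiv ϖ W'`;
* `Stmt_P_ISDIV` (the other half) and `stmt_P_ETA_of : Stmt_P_ISDIV → Stmt_P_ETA`;
* `stmt_P_ETA : Stmt_P_ETA`, unconditional (divisibility = helper70's `H70.isDiv_Wpv`);
* `stmt_P_SETUP_of_noneis : Stmt_W_NONEIS → Stmt_P_SETUP`, `stmt_P_SETUP : Stmt_P_SETUP`.
-/

set_option autoImplicit false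
set_option linter.unusedSectionVars false
set_option linter.style.haveILetI false
set_option linter.unusedVariables false

noncomputable section

open ModularCurve AlgebraicCurve IsLocalRing TensorProduct Polynomial

namespace Fermat.Agent.L.Pivot.Geom.H11

open Fermat.Agent.NEB Fermat.Agent.NEB.JH Fermat.Agent.NEB.Geom Fermat.Agent.S59.Lim
  Fermat.Agent.S59.Lim.H2 Fermat.Agent.S59.Asm Fermat.Agent.L.Pivot.Geom

/-! ## 1. W-EIG for `J_H[p^∞]` at a level `M = N c` -/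

/-- **W-EIG for `J_H[p^∞]`**: helper39's `stmt_EIG_W` (in helper4's form `H4.stmt_EIG_W_M`, level
`M` with `M = N c` propositionally) with helper98's EIG-ASM (`monoSys`, `monoSys_Tz`,
`monoSys_diaZ`, `commute_Tz_diaZ`, `diaZ_pow_eq_one`). -/
theorem exists_etaW_JH (p : ℕ) [Fact p.Prime] (N : ℕ) (hN : N ≠ 0) (qs : List ℕ)
    (hnd : qs.Nodup) (hpr : ∀ q ∈ qs, q.Prime) (hqN : ∀ q ∈ qs, ¬ q ∣ N)
    (c N' M : ℕ) (hc : c = qs.prod) (hN' : N' = N * c * c) (hM : M = N * c)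
    [NeZero N'] [NeZero M] [NeZero c]
    (S : Set ℕ) (hS : ∀ q : ℕ, q.Prime → q ∣ N' → q ∈ S)
    (H : Subgroup (ZMod c)ˣ) (h2 : 2 ≤ c) (hcM : c ∣ M) (j : ℕ)
    (hj : ∀ d : (ZMod c)ˣ, d ^ (2 * j + 1) ∈ H ∨ -(d ^ (2 * j + 1)) ∈ H)
    {𝒪 : Type} [CommRing 𝒪] [IsLocalRing 𝒪] {𝕋 : Type} [CommRing 𝕋]
    (etaT : 𝕋 →+* Module.End ℤ (AH M c H p)) (θ : 𝕋 →+* ResidueField 𝒪)
    (hWdiv : ∀ w : ↥(thetaPart etaT θ), ∃ w' : ↥(thetaPart etaT θ), (p : 𝒪) • w' = w)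
    (z : ℕ → 𝕋)
    (hz : ∀ (ℓ : ℕ), ℓ.Prime → ¬ ℓ ∣ N' → ℓ ∉ S →
      etaT (z ℓ) = Tz M c H h2 hcM p ℓ *
        diaZ M c H h2 hcM p (Fermat.Agent.NEB.EIG.H39.unitOf c ℓ) ^ j)
    (θ' : CuspForm.heckeAlgebra N' 2 S →+* ResidueField 𝒪)
    (hθ : ∀ (ℓ : ℕ) (hℓ : ℓ.Prime) (hℓN : ¬ ℓ ∣ N') (hℓS : ℓ ∉ S),
      θ' (CuspForm.heckeAlgebra.T hℓ hℓN hℓS) = θ (z ℓ)) :
    ∃ etaW : CuspForm.heckeAlgebra N' 2 S →+* Module.End 𝒪 ↥(thetaPart etaT θ),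
      (∀ (ℓ : ℕ) (hℓ : ℓ.Prime) (hℓN : ¬ ℓ ∣ N') (hℓS : ℓ ∉ S),
        etaW (CuspForm.heckeAlgebra.T hℓ hℓN hℓS) = thetaEta etaT θ (z ℓ)) ∧
      (∀ x, ∃ t : 𝕋, etaW x = thetaEta etaT θ t ∧ θ' x = θ t) ∧
      (∀ (x : CuspForm.heckeAlgebra N' 2 S) (a : 𝒪), residue 𝒪 a = θ' x →
        ∀ w : ↥(thetaPart etaT θ),
          ∃ m : ℕ, ((etaW x - a • (1 : Module.End 𝒪 ↥(thetaPart etaT θ))) ^ m) w = 0) :=
  Fermat.Agent.L.Pivot.Geom.H4.stmt_EIG_W_M p N hN qs hnd hpr hqN c N' M hc hM hcM hN' S hS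
    (AH M c H p) (fun x => isPTors_coe x)
    (Fermat.Agent.NEB.Geom.H84.finite_AH_p H h2 hcM p)
    (Fermat.Agent.NEB.EIG.H98.monoSys M c H h2 hcM p Fermat.Agent.NEB.H70.iotaC)
    (Tz M c H h2 hcM p)
    (fun ℓ hℓ hℓM k x hx =>
      Fermat.Agent.NEB.EIG.H98.monoSys_Tz M c H h2 hcM p Fermat.Agent.NEB.H70.iotaC
        ℓ hℓ hℓM k x hx)
    (diaZ M c H h2 hcM p)
    (fun g hg d hd k x hx =>
      Fermat.Agent.NEB.EIG.H98.monoSys_diaZ M c H h2 hcM p Fermat.Agent.NEB.H70.iotaC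
        g hg d hd k x hx)
    (fun ℓ _ _ d => Fermat.Agent.NEB.EIG.H98.commute_Tz_diaZ M c H h2 hcM p ℓ d)
    j (fun d => Fermat.Agent.NEB.EIG.H98.diaZ_pow_eq_one M c H h2 hcM p hj d)
    etaT θ hWdiv z hz θ' hθ

/-! ## 2. Arithmetic of the levels -/

section Arith

variable {k r : ℕ} (qP : Fin k → ℕ) (qv : Fin r → ℕ)

/-- `pvLevel = N c'²` with `N = N1 / ∏ qP_j`. -/
theorem pvLevel_eq (N1 : ℕ) (hd : twC qP ∣ N1) (h0 : twC qP ≠ 0) :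
    pvLevel N1 qP qv = N1 / twC qP * pvC qP qv * pvC qP qv := by
  obtain ⟨m, rfl⟩ := hd
  rw [Nat.mul_div_cancel_left m (Nat.pos_of_ne_zero h0)]
  unfold pvLevel twLevel pvC
  have h1 : ∏ j, qv j ^ 2 = twC qv ^ 2 := Finset.prod_pow _ _ _
  have h2 : ∏ j, qP j = twC qP := rfl
  rw [h1, h2]
  ring

/-- `M1 = N c'` with `N = N1 / ∏ qP_j`. -/
theorem pvM_eq (N1 : ℕ) (hd : twC qP ∣ N1) (h0 : twC qP ≠ 0) :
    N1 * twC qv = N1 / twC qP * pvC qP qv := by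
  obtain ⟨m, rfl⟩ := hd
  rw [Nat.mul_div_cancel_left m (Nat.pos_of_ne_zero h0)]
  unfold pvC
  ring

/-- The list of the primes of `c'`. -/
def pvList : List ℕ := List.ofFn qP ++ List.ofFn qv

theorem pvList_prod : (pvList qP qv).prod = pvC qP qv := by
  unfold pvList pvC twC
  rw [List.prod_append, List.prod_ofFn, List.prod_ofFn]

theorem mem_pvList {q : ℕ} :
    q ∈ pvList qP qv ↔ (∃ j, qP j = q) ∨ ∃ i, qv i = q := by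
  unfold pvList
  rw [List.mem_append, List.mem_ofFn, List.mem_ofFn]

variable {qP qv}

theorem pvList_nodup {N1 : ℕ} {S : Finset ℕ} {p : ℕ} {eP : Fin k → ℕ} {n : ℕ}
    (h : PvHyp N1 S p eP n qP qv) : (pvList qP qv).Nodup := by
  unfold pvList
  rw [List.nodup_append]
  refine ⟨List.nodup_ofFn.mpr h.injP, List.nodup_ofFn.mpr h.inj, ?_⟩
  intro a ha b hb hab
  obtain ⟨j, rfl⟩ := List.mem_ofFn.mp ha
  obtain ⟨i, hi⟩ := List.mem_ofFn.mp hb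
  exact h.qP_ne_qv j i (hab.trans hi.symm)

theorem pvList_prime {N1 : ℕ} {S : Finset ℕ} {p : ℕ} {eP : Fin k → ℕ} {n : ℕ}
    (h : PvHyp N1 S p eP n qP qv) : ∀ q ∈ pvList qP qv, q.Prime := by
  intro q hq
  rcases (mem_pvList qP qv).mp hq with ⟨j, rfl⟩ | ⟨i, rfl⟩
  · exact h.primeP j
  · exact h.prime i

theorem twC_P_dvd {N1 : ℕ} {S : Finset ℕ} {p : ℕ} {eP : Fin k → ℕ} {n : ℕ}
    (h : PvHyp N1 S p eP n qP qv) : twC qP ∣ N1 :=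
  twC_dvd_of_prime qP h.injP h.primeP N1 h.dvdP

theorem twC_P_ne_zero {N1 : ℕ} {S : Finset ℕ} {p : ℕ} {eP : Fin k → ℕ} {n : ℕ}
    (h : PvHyp N1 S p eP n qP qv) : twC qP ≠ 0 :=
  twC_ne_zero_of_prime qP h.primeP

/-- The primes of `c'` do not divide `N = N1 / ∏ qP_j` (`N1` is squarefree). -/
theorem not_dvd_base {N1 : ℕ} {S : Finset ℕ} {p : ℕ} {eP : Fin k → ℕ} {n : ℕ}
    (h : PvHyp N1 S p eP n qP qv) : ∀ q ∈ pvList qP qv, ¬ q ∣ N1 / twC qP := by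
  intro q hq hd
  have hdP := twC_P_dvd h
  have hN1 : N1 / twC qP * twC qP = N1 := Nat.div_mul_cancel hdP
  rcases (mem_pvList qP qv).mp hq with ⟨j, rfl⟩ | ⟨i, rfl⟩
  · have h1 : qP j * qP j ∣ N1 := by
      rw [← hN1]
      exact mul_dvd_mul hd (dvd_twC_self qP j)
    have h2 : IsUnit (qP j) := h.hsq (qP j) h1
    exact (h.primeP j).one_lt.ne' (Nat.isUnit_iff.mp h2)
  · have h1 : qv i ∣ N1 := dvd_trans hd (Nat.div_dvd_of_dvd hdP)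
    exact h.notS i (h.hNS _ (h.prime i) h1)

/-- `N = N1 / ∏ qP_j ≠ 0`. -/
theorem base_ne_zero {N1 : ℕ} {S : Finset ℕ} {p : ℕ} {eP : Fin k → ℕ} {n : ℕ}
    (h : PvHyp N1 S p eP n qP qv) : N1 / twC qP ≠ 0 := by
  intro h0
  have hN1 : N1 / twC qP * twC qP = N1 := Nat.div_mul_cancel (twC_P_dvd h)
  rw [h0, zero_mul] at hN1
  exact h.hN hN1.symm

/-- The primes of `pvLevel` lie in `twSet S qv`. -/
theorem prime_mem_twSet {N1 : ℕ} {S : Finset ℕ} {p : ℕ} {eP : Fin k → ℕ} {n : ℕ}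
    (h : PvHyp N1 S p eP n qP qv) (q : ℕ) (hq : q.Prime) (hd : q ∣ pvLevel N1 qP qv) :
    q ∈ (↑(twSet S qv) : Set ℕ) := by
  have h1 : q ∣ twLevel N1 qv := H4.prime_dvd_twLevel_of_dvd_pvLevel N1 qP qv h.dvdP q hq hd
  by_cases h2 : q ∣ N1
  · exact H41.subset_twSet S qv (h.hNS q hq h2)
  · exact H41.new_prime_mem_twSet N1 S qv h.prime q hq h1 h2

/-- The exponent `2 jPv + 1 = p ^ E` kills `Δ'`. -/
theorem pow_jPv_mem {N1 : ℕ} {S : Finset ℕ} {p : ℕ} {eP : Fin k → ℕ} {n : ℕ}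
    (h : PvHyp N1 S p eP n qP qv) (d : (ZMod (pvC qP qv))ˣ) :
    d ^ (2 * jPv p eP n + 1) ∈ pvH qP qv p eP n ∨
      -(d ^ (2 * jPv p eP n + 1)) ∈ pvH qP qv p eP n := by
  left
  rw [two_jPv p eP n h.hp h.hp2]
  exact pow_mem_pvH qP qv p eP n d

end Arith

/-! ## 3. Divisibility -/

/-- A `ϖ`-divisible module over a discrete valuation ring is `p`-divisible (`p ≠ 0`). -/
theorem pdiv_of_isDiv {𝒪 : Type} [CommRing 𝒪] [IsDomain 𝒪] [IsDiscreteValuationRing 𝒪]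
    {ϖ : 𝒪} (hϖ : Irreducible ϖ) {p : ℕ} (hp0 : (p : 𝒪) ≠ 0)
    {W : Type*} [AddCommGroup W] [Module 𝒪 W] (h : IsDiv ϖ W) :
    ∀ w : W, ∃ w' : W, (p : 𝒪) • w' = w := by
  obtain ⟨e, u, hu⟩ := IsDiscreteValuationRing.eq_unit_mul_pow_irreducible hp0 hϖ
  have hpow : ∀ (e : ℕ) (w : W), ∃ w' : W, ϖ ^ e • w' = w := by
    intro e
    induction e with
    | zero => exact fun w => ⟨w, by rw [pow_zero, one_smul]⟩
    | succ e ih =>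
      intro w
      obtain ⟨w₁, hw₁⟩ := h.div w
      obtain ⟨w₂, hw₂⟩ := ih w₁
      exact ⟨w₂, by rw [pow_succ, mul_comm, mul_smul, hw₂, hw₁]⟩
  intro w
  obtain ⟨w₁, hw₁⟩ := hpow e w
  refine ⟨((u⁻¹ : 𝒪ˣ) : 𝒪) • w₁, ?_⟩
  rw [hu, smul_smul, mul_comm (↑u : 𝒪) (ϖ ^ e), mul_assoc, Units.mul_inv, mul_one, hw₁]

/-! ## 4. The `η` half of P-ETA -/

section Eta

variable (𝒪 : Type) [CommRing 𝒪] [IsDomain 𝒪] [IsDiscreteValuationRing 𝒪] (p : ℕ)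
  (N1 : ℕ) [NeZero N1]
  (S : Finset ℕ) (θ : CuspForm.heckeAlgebra N1 2 (↑S : Set ℕ) →+* ResidueField 𝒪)
  {k : ℕ} (qP : Fin k → ℕ) (eP : Fin k → ℕ) (n : ℕ) {r : ℕ} (qv : Fin r → ℕ)
  [NeZero (N1 * twC qv)] [NeZero (pvC qP qv)] [NeZero (twLevel N1 qv)]
  [NeZero (pvLevel N1 qP qv)]

/-- `η⁺ (x_ℓ) = T_ℓ^H ⟨ℓ⟩^jPv` at the good primes of the level `pvLevel`. -/
theorem etaPv_X_good (h2 : 2 ≤ pvC qP qv) (hc : pvC qP qv ∣ N1 * twC qv)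
    (hcomm : ∀ i j, Commute (opsPv N1 S p eP n qP qv h2 hc i)
      (opsPv N1 S p eP n qP qv h2 hc j))
    (ℓ : ℕ) (hℓ : ℓ.Prime) (hℓN : ¬ ℓ ∣ pvLevel N1 qP qv)
    (hℓS : ℓ ∉ (↑(twSet S qv) : Set ℕ)) :
    etaPv N1 S p eP n qP qv h2 hc hcomm (MvPolynomial.X (Sum.inl ℓ))
      = Tz (N1 * twC qv) (pvC qP qv) (pvH qP qv p eP n) h2 hc p ℓ *
        diaZ (N1 * twC qv) (pvC qP qv) (pvH qP qv p eP n) h2 hc p
          (Fermat.Agent.NEB.EIG.H39.unitOf (pvC qP qv) ℓ) ^ (jPv p eP n) := by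
  have hg : GoodTw N1 S qv ℓ := goodTw_of_pv N1 S qP qv hℓ hℓN hℓS
  rw [polyHom_X]
  exact if_pos hg

/-- `θ ∘ restTW ∘ restPV` and `θ⁺` agree on `T_ℓ`. -/
theorem thetaLvl_T (hprime : ∀ i, (qv i).Prime) (hdvd : ∀ j, qP j ∣ N1)
    (α : Fin r → ResidueField 𝒪)
    (ℓ : ℕ) (hℓ : ℓ.Prime) (hℓN : ¬ ℓ ∣ pvLevel N1 qP qv)
    (hℓS : ℓ ∉ (↑(twSet S qv) : Set ℕ)) :
    thetaLvl 𝒪 N1 S θ qP qv hprime hdvd (CuspForm.heckeAlgebra.T hℓ hℓN hℓS)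
      = thetaPv N1 S qP qv θ α (MvPolynomial.X (Sum.inl ℓ)) := by
  have hg : GoodTw N1 S qv ℓ := goodTw_of_pv N1 S qP qv hℓ hℓN hℓS
  rw [thetaPv_T N1 S qP qv θ α hg]
  have e1 := H4.restPV_T N1 S qP qv hdvd ℓ hℓ hℓN hℓS hg.2.1
  have e2 := H41.restTW_T N1 S qv hprime ℓ hℓ hg.2.1 hℓS hg.not_dvd hg.not_mem
  unfold thetaLvl
  rw [RingHom.comp_apply, RingHom.comp_apply, e1, e2]

end Eta

/-- **P-ETA, `η` half**: if `W'` is divisible then the Hecke ring of level `pvLevel` acts on it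
through the twisted operators, locally at `θ ∘ restTW ∘ restPV`. -/
theorem peta_eta (𝒪 : Type) [CommRing 𝒪] [IsDomain 𝒪] [IsDiscreteValuationRing 𝒪]
    [CharZero 𝒪] (ϖ : 𝒪) (hϖ : Irreducible ϖ) (p : ℕ) [Fact p.Prime] (N1 : ℕ) [NeZero N1]
    (S : Finset ℕ) (θ : CuspForm.heckeAlgebra N1 2 (↑S : Set ℕ) →+* ResidueField 𝒪)
    {k : ℕ} (qP : Fin k → ℕ) (eP : Fin k → ℕ) (n r : ℕ) (qv : Fin r → ℕ)
    [NeZero (N1 * twC qv)] [NeZero (pvC qP qv)] [NeZero (twLevel N1 qv)]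
    [NeZero (pvLevel N1 qP qv)]
    (hPV : PvHyp N1 S p eP n qP qv) (h2 : 2 ≤ pvC qP qv)
    (hc : pvC qP qv ∣ N1 * twC qv)
    (hcomm : ∀ i j, Commute (opsPv N1 S p eP n qP qv h2 hc i)
      (opsPv N1 S p eP n qP qv h2 hc j))
    (α : Fin r → ResidueField 𝒪)
    (hdiv : IsDiv ϖ ↥(Wpv N1 S p eP n qP qv h2 hc 𝒪 hcomm θ α)) :
    ∃ η : CuspForm.heckeAlgebra (pvLevel N1 qP qv) 2 (↑(twSet S qv) : Set ℕ) →+*
        Module.End 𝒪 ↥(Wpv N1 S p eP n qP qv h2 hc 𝒪 hcomm θ α),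
      (∀ (ℓ : ℕ) (hℓ : ℓ.Prime) (hℓN : ¬ ℓ ∣ pvLevel N1 qP qv)
        (hℓS : ℓ ∉ (↑(twSet S qv) : Set ℕ)),
        η (CuspForm.heckeAlgebra.T hℓ hℓN hℓS) =
          thetaEta (etaPv N1 S p eP n qP qv h2 hc hcomm) (thetaPv N1 S qP qv θ α)
            (MvPolynomial.X (Sum.inl ℓ))) ∧
      (∀ (t : CuspForm.heckeAlgebra (pvLevel N1 qP qv) 2 (↑(twSet S qv) : Set ℕ)) (a₀ : 𝒪),
        residue 𝒪 a₀ = thetaLvl 𝒪 N1 S θ qP qv hPV.prime hPV.dvdP t →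
        ∀ x : ↥(Wpv N1 S p eP n qP qv h2 hc 𝒪 hcomm θ α), ϖ • x = 0 →
          ∃ m : ℕ, ((η t - a₀ • (1 : Module.End 𝒪
            ↥(Wpv N1 S p eP n qP qv h2 hc 𝒪 hcomm θ α))) ^ m) x = 0) := by
  have hp0 : (p : 𝒪) ≠ 0 := Nat.cast_ne_zero.mpr (Fact.out : p.Prime).ne_zero
  have hWdiv := pdiv_of_isDiv hϖ hp0 hdiv
  have key := exists_etaW_JH p (N1 / twC qP) (base_ne_zero hPV)
    (pvList qP qv) (pvList_nodup hPV) (pvList_prime hPV) (not_dvd_base hPV)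
    (pvC qP qv) (pvLevel N1 qP qv) (N1 * twC qv) (pvList_prod qP qv).symm
    (pvLevel_eq qP qv N1 (twC_P_dvd hPV) (twC_P_ne_zero hPV))
    (pvM_eq qP qv N1 (twC_P_dvd hPV) (twC_P_ne_zero hPV))
    (↑(twSet S qv) : Set ℕ) (prime_mem_twSet hPV)
    (pvH qP qv p eP n) h2 hc (jPv p eP n) (pow_jPv_mem hPV)
    (𝒪 := 𝒪) (𝕋 := PolyTw r (pvC qP qv))
    (etaPv N1 S p eP n qP qv h2 hc hcomm) (thetaPv N1 S qP qv θ α)
    hWdiv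
    (fun ℓ => MvPolynomial.X (Sum.inl ℓ))
    (etaPv_X_good p N1 S qP eP n qv h2 hc hcomm)
    (thetaLvl 𝒪 N1 S θ qP qv hPV.prime hPV.dvdP)
    (thetaLvl_T 𝒪 N1 S θ qP qv hPV.prime hPV.dvdP α)
  obtain ⟨etaW, h1, -, h3⟩ := key
  exact ⟨etaW, h1, fun t a₀ ha x _ => h3 t a₀ ha x⟩

/-! ## 5. P-ETA from the divisibility of `W'` -/

/-- **P-ISDIV**: the first half of `Stmt_P_ETA` (leaf of helper80: W-DIV + the mixed tower). -/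
def Stmt_P_ISDIV : Prop :=
  ∀ (𝒪 : Type) [CommRing 𝒪] [IsDomain 𝒪] [IsDiscreteValuationRing 𝒪]
    [IsAdicComplete (maximalIdeal 𝒪) 𝒪] [Finite (ResidueField 𝒪)] [CharZero 𝒪]
    (ϖ : 𝒪) (p : ℕ) [Fact p.Prime] (N1 : ℕ) [NeZero N1] (S Smin : Finset ℕ)
    (θ : CuspForm.heckeAlgebra N1 2 (↑S : Set ℕ) →+* ResidueField 𝒪)
    (ρbar : ResidualGaloisRep (ResidueField 𝒪)) (k : ℕ) (Pv : PivotPrimes k)
    (eP : Fin k → ℕ), PvStd 𝒪 ϖ p N1 S Smin θ ρbar Pv eP →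
    ∀ (n r : ℕ) (qv : Fin r → ℕ)
      [NeZero (N1 * twC qv)] [NeZero (pvC Pv.q qv)] [NeZero (twLevel N1 qv)]
      [NeZero (pvLevel N1 Pv.q qv)]
      (hPV : PvHyp N1 S p eP n Pv.q qv) (h2 : 2 ≤ pvC Pv.q qv)
      (hc : pvC Pv.q qv ∣ N1 * twC qv)
      (hcomm : ∀ i j, Commute (opsPv N1 S p eP n Pv.q qv h2 hc i)
        (opsPv N1 S p eP n Pv.q qv h2 hc j))
      (α : Fin r → ResidueField 𝒪) (ℓ₀ : ℕ) (hℓ₀ : GoodTw N1 S qv ℓ₀),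
      θ (CuspForm.heckeAlgebra.T hℓ₀.1 hℓ₀.not_dvd hℓ₀.not_mem) ≠ ((ℓ₀ : ResidueField 𝒪) + 1) →
    IsDiv ϖ ↥(Wpv N1 S p eP n Pv.q qv h2 hc 𝒪 hcomm θ α)

/-- **P-ETA** from the divisibility of `W'`. -/
theorem stmt_P_ETA_of (hD : Stmt_P_ISDIV) : Stmt_P_ETA := by
  intro 𝒪 _ _ _ _ _ _ ϖ p _ N1 _ S Smin θ ρbar k Pv eP hstd n r qv _ _ _ _ hPV h2 hc hcomm α
    ℓ₀ hℓ₀ hne
  have hdiv := hD 𝒪 ϖ p N1 S Smin θ ρbar k Pv eP hstd n r qv hPV h2 hc hcomm α ℓ₀ hℓ₀ hne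
  exact ⟨hdiv, peta_eta 𝒪 ϖ hstd.hϖ p N1 S θ Pv.q eP n r qv hPV h2 hc hcomm α hdiv⟩

/-- Generators of `Δ'` exist (`H19.exists_sigma_pv` at chosen places). -/
theorem exists_deltaGen {N1 : ℕ} {S : Finset ℕ} {p : ℕ} {k : ℕ} {eP : Fin k → ℕ} {n : ℕ}
    {qP : Fin k → ℕ} {r : ℕ} {qv : Fin r → ℕ} [NeZero (pvC qP qv)]
    (hPV : PvHyp N1 S p eP n qP qv) :
    ∃ (δP : Fin k → (ZMod (pvC qP qv))ˣ) (δQ : Fin r → (ZMod (pvC qP qv))ˣ),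
      IsDeltaGenPv p eP n qP qv δP δQ := by
  have hex : ∀ i : Fin r, ∃ (A : ValuationSubring Kbar) (σ : GalK),
      A.LiesOverPrime (qv i) ∧ A.IsFrobeniusAt σ (qv i) :=
    fun i => Fermat.Agent.Lib.FrobExists.exists_place_and_frobenius (qv i) (hPV.prime i)
  choose P frob hP hfr using hex
  obtain ⟨σ, δP, hσ, hδ⟩ := H19.exists_sigma_pv hPV P hP
  exact ⟨δP, _, hδ⟩

/-- **P-ISDIV**, unconditional (helper70's `H70.isDiv_Wpv`). -/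
theorem stmt_P_ISDIV : Stmt_P_ISDIV := by
  intro 𝒪 _ _ _ _ _ _ ϖ p _ N1 _ S Smin θ ρbar k Pv eP hstd n r qv _ _ _ _ hPV h2 hc hcomm α
    ℓ₀ hℓ₀ hne
  have hp0 : (p : 𝒪) ≠ 0 := Nat.cast_ne_zero.mpr (Fact.out : p.Prime).ne_zero
  obtain ⟨δP, δQ, hδ⟩ := exists_deltaGen hPV
  exact H70.isDiv_Wpv (𝒪 := 𝒪) (ϖ := ϖ) (p := p) (N1 := N1) (S := S) (θ := θ) (eP := eP)
    (n := n) (qP := Pv.q) (qv := qv) hstd.hϖ hstd.hyp.hp𝒪 hp0 h2 hc hcomm α hPV hδ ℓ₀ hℓ₀ hne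

/-- **P-ETA**, unconditional: the divisibility is helper70's `H70.isDiv_Wpv` (with the generators
of `Δ'` of `H19.exists_sigma_pv`), the Hecke action is `peta_eta`. -/
theorem stmt_P_ETA : Stmt_P_ETA :=
  stmt_P_ETA_of stmt_P_ISDIV

/-- **P-SETUP** from W-NONEIS alone. -/
theorem stmt_P_SETUP_of_noneis (hNE : Stmt_W_NONEIS) : Stmt_P_SETUP :=
  stmt_P_SETUP_of hNE stmt_P_ETA

/-- **P-SETUP**, unconditional (W-NONEIS is helper6's `H6.stmt_W_NONEIS`). -/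
theorem stmt_P_SETUP : Stmt_P_SETUP :=
  stmt_P_SETUP_of Fermat.Agent.NEB.Geom.H6.stmt_W_NONEIS stmt_P_ETA

end Fermat.Agent.L.Pivot.Geom.H11

end
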