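import Fermat.Agent.NEB.Geom.H14_OmegaGen
import Fermat.Agent.NEB.Geom.H14_PiAbs
import Fermat.Agent.L.Pivot.Geom.DefsPV

/-!
# PIVOT, package PV-GEOM (helper14): the isomorphism `ω` for `Ypv`

`exists_omega_pv` : an additive map `Φ : J₀(N1 c_Q) → J₀(N1)`, Hecke-equivariant at the good
primes and Galois-equivariant, such that `(resP p Φ)_𝒪` maps `Ypv` bijectively onto the `θ`-part
of `𝒪 ⊗ J₀(N1)[p^∞]`.  (`r = 0` allowed.)  Use with `NEB.Geom.H14.pi_wire_abs`.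
-/

set_option autoImplicit false
set_option linter.unusedSectionVars false
set_option linter.unusedVariables false
set_option linter.style.haveILetI false

noncomputable section

open ModularCurve AlgebraicCurve IsLocalRing TensorProduct Polynomial

namespace Fermat.Agent.L.Pivot.Geom.H14

open Fermat.Agent.NEB Fermat.Agent.NEB.JH Fermat.Agent.S59.Asm Fermat.Agent.S59.Lim
  Fermat.Agent.S59.Lim.H2 Fermat.Agent.NEB.Geom Fermat.Agent.NEB.OLD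
  Fermat.Agent.L.Pivot.Geom

variable {𝒪 : Type} [CommRing 𝒪] [IsDomain 𝒪] [IsDiscreteValuationRing 𝒪]
  {p : ℕ} {N1 : ℕ} [NeZero N1] {S : Finset ℕ} {k : ℕ} {qP : Fin k → ℕ} {r : ℕ}
  {qv : Fin r → ℕ} [NeZero (N1 * twC qv)]

theorem isOmegaFam_pv (θ : CuspForm.heckeAlgebra N1 2 (↑S : Set ℕ) →+* ResidueField 𝒪)
    (α : Fin r → ResidueField 𝒪) :
    Fermat.Agent.NEB.Geom.H14.IsOmegaFam (p := p) θ α (opsPv0 N1 S p qP qv)
      (thetaPvVal N1 S qP qv θ α) := by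
  classical
  refine ⟨?_, ?_, ?_⟩
  · intro i
    rcases i with ℓ | j | u
    · by_cases hg : GoodTw N1 S qv ℓ
      · refine Or.inl ⟨ℓ, hg, ?_, ?_⟩
        · simp only [opsPv0, if_pos hg]
        · simp only [thetaPvVal, dif_pos hg]
      · refine Or.inr (Or.inr (Or.inl ⟨?_, ?_⟩))
        · simp only [opsPv0, if_neg hg]
        · simp only [thetaPvVal, dif_neg hg]
    · exact Or.inr (Or.inl ⟨j, rfl, rfl⟩)
    · exact Or.inr (Or.inr (Or.inr ⟨rfl, rfl⟩))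
  · intro ℓ hg
    refine ⟨Sum.inl ℓ, ?_, ?_⟩
    · simp only [opsPv0, if_pos hg]
    · simp only [thetaPvVal, dif_pos hg]
  · intro j
    exact ⟨Sum.inr (Sum.inl j), rfl, rfl⟩

/-- **The isomorphism `ω` for `Ypv`.** -/
theorem exists_omega_pv (hp0 : (p : 𝒪) ≠ 0) (hinj : Function.Injective qv)
    (hprime : ∀ j, (qv j).Prime) (hnotS : ∀ j, qv j ∉ S)
    (hNS : ∀ q : ℕ, q.Prime → q ∣ N1 → q ∈ S)
    (hcomm0 : ∀ i j, Commute (opsPv0 N1 S p qP qv i) (opsPv0 N1 S p qP qv j))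
    (θ : CuspForm.heckeAlgebra N1 2 (↑S : Set ℕ) →+* ResidueField 𝒪)
    (α β : Fin r → ResidueField 𝒪) (hE : TwEig 𝒪 N1 S qv θ α β)
    (ηC : CuspForm.heckeAlgebra N1 2 (↑S : Set ℕ) →+* Module.End ℤ (A0 N1 p))
    (hηC : ∀ (ℓ : ℕ) (hℓ : ℓ.Prime) (hℓN : ¬ ℓ ∣ N1) (hℓS : ℓ ∉ (↑S : Set ℕ)),
      ηC (CuspForm.heckeAlgebra.T hℓ hℓN hℓS) = Tz0 N1 p ℓ) :
    ∃ Φ : JZero (N1 * twC qv) →+ JZero N1,
      (∀ (ℓ : ℕ) [NeZero ℓ], GoodTw N1 S qv ℓ →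
        ∀ y, Φ (U0 (N1 * twC qv) ℓ y) = U0 N1 ℓ (Φ y)) ∧
      (∀ (σ : Fermat.Agent.NEB.Geom.GalQ) (y : JZero (N1 * twC qv)), Φ (σ • y) = σ • Φ y) ∧
      (∀ v ∈ Ypv N1 S p qP qv 𝒪 hcomm0 θ α, (resP p Φ).baseChange 𝒪 v ∈ thetaPart ηC θ) ∧
      (∀ x ∈ thetaPart ηC θ, ∃ v ∈ Ypv N1 S p qP qv 𝒪 hcomm0 θ α,
        (resP p Φ).baseChange 𝒪 v = x) ∧
      (∀ v ∈ Ypv N1 S p qP qv 𝒪 hcomm0 θ α, (resP p Φ).baseChange 𝒪 v = 0 → v = 0) :=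
  Fermat.Agent.NEB.Geom.H14.exists_omega_gen hp0 hinj hprime hnotS hNS θ α β hE
    (opsPv0 N1 S p qP qv) (thetaPvVal N1 S qP qv θ α) (isOmegaFam_pv θ α) hcomm0 ηC hηC

end Fermat.Agent.L.Pivot.Geom.H14
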