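import Fermat.Agent.L.Pivot.Geom.H59_TowerE
import Fermat.Agent.S59.Lim.H2_KerNm

/-!
# PIVOT, package PV-GEOM, leaf PVG-A' (helper59): kernel of the total norm, mixed exponents

`V` an `𝒪`-module with commuting operators `c j`, `c j ^ m j = 1`, and an `𝒪`-basis of the shape
`mon c x (b i)` (`i : ι`, `x ∈ ∏ j, Fin (m j)`).  Then `ker (nmTotE m c) = ⨆ j, range (c j - 1)`.
-/

set_option autoImplicit false
set_option linter.unusedSectionVars false

noncomputable section

open Module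

namespace Fermat.Agent.L.Pivot.Geom.H59

open Fermat.Agent.S59.TWH.H90 Fermat.Agent.S59.Lim.H2

section Abs

variable {𝒪 : Type*} [CommRing 𝒪] {V : Type*} [AddCommGroup V] [Module 𝒪 V]

/-- `c j * nmTotE = nmTotE`. -/
theorem mul_nmTotE : ∀ {r : ℕ} (m : Fin r → ℕ) (d : Fin r → End 𝒪 V),
    (∀ i j, Commute (d i) (d j)) → (∀ j, d j ^ m j = 1) → ∀ j, d j * nmTotE m d = nmTotE m d := by
  intro r
  induction r with
  | zero => intro m d _ _ j; exact j.elim0
  | succ r ih =>
    intro m d hcomm hpow j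
    rw [nmTotE_succ]
    refine Fin.cases ?_ (fun j' => ?_) j
    · rw [← mul_assoc, mul_nm_self (hpow 0)]
    · rw [← mul_assoc, ← (commute_nm (m 0) (hcomm 0 j'.succ)).eq, mul_assoc,
        ih (fun k => m k.succ) (fun k => d k.succ) (fun i k => hcomm i.succ k.succ)
          (fun k => hpow k.succ) j']

theorem range_sub_one_le_ker_nmTotE {r : ℕ} (m : Fin r → ℕ) (d : Fin r → End 𝒪 V)
    (hcomm : ∀ i j, Commute (d i) (d j)) (hpow : ∀ j, d j ^ m j = 1) (j : Fin r) :
    LinearMap.range (d j - 1) ≤ LinearMap.ker (nmTotE m d) := by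
  rintro _ ⟨w, rfl⟩
  rw [LinearMap.mem_ker, ← Module.End.mul_apply, mul_sub, mul_one,
    ← (commute_nmTotE m d (fun k => hcomm j k)).eq, mul_nmTotE m d hcomm hpow j, sub_self]
  rfl

theorem iSup_range_le_ker_nmTotE {r : ℕ} (m : Fin r → ℕ) (d : Fin r → End 𝒪 V)
    (hcomm : ∀ i j, Commute (d i) (d j)) (hpow : ∀ j, d j ^ m j = 1) :
    (⨆ j, LinearMap.range (d j - 1)) ≤ LinearMap.ker (nmTotE m d) :=
  iSup_le fun j => range_sub_one_le_ker_nmTotE m d hcomm hpow j

/-- the total norm as a sum over the box `∏ j, Fin (m j)`. -/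
theorem nmTotE_apply_eq_sum :
    ∀ (r : ℕ) (m : Fin r → ℕ) (c : Fin r → End 𝒪 V) (v : V),
      nmTotE m c v = ∑ x : (∀ j : Fin r, Fin (m j)), mon c (fun j => (x j : ℕ)) v := by
  intro r
  induction r with
  | zero =>
    intro m c v
    rw [nmTotE_zero]
    simp [mon_zero]
  | succ r ih =>
    intro m c v
    rw [nmTotE_succ, Module.End.mul_apply, ih, nm_apply,
      ← (Fin.consEquiv fun j : Fin (r + 1) => Fin (m j)).sum_comp, Fintype.sum_prod_type,
      ← Fin.sum_univ_eq_sum_range (fun k => (c 0 ^ k)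
        (∑ x : (∀ j : Fin r, Fin (m j.succ)), mon (fun j => c j.succ) (fun j => (x j : ℕ)) v))
        (m 0)]
    refine Finset.sum_congr rfl fun k _ => ?_
    rw [map_sum]
    refine Finset.sum_congr rfl fun x _ => ?_
    rw [mon_succ, Module.End.mul_apply]
    rfl

/-- **KERNM with mixed exponents** (kernel part). -/
theorem ker_nmTotE_eq {r : ℕ} (m : Fin r → ℕ) (hm : ∀ j, 0 < m j) (d : Fin r → End 𝒪 V)
    (hcomm : ∀ i j, Commute (d i) (d j)) (hpow : ∀ j, d j ^ m j = 1)
    {ι : Type*} [Fintype ι] (b : ι → V)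
    (hb : Function.Bijective (fun f : ι × (∀ j : Fin r, Fin (m j)) → 𝒪 =>
      ∑ x : ι × (∀ j : Fin r, Fin (m j)), f x • mon d (fun j => (x.2 j : ℕ)) (b x.1))) :
    LinearMap.ker (nmTotE m d) = ⨆ j, LinearMap.range (d j - 1) := by
  classical
  set S : Submodule 𝒪 V := ⨆ j, LinearMap.range (d j - 1) with hS
  have hnm : ∀ g : ι → 𝒪, nmTotE m d (∑ i, g i • b i)
      = ∑ x : ι × (∀ j : Fin r, Fin (m j)), g x.1 • mon d (fun j => (x.2 j : ℕ)) (b x.1) := by
    intro g
    rw [map_sum, Fintype.sum_prod_type]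
    refine Finset.sum_congr rfl fun i _ => ?_
    rw [map_smul, nmTotE_apply_eq_sum, Finset.smul_sum]
  have x₀ : ∀ j : Fin r, Fin (m j) := fun j => ⟨0, hm j⟩
  refine le_antisymm ?_ (iSup_range_le_ker_nmTotE m d hcomm hpow)
  intro v hv
  obtain ⟨f, hf⟩ := hb.2 v
  simp only at hf
  set g : ι → 𝒪 := fun i => ∑ x : (∀ j : Fin r, Fin (m j)), f (i, x) with hg
  set u : V := ∑ i, g i • b i with hu
  have hvu : v - u ∈ S := by
    have h1 : v - u = ∑ x : ι × (∀ j : Fin r, Fin (m j)),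
        f x • (mon d (fun j => (x.2 j : ℕ)) (b x.1) - b x.1) := by
      rw [← hf, hu]
      simp only [smul_sub, Finset.sum_sub_distrib]
      congr 1
      rw [Fintype.sum_prod_type]
      refine Finset.sum_congr rfl fun i _ => ?_
      rw [hg, Finset.sum_smul]
    rw [h1]
    exact S.sum_mem fun x _ => S.smul_mem _ (mon_apply_sub_mem d _ _)
  have hu0 : nmTotE m d u = 0 := by
    have h1 : nmTotE m d (v - u) = 0 := iSup_range_le_ker_nmTotE m d hcomm hpow hvu
    rw [map_sub, LinearMap.mem_ker.mp hv, zero_sub, neg_eq_zero] at h1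
    exact h1
  rw [hu, hnm] at hu0
  have hg0 : (fun x : ι × (∀ j : Fin r, Fin (m j)) => g x.1) = 0 := by
    apply hb.1
    simp only
    rw [hu0]
    simp
  have hgi : ∀ i, g i = 0 := fun i => congrFun hg0 (i, x₀)
  have hu' : u = 0 := by
    rw [hu]
    exact Finset.sum_eq_zero fun i _ => by rw [hgi i, zero_smul]
  rw [hu', sub_zero] at hvu
  exact hvu

end Abs

end Fermat.Agent.L.Pivot.Geom.H59
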