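import Fermat.Agent.L.Pivot.Geom.H70_TowerZ
import Fermat.Agent.L.Pivot.Geom.H70_PvMix
import Fermat.Agent.L.Pivot.Geom.H59_KerNmE
import Fermat.Agent.NEB.Geom.H29_TowerInst

/-!
# PIVOT, package PV-GEOM, leaf P-PI (helper18): the norm formula with mixed exponents

Generic complement of helper70's `H70_TowerZ.lean` (clone of helper29's `tw_norm`):

* `mix_norm`      : `π^* π_* = ∏_j ∑_{a < p^(e j)} ⟨δ_j⟩^a` on `J_H[p^∞]`, `H = mixH`;
* `mix_diaZ_mem`  : `⟨h⟩ = 1` for `h ∈ H`;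
* `nmTotE_append` : the total norm of an appended family is the product of the total norms;
* `pv_normZ`      : the norm formula for the PV objects, `π^* π_* = Nm_{Δ_Q} ∘ Nm_{Δ_Σ}`.
-/

set_option autoImplicit false
set_option linter.unusedSectionVars false
set_option linter.unusedVariables false
set_option linter.style.haveILetI false

noncomputable section

namespace Fermat.Agent.L.Pivot.Geom.H18

open AlgebraicCurve ModularCurve
open Fermat.Agent.NEB Fermat.Agent.NEB.H14 Fermat.Agent.NEB.JH Fermat.Agent.RED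
open Fermat.Agent.NEB.H29 Fermat.Agent.NEB.Geom Fermat.Agent.NEB.Geom.H29
open Fermat.Agent.S59.TWH.H90 Fermat.Agent.L.Pivot.Geom.H70 Fermat.Agent.L.Pivot.Geom.H59

/-! ## 1. Pure algebra: appended families -/

section Append

variable {A : Type*} [CommRing A] {V : Type*} [AddCommGroup V] [Module A V]

theorem nmTotE_append : ∀ {k : ℕ} {r : ℕ} (m : Fin k → ℕ) (m' : Fin r → ℕ)
    (c : Fin k → Module.End A V) (d : Fin r → Module.End A V),
    nmTotE (Fin.append m m') (Fin.append c d) = nmTotE m c * nmTotE m' d := by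
  intro k r m m' c d
  unfold nmTotE
  have h : (fun j : Fin (k + r) => nm (Fin.append m m' j) (Fin.append c d j))
      = Fin.append (fun j => nm (m j) (c j)) (fun i => nm (m' i) (d i)) := by
    funext j
    refine Fin.addCases (fun j' => ?_) (fun i' => ?_) j
    · simp only [Fin.append_left]
    · simp only [Fin.append_right]
  rw [h, List.ofFn_fin_append, List.prod_append]

end Append

/-! ## 2. The norm formula -/

section Mix

variable {M c : ℕ} {p : ℕ} {R : ℕ} {q : Fin R → ℕ} {hqc : ∀ j, q j ∣ c} {e : Fin R → ℕ}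
variable [NeZero M] (h2 : 2 ≤ c) (hyp : MixHyp M c p q e)
  {H : Subgroup (ZMod c)ˣ} (hH : H = mixH c p q hqc e)
  {δ : Fin R → (ZMod c)ˣ} (hδ : IsGenFamM (compHom c q hqc) (fun j => p ^ e j) δ)

include hyp hH

/-- `⟨h⟩ = 1` for `h ∈ H`. -/
theorem mix_diaZ_mem {h : (ZMod c)ˣ} (hh : h ∈ H) : diaZ M c H h2 hyp.hcM p h = 1 := by
  refine LinearMap.ext fun x => Subtype.ext ?_
  rw [diaZ_apply, (mix_ker h2 hyp hH h).2 hh, one_smul]
  rfl

include hδ

/-- **NORM** with mixed exponents: `π^* π_* = ∏_j ∑_{a < p^(e j)} ⟨δ_j⟩^a` on `J_H[p^∞]`. -/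
theorem mix_norm :
    upZ M c H p ∘ₗ downZ M c H p
      = nmTotE (fun j => p ^ e j) (fun j => diaZ M c H h2 hyp.hcM p (δ j)) := by
  haveI : ∀ j, Finite (ZMod (q j))ˣ := fun j => finite_units_of_prime (hyp.prime j)
  haveI : ∀ j, IsCyclic (ZMod (q j))ˣ := fun j => isCyclic_units_of_prime (hyp.prime j)
  refine LinearMap.ext fun x => Subtype.ext ?_
  rw [nmTotE_apply_eq_sum, coe_sum_ptors]
  simp only [mon_diaZ, diaZ_apply]
  show piUp M c H (piDown M c H (x : JH M c H)) = _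
  haveI : Finite (diamondData M c H h2 hyp.hcM).ρ.range := finite_range_rho _
  letI : Fintype (diamondData M c H h2 hyp.hcM).ρ.range := Fintype.ofFinite _
  rw [piUp_piDown (isFF_JH M c H h2 hyp.hcM) (diamondData M c H h2 hyp.hcM) _ rfl]
  symm
  refine Fintype.sum_bijective
    (fun a : (∀ j : Fin R, Fin (p ^ e j)) =>
      (⟨(diamondData M c H h2 hyp.hcM).ρ (∏ j, δ j ^ (a j : ℕ)), ⟨_, rfl⟩⟩ :
        (diamondData M c H h2 hyp.hcM).ρ.range))
    ⟨?_, ?_⟩ _ _ (fun a => rfl)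
  · intro a a' h
    refine hδ.monomial_injective _ (fun d hd => ?_) (congrArg Subtype.val h)
    have := (mix_ker h2 hyp hH d).1 hd
    rw [hH] at this
    exact this
  · rintro ⟨g, d, rfl⟩
    obtain ⟨a, ha⟩ := hδ.monomial_surjective
      (fun j => pow_ne_zero (e j) hyp.hp.ne_zero) (mixHyp_dvd_card hyp)
      (diamondData M c H h2 hyp.hcM).ρ
      (fun d hd => (mix_ker h2 hyp hH d).2 (by rw [hH]; exact hd)) d
    exact ⟨a, Subtype.ext ha⟩

end Mix

/-! ## 3. The PV objects -/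

section PV

open Fermat.Agent.L.Pivot.Geom

variable {N1 : ℕ} {S : Finset ℕ} {p : ℕ} {k : ℕ} {eP : Fin k → ℕ} {n : ℕ} {qP : Fin k → ℕ}
  {r : ℕ} {qv : Fin r → ℕ} [NeZero (N1 * twC qv)]

/-- **NORM** for the PV objects: `π^* π_* = Nm_{Δ_Q} ∘ Nm_{Δ_Σ}` on `J_{H'}[p^∞]`. -/
theorem pv_normZ (h : PvHyp N1 S p eP n qP qv) (h2 : 2 ≤ pvC qP qv)
    (hc : pvC qP qv ∣ N1 * twC qv)
    {δP : Fin k → (ZMod (pvC qP qv))ˣ} {δQ : Fin r → (ZMod (pvC qP qv))ˣ}
    (hδ : IsDeltaGenPv p eP n qP qv δP δQ) :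
    upZ (N1 * twC qv) (pvC qP qv) (pvH qP qv p eP n) p ∘ₗ
        downZ (N1 * twC qv) (pvC qP qv) (pvH qP qv p eP n) p
      = nmTot (p ^ n)
          (fun i => diaZ (N1 * twC qv) (pvC qP qv) (pvH qP qv p eP n) h2 hc p (δQ i)) *
        nmTotE (fun j => p ^ eP j)
          (fun j => diaZ (N1 * twC qv) (pvC qP qv) (pvH qP qv p eP n) h2 hc p (δP j)) := by
  have hn := mix_norm h2 (pv_mixHyp h) (pvH_eq_mixH qP qv p eP n) (pv_isGenFamM hδ)
  have e1 : (fun j => p ^ pvE eP n j)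
      = Fin.append (fun j => p ^ eP j) (fun _ : Fin r => p ^ n) := by
    funext j
    refine Fin.addCases (fun j => ?_) (fun i => ?_) j
    · rw [pvE_left, Fin.append_left]
    · rw [pvE_right, Fin.append_right]
  have e2 : (fun j => diaZ (N1 * twC qv) (pvC qP qv) (pvH qP qv p eP n) h2 hc p
        (pvDelta qP qv δP δQ j))
      = Fin.append
          (fun j => diaZ (N1 * twC qv) (pvC qP qv) (pvH qP qv p eP n) h2 hc p (δP j))
          (fun i => diaZ (N1 * twC qv) (pvC qP qv) (pvH qP qv p eP n) h2 hc p (δQ i)) := by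
    funext j
    refine Fin.addCases (fun j => ?_) (fun i => ?_) j
    · rw [pvDelta_left, Fin.append_left]
    · rw [pvDelta_right, Fin.append_right]
  have hcomm : ∀ u v : (ZMod (pvC qP qv))ˣ,
      Commute (diaZ (N1 * twC qv) (pvC qP qv) (pvH qP qv p eP n) h2 hc p u)
        (diaZ (N1 * twC qv) (pvC qP qv) (pvH qP qv p eP n) h2 hc p v) :=
    fun u v => (Commute.all u v).map _
  have h1 : ∀ i, Commute
      (nmTotE (fun j => p ^ eP j)
        (fun j => diaZ (N1 * twC qv) (pvC qP qv) (pvH qP qv p eP n) h2 hc p (δP j)))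
      (diaZ (N1 * twC qv) (pvC qP qv) (pvH qP qv p eP n) h2 hc p (δQ i)) :=
    fun i => (commute_nmTotE _ _ (fun j => hcomm _ _)).symm
  have h3 : Commute
      (nmTotE (fun j => p ^ eP j)
        (fun j => diaZ (N1 * twC qv) (pvC qP qv) (pvH qP qv p eP n) h2 hc p (δP j)))
      (nmTotE (fun _ : Fin r => p ^ n)
        (fun i => diaZ (N1 * twC qv) (pvC qP qv) (pvH qP qv p eP n) h2 hc p (δQ i))) :=
    commute_nmTotE _ _ h1
  refine hn.trans ?_
  show nmTotE (fun j => p ^ pvE eP n j)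
      (fun j => diaZ (N1 * twC qv) (pvC qP qv) (pvH qP qv p eP n) h2 hc p
        (pvDelta qP qv δP δQ j)) = _
  rw [e1, e2, nmTotE_append]
  exact h3.eq

end PV

end Fermat.Agent.L.Pivot.Geom.H18
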