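import Fermat.Agent.L.Pivot.Geom.DefsPV
import Fermat.Agent.NEB.Geom.H29_ZCommTw

/-!
# PIVOT, package PV-GEOM, Part I, leaf P-COMM (helper19)

Clone of helper29's `NEB/Geom/H29_ZCommTw.lean` (section TW) for the operators `opsPv` on
`J_H'[p^∞]` (`H' = pvH`, conductor `c' = pvC`):

* `Stmt_Z_COMMpv` : the operators `T'_ℓ`, `U_{qv i}`, `⟨u⟩` commute pairwise and with the Galois
  action; the same at level `Γ₀(M1)`; they are intertwined by `π^*`, `π_*`;
* `stmt_Z_COMMpv` : its proof (from the general lemmas of `H29_ZCommTw`, section `gen`/`top`).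

Complete proofs, standard axioms only.
-/

set_option autoImplicit false
set_option linter.unusedSectionVars false
set_option linter.style.haveILetI false
set_option linter.unusedVariables false

noncomputable section

namespace Fermat.Agent.L.Pivot.Geom

open AlgebraicCurve ModularCurve
open Fermat.Agent.NEB Fermat.Agent.NEB.H14 Fermat.Agent.NEB.JH Fermat.Agent.NEB.Geom
open Fermat.Agent.S59.Asm

section Stmt

variable (N1 : ℕ) (S : Finset ℕ) (p : ℕ) {k : ℕ} (eP : Fin k → ℕ) (n : ℕ) (qP : Fin k → ℕ)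
  {r : ℕ} (qv : Fin r → ℕ)
variable [NeZero (N1 * twC qv)] (h2 : 2 ≤ pvC qP qv) (hc : pvC qP qv ∣ N1 * twC qv)

/-- **Z-COMMpv**: the operators `T'_ℓ`, `U_{qv i}`, `⟨u⟩` on `J_H'[p^∞]` commute pairwise and with
the Galois action; the same at level `Γ₀(M1)`; `π^*` and `π_*` intertwine them. -/
def Stmt_Z_COMMpv : Prop :=
  (∀ i, (qv i).Prime) →
  (∀ i j, Commute (opsPv N1 S p eP n qP qv h2 hc i) (opsPv N1 S p eP n qP qv h2 hc j)) ∧
  (∀ i σ, Commute (opsPv N1 S p eP n qP qv h2 hc i)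
    (galZ (N1 * twC qv) (pvC qP qv) (pvH qP qv p eP n) p σ)) ∧
  (∀ i j, Commute (opsPv0 N1 S p qP qv i) (opsPv0 N1 S p qP qv j)) ∧
  (∀ i σ, Commute (opsPv0 N1 S p qP qv i) (galZ0 (N1 * twC qv) p σ)) ∧
  (∀ i, upZ (N1 * twC qv) (pvC qP qv) (pvH qP qv p eP n) p ∘ₗ opsPv0 N1 S p qP qv i
      = opsPv N1 S p eP n qP qv h2 hc i ∘ₗ upZ (N1 * twC qv) (pvC qP qv) (pvH qP qv p eP n) p) ∧
  (∀ i, downZ (N1 * twC qv) (pvC qP qv) (pvH qP qv p eP n) p ∘ₗ opsPv N1 S p eP n qP qv h2 hc i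
      = opsPv0 N1 S p qP qv i ∘ₗ
        downZ (N1 * twC qv) (pvC qP qv) (pvH qP qv p eP n) p) ∧
  (∀ σ, upZ (N1 * twC qv) (pvC qP qv) (pvH qP qv p eP n) p ∘ₗ galZ0 (N1 * twC qv) p σ
      = galZ (N1 * twC qv) (pvC qP qv) (pvH qP qv p eP n) p σ ∘ₗ
        upZ (N1 * twC qv) (pvC qP qv) (pvH qP qv p eP n) p)

end Stmt

namespace H19

open Fermat.Agent.NEB.Geom.H29

section PV

variable (N1 : ℕ) (S : Finset ℕ) (p : ℕ) {k : ℕ} (eP : Fin k → ℕ) (n : ℕ) (qP : Fin k → ℕ)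
  {r : ℕ} (qv : Fin r → ℕ)

variable [NeZero (N1 * twC qv)] (h2 : 2 ≤ pvC qP qv) (hc : pvC qP qv ∣ N1 * twC qv)

theorem opsPv_inl_good {ℓ : ℕ} (hg : GoodTw N1 S qv ℓ) :
    opsPv N1 S p eP n qP qv h2 hc (Sum.inl ℓ)
      = TzTw (N1 * twC qv) (pvC qP qv) (pvH qP qv p eP n) h2 hc p (jPv p eP n) ℓ := by
  simp only [opsPv, if_pos hg]

theorem opsPv_inl_bad {ℓ : ℕ} (hg : ¬ GoodTw N1 S qv ℓ) :
    opsPv N1 S p eP n qP qv h2 hc (Sum.inl ℓ) = 0 := by
  simp only [opsPv, if_neg hg]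

theorem opsPv0_inl_good {ℓ : ℕ} (hg : GoodTw N1 S qv ℓ) :
    opsPv0 N1 S p qP qv (Sum.inl ℓ) = Tz0 (N1 * twC qv) p ℓ := by
  simp only [opsPv0, if_pos hg]

theorem opsPv0_inl_bad {ℓ : ℕ} (hg : ¬ GoodTw N1 S qv ℓ) :
    opsPv0 N1 S p qP qv (Sum.inl ℓ) = 0 := by
  simp only [opsPv0, if_neg hg]

/-- The operators commute pairwise. -/
theorem commute_opsPv (hq : ∀ j, (qv j).Prime) (i j : IdxTw r (pvC qP qv)) :
    Commute (opsPv N1 S p eP n qP qv h2 hc i) (opsPv N1 S p eP n qP qv h2 hc j) := by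
  -- the basic commutations
  have hTd : ∀ ℓ u, Commute
      (opsPv N1 S p eP n qP qv h2 hc (Sum.inl ℓ))
      (diaZ (N1 * twC qv) (pvC qP qv) (pvH qP qv p eP n) h2 hc p u) := by
    intro ℓ u
    by_cases hg : GoodTw N1 S qv ℓ
    · rw [opsPv_inl_good N1 S p eP n qP qv h2 hc hg]
      exact commute_TzTw_of _ _ _ h2 hc p _ _ (commute_Tz_diaZ _ _ _ h2 hc p ℓ u)
        (fun v => commute_diaZ_diaZ _ _ _ h2 hc p v u)
    · rw [opsPv_inl_bad N1 S p eP n qP qv h2 hc hg]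
      exact Commute.zero_left _
  have hTU : ∀ ℓ k, Commute
      (opsPv N1 S p eP n qP qv h2 hc (Sum.inl ℓ))
      (Uz (N1 * twC qv) (pvC qP qv) (pvH qP qv p eP n) h2 hc p (qv k)) := by
    intro ℓ k
    by_cases hg : GoodTw N1 S qv ℓ
    · rw [opsPv_inl_good N1 S p eP n qP qv h2 hc hg]
      exact commute_TzTw_of _ _ _ h2 hc p _ _
        (commute_Tz_Uz _ _ _ h2 hc p hg.1 (H29.not_dvd_level_of_good hg) (hq k) (H29.qv_dvd_level N1 qv k))
        (fun v => (commute_Uz_diaZ _ _ _ h2 hc p (qv k) v).symm)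
    · rw [opsPv_inl_bad N1 S p eP n qP qv h2 hc hg]
      exact Commute.zero_left _
  have hTT : ∀ ℓ ℓ', Commute
      (opsPv N1 S p eP n qP qv h2 hc (Sum.inl ℓ)) (opsPv N1 S p eP n qP qv h2 hc (Sum.inl ℓ')) := by
    intro ℓ ℓ'
    by_cases hg : GoodTw N1 S qv ℓ
    · by_cases hg' : GoodTw N1 S qv ℓ'
      · rw [opsPv_inl_good N1 S p eP n qP qv h2 hc hg]
        refine commute_TzTw_of _ _ _ h2 hc p _ _ ?_ (fun v => (hTd ℓ' v).symm)
        rw [opsPv_inl_good N1 S p eP n qP qv h2 hc hg']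
        exact (commute_TzTw_of _ _ _ h2 hc p _ _
          (commute_Tz_Tz _ _ _ h2 hc p hg'.1 (H29.not_dvd_level_of_good hg') hg.1 (H29.not_dvd_level_of_good hg))
          (fun v => (commute_Tz_diaZ _ _ _ h2 hc p ℓ v).symm)).symm
      · rw [opsPv_inl_bad N1 S p eP n qP qv h2 hc hg']
        exact Commute.zero_right _
    · rw [opsPv_inl_bad N1 S p eP n qP qv h2 hc hg]
      exact Commute.zero_left _
  rcases i with ℓ | k | u <;> rcases j with ℓ' | k' | u'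
  · exact hTT ℓ ℓ'
  · exact hTU ℓ k'
  · exact hTd ℓ u'
  · exact (hTU ℓ' k).symm
  · exact commute_Uz_Uz _ _ _ h2 hc p (hq k) (H29.qv_dvd_level N1 qv k) (hq k')
      (H29.qv_dvd_level N1 qv k')
  · exact commute_Uz_diaZ _ _ _ h2 hc p (qv k) u'
  · exact (hTd ℓ' u).symm
  · exact (commute_Uz_diaZ _ _ _ h2 hc p (qv k') u).symm
  · exact commute_diaZ_diaZ _ _ _ h2 hc p u u'

/-- The operators commute with the Galois action. -/
theorem commute_opsPv_galZ (i : IdxTw r (pvC qP qv)) (σ : GalK) :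
    Commute (opsPv N1 S p eP n qP qv h2 hc i) (galZ (N1 * twC qv) (pvC qP qv) (pvH qP qv p eP n) p σ) := by
  rcases i with ℓ | k | u
  · by_cases hg : GoodTw N1 S qv ℓ
    · rw [opsPv_inl_good N1 S p eP n qP qv h2 hc hg]
      exact commute_TzTw_of _ _ _ h2 hc p _ _ (commute_Tz_galZ _ _ _ h2 hc p ℓ σ)
        (fun v => commute_diaZ_galZ _ _ _ h2 hc p v σ)
    · rw [opsPv_inl_bad N1 S p eP n qP qv h2 hc hg]
      exact Commute.zero_left _
  · exact commute_Uz_galZ _ _ _ h2 hc p (qv k) σ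
  · exact commute_diaZ_galZ _ _ _ h2 hc p u σ

include h2 hc in
/-- The operators at level `Γ₀` commute pairwise. -/
theorem commute_opsPv0 (hq : ∀ j, (qv j).Prime) (i j : IdxTw r (pvC qP qv)) :
    Commute (opsPv0 N1 S p qP qv i) (opsPv0 N1 S p qP qv j) := by
  have hTU : ∀ ℓ k, Commute (opsPv0 N1 S p qP qv (Sum.inl ℓ)) (Uz0 (N1 * twC qv) p (qv k)) := by
    intro ℓ k
    by_cases hg : GoodTw N1 S qv ℓ
    · rw [opsPv0_inl_good N1 S p qP qv hg]
      exact commute_Tz0_Uz0 _ _ h2 hc p hg.1 (H29.not_dvd_level_of_good hg) (hq k) (H29.qv_dvd_level N1 qv k)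
    · rw [opsPv0_inl_bad N1 S p qP qv hg]
      exact Commute.zero_left _
  have hTT : ∀ ℓ ℓ', Commute (opsPv0 N1 S p qP qv (Sum.inl ℓ)) (opsPv0 N1 S p qP qv (Sum.inl ℓ')) := by
    intro ℓ ℓ'
    by_cases hg : GoodTw N1 S qv ℓ
    · by_cases hg' : GoodTw N1 S qv ℓ'
      · rw [opsPv0_inl_good N1 S p qP qv hg, opsPv0_inl_good N1 S p qP qv hg']
        exact commute_Tz0_Tz0 _ _ h2 hc p hg.1 (H29.not_dvd_level_of_good hg) hg'.1 (H29.not_dvd_level_of_good hg')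
      · rw [opsPv0_inl_bad N1 S p qP qv hg']
        exact Commute.zero_right _
    · rw [opsPv0_inl_bad N1 S p qP qv hg]
      exact Commute.zero_left _
  rcases i with ℓ | k | u <;> rcases j with ℓ' | k' | u'
  · exact hTT ℓ ℓ'
  · exact hTU ℓ k'
  · exact Commute.one_right _
  · exact (hTU ℓ' k).symm
  · exact commute_Uz0_Uz0 _ _ h2 hc p (hq k) (H29.qv_dvd_level N1 qv k) (hq k')
      (H29.qv_dvd_level N1 qv k')
  · exact Commute.one_right _
  · exact Commute.one_left _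
  · exact Commute.one_left _
  · exact Commute.one_left _

include h2 hc in
/-- The operators at level `Γ₀` commute with the Galois action. -/
theorem commute_opsPv0_galZ0 (i : IdxTw r (pvC qP qv)) (σ : GalK) :
    Commute (opsPv0 N1 S p qP qv i) (galZ0 (N1 * twC qv) p σ) := by
  rcases i with ℓ | k | u
  · by_cases hg : GoodTw N1 S qv ℓ
    · rw [opsPv0_inl_good N1 S p qP qv hg]
      exact commute_Tz0_galZ0 _ _ h2 hc p ℓ σ
    · rw [opsPv0_inl_bad N1 S p qP qv hg]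
      exact Commute.zero_left _
  · exact commute_Uz0_galZ0 _ _ h2 hc p (qv k) σ
  · exact Commute.one_left _

/-- `π^*` intertwines the operators. -/
theorem upZ_opsPv0 (i : IdxTw r (pvC qP qv)) :
    upZ (N1 * twC qv) (pvC qP qv) (pvH qP qv p eP n) p ∘ₗ opsPv0 N1 S p qP qv i
      = opsPv N1 S p eP n qP qv h2 hc i ∘ₗ upZ (N1 * twC qv) (pvC qP qv) (pvH qP qv p eP n) p := by
  refine LinearMap.ext fun x => ?_
  simp only [LinearMap.comp_apply]
  rcases i with ℓ | k | u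
  · by_cases hg : GoodTw N1 S qv ℓ
    · rw [opsPv0_inl_good N1 S p qP qv hg, opsPv_inl_good N1 S p eP n qP qv h2 hc hg, TzTw,
        Module.End.mul_apply, diaZ_pow_upZ]
      exact upZ_Tz0 _ _ _ h2 hc p ℓ x
    · rw [opsPv0_inl_bad N1 S p qP qv hg, opsPv_inl_bad N1 S p eP n qP qv h2 hc hg]
      simp
  · exact upZ_Uz0 _ _ _ h2 hc p (qv k) x
  · exact (diaZ_upZ _ _ _ h2 hc p u x).symm

/-- `π_*` intertwines the operators. -/
theorem downZ_opsPv (i : IdxTw r (pvC qP qv)) :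
    downZ (N1 * twC qv) (pvC qP qv) (pvH qP qv p eP n) p ∘ₗ opsPv N1 S p eP n qP qv h2 hc i
      = opsPv0 N1 S p qP qv i ∘ₗ downZ (N1 * twC qv) (pvC qP qv) (pvH qP qv p eP n) p := by
  refine LinearMap.ext fun x => ?_
  simp only [LinearMap.comp_apply]
  rcases i with ℓ | k | u
  · by_cases hg : GoodTw N1 S qv ℓ
    · rw [opsPv0_inl_good N1 S p qP qv hg, opsPv_inl_good N1 S p eP n qP qv h2 hc hg, TzTw,
        Module.End.mul_apply, downZ_Tz, downZ_diaZ_pow]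
    · rw [opsPv0_inl_bad N1 S p qP qv hg, opsPv_inl_bad N1 S p eP n qP qv h2 hc hg]
      simp
  · exact downZ_Uz _ _ _ h2 hc p (qv k) x
  · exact downZ_diaZ _ _ _ h2 hc p u x

/-- **Z-COMMpv**. -/
theorem stmt_Z_COMMpv : Stmt_Z_COMMpv N1 S p eP n qP qv h2 hc := by
  intro hprime
  refine ⟨commute_opsPv N1 S p eP n qP qv h2 hc hprime,
    commute_opsPv_galZ N1 S p eP n qP qv h2 hc,
    commute_opsPv0 N1 S p qP qv h2 hc hprime, commute_opsPv0_galZ0 N1 S p qP qv h2 hc,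
    upZ_opsPv0 N1 S p eP n qP qv h2 hc, downZ_opsPv N1 S p eP n qP qv h2 hc, fun σ => ?_⟩
  refine LinearMap.ext fun x => ?_
  exact upZ_galZ0 _ _ _ h2 hc p σ x

end PV

end H19

end Fermat.Agent.L.Pivot.Geom

end
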