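import Mathlib
import Fermat.Agent.L.Pivot.Geom.DefsPV
import Fermat.Agent.L.Pivot.Geom.AsmPV
import Fermat.Agent.L.Pivot.Geom.H70_UnrFive
import Fermat.Agent.L.Pivot3.H9_UnrAux2
import Fermat.Agent.NEB.Geom.H29_ESGen

/-!
# PIVOT, package PV-GEOM, Part I, leaf P-ES (helper29): Eichler–Shimura on `W'`

For `D : PvSetup …`, a good prime `ℓ` (`ℓ ∤ pvLevel`, `ℓ ∉ twSet S qv`) and a Frobenius `σ` at a
place over `ℓ`:  `gal'(σ)² - T'_ℓ gal'(σ) + ℓ = 0` on `W' = Wpv`.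

Instance of `NEB.Geom.H29.es_gen` (the proof of A-ES with the Taylor–Wiles data abstracted) for
`(M, c, H) = (N1 · c_Q, c', H')`, `E = n + ∑ eP j`, `j = jPv`.  The unramifiedness of
`F_H'(M1) / F₀(M1)` (`pv_unr`) comes from helper70's `unrCond_of_five_le` (`5 ≤ p`).

* `tEisPolyPv`        : the Eisenstein element `X_ℓ₀ Z_{ℓ₀⁻¹}^{j'} - (ℓ₀ + 1)` of `𝕋⁺`;
* `etaPv_tEisPolyPv`  : `η⁺(tEisPolyPv) = tEisPv = T_ℓ₀^H - (ℓ₀ + 1)`;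
* `thetaPv_tEisPolyPv`: `θ⁺(tEisPolyPv) = θ(T_ℓ₀) - (ℓ₀ + 1)`;
* `pv_diaZ_pow`       : `⟨u⟩ ^ (p ^ (n + ∑ eP j)) = 1` on `J_H'[p^∞]`;
* `squarefree_pvC`, `pv_unr` : `c'` is squarefree; `F_H'(M1) / F₀(M1)` is unramified;
* `p_es`              : the Eichler–Shimura relation on `W'` (with `hunr` as a hypothesis);
* `stmt_P_ES`         : `Stmt_P_ES`.
-/

set_option autoImplicit false
set_option linter.unusedSectionVars false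
set_option linter.unusedVariables false
set_option linter.style.haveILetI false

noncomputable section

open ModularCurve AlgebraicCurve IsLocalRing TensorProduct Polynomial

namespace Fermat.Agent.L.Pivot.Geom.H29

open Fermat.Agent.NEB Fermat.Agent.NEB.JH Fermat.Agent.NEB.Geom Fermat.Agent.S59.Lim
  Fermat.Agent.S59.Lim.H2 Fermat.Agent.S59.Asm Fermat.Agent.L.Pivot.Geom

section Eis

variable (N1 : ℕ) (S : Finset ℕ) (p : ℕ) {k : ℕ} (eP : Fin k → ℕ) (n : ℕ) (qP : Fin k → ℕ)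
  {r : ℕ} (qv : Fin r → ℕ)

/-- The Eisenstein element `X_ℓ₀ Z_{ℓ₀⁻¹}^{j'} - (ℓ₀ + 1)` of `𝕋⁺`. -/
def tEisPolyPv (ℓ₀ : ℕ) : PolyTw r (pvC qP qv) :=
  MvPolynomial.X (Sum.inl ℓ₀) *
      MvPolynomial.X (Sum.inr (Sum.inr (Fermat.Agent.NEB.EIG.H39.unitOf (pvC qP qv) ℓ₀)⁻¹))
        ^ jPv p eP n
    - ((ℓ₀ + 1 : ℕ) : PolyTw r (pvC qP qv))

variable [NeZero (N1 * twC qv)] (h2 : 2 ≤ pvC qP qv) (hc : pvC qP qv ∣ N1 * twC qv)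

theorem opsPv_inl_good {ℓ : ℕ} (hg : GoodTw N1 S qv ℓ) :
    opsPv N1 S p eP n qP qv h2 hc (Sum.inl ℓ)
      = TzTw (N1 * twC qv) (pvC qP qv) (pvH qP qv p eP n) h2 hc p (jPv p eP n) ℓ := by
  classical
  show (if GoodTw N1 S qv ℓ then _ else _) = _
  rw [if_pos hg]

theorem etaPv_X_inl
    (hcomm : ∀ i j, Commute (opsPv N1 S p eP n qP qv h2 hc i) (opsPv N1 S p eP n qP qv h2 hc j))
    {ℓ : ℕ} (hg : GoodTw N1 S qv ℓ) :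
    etaPv N1 S p eP n qP qv h2 hc hcomm (MvPolynomial.X (Sum.inl ℓ))
      = TzTw (N1 * twC qv) (pvC qP qv) (pvH qP qv p eP n) h2 hc p (jPv p eP n) ℓ :=
  (polyHom_X _ _ _).trans (opsPv_inl_good N1 S p eP n qP qv h2 hc hg)

theorem etaPv_X_dia
    (hcomm : ∀ i j, Commute (opsPv N1 S p eP n qP qv h2 hc i) (opsPv N1 S p eP n qP qv h2 hc j))
    (u : (ZMod (pvC qP qv))ˣ) :
    etaPv N1 S p eP n qP qv h2 hc hcomm (MvPolynomial.X (Sum.inr (Sum.inr u)))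
      = diaZ (N1 * twC qv) (pvC qP qv) (pvH qP qv p eP n) h2 hc p u :=
  polyHom_X _ _ _

theorem etaPv_tEisPolyPv
    (hcomm : ∀ i j, Commute (opsPv N1 S p eP n qP qv h2 hc i) (opsPv N1 S p eP n qP qv h2 hc j))
    (ℓ₀ : ℕ) (hℓ₀ : GoodTw N1 S qv ℓ₀) :
    etaPv N1 S p eP n qP qv h2 hc hcomm (tEisPolyPv p eP n qP qv ℓ₀)
      = tEisPv N1 p eP n qP qv h2 hc ℓ₀ :=
  Fermat.Agent.NEB.Geom.H94.map_eis_eq (etaPv N1 S p eP n qP qv h2 hc hcomm) _ _ (jPv p eP n)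
    (ℓ₀ + 1) _ _ _ (etaPv_X_inl N1 S p eP n qP qv h2 hc hcomm hℓ₀)
    (etaPv_X_dia N1 S p eP n qP qv h2 hc hcomm _)
    (Fermat.Agent.NEB.Geom.H94.map_pow_mul_map_inv_pow
      (diaZ (N1 * twC qv) (pvC qP qv) (pvH qP qv p eP n) h2 hc p) _ _)

theorem thetaPv_tEisPolyPv {κ : Type} [Field κ] [NeZero N1]
    (θ : CuspForm.heckeAlgebra N1 2 (↑S : Set ℕ) →+* κ) (α : Fin r → κ)
    (ℓ₀ : ℕ) (hℓ₀ : GoodTw N1 S qv ℓ₀) :
    thetaPv N1 S qP qv θ α (tEisPolyPv p eP n qP qv ℓ₀) =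
      θ (CuspForm.heckeAlgebra.T hℓ₀.1 hℓ₀.not_dvd hℓ₀.not_mem) - ((ℓ₀ : κ) + 1) := by
  classical
  have h1 := Fermat.Agent.NEB.Geom.H94.eval_eis_eq (thetaPvVal N1 S qP qv θ α) (Sum.inl ℓ₀)
    (Sum.inr (Sum.inr (Fermat.Agent.NEB.EIG.H39.unitOf (pvC qP qv) ℓ₀)⁻¹)) (jPv p eP n)
    (ℓ₀ + 1) rfl
  have h2' : thetaPvVal N1 S qP qv θ α (Sum.inl ℓ₀)
      = θ (CuspForm.heckeAlgebra.T hℓ₀.1 hℓ₀.not_dvd hℓ₀.not_mem) := by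
    show (if h : GoodTw N1 S qv ℓ₀ then _ else _) = _
    rw [dif_pos hℓ₀]
  refine h1.trans ?_
  rw [h2', Nat.cast_add, Nat.cast_one]

/-- The diamond operators on `J_H'[p^∞]` are killed by `p ^ (n + ∑ eP j)`. -/
theorem pv_diaZ_pow [NeZero (pvC qP qv)] (u : (ZMod (pvC qP qv))ˣ) :
    diaZ (N1 * twC qv) (pvC qP qv) (pvH qP qv p eP n) h2 hc p u ^ (p ^ (n + ∑ j, eP j)) = 1 :=
  Fermat.Agent.NEB.Geom.H29.diaZ_pow_of_exp (N1 * twC qv) (pvC qP qv) (pvH qP qv p eP n) h2 hc p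
    (n + ∑ j, eP j) (fun d => pow_mem_pvH qP qv p eP n d) u

end Eis

section Unr

variable {N1 : ℕ} {S : Finset ℕ} {p : ℕ} {k : ℕ} {eP : Fin k → ℕ} {n : ℕ} {qP : Fin k → ℕ}
  {r : ℕ} {qv : Fin r → ℕ}

/-- A product of distinct primes is squarefree. -/
theorem squarefree_twC_of {m : ℕ} (q : Fin m → ℕ) (hinj : Function.Injective q)
    (hq : ∀ j, (q j).Prime) : Squarefree (twC q) := by
  unfold twC
  refine Finset.squarefree_prod_of_pairwise_isCoprime ?_ (fun j _ => (hq j).squarefree)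
  intro i _ j _ hij
  show IsRelPrime (q i) (q j)
  rw [← Nat.coprime_iff_isRelPrime]
  exact (Nat.coprime_primes (hq i) (hq j)).mpr (fun h => hij (hinj h))

/-- `c' = c_Σ c_Q` is squarefree. -/
theorem squarefree_pvC (h : PvHyp N1 S p eP n qP qv) : Squarefree (pvC qP qv) := by
  unfold pvC
  rw [Nat.squarefree_mul_iff]
  refine ⟨?_, squarefree_twC_of qP h.injP h.primeP, squarefree_twC_of qv h.inj h.prime⟩
  unfold twC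
  exact Nat.Coprime.prod_left fun j _ => Nat.Coprime.prod_right fun i _ =>
    (Nat.coprime_primes (h.primeP j) (h.prime i)).mpr (h.qP_ne_qv j i)

/-- `F_H'(M1) / F₀(M1)` is unramified (`5 ≤ p`). -/
theorem pv_unr (h : PvHyp N1 S p eP n qP qv) [NeZero (N1 * twC qv)] (h2 : 2 ≤ pvC qP qv)
    (hc : pvC qP qv ∣ N1 * twC qv)
    (w : Place Kbar ↥(FHbar (N1 * twC qv) (pvC qP qv) (pvH qP qv p eP n))) :
    ∃ x : ↥(modularFunctionFieldBar (N1 * twC qv)),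
      w.ord (inclBar (N1 * twC qv) (pvC qP qv) (pvH qP qv p eP n) x) = 1 :=
  Fermat.Agent.NEB.H34.fh_unr (pvC qP qv) (N1 * twC qv) (pvH qP qv p eP n) h2 hc
    (NeZero.ne _)
    (Fermat.Agent.L.Pivot3.H9.unrCond_of_hU p (n + ∑ j, eP j) h.hp h.hp2 (pvC qP qv)
      (N1 * twC qv) N1 (squarefree_pvC h) hc (Dvd.intro _ rfl) h.hU (pvH qP qv p eP n)
      (fun d => pow_mem_pvH qP qv p eP n d)) w

end Unr

section Main

variable {𝒪 : Type} [CommRing 𝒪] [IsDomain 𝒪] [IsDiscreteValuationRing 𝒪]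
  {ϖ : 𝒪} {p : ℕ} {N1 : ℕ} [NeZero N1] {S : Finset ℕ}
  {θ : CuspForm.heckeAlgebra N1 2 (↑S : Set ℕ) →+* ResidueField 𝒪}
  {ρbar : ResidualGaloisRep (ResidueField 𝒪)} {k : ℕ} {eP : Fin k → ℕ} {n : ℕ}
  {qP : Fin k → ℕ} {r : ℕ} {qv : Fin r → ℕ}
  [NeZero (N1 * twC qv)] [NeZero (pvC qP qv)] [NeZero (twLevel N1 qv)]
  [NeZero (pvLevel N1 qP qv)]

/-- `θ⁺` does not vanish at the Eisenstein element. -/
theorem thetaPv_tEisPolyPv_ne (D : PvSetup 𝒪 ϖ p N1 S θ ρbar eP n qP qv) :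
    thetaPv N1 S qP qv θ D.α (tEisPolyPv p eP n qP qv D.ℓ₀) ≠ 0 := by
  rw [thetaPv_tEisPolyPv N1 S p eP n qP qv θ D.α D.ℓ₀ D.hℓ₀]
  exact sub_ne_zero.mpr D.hne

/-- The twisted Galois action of `PvSetup` is `galTw`. -/
theorem pv_galHom_eq (D : PvSetup 𝒪 ϖ p N1 S θ ρbar eP n qP qv) (σ : GalK) :
    D.galHom σ = galTw (N1 * twC qv) (pvC qP qv) (pvH qP qv p eP n) D.h2 D.hc p
      (jPv p eP n) σ := rfl

/-- **P-ES**, on elements of `𝒪 ⊗ J_H'[p^∞]`. -/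
theorem p_es_elt [Finite (ResidueField 𝒪)] [Fact p.Prime] (hϖ : Irreducible ϖ)
    (hpm : (p : 𝒪) ∈ maximalIdeal 𝒪) (hp0 : (p : 𝒪) ≠ 0)
    (D : PvSetup 𝒪 ϖ p N1 S θ ρbar eP n qP qv)
    (hunr : ∀ w : Place Kbar ↥(FHbar (N1 * twC qv) (pvC qP qv) (pvH qP qv p eP n)),
      ∃ x : ↥(modularFunctionFieldBar (N1 * twC qv)),
        w.ord (inclBar (N1 * twC qv) (pvC qP qv) (pvH qP qv p eP n) x) = 1)
    (ℓ : ℕ) (hg : GoodTw N1 S qv ℓ)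
    (P : ValuationSubring Kbar) (hP : P.LiesOverPrime ℓ) (σ : GalK)
    (hσ : P.IsFrobeniusAt σ ℓ) :
    ∀ x ∈ Wpv N1 S p eP n qP qv D.h2 D.hc 𝒪 D.hcomm θ D.α,
      ((D.galHom σ * D.galHom σ
        - etaPv N1 S p eP n qP qv D.h2 D.hc D.hcomm (MvPolynomial.X (Sum.inl ℓ)) * D.galHom σ
        + ℓ • (1 : Module.End ℤ (AHpv N1 p eP n qP qv))).baseChange 𝒪) x = 0 := by
  have hℓp : ℓ ≠ p := by
    rintro rfl
    apply hg.2.2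
    simp only [twSet, Finset.coe_union, Set.mem_union]
    exact Or.inl D.hPV.hpS
  exact Fermat.Agent.NEB.Geom.H29.es_gen (N1 * twC qv) (pvC qP qv) (pvH qP qv p eP n) D.h2 D.hc p
    ϖ hϖ hpm hp0 (etaPv N1 S p eP n qP qv D.h2 D.hc D.hcomm) (thetaPv N1 S qP qv θ D.α)
    (n + ∑ j, eP j) (jPv p eP n) (two_jPv p eP n D.hPV.hp D.hPV.hp2)
    (fun d => pow_mem_pvH qP qv p eP n d) hunr
    (fun u => ⟨MvPolynomial.X (Sum.inr (Sum.inr u)), polyHom_X _ _ _⟩)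
    (fun t σ => D.comm_gal σ t)
    D.ℓ₀ D.hℓ₀.1 (Fermat.Agent.NEB.Geom.H29.not_dvd_level_of_good D.hℓ₀)
    (tEisPolyPv p eP n qP qv D.ℓ₀)
    (etaPv_tEisPolyPv N1 S p eP n qP qv D.h2 D.hc D.hcomm D.ℓ₀ D.hℓ₀)
    (thetaPv_tEisPolyPv_ne D)
    ℓ hg.1 (Fermat.Agent.NEB.Geom.H29.not_dvd_level_of_good hg) hℓp
    (MvPolynomial.X (Sum.inl ℓ)) (etaPv_X_inl N1 S p eP n qP qv D.h2 D.hc D.hcomm hg)
    P hP σ hσ

/-- **P-ES**: Eichler–Shimura on `W'`. -/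
theorem p_es [Finite (ResidueField 𝒪)] [Fact p.Prime] (hϖ : Irreducible ϖ)
    (hpm : (p : 𝒪) ∈ maximalIdeal 𝒪) (hp0 : (p : 𝒪) ≠ 0)
    (D : PvSetup 𝒪 ϖ p N1 S θ ρbar eP n qP qv)
    (hunr : ∀ w : Place Kbar ↥(FHbar (N1 * twC qv) (pvC qP qv) (pvH qP qv p eP n)),
      ∃ x : ↥(modularFunctionFieldBar (N1 * twC qv)),
        w.ord (inclBar (N1 * twC qv) (pvC qP qv) (pvH qP qv p eP n) x) = 1)
    (ℓ : ℕ) (hℓ : ℓ.Prime) (hℓN : ¬ ℓ ∣ pvLevel N1 qP qv)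
    (hℓS : ℓ ∉ (↑(twSet S qv) : Set ℕ))
    (P : ValuationSubring Kbar) (hP : P.LiesOverPrime ℓ) (σ : GalK)
    (hσ : P.IsFrobeniusAt σ ℓ) :
    D.gal σ * D.gal σ - D.WD.η (CuspForm.heckeAlgebra.T hℓ hℓN hℓS) * D.gal σ
      + (ℓ : 𝒪) • (1 : Module.End 𝒪 D.WD.W) = 0 := by
  have hg : GoodTw N1 S qv ℓ := goodTw_of_pv N1 S qP qv hℓ hℓN hℓS
  have hT : ∀ t, Commute (etaPv N1 S p eP n qP qv D.h2 D.hc D.hcomm t)
      (etaPv N1 S p eP n qP qv D.h2 D.hc D.hcomm (MvPolynomial.X (Sum.inl ℓ))) :=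
    fun t => (Commute.all t _).map (etaPv N1 S p eP n qP qv D.h2 D.hc D.hcomm)
  have hη : D.WD.η (CuspForm.heckeAlgebra.T hℓ hℓN hℓS)
      = thetaZ (thetaPv N1 S qP qv θ D.α)
          (etaPv N1 S p eP n qP qv D.h2 D.hc D.hcomm (MvPolynomial.X (Sum.inl ℓ))) hT :=
    D.η_T ℓ hℓ hℓN hℓS
  have hgal : D.gal σ = thetaZ (thetaPv N1 S qP qv θ D.α) (D.galHom σ) (D.comm_galHom σ) := rfl
  rw [hη, hgal]
  exact Fermat.Agent.NEB.Geom.H29.thetaZ_es_of (D.comm_galHom σ) hT ℓ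
    (p_es_elt hϖ hpm hp0 D hunr ℓ hg P hP σ hσ)

/-- **P-ES** for a pivot setup. -/
theorem p_es_D [Finite (ResidueField 𝒪)] [Fact p.Prime] (hϖ : Irreducible ϖ)
    (hpm : (p : 𝒪) ∈ maximalIdeal 𝒪) (hp0 : (p : 𝒪) ≠ 0)
    (D : PvSetup 𝒪 ϖ p N1 S θ ρbar eP n qP qv) : Stmt_P_es D :=
  fun ℓ hℓ hℓN hℓS A hA σ hσ =>
    p_es hϖ hpm hp0 D (pv_unr D.hPV D.h2 D.hc) ℓ hℓ hℓN hℓS A hA σ hσ

end Main

/-- **P-ES**. -/
theorem stmt_P_ES : Stmt_P_ES := by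
  intro 𝒪 _ _ _ _ _ _ ϖ p _ N1 _ S Smin θ ρbar k Pv eP hstd Dm n r qv _ _ _ _ D
  exact p_es_D hstd.hϖ hstd.hyp.hp𝒪 (Nat.cast_ne_zero.2 (Fact.out : p.Prime).ne_zero) D

end Fermat.Agent.L.Pivot.Geom.H29
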