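import Mathlib
import Fermat.Agent.L.Pivot.Geom.H29_PES
import Fermat.Agent.L.Pivot.Geom.H19_PComm
import Fermat.Agent.NEB.Geom.H67_PiUpInj
import Fermat.Agent.NEB.Geom.H14_PiPrelim
import Fermat.Agent.NEB.Geom.H94_W

/-!
# PIVOT, package PV-GEOM, Part I, sub-leaves P-UPINJ and P-UPINV of P-PI (helper29)

PV clones of helper67's `PI-UPINJ`, `PI-UPINV` (`NEB/Geom/H67_PiUpInj.lean`, `H67_PiUpInv.lean`)
for `(M, c, H) = (N1 · c_Q, c', H')`: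

* `p_upinj` : `π^* : Y' → W'` is injective  (`Y'` = the `θ⁺`-part of `𝒪 ⊗ J₀(M1)[p^∞]`);
* `p_upinv` : every `Δ'`-fixed element of `W'[ϖ]` is `π^* y` with `y ∈ Y'`.

The `ℤ`-level inputs are `NEB.H29.stmt_SIGMA_JH'` (the kernel of `π^*` is Eisenstein) and
`NEB.H29.stmt_INV_JH'` (with `pv_unr`: `F_H'(M1) / F₀(M1)` is unramified, `5 ≤ p`), in the
generic forms `gen_sigma`, `gen_inv`.
-/

set_option autoImplicit false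
set_option linter.unusedSectionVars false
set_option linter.unusedVariables false
set_option linter.style.haveILetI false

noncomputable section

open ModularCurve AlgebraicCurve IsLocalRing TensorProduct Polynomial

namespace Fermat.Agent.L.Pivot.Geom.H29

open Fermat.Agent.NEB Fermat.Agent.NEB.JH Fermat.Agent.NEB.Geom Fermat.Agent.S59.Lim
  Fermat.Agent.S59.Lim.H2 Fermat.Agent.S59.Asm Fermat.Agent.L.Pivot.Geom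

/-! ## 1. The `ℤ`-level statements, generic in `(M, c, H)` -/

section gen

variable (M c : ℕ) [NeZero M] (H : Subgroup (ZMod c)ˣ) (h2 : 2 ≤ c) (hc : c ∣ M) (p : ℕ)

include h2 hc in
/-- **SIGMA** on `J₀(M)[p^∞]`: the kernel of `π^*` is Eisenstein. -/
theorem gen_sigma (hp : p.Prime) (ℓ₀ : ℕ) (hℓ₀ : ℓ₀.Prime) (hℓ₀M : ¬ ℓ₀ ∣ M)
    (y₀ : A0 M p) (hker : upZ M c H p y₀ = 0) :
    Tz0 M p ℓ₀ y₀ - ((ℓ₀ + 1 : ℕ) : ℤ) • y₀ = 0 := by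
  haveI : NeZero ℓ₀ := ⟨hℓ₀.ne_zero⟩
  obtain ⟨k, hk⟩ := y₀.2
  have hk' : ((p ^ k : ℕ) : ℤ) • (y₀ : JZero M) = 0 := by
    rw [natCast_zsmul]
    exact hk
  have h := Fermat.Agent.NEB.H29.stmt_SIGMA_JH'
    (heckeData M c ℓ₀ H h2 hc)
    hℓ₀ hℓ₀M (p ^ k) (pow_ne_zero k hp.ne_zero) (y₀ : JZero M) hk'
    (congrArg Subtype.val hker)
  apply Subtype.ext
  rw [AddSubgroup.coe_sub, Fermat.Agent.NEB.Geom.H29.coe_zsmul_ptors, Tz0_apply,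
    natCast_zsmul]
  exact h

/-- **INV** on `J_H[p]`: a `Δ`-fixed class killed by `p` is, up to the Eisenstein operator, a
pull-back from `J₀(M)[p]`. -/
theorem gen_inv (hp : p.Prime)
    (hunr : ∀ w : Place Kbar ↥(FHbar M c H),
      ∃ x : ↥(modularFunctionFieldBar M), w.ord (inclBar M c H x) = 1)
    (ℓ₀ : ℕ) (hℓ₀ : ℓ₀.Prime) (hℓ₀M : ¬ ℓ₀ ∣ M)
    (y : AH M c H p) (hy : p • y = 0)
    (hfix : ∀ u, diaZ M c H h2 hc p u y = y) :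
    ∃ (y₀ : A0 M p) (m : ℕ), p • y₀ = 0 ∧
      upZ M c H p y₀
        = ((Tz M c H h2 hc p ℓ₀
            - ((ℓ₀ + 1 : ℕ) : ℤ) • (1 : Module.End ℤ (AH M c H p))) ^ m) y := by
  haveI : NeZero ℓ₀ := ⟨hℓ₀.ne_zero⟩
  haveI : NeZero c := ⟨by omega⟩
  have hy' : ((p : ℕ) : ℤ) • (y : JH M c H) = 0 := by
    rw [natCast_zsmul, ← Fermat.Agent.NEB.Geom.H29.coe_nsmul_ptors, hy]
    rfl
  obtain ⟨y₀, hy₀, hup⟩ := Fermat.Agent.NEB.H29.stmt_INV_JH'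
    (heckeData M c ℓ₀ H h2 hc)
    hℓ₀ hℓ₀M hunr p hp.ne_zero
    (y : JH M c H) hy'
    (fun d => congrArg Subtype.val (hfix d))
  rw [natCast_zsmul] at hy₀
  have hmem : IsPTors p y₀ := ⟨1, by rw [pow_one]; exact hy₀⟩
  refine ⟨⟨y₀, hmem⟩, 1, Subtype.ext ?_, Subtype.ext ?_⟩
  · rw [Fermat.Agent.NEB.Geom.H29.coe_nsmul_ptors]
    exact hy₀
  · show piUp M c H y₀ = _
    rw [pow_one, Fermat.Agent.NEB.Geom.H29.coe_eis_gen]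
    exact hup

end gen

/-! ## 2. The Eisenstein element at the level `Γ₀(M1)` -/

section Eis0

variable (N1 : ℕ) (S : Finset ℕ) (p : ℕ) {k : ℕ} (qP : Fin k → ℕ) {r : ℕ} (qv : Fin r → ℕ)

/-- The Eisenstein element `X_ℓ₀ - (ℓ₀ + 1)` of `𝕋⁺` (level `Γ₀(M1)`). -/
def tEisPolyPv0 (ℓ₀ : ℕ) : PolyTw r (pvC qP qv) :=
  MvPolynomial.X (Sum.inl ℓ₀) - ((ℓ₀ + 1 : ℕ) : PolyTw r (pvC qP qv))

variable [NeZero (N1 * twC qv)]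

theorem etaPv0_tEisPolyPv0
    (hcomm0 : ∀ i j, Commute (opsPv0 N1 S p qP qv i) (opsPv0 N1 S p qP qv j))
    (ℓ₀ : ℕ) (hℓ₀ : GoodTw N1 S qv ℓ₀) :
    etaPv0 N1 S p qP qv hcomm0 (tEisPolyPv0 qP qv ℓ₀)
      = Tz0 (N1 * twC qv) p ℓ₀
        - ((ℓ₀ + 1 : ℕ) : ℤ) • (1 : Module.End ℤ (A0 (N1 * twC qv) p)) := by
  classical
  have hX : etaPv0 N1 S p qP qv hcomm0 (MvPolynomial.X (Sum.inl ℓ₀))
      = Tz0 (N1 * twC qv) p ℓ₀ := by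
    refine (polyHom_X _ _ _).trans ?_
    show (if GoodTw N1 S qv ℓ₀ then _ else _) = _
    rw [if_pos hℓ₀]
  unfold tEisPolyPv0
  rw [map_sub, hX, map_natCast, zsmul_one, Int.cast_natCast]

theorem thetaPv_tEisPolyPv0 {κ : Type} [Field κ] [NeZero N1]
    (θ : CuspForm.heckeAlgebra N1 2 (↑S : Set ℕ) →+* κ) (α : Fin r → κ)
    (ℓ₀ : ℕ) (hℓ₀ : GoodTw N1 S qv ℓ₀) :
    thetaPv N1 S qP qv θ α (tEisPolyPv0 qP qv ℓ₀) =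
      θ (CuspForm.heckeAlgebra.T hℓ₀.1 hℓ₀.not_dvd hℓ₀.not_mem) - ((ℓ₀ : κ) + 1) := by
  classical
  have h2 : thetaPvVal N1 S qP qv θ α (Sum.inl ℓ₀)
      = θ (CuspForm.heckeAlgebra.T hℓ₀.1 hℓ₀.not_dvd hℓ₀.not_mem) := by
    show (if h : GoodTw N1 S qv ℓ₀ then _ else _) = _
    rw [dif_pos hℓ₀]
  unfold tEisPolyPv0 thetaPv
  rw [map_sub, MvPolynomial.eval₂Hom_X', map_natCast, h2, Nat.cast_add, Nat.cast_one]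

end Eis0

/-! ## 3. P-UPINJ and P-UPINV -/

section Main

variable {𝒪 : Type} [CommRing 𝒪] [IsDomain 𝒪] [IsDiscreteValuationRing 𝒪]
  [Finite (ResidueField 𝒪)] [CharZero 𝒪]

/-- **P-UPINJ**: `π^*` is injective on the `θ⁺`-part of `𝒪 ⊗ J₀(M1)[p^∞]`. -/
theorem p_upinj (ϖ : 𝒪) (hϖ : Irreducible ϖ) (p : ℕ) [Fact p.Prime]
    (hpm : (p : 𝒪) ∈ maximalIdeal 𝒪) (N1 : ℕ) [NeZero N1] (S : Finset ℕ) {k : ℕ}
    (eP : Fin k → ℕ) (n : ℕ) (qP : Fin k → ℕ) {r : ℕ} (qv : Fin r → ℕ)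
    (hPV : PvHyp N1 S p eP n qP qv) [NeZero (N1 * twC qv)] (h2 : 2 ≤ pvC qP qv)
    (hc : pvC qP qv ∣ N1 * twC qv)
    (hcomm0 : ∀ i j, Commute (opsPv0 N1 S p qP qv i) (opsPv0 N1 S p qP qv j))
    (θ : CuspForm.heckeAlgebra N1 2 (↑S : Set ℕ) →+* ResidueField 𝒪)
    (α : Fin r → ResidueField 𝒪) (ℓ₀ : ℕ) (hℓ₀ : GoodTw N1 S qv ℓ₀)
    (hne : θ (CuspForm.heckeAlgebra.T hℓ₀.1 hℓ₀.not_dvd hℓ₀.not_mem)
      ≠ ((ℓ₀ : ResidueField 𝒪) + 1))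
    (y : 𝒪 ⊗[ℤ] A0 (N1 * twC qv) p) (hy : y ∈ Ypv N1 S p qP qv 𝒪 hcomm0 θ α)
    (hy0 : (upZ (N1 * twC qv) (pvC qP qv) (pvH qP qv p eP n) p).baseChange 𝒪 y = 0) :
    y = 0 := by
  haveI : Module.Flat ℤ 𝒪 := flat_int
  have hη := etaPv0_tEisPolyPv0 N1 S p qP qv hcomm0 ℓ₀ hℓ₀
  have hθ : thetaPv N1 S qP qv θ α (tEisPolyPv0 qP qv ℓ₀) ≠ 0 := by
    rw [thetaPv_tEisPolyPv0 N1 S qP qv θ α ℓ₀ hℓ₀]
    exact sub_ne_zero.mpr hne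
  have h0 : (etaPv0 N1 S p qP qv hcomm0 (tEisPolyPv0 qP qv ℓ₀)).baseChange 𝒪 y = 0 := by
    refine Fermat.Agent.NEB.Geom.H67.baseChange_eq_zero_of_ker
      (upZ (N1 * twC qv) (pvC qP qv) (pvH qP qv p eP n) p)
      (etaPv0 N1 S p qP qv hcomm0 (tEisPolyPv0 qP qv ℓ₀)) (fun x hx => ?_) y hy0
    rw [hη]
    exact gen_sigma (N1 * twC qv) (pvC qP qv) (pvH qP qv p eP n) h2 hc p hPV.hp ℓ₀ hℓ₀.1
      (Fermat.Agent.NEB.Geom.H29.not_dvd_level_of_good hℓ₀) x hx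
  have hbij := Fermat.Agent.NEB.Geom.H94.stmt_W_unit 𝒪 (A0 (N1 * twC qv) p)
    (PolyTw r (pvC qP qv)) (etaPv0 N1 S p qP qv hcomm0) (thetaPv N1 S qP qv θ α)
    (tEisPolyPv0 qP qv ℓ₀) hθ
  have h1 : thetaEta (etaPv0 N1 S p qP qv hcomm0) (thetaPv N1 S qP qv θ α)
      (tEisPolyPv0 qP qv ℓ₀) ⟨y, hy⟩ = 0 := Subtype.ext h0
  have h3 := hbij.1 (h1.trans (map_zero _).symm)
  exact congrArg Subtype.val h3

/-- **P-UPINV**: every `Δ'`-fixed element of `W'[ϖ]` is `π^* y` with `y ∈ Y'`. -/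
theorem p_upinv (ϖ : 𝒪) (hϖ : Irreducible ϖ) (p : ℕ) [Fact p.Prime]
    (hpm : (p : 𝒪) ∈ maximalIdeal 𝒪) (N1 : ℕ) [NeZero N1] (S : Finset ℕ) {k : ℕ}
    (eP : Fin k → ℕ) (n : ℕ) (qP : Fin k → ℕ) {r : ℕ} (qv : Fin r → ℕ)
    (hPV : PvHyp N1 S p eP n qP qv) [NeZero (N1 * twC qv)] (h2 : 2 ≤ pvC qP qv)
    (hc : pvC qP qv ∣ N1 * twC qv)
    (hcomm : ∀ i j, Commute (opsPv N1 S p eP n qP qv h2 hc i)
      (opsPv N1 S p eP n qP qv h2 hc j))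
    (hcomm0 : ∀ i j, Commute (opsPv0 N1 S p qP qv i) (opsPv0 N1 S p qP qv j))
    (θ : CuspForm.heckeAlgebra N1 2 (↑S : Set ℕ) →+* ResidueField 𝒪)
    (α : Fin r → ResidueField 𝒪) (ℓ₀ : ℕ) (hℓ₀ : GoodTw N1 S qv ℓ₀)
    (hne : θ (CuspForm.heckeAlgebra.T hℓ₀.1 hℓ₀.not_dvd hℓ₀.not_mem)
      ≠ ((ℓ₀ : ResidueField 𝒪) + 1))
    (v : 𝒪 ⊗[ℤ] AHpv N1 p eP n qP qv)
    (hv : v ∈ Wpv N1 S p eP n qP qv h2 hc 𝒪 hcomm θ α) (hϖv : ϖ • v = 0)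
    (hdv : ∀ u : (ZMod (pvC qP qv))ˣ,
      (diaZ (N1 * twC qv) (pvC qP qv) (pvH qP qv p eP n) h2 hc p u).baseChange 𝒪 v = v) :
    ∃ y ∈ Ypv N1 S p qP qv 𝒪 hcomm0 θ α,
      (upZ (N1 * twC qv) (pvC qP qv) (pvH qP qv p eP n) p).baseChange 𝒪 y = v := by
  have hp0 : (p : 𝒪) ≠ 0 := Nat.cast_ne_zero.mpr hPV.hp.ne_zero
  haveI : NeZero (pvC qP qv) := ⟨hPV.pvC_ne_zero⟩
  have hE := etaPv_tEisPolyPv N1 S p eP n qP qv h2 hc hcomm ℓ₀ hℓ₀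
  have hθ : thetaPv N1 S qP qv θ α (tEisPolyPv p eP n qP qv ℓ₀) ≠ 0 := by
    rw [thetaPv_tEisPolyPv N1 S p eP n qP qv θ α ℓ₀ hℓ₀]
    exact sub_ne_zero.mpr hne
  obtain ⟨-, -, -, -, hup, -, -⟩ := H19.stmt_Z_COMMpv N1 S p eP n qP qv h2 hc hPV.prime
  obtain ⟨y, hy, -, hy2⟩ := Fermat.Agent.NEB.Geom.H94.stmt_W_INV 𝒪 ϖ hϖ p hpm hp0
    (AHpv N1 p eP n qP qv) (fun x => isPTors_coe x)
    (Fermat.Agent.NEB.Geom.H14.finite_AH (N1 * twC qv) (pvC qP qv) (pvH qP qv p eP n) h2 hc p)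
    (A0 (N1 * twC qv) p) (fun x => isPTors_coe x)
    (Fermat.Agent.NEB.Geom.H14.finite_A0 (N1 * twC qv) p hPV.hp.ne_zero)
    (PolyTw r (pvC qP qv)) (etaPv N1 S p eP n qP qv h2 hc hcomm)
    (etaPv0 N1 S p qP qv hcomm0)
    (thetaPv N1 S qP qv θ α) (tEisPolyPv p eP n qP qv ℓ₀) hθ
    (upZ (N1 * twC qv) (pvC qP qv) (pvH qP qv p eP n) p)
    (fun t => Fermat.Agent.NEB.Geom.H14.polyHom_intertwine (opsPv0 N1 S p qP qv) hcomm0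
      (opsPv N1 S p eP n qP qv h2 hc) hcomm
      (upZ (N1 * twC qv) (pvC qP qv) (pvH qP qv p eP n) p) hup t)
    (ZMod (pvC qP qv))ˣ
    (diaZ (N1 * twC qv) (pvC qP qv) (pvH qP qv p eP n) h2 hc p)
    (fun u => ⟨MvPolynomial.X (Sum.inr (Sum.inr u)), polyHom_X _ _ _⟩)
    (fun y hy hdy => by
      obtain ⟨y₀, m, h1, h3⟩ := gen_inv (N1 * twC qv) (pvC qP qv) (pvH qP qv p eP n) h2 hc p
        hPV.hp (pv_unr hPV h2 hc) ℓ₀ hℓ₀.1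
        (Fermat.Agent.NEB.Geom.H29.not_dvd_level_of_good hℓ₀) y hy hdy
      exact ⟨y₀, m, h1, by rw [hE]; exact h3⟩)
    v hv hϖv hdv
  exact ⟨y, hy, hy2⟩

end Main

end Fermat.Agent.L.Pivot.Geom.H29
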