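import Fermat.Agent.L.Pivot.Geom.AsmPV
import Fermat.Agent.L.Pivot.Geom.H18_MixNorm
import Fermat.Agent.L.Pivot.Geom.H14_OmegaPv
import Fermat.Agent.L.Pivot.Geom.H29_PUpInj
import Fermat.Agent.NEB.Geom.H14_PiWire
import Fermat.Agent.NEB.Geom.H15_APIof

/-!
# PIVOT, package PV-GEOM, Part I, leaf P-PI (helper18): the wiring

`π = ω ∘ π_*`, `πup = π^* ∘ ω⁻¹` between `W' = Wpv` and the `θ`-part at level `N1`, through
`Y' = Ypv` (level `Γ₀(M1)`) and helper14's `ω` (`H14.exists_omega_pv`):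

* `p_pi_of` : `Stmt_P_pi Dm D` from
  - helper29's `H29.p_upinj`, `H29.p_upinv`,
  - the norm formula `H18.pv_normZ` (`π^* π_* = Nm_{Δ_Q} ∘ Nm_{Δ_Σ}` on `J_{H'}[p^∞]`),
  - helper19's `H19.stmt_Z_COMMpv`, helper14's `pi_wire_abs`, `exists_omega_pv`,
  - the two auxiliary statements `hfix` (invariance under the generators) and `hcoe` (the total
    norms on the `θ`-part).

PV clone of helper14's `stmt_PI_WIRE_of` and helper15's `stmt_A_PI_of`.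
-/

set_option autoImplicit false
set_option linter.unusedSectionVars false
set_option linter.unusedVariables false
set_option linter.style.haveILetI false
set_option synthInstance.maxHeartbeats 400000
set_option maxHeartbeats 1600000

noncomputable section

open ModularCurve AlgebraicCurve IsLocalRing TensorProduct Polynomial

namespace Fermat.Agent.L.Pivot.Geom.H18

open Fermat.Agent.NEB Fermat.Agent.NEB.JH Fermat.Agent.NEB.Geom Fermat.Agent.S59.Lim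
  Fermat.Agent.S59.Lim.H2 Fermat.Agent.S59.Asm Fermat.Agent.L.Pivot.Geom
  Fermat.Agent.NEB.OLD

section Main

variable {𝒪 : Type} [CommRing 𝒪] [IsDomain 𝒪] [IsDiscreteValuationRing 𝒪]
  [Finite (ResidueField 𝒪)] [CharZero 𝒪]
  {ϖ : 𝒪} {p : ℕ} [Fact p.Prime] {N1 : ℕ} [NeZero N1] {S : Finset ℕ}
  {θ : CuspForm.heckeAlgebra N1 2 (↑S : Set ℕ) →+* ResidueField 𝒪}
  {ρbar : ResidualGaloisRep (ResidueField 𝒪)} {k : ℕ} {eP : Fin k → ℕ} {n : ℕ}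
  {qP : Fin k → ℕ} {r : ℕ} {qv : Fin r → ℕ}
  [NeZero (N1 * twC qv)] [NeZero (pvC qP qv)] [NeZero (twLevel N1 qv)]
  [NeZero (pvLevel N1 qP qv)]

/-- The primes dividing `pvLevel` are in the Taylor–Wiles set. -/
theorem mem_twSet_of_dvd_pvLevel (h : PvHyp N1 S p eP n qP qv)
    (q : ℕ) (hq : q.Prime) (hqN : q ∣ pvLevel N1 qP qv) : q ∈ (↑(twSet S qv) : Set ℕ) :=
  Fermat.Agent.NEB.Geom.H15.mem_twSet_of_dvd h.hNS h.prime q hq
    (H4.prime_dvd_twLevel_of_dvd_pvLevel N1 qP qv h.dvdP q hq hqN)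

/-- **P-PI**, for one setup, from the sub-leaves. -/
theorem p_pi_of (hϖ : Irreducible ϖ) (hpm : (p : 𝒪) ∈ maximalIdeal 𝒪)
    (Dm : MinSetup 𝒪 ϖ p N1 S θ) (D : PvSetup 𝒪 ϖ p N1 S θ ρbar eP n qP qv)
    (hfix : ∀ v : 𝒪 ⊗[ℤ] AHpv N1 p eP n qP qv,
      (∀ j, (diaZ (N1 * twC qv) (pvC qP qv) (pvH qP qv p eP n) D.h2 D.hc p
        (D.δP j)).baseChange 𝒪 v = v) →
      (∀ i, (diaZ (N1 * twC qv) (pvC qP qv) (pvH qP qv p eP n) D.h2 D.hc p
        (D.δQ i)).baseChange 𝒪 v = v) →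
      ∀ u, (diaZ (N1 * twC qv) (pvC qP qv) (pvH qP qv p eP n) D.h2 D.hc p
        u).baseChange 𝒪 v = v)
    (hcoe : ∀ x : D.WD.W,
      D.val (Fermat.Agent.S59.TWH.H90.nmTot (p ^ n) D.d
        (H59.nmTotE (fun j => p ^ eP j) D.c x))
      = (Fermat.Agent.S59.TWH.H90.nmTot (p ^ n)
          (fun i => diaZ (N1 * twC qv) (pvC qP qv) (pvH qP qv p eP n) D.h2 D.hc p (D.δQ i)) *
        H59.nmTotE (fun j => p ^ eP j)
          (fun j => diaZ (N1 * twC qv) (pvC qP qv) (pvH qP qv p eP n) D.h2 D.hc p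
            (D.δP j))).baseChange 𝒪 (D.val x)) :
    Stmt_P_pi Dm D := by
  classical
  have hp0 : (p : 𝒪) ≠ 0 := Nat.cast_ne_zero.mpr (Fact.out : p.Prime).ne_zero
  have hPV := D.hPV
  obtain ⟨-, -, hc0, hc0G, hup, hdown, hupG⟩ :=
    H19.stmt_Z_COMMpv N1 S p eP n qP qv D.h2 D.hc hPV.prime
  have hnm := pv_normZ hPV D.h2 D.hc D.hδ
  obtain ⟨Φ, hΦ1, hΦ2, hΦ3, hΦ4, hΦ5⟩ :=
    Fermat.Agent.L.Pivot.Geom.H14.exists_omega_pv (𝒪 := 𝒪) (p := p) (qP := qP) hp0 hPV.inj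
      hPV.prime hPV.notS hPV.hNS hc0 θ D.α D.β D.eig Dm.ηC Dm.ηC_T
  have hgUp : ∀ t, upZ (N1 * twC qv) (pvC qP qv) (pvH qP qv p eP n) p ∘ₗ
        etaPv0 N1 S p qP qv hc0 t
      = etaPv N1 S p eP n qP qv D.h2 D.hc D.hcomm t ∘ₗ
        upZ (N1 * twC qv) (pvC qP qv) (pvH qP qv p eP n) p :=
    Fermat.Agent.NEB.Geom.H14.polyHom_intertwine (opsPv0 N1 S p qP qv) hc0
      (opsPv N1 S p eP n qP qv D.h2 D.hc) D.hcomm _ hup
  have hgDown : ∀ t, downZ (N1 * twC qv) (pvC qP qv) (pvH qP qv p eP n) p ∘ₗ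
        etaPv N1 S p eP n qP qv D.h2 D.hc D.hcomm t
      = etaPv0 N1 S p qP qv hc0 t ∘ₗ
        downZ (N1 * twC qv) (pvC qP qv) (pvH qP qv p eP n) p :=
    Fermat.Agent.NEB.Geom.H14.polyHom_intertwine (opsPv N1 S p eP n qP qv D.h2 D.hc) D.hcomm
      (opsPv0 N1 S p qP qv) hc0 _ hdown
  have hinj : ∀ y ∈ thetaPart (etaPv0 N1 S p qP qv hc0) (thetaPv N1 S qP qv θ D.α),
      (upZ (N1 * twC qv) (pvC qP qv) (pvH qP qv p eP n) p).baseChange 𝒪 y = 0 → y = 0 :=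
    fun y hy hy0 => H29.p_upinj ϖ hϖ p hpm N1 S eP n qP qv hPV D.h2 D.hc hc0 θ D.α D.ℓ₀ D.hℓ₀
      D.hne y hy hy0
  obtain ⟨π, πup, k1, k2, k3, k4⟩ :=
    Fermat.Agent.NEB.Geom.H14.pi_wire_abs (𝒪 := 𝒪)
      (etaPv N1 S p eP n qP qv D.h2 D.hc D.hcomm) (etaPv0 N1 S p qP qv hc0) Dm.ηC
      (thetaPv N1 S qP qv θ D.α) θ
      (upZ (N1 * twC qv) (pvC qP qv) (pvH qP qv p eP n) p) hgUp
      (downZ (N1 * twC qv) (pvC qP qv) (pvH qP qv p eP n) p) hgDown (resP p Φ) hΦ3 hΦ4 hΦ5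
      hinj
  -- description of `πup y`
  have hdesc : ∀ y : ↥(thetaPart Dm.ηC θ), ∃ v ∈ thetaPart (etaPv0 N1 S p qP qv hc0)
      (thetaPv N1 S qP qv θ D.α), (resP p Φ).baseChange 𝒪 v = y.1 ∧
      ((πup y : ↥(thetaPart (etaPv N1 S p eP n qP qv D.h2 D.hc D.hcomm)
          (thetaPv N1 S qP qv θ D.α))) : 𝒪 ⊗[ℤ] AHpv N1 p eP n qP qv)
        = (upZ (N1 * twC qv) (pvC qP qv) (pvH qP qv p eP n) p).baseChange 𝒪 v := by
    intro y
    obtain ⟨v, hv, hvy⟩ := hΦ4 y.1 y.2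
    refine ⟨v, hv, hvy, ?_⟩
    have hy : y = ⟨(resP p Φ).baseChange 𝒪 v, hΦ3 v hv⟩ := Subtype.ext hvy.symm
    rw [hy]
    exact k3 v hv
  -- the diamonds fix `πup y`
  have hdia : ∀ (u : (ZMod (pvC qP qv))ˣ) (y : ↥(thetaPart Dm.ηC θ)),
      (diaZ (N1 * twC qv) (pvC qP qv) (pvH qP qv p eP n) D.h2 D.hc p u).baseChange 𝒪
        ((πup y : ↥(thetaPart (etaPv N1 S p eP n qP qv D.h2 D.hc D.hcomm)
          (thetaPv N1 S qP qv θ D.α))) : 𝒪 ⊗[ℤ] AHpv N1 p eP n qP qv) = (πup y : _) := by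
    intro u y
    obtain ⟨v, hv, -, hvy⟩ := hdesc y
    rw [hvy]
    have h1 : diaZ (N1 * twC qv) (pvC qP qv) (pvH qP qv p eP n) D.h2 D.hc p u
        ∘ₗ upZ (N1 * twC qv) (pvC qP qv) (pvH qP qv p eP n) p
        = upZ (N1 * twC qv) (pvC qP qv) (pvH qP qv p eP n) p := by
      have := hup (Sum.inr (Sum.inr u))
      exact this.symm
    have h3 := congrArg (fun F => F v) (congrArg (LinearMap.baseChange 𝒪) h1)
    simp only [LinearMap.baseChange_comp, LinearMap.comp_apply] at h3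
    exact h3
  unfold Stmt_P_pi
  refine ⟨π, πup, k1, fun x => Subtype.ext ?_, fun u y => Subtype.ext ?_,
    fun v hv hcv hdv => ?_, ?_, fun σ y => ?_⟩
  · -- `πup ∘ π = Nm_{Δ_Q} ∘ Nm_{Δ_Σ}`
    refine (k2 x).trans ?_
    rw [hnm]
    exact (hcoe x).symm
  · -- the diamonds fix `πup y`
    exact hdia u y
  · -- INV
    have hall := hfix v.1 (fun j => congrArg Subtype.val (hcv j))
      (fun i => congrArg Subtype.val (hdv i))
    obtain ⟨y, hy, hyv⟩ := H29.p_upinv ϖ hϖ p hpm N1 S eP n qP qv hPV D.h2 D.hc D.hcomm hc0 θ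
      D.α D.ℓ₀ D.hℓ₀ D.hne v.1 v.2 (congrArg Subtype.val hv) hall
    exact ⟨⟨(resP p Φ).baseChange 𝒪 y, hΦ3 y hy⟩, Subtype.ext ((k3 y hy).trans hyv)⟩
  · -- Hecke equivariance of `π`
    have hS : ∀ q : ℕ, q.Prime → q ∣ pvLevel N1 qP qv → q ∈ (↑(twSet S qv) : Set ℕ) :=
      mem_twSet_of_dvd_pvLevel hPV
    have key : ∀ t, t ∈ Fermat.Agent.NEB.Geom.H15.interSub
        (W := ↥(Wpv N1 S p eP n qP qv D.h2 D.hc 𝒪 D.hcomm θ D.α))
        (W' := ↥(thetaPart Dm.ηC θ)) π D.η (thetaEta Dm.ηC θ)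
        ((Fermat.Agent.S59.Asm.H41.restTW N1 S qv hPV.prime).comp
          (H4.restPV N1 S qP qv hPV.dvdP)) := by
      refine Fermat.Agent.NEB.EIG.H39.hecke_induction hS ?_ (fun m => intCast_mem _ m)
        (fun x y hx hy => add_mem hx hy) (fun x y hx hy => mul_mem hx hy)
      intro ℓ hℓ hℓN hℓS
      rw [Fermat.Agent.NEB.Geom.H15.mem_interSub]
      intro v
      have hg : GoodTw N1 S qv ℓ := goodTw_of_pv N1 S qP qv hℓ hℓN hℓS
      haveI : NeZero ℓ := ⟨hℓ.ne_zero⟩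
      have hrest : ((Fermat.Agent.S59.Asm.H41.restTW N1 S qv hPV.prime).comp
          (H4.restPV N1 S qP qv hPV.dvdP)) (CuspForm.heckeAlgebra.T hℓ hℓN hℓS)
          = CuspForm.heckeAlgebra.T hℓ hg.not_dvd hg.not_mem :=
        (congrArg (Fermat.Agent.S59.Asm.H41.restTW N1 S qv hPV.prime)
          (H4.restPV_T N1 S qP qv hPV.dvdP ℓ hℓ hℓN hℓS hg.2.1)).trans
          (Fermat.Agent.S59.Asm.H41.restTW_T N1 S qv hPV.prime ℓ hℓ hg.2.1 hℓS hg.not_dvd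
            hg.not_mem)
      have hη := D.η_T ℓ hℓ hℓN hℓS
      have hL : D.η (CuspForm.heckeAlgebra.T hℓ hℓN hℓS) v
          = thetaEta (etaPv N1 S p eP n qP qv D.h2 D.hc D.hcomm) (thetaPv N1 S qP qv θ D.α)
              (MvPolynomial.X (Sum.inl ℓ)) v := congrArg (fun F => F v) hη
      have hR : thetaEta Dm.ηC θ (((Fermat.Agent.S59.Asm.H41.restTW N1 S qv hPV.prime).comp
          (H4.restPV N1 S qP qv hPV.dvdP)) (CuspForm.heckeAlgebra.T hℓ hℓN hℓS)) (π v)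
          = thetaEta Dm.ηC θ (CuspForm.heckeAlgebra.T hℓ hg.not_dvd hg.not_mem) (π v) :=
        congrArg (fun t => thetaEta Dm.ηC θ t (π v)) hrest
      refine (congrArg π hL).trans (Eq.trans ?_ hR.symm)
      refine Subtype.ext ?_
      rw [k4, thetaEta_apply, thetaEta_apply, k4]
      rw [Fermat.Agent.NEB.Geom.H14.bc_apply_of_comp (hgDown (MvPolynomial.X (Sum.inl ℓ)))]
      have e1 : etaPv0 N1 S p qP qv hc0 (MvPolynomial.X (Sum.inl ℓ))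
          = resP p (U0 (N1 * twC qv) ℓ) :=
        ((polyHom_X _ _ _).trans (H19.opsPv0_inl_good N1 S p qP qv hg)).trans
          (Fermat.Agent.NEB.Geom.H14.Tz0_eq_resP p (N1 * twC qv) ℓ hℓ
            (Fermat.Agent.NEB.Geom.H29.not_dvd_level_of_good hg))
      have e2 : Dm.ηC (CuspForm.heckeAlgebra.T hℓ hg.not_dvd hg.not_mem) = resP p (U0 N1 ℓ) :=
        (Dm.ηC_T ℓ hℓ hg.not_dvd hg.not_mem).trans
          (Fermat.Agent.NEB.Geom.H14.Tz0_eq_resP p N1 ℓ hℓ hg.not_dvd)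
      have e3 : resP p Φ ∘ₗ etaPv0 N1 S p qP qv hc0 (MvPolynomial.X (Sum.inl ℓ))
          = Dm.ηC (CuspForm.heckeAlgebra.T hℓ hg.not_dvd hg.not_mem) ∘ₗ resP p Φ := by
        rw [e1, e2]
        refine LinearMap.ext fun x => Subtype.ext ?_
        exact hΦ1 ℓ hg x.1
      exact Fermat.Agent.NEB.Geom.H14.bc_apply_of_comp e3 _
    exact fun t v => key t v
  · -- Galois equivariance of `πup`
    obtain ⟨v, hv, hvy, hπy⟩ := hdesc y
    have hcG : ∀ t, Commute (etaPv0 N1 S p qP qv hc0 t) (galZ0 (N1 * twC qv) p σ) :=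
      Fermat.Agent.NEB.Geom.H14.polyHom_commute _ _ _ (fun i => hc0G i σ)
    have hv' : (galZ0 (N1 * twC qv) p σ).baseChange 𝒪 v
        ∈ thetaPart (etaPv0 N1 S p qP qv hc0) (thetaPv N1 S qP qv θ D.α) :=
      (thetaZ (thetaPv N1 S qP qv θ D.α) (galZ0 (N1 * twC qv) p σ) hcG ⟨v, hv⟩).2
    have e3 : resP p Φ ∘ₗ galZ0 (N1 * twC qv) p σ = galZ0 N1 p σ ∘ₗ resP p Φ := by
      refine LinearMap.ext fun x => Subtype.ext ?_
      exact hΦ2 σ x.1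
    have hy' : Dm.gal σ y
        = ⟨(resP p Φ).baseChange 𝒪 ((galZ0 (N1 * twC qv) p σ).baseChange 𝒪 v),
            hΦ3 _ hv'⟩ := by
      refine Subtype.ext ?_
      show (galZ0 N1 p σ).baseChange 𝒪 y.1 = _
      rw [← hvy]
      exact (Fermat.Agent.NEB.Geom.H14.bc_apply_of_comp e3 v).symm
    show ((πup (Dm.gal σ y) : ↥(thetaPart (etaPv N1 S p eP n qP qv D.h2 D.hc D.hcomm)
          (thetaPv N1 S qP qv θ D.α))) : 𝒪 ⊗[ℤ] AHpv N1 p eP n qP qv) = _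
    rw [hy', k3 _ hv']
    show _ = (galZ (N1 * twC qv) (pvC qP qv) (pvH qP qv p eP n) p σ).baseChange 𝒪
      ((πup y : ↥(thetaPart (etaPv N1 S p eP n qP qv D.h2 D.hc D.hcomm)
          (thetaPv N1 S qP qv θ D.α))) : 𝒪 ⊗[ℤ] AHpv N1 p eP n qP qv)
    rw [hπy]
    exact Fermat.Agent.NEB.Geom.H14.bc_apply_of_comp (hupG σ) v

end Main

end Fermat.Agent.L.Pivot.Geom.H18
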