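import Fermat.Agent.L.Pivot.Geom.H18_PPi

/-!
# PIVOT, package PV-GEOM, Part I, leaf P-PI (helper18): the final statement

* `nmTotE_baseChange`, `coe_nmTotE_thetaZ` : the total norm with mixed exponents, base change
  and restriction to the `θ`-part;
* `pv_coe_norm`     : `Nm_{Δ_Q} ∘ Nm_{Δ_Σ}` on `W'` is the restriction of the base change;
* `pv_dia_fix_all`  : an element of `𝒪 ⊗ J_{H'}[p^∞]` fixed by the `⟨δP j⟩` and the `⟨δQ i⟩` is
  fixed by all the diamond operators;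
* `p_pi`            : `Stmt_P_pi Dm D`;
* `stmt_P_PI : Stmt_P_PI`.
-/

set_option autoImplicit false
set_option linter.unusedSectionVars false
set_option linter.unusedVariables false
set_option linter.style.haveILetI false
set_option synthInstance.maxHeartbeats 400000
set_option maxHeartbeats 1600000

noncomputable section

open ModularCurve AlgebraicCurve IsLocalRing TensorProduct Polynomial

namespace Fermat.Agent.L.Pivot.Geom.H18

open Fermat.Agent.NEB Fermat.Agent.NEB.JH Fermat.Agent.NEB.Geom Fermat.Agent.S59.Lim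
  Fermat.Agent.S59.Lim.H2 Fermat.Agent.S59.Asm Fermat.Agent.L.Pivot.Geom
  Fermat.Agent.S59.TWH.H90 Fermat.Agent.L.Pivot.Geom.H59 Fermat.Agent.L.Pivot.Geom.H70

/-! ## The total norm with mixed exponents on the `θ`-part -/

section GenTheta

variable {𝒪 : Type} [CommRing 𝒪] [IsLocalRing 𝒪] {𝕋 : Type} [CommRing 𝕋]
  {A : Type} [AddCommGroup A]

theorem nmTotE_baseChange (𝒪 : Type) [CommRing 𝒪] {A : Type} [AddCommGroup A] {r : ℕ}
    (m : Fin r → ℕ) (d : Fin r → Module.End ℤ A) :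
    (nmTotE m d).baseChange 𝒪 = nmTotE m (fun j => (d j).baseChange 𝒪) := by
  have key : ∀ f : Module.End ℤ A, f.baseChange 𝒪 = Module.End.baseChangeHom ℤ 𝒪 A f :=
    fun f => rfl
  rw [key]
  unfold nmTotE
  rw [map_list_prod, List.map_ofFn]
  refine congrArg List.prod (congrArg List.ofFn (funext fun j => ?_))
  simp only [Function.comp_apply]
  unfold nm
  rw [map_sum]
  refine Finset.sum_congr rfl fun e _ => ?_
  rw [map_pow]
  rfl

theorem coe_nmTotE_thetaZ (η : 𝕋 →+* Module.End ℤ A) (θ : 𝕋 →+* ResidueField 𝒪) :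
    ∀ {r : ℕ} (m : Fin r → ℕ) (d : Fin r → Module.End ℤ A) (hd : ∀ j t, Commute (η t) (d j))
      (x : ↥(thetaPart η θ)),
      ((nmTotE m (fun j => thetaZ θ (d j) (hd j)) x : ↥(thetaPart η θ)) : 𝒪 ⊗[ℤ] A)
        = nmTotE m (fun j => (d j).baseChange 𝒪) x.1 := by
  intro r
  induction r with
  | zero =>
    intro m d hd x
    rw [nmTotE_zero, nmTotE_zero]
    rfl
  | succ r ih =>
    intro m d hd x
    rw [nmTotE_succ, nmTotE_succ, Module.End.mul_apply, Module.End.mul_apply,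
      Fermat.Agent.NEB.Geom.H94.coe_nm_thetaZ,
      ih (fun j => m j.succ) (fun j => d j.succ) (fun j => hd j.succ) x, nm_apply]

end GenTheta

section Main

variable {𝒪 : Type} [CommRing 𝒪] [IsDomain 𝒪] [IsDiscreteValuationRing 𝒪]
  {ϖ : 𝒪} {p : ℕ} {N1 : ℕ} [NeZero N1] {S : Finset ℕ}
  {θ : CuspForm.heckeAlgebra N1 2 (↑S : Set ℕ) →+* ResidueField 𝒪}
  {ρbar : ResidualGaloisRep (ResidueField 𝒪)} {k : ℕ} {eP : Fin k → ℕ} {n : ℕ}
  {qP : Fin k → ℕ} {r : ℕ} {qv : Fin r → ℕ}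
  [NeZero (N1 * twC qv)] [NeZero (pvC qP qv)] [NeZero (twLevel N1 qv)]
  [NeZero (pvLevel N1 qP qv)]

/-- `Nm_{Δ_Q} ∘ Nm_{Δ_Σ}` on `W'` is the restriction of the base change. -/
theorem pv_coe_norm (D : PvSetup 𝒪 ϖ p N1 S θ ρbar eP n qP qv) (x : D.WD.W) :
    D.val (nmTot (p ^ n) D.d (nmTotE (fun j => p ^ eP j) D.c x))
      = (nmTot (p ^ n)
          (fun i => diaZ (N1 * twC qv) (pvC qP qv) (pvH qP qv p eP n) D.h2 D.hc p (D.δQ i)) *
        nmTotE (fun j => p ^ eP j)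
          (fun j => diaZ (N1 * twC qv) (pvC qP qv) (pvH qP qv p eP n) D.h2 D.hc p
            (D.δP j))).baseChange 𝒪 (D.val x) := by
  have h1 := Fermat.Agent.NEB.Geom.H15.coe_nmTot_thetaZ
    (etaPv N1 S p eP n qP qv D.h2 D.hc D.hcomm) (thetaPv N1 S qP qv θ D.α) (p ^ n)
    (fun i => diaZ (N1 * twC qv) (pvC qP qv) (pvH qP qv p eP n) D.h2 D.hc p (D.δQ i))
    (fun i t => D.comm_dia (D.δQ i) t)
    (nmTotE (fun j => p ^ eP j) D.c x)
  have h2 := coe_nmTotE_thetaZ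
    (etaPv N1 S p eP n qP qv D.h2 D.hc D.hcomm) (thetaPv N1 S qP qv θ D.α)
    (fun j => p ^ eP j)
    (fun j => diaZ (N1 * twC qv) (pvC qP qv) (pvH qP qv p eP n) D.h2 D.hc p (D.δP j))
    (fun j t => D.comm_dia (D.δP j) t) x
  rw [baseChange_mul_eq, Module.End.mul_apply,
    Fermat.Agent.NEB.Geom.H14.nmTot_baseChange, nmTotE_baseChange]
  refine h1.trans ?_
  exact congrArg _ h2

/-- An element fixed by the `⟨δP j⟩` and the `⟨δQ i⟩` is fixed by all the diamond operators. -/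
theorem pv_dia_fix_all (h : PvHyp N1 S p eP n qP qv) (h2 : 2 ≤ pvC qP qv)
    (hc : pvC qP qv ∣ N1 * twC qv)
    {δP : Fin k → (ZMod (pvC qP qv))ˣ} {δQ : Fin r → (ZMod (pvC qP qv))ˣ}
    (hδ : IsDeltaGenPv p eP n qP qv δP δQ)
    (v : 𝒪 ⊗[ℤ] AHpv N1 p eP n qP qv)
    (hP : ∀ j, (diaZ (N1 * twC qv) (pvC qP qv) (pvH qP qv p eP n) h2 hc p
      (δP j)).baseChange 𝒪 v = v)
    (hQ : ∀ i, (diaZ (N1 * twC qv) (pvC qP qv) (pvH qP qv p eP n) h2 hc p
      (δQ i)).baseChange 𝒪 v = v)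
    (u : (ZMod (pvC qP qv))ˣ) :
    (diaZ (N1 * twC qv) (pvC qP qv) (pvH qP qv p eP n) h2 hc p u).baseChange 𝒪 v = v := by
  have hyp := pv_mixHyp h
  haveI : ∀ j, Finite (ZMod (pvQ qP qv j))ˣ := fun j =>
    Fermat.Agent.NEB.Geom.H29.finite_units_of_prime (hyp.prime j)
  haveI : ∀ j, IsCyclic (ZMod (pvQ qP qv j))ˣ := fun j =>
    Fermat.Agent.NEB.Geom.H29.isCyclic_units_of_prime (hyp.prime j)
  obtain ⟨s, y, hy, hu⟩ := (pv_isGenFamM hδ).exists_decomp (mixHyp_dvd_card hyp) u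
  -- the stabiliser of `v`
  let F : Submonoid (ZMod (pvC qP qv))ˣ :=
    { carrier := {w | (diaZ (N1 * twC qv) (pvC qP qv) (pvH qP qv p eP n) h2 hc p
        w).baseChange 𝒪 v = v}
      one_mem' := by
        show (diaZ (N1 * twC qv) (pvC qP qv) (pvH qP qv p eP n) h2 hc p
          1).baseChange 𝒪 v = v
        rw [map_one, baseChange_one_eq]
        rfl
      mul_mem' := by
        intro a b ha hb
        show (diaZ (N1 * twC qv) (pvC qP qv) (pvH qP qv p eP n) h2 hc p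
          (a * b)).baseChange 𝒪 v = v
        rw [map_mul, baseChange_mul_eq, Module.End.mul_apply]
        rw [show (diaZ (N1 * twC qv) (pvC qP qv) (pvH qP qv p eP n) h2 hc p
          b).baseChange 𝒪 v = v from hb]
        exact ha }
  have hgen : ∀ j, pvDelta qP qv δP δQ j ∈ F := by
    intro j
    refine Fin.addCases (fun j => ?_) (fun i => ?_) j
    · rw [pvDelta_left]
      exact hP j
    · rw [pvDelta_right]
      exact hQ i
  have hF : u ∈ F := by
    rw [hu]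
    refine F.mul_mem ?_ (F.prod_mem fun j _ => F.pow_mem (hgen j) _)
    show (diaZ (N1 * twC qv) (pvC qP qv) (pvH qP qv p eP n) h2 hc p y).baseChange 𝒪 v = v
    have hy' : y ∈ pvH qP qv p eP n := by
      rw [pvH_eq_mixH]
      exact hy
    rw [mix_diaZ_mem h2 hyp (pvH_eq_mixH qP qv p eP n) hy', baseChange_one_eq]
    rfl
  exact hF

variable [Finite (ResidueField 𝒪)] [CharZero 𝒪] [Fact p.Prime]

/-- **P-PI**, for one setup. -/
theorem p_pi (hϖ : Irreducible ϖ) (hpm : (p : 𝒪) ∈ maximalIdeal 𝒪)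
    (Dm : MinSetup 𝒪 ϖ p N1 S θ) (D : PvSetup 𝒪 ϖ p N1 S θ ρbar eP n qP qv) :
    Stmt_P_pi Dm D :=
  p_pi_of hϖ hpm Dm D
    (fun v hP hQ u => pv_dia_fix_all D.hPV D.h2 D.hc D.hδ v hP hQ u)
    (fun x => pv_coe_norm D x)

end Main

/-- **P-PI** (universally quantified). -/
theorem stmt_P_PI : Stmt_P_PI := by
  intro 𝒪 _ _ _ _ _ _ ϖ p _ N1 _ S Smin θ ρbar k Pv eP hstd Dm n r qv _ _ _ _ D
  exact p_pi hstd.hϖ hstd.hyp.hp𝒪 Dm D

end Fermat.Agent.L.Pivot.Geom.H18
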