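import Fermat.Agent.L.Pivot.Geom.H4_Rest

set_option autoImplicit false

open CuspForm Fermat.Agent.S59 Fermat.Agent.S59.Asm

namespace Fermat.Agent.L.Pivot.Geom.H19

/-- **The restriction `pvLevel → twLevel` is surjective**: the two Hecke algebras have the same
generators (the pivot primes divide `N1`). -/
theorem restPV_surjective (N1 : ℕ) (S : Finset ℕ) {k r : ℕ} (qP : Fin k → ℕ) (qv : Fin r → ℕ)
    [NeZero (twLevel N1 qv)] [NeZero (pvLevel N1 qP qv)] (hdvd : ∀ j, qP j ∣ N1) :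
    Function.Surjective (H4.restPV N1 S qP qv hdvd) := by
  rintro ⟨x, hx⟩
  induction hx using Algebra.adjoin_induction with
  | mem x hx =>
    rcases hx with ⟨ℓ, hℓ, hℓN, hℓS, rfl⟩ | ⟨q, hqN, hq, hqS, rfl⟩
    · have hℓN' : ¬ ℓ ∣ pvLevel N1 qP qv := fun h =>
        hℓN (H4.prime_dvd_twLevel_of_dvd_pvLevel N1 qP qv hdvd ℓ hℓ h)
      exact ⟨CuspForm.heckeAlgebra.T hℓ hℓN' hℓS, H4.restPV_T N1 S qP qv hdvd ℓ hℓ hℓN' hℓS hℓN⟩
    · have hqN' : q ∣ pvLevel N1 qP qv := dvd_trans hqN (H4.twLevel_dvd_pvLevel N1 qP qv)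
      exact ⟨CuspForm.heckeAlgebra.U hq hqN' hqS, H4.restPV_U N1 S qP qv hdvd q hq hqN' hqS hqN⟩
  | algebraMap a =>
    refine ⟨(a : CuspForm.heckeAlgebra (pvLevel N1 qP qv) 2 (↑(twSet S qv) : Set ℕ)), ?_⟩
    rw [map_intCast]
    apply Subtype.ext
    simp
  | add x y hx hy ihx ihy =>
    obtain ⟨s, hs⟩ := ihx
    obtain ⟨t, ht⟩ := ihy
    exact ⟨s + t, by rw [map_add, hs, ht]; rfl⟩
  | mul x y hx hy ihx ihy =>
    obtain ⟨s, hs⟩ := ihx
    obtain ⟨t, ht⟩ := ihy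
    exact ⟨s * t, by rw [map_mul, hs, ht]; rfl⟩

end Fermat.Agent.L.Pivot.Geom.H19
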