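import Fermat.Agent.L.Pivot.Geom.H19_Setup
import Fermat.Agent.L.Pivot.Geom.H19_RestSurj
import Fermat.Agent.L.Pivot.Geom.Base
import Fermat.Agent.S59.Lim.H2_Tens

/-!
# PIVOT, package PV-GEOM, Part I (design (C)): the top of the assembly (helper19)

* `Stmt_P_eigpart D`, `Stmt_P_new D` and `Stmt_P_EIGPART`, `Stmt_P_NEW` : the last two leaves
  (fields `eigpart`, `new` of helper59's `PVBase`);
* `nonempty_pvBase` : `PVBase` from the field statements on `D : PvSetup`;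
* `minSetup_of`     : the level-`N1` setup from `Stmt_W_MD` (no hypothesis on `ρbar`);
* `Stmt_PVBASE5`    : `Stmt_PVBASE` with the extra hypotheses `5 ≤ p`, `0 < k`;
* `stmt_PVBASE5_of` : **all leaves ⟹ `Stmt_PVBASE5`**.

Complete proofs, standard axioms only.
-/

set_option autoImplicit false
set_option linter.unusedSectionVars false
set_option linter.style.haveILetI false
set_option linter.unusedVariables false

noncomputable section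

open ModularCurve AlgebraicCurve IsLocalRing TensorProduct Polynomial

namespace Fermat.Agent.L.Pivot.Geom

open Fermat.Agent.NEB Fermat.Agent.NEB.JH Fermat.Agent.NEB.Geom Fermat.Agent.S59.Lim
  Fermat.Agent.S59.Lim.H2 Fermat.Agent.S59.Asm

section Fields

variable {𝒪 : Type} [CommRing 𝒪] [IsDomain 𝒪] [IsDiscreteValuationRing 𝒪]
  {ϖ : 𝒪} {p : ℕ} {N1 : ℕ} [NeZero N1] {S : Finset ℕ}
  {θ : CuspForm.heckeAlgebra N1 2 (↑S : Set ℕ) →+* ResidueField 𝒪}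
  {ρbar : ResidualGaloisRep (ResidueField 𝒪)} {k : ℕ} {eP : Fin k → ℕ} {n : ℕ}
  {qP : Fin k → ℕ} {r : ℕ} {qv : Fin r → ℕ}
  [NeZero (N1 * twC qv)] [NeZero (pvC qP qv)] [NeZero (twLevel N1 qv)]
  [NeZero (pvLevel N1 qP qv)]
  (Dm : MinSetup 𝒪 ϖ p N1 S θ) (D : PvSetup 𝒪 ϖ p N1 S θ ρbar eP n qP qv)

/-- **P-EIGPART**: a Hecke operator of level `pvLevel` whose restriction to the level `twLevel`
vanishes kills the `Δ_Σ`-norms of `W'`. -/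
def Stmt_P_eigpart : Prop :=
  ∀ t : CuspForm.heckeAlgebra (pvLevel N1 qP qv) 2 (↑(twSet S qv) : Set ℕ),
    H4.restPV N1 S qP qv D.hPV.dvdP t = 0 →
    ∀ x : D.WD.W, D.WD.η t (H59.nmTotE (fun j => p ^ eP j) D.c x) = 0

/-- **P-NEW**: the ramified types are new at the pivot primes (the field `new` of `PVBase`,
`PVDiv`, `PVGeom`; Part II of `NOTES/plan/PV_GEOM.md`). -/
def Stmt_P_new : Prop :=
  ∀ (ψ : Fin k → 𝒪), (∀ j, ψ j ^ (p ^ eP j) = 1 ∧ ψ j ≠ 1) →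
    ∀ (E : Type) [CommRing E] [IsDomain E] [CharZero E]
      (χ : CuspForm.heckeAlgebra (pvLevel N1 qP qv) 2 (↑(twSet S qv) : Set ℕ) →+* E),
      (∀ t, (∀ v : H2.tate ϖ D.WD.W, H2.mapEnd ϖ D.WD.W (D.WD.η t) v ∈
        typeSub (fun j => H2.mapEnd ϖ D.WD.W (D.c j)) ψ) → χ t = 0) →
      ∀ (j : Fin k) [NeZero (pvLevel N1 qP qv / qP j)]
        (χ' : CuspForm.heckeAlgebra (pvLevel N1 qP qv / qP j) 2 (↑(twSet S qv) : Set ℕ) →+* E),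
        ¬ ∀ (ℓ : ℕ) (hℓ : ℓ.Prime) (hℓN' : ¬ ℓ ∣ pvLevel N1 qP qv)
          (hℓS : ℓ ∉ (↑(twSet S qv) : Set ℕ)) (hℓN : ¬ ℓ ∣ pvLevel N1 qP qv / qP j),
          χ' (CuspForm.heckeAlgebra.T hℓ hℓN hℓS) = χ (CuspForm.heckeAlgebra.T hℓ hℓN' hℓS)

/-- **The final plumbing**: `PVBase` from the field statements. -/
theorem nonempty_pvBase (hgal : Stmt_P_gal D) (hes : Stmt_P_es D) (hC : Stmt_P_hstepC D)
    (hD : Stmt_P_hstepD D) (hpi : Stmt_P_pi Dm D) (heig : Stmt_P_eigpart D)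
    (hfn : Stmt_P_frob_nil D) (hlg : Stmt_P_lg D) (hnew : Stmt_P_new D) :
    Nonempty (PVBase 𝒪 ϖ p ρbar N1 S θ Dm.MD qP eP n qv) := by
  obtain ⟨π, πup, h1, h2, h3, h4, h5, _⟩ := hpi
  obtain ⟨g1, g2, g3, g4, g5, g6, g7⟩ := hgal
  exact ⟨{
    rest1 := Fermat.Agent.S59.Asm.H41.restTW N1 S qv D.hPV.prime
    rest1_T := fun ℓ hℓ hℓN' hℓS' hℓN hℓS =>
      Fermat.Agent.S59.Asm.H41.restTW_T N1 S qv D.hPV.prime ℓ hℓ hℓN' hℓS' hℓN hℓS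
    rest := H4.restPV N1 S qP qv D.hPV.dvdP
    rest_T := H4.restPV_T N1 S qP qv D.hPV.dvdP
    rest_surj := H19.restPV_surjective N1 S qP qv D.hPV.dvdP
    WD := D.WD
    gal := D.gal
    gal_cont := g1
    gal_η := g2
    es := hes
    c := D.c
    c_pow := g3
    d := D.d
    d_pow := g4
    c_comm := fun i j => g5 _ _
    d_comm := fun i j => g5 _ _
    c_d := fun j i => g5 _ _
    c_η := fun j t => g6 _ t
    d_η := fun i t => g6 _ t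
    c_gal := fun j g => g7 _ g
    d_gal := fun i g => g7 _ g
    hstepC := hC
    hstepD := hD
    π := π
    πup := πup
    πup_injective := h1
    πup_π := h2
    c_πup := fun j y => h3 _ y
    d_πup := fun i y => h3 _ y
    invAll := h4
    π_η := h5
    eigpart := heig
    P := D.P
    P_over := D.P_over
    frob := D.frob
    frob_spec := D.frob_spec
    σ := D.σ
    σ_mem := D.σ_mem
    a := D.a
    a' := D.a'
    a_ne := fun i => by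
      rw [D.ha i, D.ha' i]
      exact D.eig.ne i
    charpoly_frob := D.charpoly_frob
    frob_nil := hfn
    lg := hlg
    new := hnew }⟩

end Fields

/-! ## The universally quantified leaves P-EIGPART, P-NEW -/

/-- **P-EIGPART** (universally quantified). -/
def Stmt_P_EIGPART : Prop :=
  ∀ (𝒪 : Type) [CommRing 𝒪] [IsDomain 𝒪] [IsDiscreteValuationRing 𝒪]
    [IsAdicComplete (maximalIdeal 𝒪) 𝒪] [Finite (ResidueField 𝒪)] [CharZero 𝒪]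
    (ϖ : 𝒪) (p : ℕ) [Fact p.Prime] (N1 : ℕ) [NeZero N1] (S Smin : Finset ℕ)
    (θ : CuspForm.heckeAlgebra N1 2 (↑S : Set ℕ) →+* ResidueField 𝒪)
    (ρbar : ResidualGaloisRep (ResidueField 𝒪)) (k : ℕ) (Pv : PivotPrimes k)
    (eP : Fin k → ℕ), PvStd 𝒪 ϖ p N1 S Smin θ ρbar Pv eP →
    ∀ (Dm : MinSetup 𝒪 ϖ p N1 S θ) (n r : ℕ) (qv : Fin r → ℕ)
      [NeZero (N1 * twC qv)] [NeZero (pvC Pv.q qv)] [NeZero (twLevel N1 qv)]
      [NeZero (pvLevel N1 Pv.q qv)]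
      (D : PvSetup 𝒪 ϖ p N1 S θ ρbar eP n Pv.q qv),
      Stmt_P_eigpart D

/-- **P-NEW** (universally quantified). -/
def Stmt_P_NEW : Prop :=
  ∀ (𝒪 : Type) [CommRing 𝒪] [IsDomain 𝒪] [IsDiscreteValuationRing 𝒪]
    [IsAdicComplete (maximalIdeal 𝒪) 𝒪] [Finite (ResidueField 𝒪)] [CharZero 𝒪]
    (ϖ : 𝒪) (p : ℕ) [Fact p.Prime] (N1 : ℕ) [NeZero N1] (S Smin : Finset ℕ)
    (θ : CuspForm.heckeAlgebra N1 2 (↑S : Set ℕ) →+* ResidueField 𝒪)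
    (ρbar : ResidualGaloisRep (ResidueField 𝒪)) (k : ℕ) (Pv : PivotPrimes k)
    (eP : Fin k → ℕ), PvStd 𝒪 ϖ p N1 S Smin θ ρbar Pv eP →
    ∀ (Dm : MinSetup 𝒪 ϖ p N1 S θ) (n r : ℕ) (qv : Fin r → ℕ)
      [NeZero (N1 * twC qv)] [NeZero (pvC Pv.q qv)] [NeZero (twLevel N1 qv)]
      [NeZero (pvLevel N1 Pv.q qv)]
      (D : PvSetup 𝒪 ϖ p N1 S θ ρbar eP n Pv.q qv),
      Stmt_P_new D

/-! ## The level-`N1` setup -/

/-- The level-`N1` setup from W-MD (helper6's `stmt_A_MIN_of` without `StdHyp`). -/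
theorem minSetup_of (hMD : Stmt_W_MD)
    (𝒪 : Type) [CommRing 𝒪] [IsDomain 𝒪] [IsDiscreteValuationRing 𝒪]
    [IsAdicComplete (maximalIdeal 𝒪) 𝒪] [Finite (ResidueField 𝒪)] [CharZero 𝒪]
    (ϖ : 𝒪) (hϖ : Irreducible ϖ) (p : ℕ) [Fact p.Prime] (hpm : (p : 𝒪) ∈ maximalIdeal 𝒪)
    (N1 : ℕ) [NeZero N1] (S : Finset ℕ) (hNS : ∀ q : ℕ, q.Prime → q ∣ N1 → q ∈ S)
    (θ : CuspForm.heckeAlgebra N1 2 (↑S : Set ℕ) →+* ResidueField 𝒪) :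
    Nonempty (MinSetup 𝒪 ϖ p N1 S θ) := by
  obtain ⟨ηC, hT, hcomm, hdiv, hfin, hes, hunr, hcont, hnt⟩ := hMD p N1 S hNS
  have hp0 : (p : 𝒪) ≠ 0 := Nat.cast_ne_zero.mpr (Fact.out : p.Prime).ne_zero
  have htors : ∀ x : A0 N1 p, ∃ k : ℕ, p ^ k • x = 0 := fun x => isPTors_coe x
  exact ⟨{
    ηC := ηC
    ηC_T := hT
    gal_comm := fun σ t => hcomm t σ
    hW := stmt_TENS 𝒪 ϖ hϖ p hpm hp0 (A0 N1 p) htors hdiv hfin
    es := hes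
    unr := hunr
    cont := hcont
    nontriv := hnt 𝒪 hpm θ }⟩

/-! ## The top -/

/-- **PV-BASE with `5 ≤ p` and `0 < k`**: `Stmt_PVBASE` (helper59, `Base.lean`) with the two extra
hypotheses `5 ≤ p` (helper70: `UnrCond` at the pivot primes fails for `p = 3`) and `0 < k`
(for `k = 0` the datum is a Taylor–Wiles datum: NEB-GEOM). -/
def Stmt_PVBASE5 : Prop :=
  ∀ (𝒪 : Type) [CommRing 𝒪] [IsDomain 𝒪] [IsDiscreteValuationRing 𝒪]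
    [IsAdicComplete (maximalIdeal 𝒪) 𝒪] [Finite (ResidueField 𝒪)] [CharZero 𝒪]
    (ϖ : 𝒪), Irreducible ϖ →
    ∀ (p : ℕ) [Fact p.Prime] (ρbar : ResidualGaloisRep (ResidueField 𝒪)) (S Smin : Finset ℕ),
    Fermat.Agent.S56.Hyp 𝒪 p ρbar S Smin →
    ∀ (N1 : ℕ) [NeZero N1] [Fact (CuspForm.HasIntegralStructure N1 2)],
    (∀ q : ℕ, q.Prime → q ∣ N1 → q ∈ S) → Squarefree N1 →
    (5 ≤ p ∨ ∃ r : ℕ, r.Prime ∧ r ∣ N1 ∧ r % 3 = 2) →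
    ∀ (θ : CuspForm.heckeAlgebra N1 2 (↑S : Set ℕ) →+* ResidueField 𝒪),
      Fermat.Agent.S59.Datum.FrobHyp ρbar N1 S θ →
    ∀ (k : ℕ) (Pv : PivotPrimes k), 0 < k → Pv.IsExceptional p ρbar → (∀ j, Pv.q j ∣ N1) →
    ∀ (eP : Fin k → ℕ), (∀ j, p ^ eP j ∣ Pv.q j - 1 ∧ ¬ p ^ (eP j + 1) ∣ Pv.q j - 1) →
    ∃ MD : HDiv 𝒪 ϖ N1 (↑S : Set ℕ) θ, Nontrivial MD.W ∧
      ∀ (r n : ℕ) (qv : Fin r → ℕ), Fermat.Agent.S56.IsTWFamily ρbar p n S qv →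
        ∀ [NeZero (twLevel N1 qv)] [NeZero (pvLevel N1 Pv.q qv)]
          [Fact (CuspForm.HasIntegralStructure (twLevel N1 qv) 2)]
          [Fact (CuspForm.HasIntegralStructure (pvLevel N1 Pv.q qv) 2)],
          Nonempty (PVBase 𝒪 ϖ p ρbar N1 S θ MD Pv.q eP n qv)

/-- **PV-GEOM Part I, top**: all leaves imply `Stmt_PVBASE5`. -/
theorem stmt_PVBASE5_of (hMD : Stmt_W_MD) (hSETUP : Stmt_P_SETUP) (hGAL : Stmt_P_GAL)
    (hES : Stmt_P_ES) (hHC : Stmt_P_HSTEPC) (hHD : Stmt_P_HSTEPD) (hPI : Stmt_P_PI)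
    (hEIG : Stmt_P_EIGPART) (hFN : Stmt_P_FROBNIL) (hLG : Stmt_P_LG) (hNEW : Stmt_P_NEW) :
    Stmt_PVBASE5 := by
  intro 𝒪 _ _ _ _ _ _ ϖ hϖ p _ ρbar S Smin hyp N1 _ hint hNS hsq hU θ hfrob k Pv hk hex hdvd
    eP heP
  have hstd : PvStd 𝒪 ϖ p N1 S Smin θ ρbar Pv eP :=
    ⟨hϖ, hU, hyp, hNS, hsq, hfrob, hint.out, hex, hdvd, heP⟩
  obtain ⟨Dm⟩ := minSetup_of hMD 𝒪 ϖ hϖ p hyp.hp𝒪 N1 S hNS θ
  refine ⟨Dm.MD, Dm.nontriv, ?_⟩
  intro r n qv hfam _ _ _ _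
  have hPV : PvHyp N1 S p eP n Pv.q qv := pvHyp_of hstd hk hfam
  haveI : NeZero (pvC Pv.q qv) := ⟨hPV.pvC_ne_zero⟩
  haveI : NeZero (N1 * twC qv) := ⟨hPV.level_ne_zero⟩
  obtain ⟨D⟩ := hSETUP 𝒪 ϖ p N1 S Smin θ ρbar k Pv eP hstd hk n r qv hfam
  exact nonempty_pvBase Dm D
    (hGAL 𝒪 ϖ p N1 S Smin θ ρbar k Pv eP hstd Dm n r qv D)
    (hES 𝒪 ϖ p N1 S Smin θ ρbar k Pv eP hstd Dm n r qv D)
    (hHC 𝒪 ϖ p N1 S Smin θ ρbar k Pv eP hstd Dm n r qv D)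
    (hHD 𝒪 ϖ p N1 S Smin θ ρbar k Pv eP hstd Dm n r qv D)
    (hPI 𝒪 ϖ p N1 S Smin θ ρbar k Pv eP hstd Dm n r qv D)
    (hEIG 𝒪 ϖ p N1 S Smin θ ρbar k Pv eP hstd Dm n r qv D)
    (hFN 𝒪 ϖ p N1 S Smin θ ρbar k Pv eP hstd Dm n r qv D)
    (hLG 𝒪 ϖ p N1 S Smin θ ρbar k Pv eP hstd Dm n r qv D)
    (hNEW 𝒪 ϖ p N1 S Smin θ ρbar k Pv eP hstd Dm n r qv D)

end Fermat.Agent.L.Pivot.Geom

end
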