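import Fermat.Agent.L.Pivot.Geom.DefsPV
import Fermat.Agent.NEB.Geom.H84_Choice

/-!
# PIVOT, package PV-GEOM, Part I, leaf P-CHOICE (helper19)

The choices at the pivot primes and a Taylor–Wiles family (clone of helper84's A-CHOICE):

* `coprime_jPv`     : `j' + 1` is prime to `p`;
* `exists_sigma_pv` : inertia elements `σ_i ∈ I_{P_i}` (`P_i ∣ qv i`) and generators `δP j` of
  `Δ_Σ` with `IsDeltaGenPv δP (χ_c'(σ_i)^(j'+1))`;
* `exists_eig_pv`   : the eigenvalues `α_i ≠ β_i`, their lifts, `TwEig`, `charpoly_frob`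
  (also for `r = 0`).

Complete proofs, standard axioms only.
-/

set_option autoImplicit false
set_option linter.unusedSectionVars false
set_option linter.style.haveILetI false

noncomputable section

open ModularCurve AlgebraicCurve IsLocalRing TensorProduct Polynomial

namespace Fermat.Agent.L.Pivot.Geom.H19

open Fermat.Agent.NEB Fermat.Agent.NEB.JH Fermat.Agent.NEB.Geom Fermat.Agent.L.Pivot.Geom

/-- `j' + 1 = (p ^ E + 1) / 2` is prime to `p` (`p` odd). -/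
theorem coprime_jPv {p : ℕ} (hp : p.Prime) (hp2 : p ≠ 2) {k : ℕ} (eP : Fin k → ℕ) (n : ℕ) :
    Nat.Coprime (jPv p eP n + 1) p := by
  have h2 := two_jPv p eP n hp hp2
  by_cases hE : n + ∑ j, eP j = 0
  · rw [hE, pow_zero] at h2
    have : jPv p eP n = 0 := by omega
    rw [this]
    simp
  rw [Nat.coprime_comm, Nat.Prime.coprime_iff_not_dvd hp]
  intro hd
  have hpd : p ∣ p ^ (n + ∑ j, eP j) := dvd_pow_self p hE
  have h3 : p ∣ 2 * (jPv p eP n + 1) := Dvd.dvd.mul_left hd 2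
  have h4 : 2 * (jPv p eP n + 1) = p ^ (n + ∑ j, eP j) + 1 := by omega
  rw [h4] at h3
  have h5 : p ∣ 1 := (Nat.dvd_add_right hpd).mp h3
  exact hp.one_lt.ne' (Nat.dvd_one.mp h5)

section Sigma

variable {N1 : ℕ} {S : Finset ℕ} {p : ℕ} {k : ℕ} {eP : Fin k → ℕ} {n : ℕ} {qP : Fin k → ℕ}
  {r : ℕ} {qv : Fin r → ℕ}

theorem card_units_prime {q : ℕ} (hq : q.Prime) : Nat.card (ZMod q)ˣ = q - 1 := by
  haveI : Fact q.Prime := ⟨hq⟩
  haveI : NeZero q := ⟨hq.ne_zero⟩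
  rw [Nat.card_eq_fintype_card, ZMod.card_units_eq_totient, Nat.totient_prime hq]

/-- An inertia element at a place over a prime `q` whose cyclotomic character modulo `q`
generates `(ℤ/q)ˣ`. -/
theorem exists_inertia_gen {q : ℕ} (hq : q.Prime) (A : ValuationSubring Kbar)
    (hA : A.LiesOverPrime q) :
    ∃ σ : GalK, σ ∈ A.inertiaSubgroupIn ℚ ∧
      ∀ x : (ZMod q)ˣ, x ∈ Subgroup.zpowers
        (haveI : NeZero q := ⟨hq.ne_zero⟩
         Fermat.Agent.NEB.Geom.H6.chiC q σ) := by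
  haveI : NeZero q := ⟨hq.ne_zero⟩
  haveI : Fact q.Prime := ⟨hq⟩
  obtain ⟨g, hg⟩ := (inferInstance : IsCyclic (ZMod q)ˣ).exists_generator
  obtain ⟨σ, hσ, hσg⟩ :=
    Fermat.Agent.NEB.Geom.H6.chiC_inertia_surjective_prime q hq A hA g
  exact ⟨σ, hσ, fun x => hσg ▸ hg x⟩

/-- **The inertia elements and the generators**: `σ_i ∈ I_{P_i}` and `δP j` such that
`δP j`, `δQ i = χ_c'(σ_i)^(j'+1)` generate `Δ' = Δ_Σ × Δ_Q`. -/
theorem exists_sigma_pv (hPV : PvHyp N1 S p eP n qP qv) [NeZero (pvC qP qv)]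
    (P : Fin r → ValuationSubring Kbar) (hP : ∀ i, (P i).LiesOverPrime (qv i)) :
    ∃ (σ : Fin r → GalK) (δP : Fin k → (ZMod (pvC qP qv))ˣ),
      (∀ i, σ i ∈ (P i).inertiaSubgroupIn ℚ) ∧
      IsDeltaGenPv p eP n qP qv δP
        (fun i => Fermat.Agent.NEB.Geom.H6.chiC (pvC qP qv) (σ i) ^ (jPv p eP n + 1)) := by
  classical
  -- places over the pivot primes
  have hexP : ∀ j : Fin k, ∃ (A : ValuationSubring Kbar) (φ : GalK),
      A.LiesOverPrime (qP j) ∧ A.IsFrobeniusAt φ (qP j) :=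
    fun j => Fermat.Agent.Lib.FrobExists.exists_place_and_frobenius (qP j) (hPV.primeP j)
  choose PP _φ hPP _hφ using hexP
  choose τ hτ hgenP using fun j => exists_inertia_gen (hPV.primeP j) (PP j) (hPP j)
  choose σ hσ hgen using fun i => exists_inertia_gen (hPV.prime i) (P i) (hP i)
  refine ⟨σ, fun j => Fermat.Agent.NEB.Geom.H6.chiC (pvC qP qv) (τ j), hσ, ?_⟩
  refine ⟨?_, ?_, ?_, ?_, ?_, ?_⟩
  · -- P_P
    intro j j' hjj'
    haveI : NeZero (qP j') := ⟨(hPV.primeP j').ne_zero⟩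
    rw [Fermat.Agent.NEB.Geom.H6.chiC_unitsMap (dvd_pvC_P qP qv j') (τ j)]
    have hco : (qP j').Coprime (qP j) :=
      (Nat.coprime_primes (hPV.primeP j') (hPV.primeP j)).mpr (fun e => hjj' (hPV.injP e))
    exact Fermat.Agent.NEB.Geom.H6.chiC_inertia (qP j') (qP j) hco (PP j) (hPP j) (τ j) (hτ j)
  · -- P_Q
    intro j i
    haveI : NeZero (qv i) := ⟨(hPV.prime i).ne_zero⟩
    rw [Fermat.Agent.NEB.Geom.H6.chiC_unitsMap (dvd_pvC_Q qP qv i) (τ j)]
    have hco : (qv i).Coprime (qP j) :=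
      (Nat.coprime_primes (hPV.prime i) (hPV.primeP j)).mpr (fun e => hPV.qP_ne_qv j i e.symm)
    exact Fermat.Agent.NEB.Geom.H6.chiC_inertia (qv i) (qP j) hco (PP j) (hPP j) (τ j) (hτ j)
  · -- P_ord
    intro j t ht
    haveI : NeZero (qP j) := ⟨(hPV.primeP j).ne_zero⟩
    haveI : Fact (qP j).Prime := ⟨hPV.primeP j⟩
    obtain ⟨y, hy⟩ := ((mem_pvH qP qv p eP n).mp ht).1 j
    rw [map_pow, Fermat.Agent.NEB.Geom.H6.chiC_unitsMap (dvd_pvC_P qP qv j) (τ j)] at hy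
    have hpn : p ^ eP j ∣ Nat.card (ZMod (qP j))ˣ := by
      rw [card_units_prime (hPV.primeP j)]
      exact (hPV.congP j).1
    have h1 : Fermat.Agent.NEB.Geom.H6.chiC (qP j) (τ j) ^ (1 * t) = y ^ (p ^ eP j) := by
      rw [one_mul]
      exact hy.symm
    exact Fermat.Agent.NEB.Geom.H84.pow_dvd_of_gen _ (hgenP j) hPV.hp hpn
      (Nat.coprime_one_left p) t y h1
  · -- Q_Q
    intro i i' hii'
    haveI : NeZero (qv i') := ⟨(hPV.prime i').ne_zero⟩
    show ZMod.unitsMap (dvd_pvC_Q qP qv i')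
      (Fermat.Agent.NEB.Geom.H6.chiC (pvC qP qv) (σ i) ^ (jPv p eP n + 1)) = 1
    rw [map_pow, Fermat.Agent.NEB.Geom.H6.chiC_unitsMap (dvd_pvC_Q qP qv i') (σ i)]
    have hco : (qv i').Coprime (qv i) :=
      (Nat.coprime_primes (hPV.prime i') (hPV.prime i)).mpr (fun e => hii' (hPV.inj e))
    rw [Fermat.Agent.NEB.Geom.H6.chiC_inertia (qv i') (qv i) hco (P i) (hP i) (σ i) (hσ i),
      one_pow]
  · -- Q_P
    intro i j
    haveI : NeZero (qP j) := ⟨(hPV.primeP j).ne_zero⟩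
    show ZMod.unitsMap (dvd_pvC_P qP qv j)
      (Fermat.Agent.NEB.Geom.H6.chiC (pvC qP qv) (σ i) ^ (jPv p eP n + 1)) = 1
    rw [map_pow, Fermat.Agent.NEB.Geom.H6.chiC_unitsMap (dvd_pvC_P qP qv j) (σ i)]
    have hco : (qP j).Coprime (qv i) :=
      (Nat.coprime_primes (hPV.primeP j) (hPV.prime i)).mpr (fun e => hPV.qP_ne_qv j i e)
    rw [Fermat.Agent.NEB.Geom.H6.chiC_inertia (qP j) (qv i) hco (P i) (hP i) (σ i) (hσ i),
      one_pow]
  · -- Q_ord
    intro i t ht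
    haveI : NeZero (qv i) := ⟨(hPV.prime i).ne_zero⟩
    haveI : Fact (qv i).Prime := ⟨hPV.prime i⟩
    obtain ⟨y, hy⟩ := ((mem_pvH qP qv p eP n).mp ht).2 i
    rw [map_pow, map_pow, Fermat.Agent.NEB.Geom.H6.chiC_unitsMap (dvd_pvC_Q qP qv i) (σ i),
      ← pow_mul] at hy
    have hpn : p ^ n ∣ Nat.card (ZMod (qv i))ˣ := by
      rw [card_units_prime (hPV.prime i)]
      exact Dvd.dvd.trans (pow_dvd_pow p (Nat.le_succ n)) (hPV.cong i)
    exact Fermat.Agent.NEB.Geom.H84.pow_dvd_of_gen _ (hgen i) hPV.hp hpn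
      (coprime_jPv hPV.hp hPV.hp2 eP n) t y hy.symm

end Sigma

section Eig

variable {𝒪 : Type} [CommRing 𝒪] [IsLocalRing 𝒪]
  {N1 : ℕ} [NeZero N1] {S : Finset ℕ} {p : ℕ} {k : ℕ} {eP : Fin k → ℕ} {n : ℕ}
  {qP : Fin k → ℕ} {r : ℕ} {qv : Fin r → ℕ}

/-- **The eigenvalues** at the Taylor–Wiles primes (`r = 0` allowed). -/
theorem exists_eig_pv (ρbar : ResidualGaloisRep (ResidueField 𝒪))
    (θ : CuspForm.heckeAlgebra N1 2 (↑S : Set ℕ) →+* ResidueField 𝒪)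
    (hpm : (p : 𝒪) ∈ maximalIdeal 𝒪)
    (hPV : PvHyp N1 S p eP n qP qv) (hfam : Fermat.Agent.S56.IsTWFamily ρbar p n S qv)
    (hfrob : Fermat.Agent.S59.Datum.FrobHyp ρbar N1 S θ)
    (P : Fin r → ValuationSubring Kbar) (hP : ∀ i, (P i).LiesOverPrime (qv i))
    (frob : Fin r → GalK) (hfr : ∀ i, (P i).IsFrobeniusAt (frob i) (qv i)) :
    ∃ (α β : Fin r → ResidueField 𝒪) (a a' : Fin r → 𝒪),
      TwEig 𝒪 N1 S qv θ α β ∧ (∀ i, residue 𝒪 (a i) = α i) ∧ (∀ i, residue 𝒪 (a' i) = β i) ∧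
      ∀ i, LinearMap.charpoly (ρbar.ρ (frob i)) =
        (X - C (residue 𝒪 (a i))) * (X - C (residue 𝒪 (a' i))) := by
  rcases Nat.eq_zero_or_pos r with hr | hr
  · subst hr
    exact ⟨fun i => i.elim0, fun i => i.elim0, fun i => i.elim0, fun i => i.elim0,
      ⟨fun i => i.elim0, fun i => i.elim0, fun i => i.elim0, fun i => i.elim0⟩,
      fun i => i.elim0, fun i => i.elim0, fun i => i.elim0⟩
  · exact Fermat.Agent.NEB.Geom.H84.exists_eig ρbar θ hpm (hPV.twHyp hr) hfam hfrob P hP frob hfr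

end Eig

end Fermat.Agent.L.Pivot.Geom.H19

end
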