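import Fermat.Agent.L.Pivot.Geom.AsmPV
import Fermat.Agent.NEB.Geom.H6_AFrobNil

/-!
# PIVOT, PV-GEOM Part I, leaf P-FROBNIL (helper76)

`p_frob_nil : Stmt_P_pi Dm D → Stmt_P_frob_nil D` and
`stmt_P_FROBNIL_of : Stmt_P_PI → Stmt_P_FROBNIL`:
for `F = gal (frob_i)` (the twisted Galois action on `W'` at a Frobenius element of the
Taylor–Wiles prime `qv i`), the operator `(F - a_i)(F - a'_i)` is nilpotent at every element of
`W'[ϖ]`.

Clone of helper6's A-FROBNIL (`NEB/Geom/H6_AFrobNil.lean`).  Socle filtration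
(`H6.frobNil_core`) for the commuting operators `⟨χ_c'(frob_i)⟩`, `c_j = ⟨δP j⟩`, `d_i = ⟨δQ i⟩`
(all of order dividing `p ^ (n + ∑ eP j)`): it suffices to treat the elements of `W'[ϖ]` fixed
by all of them.  Such an element is `πup y` (P-PI, `inv`), the twist disappears on it, `πup` is
equivariant for the untwisted Galois action (P-PI, last clause), and at the level `N1`
Eichler–Shimura gives the nilpotency (`H6.min_frob_nil`).
-/

set_option autoImplicit false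
set_option linter.unusedSectionVars false
set_option linter.unusedVariables false
set_option linter.style.haveILetI false

noncomputable section

open ModularCurve AlgebraicCurve IsLocalRing TensorProduct Polynomial

namespace Fermat.Agent.L.Pivot.Geom.H76

open Fermat.Agent.NEB Fermat.Agent.NEB.JH Fermat.Agent.NEB.Geom Fermat.Agent.S59.Asm
  Fermat.Agent.S59.Lim Fermat.Agent.S59.Lim.H2 Fermat.Agent.L.Pivot.Geom

/-! ## Abstract lemmas -/

section AbsPv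

variable {𝒪 : Type*} [CommRing 𝒪] {W₀ : Type*} [AddCommGroup W₀] [Module 𝒪 W₀]
  {W : Type*} [AddCommGroup W] [Module 𝒪 W]

/-- The socle filtration `H6.frobNil_core` for a family indexed by a finite type. -/
theorem frobNil_core_fintype (S : Submodule 𝒪 W) (Q : Module.End 𝒪 W)
    (hQS : ∀ x ∈ S, Q x ∈ S) {ι : Type*} [Finite ι] (d : ι → Module.End 𝒪 W)
    (hdS : ∀ j, ∀ x ∈ S, d j x ∈ S)
    (hnil : ∀ j, ∀ x ∈ S, ∃ k : ℕ, ((d j - 1) ^ k) x = 0)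
    (hcomm : ∀ i j, Commute (d i) (d j)) (hdQ : ∀ j, Commute (d j) Q)
    (hfix : ∀ x ∈ S, (∀ j, d j x = x) → ∃ m : ℕ, (Q ^ m) x = 0)
    (x : W) (hx : x ∈ S) : ∃ m : ℕ, (Q ^ m) x = 0 := by
  classical
  haveI : Fintype ι := Fintype.ofFinite ι
  let e : ι ≃ Fin (Fintype.card ι) := Fintype.equivFin ι
  refine Fermat.Agent.NEB.Geom.H6.frobNil_core S Q hQS (Fintype.card ι) (fun i => d (e.symm i))
    (fun i => hdS _) (fun i => hnil _) (fun i j => hcomm _ _) (fun i => hdQ _) ?_ x hx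
  intro y hy hyfix
  refine hfix y hy (fun j => ?_)
  have := hyfix (e j)
  rwa [Equiv.symm_apply_apply] at this

/-- **The abstract form of P-FROBNIL**: as `H6.frobNil_abs`, with a family of operators of
`p`-power order indexed by a finite type, of order dividing `p ^ n`. -/
theorem frobNil_absPv (ϖ : 𝒪) (p : ℕ) (hp : p.Prime) (hpϖ : (p : 𝒪) ∈ Ideal.span {ϖ}) (n k : ℕ)
    (E : Module.End 𝒪 W) {ι : Type*} [Finite ι] (d : ι → Module.End 𝒪 W)
    (hE : E ^ (p ^ n) = 1) (hd : ∀ j, d j ^ (p ^ n) = 1)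
    (hEd : ∀ j, Commute E (d j)) (hdd : ∀ i j, Commute (d i) (d j))
    (Fu F : Module.End 𝒪 W) (hF : F = Fu * E ^ k) (hEFu : Commute E Fu)
    (hdFu : ∀ j, Commute (d j) Fu)
    (up : W₀ →ₗ[𝒪] W) (hinj : Function.Injective up)
    (hinv : ∀ v : W, ϖ • v = 0 → (∀ j, d j v = v) → ∃ y : W₀, up y = v)
    (F₀ : Module.End 𝒪 W₀) (hgal : ∀ y, Fu (up y) = up (F₀ y)) (a a' : 𝒪)
    (h₀ : ∀ y : W₀, ϖ • y = 0 → ∃ m : ℕ,
      (((F₀ - a • (1 : Module.End 𝒪 W₀)) * (F₀ - a' • (1 : Module.End 𝒪 W₀))) ^ m) y = 0)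
    (x : W) (hx : ϖ • x = 0) :
    ∃ m : ℕ, (((F - a • (1 : Module.End 𝒪 W)) * (F - a' • (1 : Module.End 𝒪 W))) ^ m) x = 0 := by
  subst hF
  obtain ⟨c, hc⟩ := Ideal.mem_span_singleton'.mp hpϖ
  let S : Submodule 𝒪 W := Submodule.torsionBy 𝒪 W ϖ
  have hS : ∀ y : W, y ∈ S ↔ ϖ • y = 0 := fun y => Submodule.mem_torsionBy_iff _ _
  have hpS : ∀ y ∈ S, (p : 𝒪) • y = 0 := by
    intro y hy
    rw [← hc, mul_smul, (hS y).1 hy, smul_zero]
  have hstab : ∀ (f : Module.End 𝒪 W), ∀ y ∈ S, f y ∈ S := by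
    intro f y hy
    rw [hS] at hy ⊢
    rw [← map_smul, hy, map_zero]
  set Q : Module.End 𝒪 W := ((Fu * E ^ k) - a • (1 : Module.End 𝒪 W)) *
    ((Fu * E ^ k) - a' • (1 : Module.End 𝒪 W)) with hQ
  -- the family `E, d`
  let d' : Option ι → Module.End 𝒪 W := fun o => Option.elim o E d
  have hd'pow : ∀ i, d' i ^ (p ^ n) = 1 := by
    intro i
    cases i with
    | none => exact hE
    | some i => exact hd i
  have hd'comm : ∀ i j, Commute (d' i) (d' j) := by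
    intro i j
    cases i with
    | none =>
      cases j with
      | none => exact Commute.refl _
      | some j => exact hEd j
    | some i =>
      cases j with
      | none => exact (hEd i).symm
      | some j => exact hdd i j
  have hd'Fu : ∀ i, Commute (d' i) Fu := by
    intro i
    cases i with
    | none => exact hEFu
    | some i => exact hdFu i
  have hd'F : ∀ i, Commute (d' i) (Fu * E ^ k) := fun i =>
    (hd'Fu i).mul_right ((hd'comm i none).pow_right k)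
  have hd'Q : ∀ i, Commute (d' i) Q := fun i =>
    ((hd'F i).sub_right ((Commute.one_right _).smul_right _)).mul_right
      ((hd'F i).sub_right ((Commute.one_right _).smul_right _))
  refine frobNil_core_fintype S Q (hstab Q) d' (fun i => hstab (d' i))
    (fun i y hy => ⟨p ^ n, Fermat.Agent.NEB.Geom.H6.sub_one_pow_apply_eq_zero hp (d' i) n
      (hd'pow i) y (hpS y hy)⟩)
    hd'comm hd'Q ?_ x ((hS x).2 hx)
  intro v hv hvfix
  have hEv : E v = v := hvfix none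
  obtain ⟨y, rfl⟩ := hinv v ((hS v).1 hv) (fun i => hvfix (some i))
  have hy : ϖ • y = 0 := by
    apply hinj
    rw [map_smul, (hS _).1 hv, map_zero]
  obtain ⟨m, hm⟩ := h₀ y hy
  refine ⟨m, ?_⟩
  rw [hQ, Fermat.Agent.NEB.Geom.H6.quad_pow_untwist Fu E hEFu.symm k a a' m (up y) hEv,
    Fermat.Agent.NEB.Geom.H6.quad_pow_map up F₀ Fu hgal a a' m y, hm, map_zero]

end AbsPv

/-! ## The diamond operators for `H' = pvH` have `p`-power order -/

/-- `⟨u⟩ ^ (p ^ E) = 1` on `J_H'[p^∞]`, `E = n + ∑ eP j`. -/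
theorem diaZ_pvH_pow (M : ℕ) [NeZero M] (p : ℕ) {k : ℕ} (eP : Fin k → ℕ) (n : ℕ)
    (qP : Fin k → ℕ) {r : ℕ} (qv : Fin r → ℕ) (h2 : 2 ≤ pvC qP qv) (hc : pvC qP qv ∣ M)
    (u : (ZMod (pvC qP qv))ˣ) :
    diaZ M (pvC qP qv) (pvH qP qv p eP n) h2 hc p u ^ (p ^ (n + ∑ j, eP j)) = 1 := by
  have hmem : u ^ (p ^ (n + ∑ j, eP j)) ∈ pvH qP qv p eP n := pow_mem_pvH qP qv p eP n u
  rw [← map_pow]
  refine LinearMap.ext fun x => Subtype.ext ?_
  show ((diaZ M (pvC qP qv) (pvH qP qv p eP n) h2 hc p (u ^ (p ^ (n + ∑ j, eP j))) x :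
    AH M (pvC qP qv) (pvH qP qv p eP n) p) : JH M (pvC qP qv) (pvH qP qv p eP n)) = x
  rw [diaZ_apply, ((diamondData M (pvC qP qv) (pvH qP qv p eP n) h2 hc).ker _).mpr
    (Or.inl hmem), one_smul]

/-! ## The operators on `W'` -/

section Ops

variable {𝒪 : Type} [CommRing 𝒪] [IsDomain 𝒪] [IsDiscreteValuationRing 𝒪]
  {ϖ : 𝒪} {p : ℕ} {N1 : ℕ} [NeZero N1] {S : Finset ℕ}
  {θ : CuspForm.heckeAlgebra N1 2 (↑S : Set ℕ) →+* ResidueField 𝒪}
  {ρbar : ResidualGaloisRep (ResidueField 𝒪)} {k : ℕ} {eP : Fin k → ℕ} {n : ℕ}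
  {qP : Fin k → ℕ} {r : ℕ} {qv : Fin r → ℕ}
  [NeZero (N1 * twC qv)] [NeZero (pvC qP qv)] [NeZero (twLevel N1 qv)]
  [NeZero (pvLevel N1 qP qv)]
  (D : PvSetup 𝒪 ϖ p N1 S θ ρbar eP n qP qv)

/-- The untwisted Galois action on `W'`. -/
def galUpv (σ : GalK) : Module.End 𝒪 ↥(Wpv N1 S p eP n qP qv D.h2 D.hc 𝒪 D.hcomm θ D.α) :=
  thetaZ (thetaPv N1 S qP qv θ D.α) (galZ (N1 * twC qv) (pvC qP qv) (pvH qP qv p eP n) p σ)
    (fun t => D.comm_gal σ t)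

/-- The diamond operators on `W'`, in the explicit type. -/
def diaWpv (u : (ZMod (pvC qP qv))ˣ) :
    Module.End 𝒪 ↥(Wpv N1 S p eP n qP qv D.h2 D.hc 𝒪 D.hcomm θ D.α) :=
  thetaZ (thetaPv N1 S qP qv θ D.α)
    (diaZ (N1 * twC qv) (pvC qP qv) (pvH qP qv p eP n) D.h2 D.hc p u)
    (fun t => D.comm_dia u t)

/-- The twisted Galois action on `W'`, in the explicit type. -/
def galTpv (σ : GalK) : Module.End 𝒪 ↥(Wpv N1 S p eP n qP qv D.h2 D.hc 𝒪 D.hcomm θ D.α) :=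
  thetaZ (thetaPv N1 S qP qv θ D.α) (D.galHom σ) (D.comm_galHom σ)

theorem galTpv_eq (σ : GalK) :
    galTpv D σ = galUpv D σ *
      diaWpv D (Fermat.Agent.NEB.Geom.H6.chiC (pvC qP qv) σ) ^ (jPv p eP n + 1) := by
  have h1 : ∀ t, Commute (etaPv N1 S p eP n qP qv D.h2 D.hc D.hcomm t)
      (diaZ (N1 * twC qv) (pvC qP qv) (pvH qP qv p eP n) D.h2 D.hc p
        (Fermat.Agent.NEB.Geom.H6.chiC (pvC qP qv) σ) ^ (jPv p eP n + 1)) :=
    fun t => (D.comm_dia _ t).pow_right _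
  have e1 := thetaZ_pow (θ := thetaPv N1 S qP qv θ D.α)
    (fun t => D.comm_dia (Fermat.Agent.NEB.Geom.H6.chiC (pvC qP qv) σ) t) (jPv p eP n + 1) h1
  have e2 := thetaZ_mul (θ := thetaPv N1 S qP qv θ D.α) (fun t => D.comm_gal σ t) h1
    (fun t => (D.comm_gal σ t).mul_right (h1 t))
  have e3 := thetaZ_congr (θ := thetaPv N1 S qP qv θ D.α) (D.comm_galHom σ)
    (fun t => (D.comm_gal σ t).mul_right (h1 t)) (D.galHom_apply σ)
  exact e3.trans (e2.trans (congrArg (fun z => galUpv D σ * z) e1))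

theorem diaWpv_pow (u : (ZMod (pvC qP qv))ˣ) : diaWpv D u ^ (p ^ (n + ∑ j, eP j)) = 1 := by
  have h1 : ∀ t, Commute (etaPv N1 S p eP n qP qv D.h2 D.hc D.hcomm t)
      (diaZ (N1 * twC qv) (pvC qP qv) (pvH qP qv p eP n) D.h2 D.hc p u
        ^ (p ^ (n + ∑ j, eP j))) :=
    fun t => (D.comm_dia _ t).pow_right _
  have e1 := thetaZ_pow (θ := thetaPv N1 S qP qv θ D.α) (fun t => D.comm_dia u t)
    (p ^ (n + ∑ j, eP j)) h1
  have e2 := thetaZ_congr (θ := thetaPv N1 S qP qv θ D.α) h1 (fun t => Commute.one_right _)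
    (diaZ_pvH_pow (N1 * twC qv) p eP n qP qv D.h2 D.hc u)
  exact e1.symm.trans (e2.trans (thetaZ_one _))

theorem diaWpv_comm (u v : (ZMod (pvC qP qv))ˣ) : Commute (diaWpv D u) (diaWpv D v) :=
  thetaZ_commute _ _ ((Commute.all u v).map _)

theorem diaWpv_galUpv (u : (ZMod (pvC qP qv))ˣ) (σ : GalK) :
    Commute (diaWpv D u) (galUpv D σ) :=
  thetaZ_commute _ _ (D.hcommG (Sum.inr (Sum.inr u)) σ)

theorem diaWpv_galTpv (u : (ZMod (pvC qP qv))ˣ) (σ : GalK) :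
    Commute (diaWpv D u) (galTpv D σ) := by
  rw [galTpv_eq]
  exact (diaWpv_galUpv D u σ).mul_right ((diaWpv_comm D u _).pow_right _)

end Ops

/-! ## The leaf -/

section Main

variable {𝒪 : Type} [CommRing 𝒪] [IsDomain 𝒪] [IsDiscreteValuationRing 𝒪]
  {ϖ : 𝒪} {p : ℕ} {N1 : ℕ} [NeZero N1] {S : Finset ℕ}
  {θ : CuspForm.heckeAlgebra N1 2 (↑S : Set ℕ) →+* ResidueField 𝒪}
  {ρbar : ResidualGaloisRep (ResidueField 𝒪)} {k : ℕ} {eP : Fin k → ℕ} {n : ℕ}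
  {qP : Fin k → ℕ} {r : ℕ} {qv : Fin r → ℕ}
  [NeZero (N1 * twC qv)] [NeZero (pvC qP qv)] [NeZero (twLevel N1 qv)]
  [NeZero (pvLevel N1 qP qv)]

/-- P-FROBNIL in the explicit types. -/
theorem frob_nil_explPv (hϖ : Irreducible ϖ) (hpm : (p : 𝒪) ∈ maximalIdeal 𝒪)
    (Dm : MinSetup 𝒪 ϖ p N1 S θ) (D : PvSetup 𝒪 ϖ p N1 S θ ρbar eP n qP qv)
    (up : ↥(thetaPart Dm.ηC θ) →ₗ[𝒪] ↥(Wpv N1 S p eP n qP qv D.h2 D.hc 𝒪 D.hcomm θ D.α))
    (hinj : Function.Injective up)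
    (hinv : ∀ v : ↥(Wpv N1 S p eP n qP qv D.h2 D.hc 𝒪 D.hcomm θ D.α), ϖ • v = 0 →
      (∀ j, diaWpv D (D.δP j) v = v) → (∀ i, diaWpv D (D.δQ i) v = v) → ∃ y, up y = v)
    (hgal : ∀ (σ : GalK) (y : ↥(thetaPart Dm.ηC θ)),
      galUpv D σ (up y) = up (Fermat.Agent.NEB.Geom.H6.galM Dm σ y))
    (i : Fin r) (x : ↥(Wpv N1 S p eP n qP qv D.h2 D.hc 𝒪 D.hcomm θ D.α)) (hx : ϖ • x = 0) :
    ∃ m : ℕ, (((galTpv D (D.frob i)
        - D.a i • (1 : Module.End 𝒪 ↥(Wpv N1 S p eP n qP qv D.h2 D.hc 𝒪 D.hcomm θ D.α))) *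
      (galTpv D (D.frob i)
        - D.a' i • (1 : Module.End 𝒪 ↥(Wpv N1 S p eP n qP qv D.h2 D.hc 𝒪 D.hcomm θ D.α))))
          ^ m) x = 0 := by
  have hp : p.Prime := D.hPV.hp
  have hpϖ : (p : 𝒪) ∈ Ideal.span {ϖ} := hϖ.maximalIdeal_eq ▸ hpm
  have hq : (qv i).Prime := D.hPV.prime i
  have hqS' : qv i ∉ S := D.hPV.notS i
  have hqS : qv i ∉ (↑S : Set ℕ) := fun h => hqS' (Finset.mem_coe.mp h)
  have hqN : ¬ qv i ∣ N1 := fun h => hqS' (D.hPV.hNS (qv i) hq h)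
  have hqp : qv i ≠ p := fun h => hqS' (h ▸ D.hPV.hpS)
  have hsum : residue 𝒪 (D.a i + D.a' i) = θ (CuspForm.heckeAlgebra.T hq hqN hqS) := by
    rw [map_add, D.ha, D.ha', D.eig.add i hq hqN hqS]
  have hprod : residue 𝒪 (D.a i * D.a' i) = ((qv i : ℕ) : ResidueField 𝒪) := by
    rw [map_mul, D.ha, D.ha', D.eig.mul, D.eig.q_one]
  exact frobNil_absPv ϖ p hp hpϖ (n + ∑ j, eP j) (jPv p eP n + 1)
    (diaWpv D (Fermat.Agent.NEB.Geom.H6.chiC (pvC qP qv) (D.frob i)))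
    (fun o : Fin k ⊕ Fin r => Sum.elim (fun j => diaWpv D (D.δP j))
      (fun i' => diaWpv D (D.δQ i')) o)
    (diaWpv_pow D _)
    (fun o => by cases o <;> exact diaWpv_pow D _)
    (fun o => by cases o <;> exact diaWpv_comm D _ _)
    (fun o o' => by cases o <;> cases o' <;> exact diaWpv_comm D _ _)
    (galUpv D (D.frob i)) (galTpv D (D.frob i)) (galTpv_eq D (D.frob i))
    (diaWpv_galUpv D _ _)
    (fun o => by cases o <;> exact diaWpv_galUpv D _ _) up hinj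
    (fun v hv hfix => hinv v hv (fun j => hfix (Sum.inl j)) (fun i' => hfix (Sum.inr i')))
    (Fermat.Agent.NEB.Geom.H6.galM Dm (D.frob i)) (hgal (D.frob i))
    (D.a i) (D.a' i)
    (fun y hy => Fermat.Agent.NEB.Geom.H6.min_frob_nil hϖ Dm (qv i) hq hqN hqS hqp (D.P i)
      (D.P_over i) (D.frob i) (D.frob_spec i) (D.a i) (D.a' i) hsum hprod y hy)
    x hx

/-- **Leaf P-FROBNIL**: `(F - a_i)(F - a'_i)` is nilpotent on `W'[ϖ]`, `F = gal (frob_i)`. -/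
theorem p_frob_nil (hϖ : Irreducible ϖ) (hpm : (p : 𝒪) ∈ maximalIdeal 𝒪)
    (Dm : MinSetup 𝒪 ϖ p N1 S θ) (D : PvSetup 𝒪 ϖ p N1 S θ ρbar eP n qP qv)
    (hpi : Stmt_P_pi Dm D) : Stmt_P_frob_nil D := by
  obtain ⟨π, πup, hinj, -, -, hinv, -, hgalπ⟩ := hpi
  intro i x hx
  exact frob_nil_explPv hϖ hpm Dm D πup hinj hinv
    (fun σ y => Subtype.ext (hgalπ σ y).symm) i x hx

end Main

/-- **Leaf P-FROBNIL** (universally quantified), from P-PI. -/
theorem stmt_P_FROBNIL_of (hPI : Stmt_P_PI) : Stmt_P_FROBNIL := by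
  intro 𝒪 _ _ _ _ _ _ ϖ p _ N1 _ S Smin θ ρbar k Pv eP hstd Dm n r qv _ _ _ _ D
  exact p_frob_nil hstd.hϖ hstd.hyp.hp𝒪 Dm D
    (hPI 𝒪 ϖ p N1 S Smin θ ρbar k Pv eP hstd Dm n r qv D)

end Fermat.Agent.L.Pivot.Geom.H76
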