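/-
helper9, item 66 (PIVOT), package PV-GEOM, leaf **P-GAL** on `PvSetup`:
continuity of the twisted Galois action on `W'`, commutation of `gal`, the diamond operators
(`c_j` at the pivot primes, `d_i` at the Taylor–Wiles primes) and `η`, and
`c_j ^ (p ^ eP j) = 1`, `d_i ^ (p ^ n) = 1`, `⟨u⟩ ^ (p ^ E) = 1`.

Clone of `NEB/Geom/H9_AGal.lean` (A-GAL on `TwSetup`) for helper19's `DefsPV.lean`.
-/
import Fermat.Agent.L.Pivot.Geom.AsmPV
import Fermat.Agent.NEB.Geom.H9_AGal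

set_option autoImplicit false
set_option linter.unusedSectionVars false
set_option linter.style.haveILetI false
set_option synthInstance.maxHeartbeats 400000
set_option maxHeartbeats 1000000

noncomputable section

open ModularCurve AlgebraicCurve IsLocalRing TensorProduct Polynomial

namespace Fermat.Agent.L.Pivot.Geom.H9

open Fermat.Agent.NEB Fermat.Agent.NEB.JH Fermat.Agent.NEB.Geom Fermat.Agent.S59.Asm
  Fermat.Agent.S59.Lim Fermat.Agent.S59.Lim.H2 Fermat.Agent.L.Pivot.Geom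

/-! ## Membership in `H'` -/

section Cond

variable {k r : ℕ} (qP : Fin k → ℕ) (qv : Fin r → ℕ) (p : ℕ) (eP : Fin k → ℕ) (n : ℕ)

/-- A unit which is `≡ 1` at all primes of `c'` other than `qP j` has its `p ^ eP j`-th power
in `H'`. -/
theorem pow_mem_pvH_P (u : (ZMod (pvC qP qv))ˣ) (j : Fin k)
    (hP : ∀ j', j' ≠ j → ZMod.unitsMap (dvd_pvC_P qP qv j') u = 1)
    (hQ : ∀ i, ZMod.unitsMap (dvd_pvC_Q qP qv i) u = 1) :
    u ^ (p ^ eP j) ∈ pvH qP qv p eP n := by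
  rw [mem_pvH]
  constructor
  · intro j'
    by_cases h : j' = j
    · subst h
      exact ⟨ZMod.unitsMap (dvd_pvC_P qP qv j') u, by rw [map_pow]⟩
    · exact ⟨1, by rw [map_pow, hP j' h, one_pow, one_pow]⟩
  · intro i
    exact ⟨1, by rw [map_pow, hQ i, one_pow, one_pow]⟩

/-- A unit which is `≡ 1` at all primes of `c'` other than `qv i` has its `p ^ n`-th power
in `H'`. -/
theorem pow_mem_pvH_Q (u : (ZMod (pvC qP qv))ˣ) (i : Fin r)
    (hQ : ∀ i', i' ≠ i → ZMod.unitsMap (dvd_pvC_Q qP qv i') u = 1)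
    (hP : ∀ j, ZMod.unitsMap (dvd_pvC_P qP qv j) u = 1) :
    u ^ (p ^ n) ∈ pvH qP qv p eP n := by
  rw [mem_pvH]
  constructor
  · intro j
    exact ⟨1, by rw [map_pow, hP j, one_pow, one_pow]⟩
  · intro i'
    by_cases h : i' = i
    · subst h
      exact ⟨ZMod.unitsMap (dvd_pvC_Q qP qv i') u, by rw [map_pow]⟩
    · exact ⟨1, by rw [map_pow, hQ i' h]⟩

end Cond

/-! ## P-GAL -/

section Main

variable {𝒪 : Type} [CommRing 𝒪] [IsDomain 𝒪] [IsDiscreteValuationRing 𝒪]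
  {ϖ : 𝒪} {p : ℕ} {N1 : ℕ} [NeZero N1] {S : Finset ℕ}
  {θ : CuspForm.heckeAlgebra N1 2 (↑S : Set ℕ) →+* ResidueField 𝒪}
  {ρbar : ResidualGaloisRep (ResidueField 𝒪)} {k : ℕ} {eP : Fin k → ℕ} {n : ℕ}
  {qP : Fin k → ℕ} {r : ℕ} {qv : Fin r → ℕ}
  [NeZero (N1 * twC qv)] [NeZero (pvC qP qv)] [NeZero (twLevel N1 qv)]
  [NeZero (pvLevel N1 qP qv)]
  (D : PvSetup 𝒪 ϖ p N1 S θ ρbar eP n qP qv)

/-- The primes dividing the level `pvLevel` lie in the Taylor–Wiles set. -/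
theorem mem_twSet_of_dvd_pv (hPV : PvHyp N1 S p eP n qP qv) (q : ℕ) (hq : q.Prime)
    (hd : q ∣ pvLevel N1 qP qv) : q ∈ (↑(twSet S qv) : Set ℕ) := by
  have hd' : q ∣ twLevel N1 qv :=
    H4.prime_dvd_twLevel_of_dvd_pvLevel N1 qP qv hPV.dvdP q hq hd
  rw [Finset.mem_coe, twSet, Finset.mem_union]
  rw [twLevel] at hd'
  rcases (Nat.Prime.dvd_mul hq).1 hd' with h | h
  · exact Or.inl (hPV.hNS q hq h)
  · right
    obtain ⟨j, -, hj⟩ := (Prime.dvd_finsetProd_iff (Nat.Prime.prime hq) _).1 h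
    have h1 : q ∣ qv j := hq.dvd_of_dvd_pow hj
    have h2 : q = qv j := (Nat.prime_dvd_prime_iff_eq hq (hPV.prime j)).1 h1
    rw [h2]
    exact Finset.mem_image_of_mem qv (Finset.mem_univ j)

/-- An operator `thetaZ g` commutes with the Hecke action `η` on `W'`. -/
theorem commute_thetaZ_etaPv
    (g : Module.End ℤ (AHpv N1 p eP n qP qv))
    (hg : ∀ t, Commute (etaPv N1 S p eP n qP qv D.h2 D.hc D.hcomm t) g)
    (t : CuspForm.heckeAlgebra (pvLevel N1 qP qv) 2 (↑(twSet S qv) : Set ℕ)) :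
    Commute (thetaZ (thetaPv N1 S qP qv θ D.α) g hg) (D.WD.η t) := by
  refine Fermat.Agent.NEB.EIG.H39.commute_of_gen
    (R := Module.End 𝒪 ↥(Wpv N1 S p eP n qP qv D.h2 D.hc 𝒪 D.hcomm θ D.α))
    (mem_twSet_of_dvd_pv D.hPV) D.η _ (fun ℓ hℓ hℓN hℓS => ?_) t
  rw [D.η_T ℓ hℓ hℓN hℓS]
  exact thetaZ_commute_eta hg _

/-- The diamond operator commutes with the twisted Galois action. -/
theorem commute_dia_galHomPv (u : (ZMod (pvC qP qv))ˣ) (g : GalK) :
    Commute (diaZ (N1 * twC qv) (pvC qP qv) (pvH qP qv p eP n) D.h2 D.hc p u)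
      (D.galHom g) := by
  rw [D.galHom_apply]
  exact (D.hcommG (Sum.inr (Sum.inr u)) g).mul_right
    ((Fermat.Agent.NEB.Geom.H9.diaZ_commute _ _ _ _ _ _ u _).pow_right _)

/-- **P-GAL (i)**: every element of `W'` is fixed by an open subgroup. -/
theorem p_gal_cont (x : D.WD.W) :
    ∃ L : IntermediateField ℚ Kbar, FiniteDimensional ℚ L ∧
      ∀ σ : GalK, (∀ y ∈ L, σ y = y) → D.gal σ x = x := by
  obtain ⟨L, hL, hfix⟩ := Fermat.Agent.NEB.Geom.H9.cont_tensor 𝒪 (N1 * twC qv) (pvC qP qv)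
    (pvH qP qv p eP n) D.h2 D.hc p (jPv p eP n + 1) (D.val x)
  refine ⟨L, hL, fun σ hσ => Subtype.ext ?_⟩
  exact hfix σ hσ

/-- **P-GAL (ii)**: the Galois action commutes with the Hecke action. -/
theorem p_gal_eta (g : GalK)
    (t : CuspForm.heckeAlgebra (pvLevel N1 qP qv) 2 (↑(twSet S qv) : Set ℕ)) :
    Commute (D.gal g) (D.WD.η t) :=
  commute_thetaZ_etaPv D (D.galHom g) (fun t => D.comm_galHom g t) t

/-- The diamond operator of a unit whose `e`-th power lies in `H'` has order dividing `e`. -/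
theorem p_dia_pow_of_mem (u : (ZMod (pvC qP qv))ˣ) (e : ℕ)
    (hmem : u ^ e ∈ pvH qP qv p eP n) : D.dia u ^ e = 1 := by
  have h1 : diaZ (N1 * twC qv) (pvC qP qv) (pvH qP qv p eP n) D.h2 D.hc p u ^ e = 1 := by
    rw [← map_pow]
    exact Fermat.Agent.NEB.Geom.H9.diaZ_eq_one_of_mem _ _ _ _ _ _ hmem
  have hc1 : ∀ t, Commute (etaPv N1 S p eP n qP qv D.h2 D.hc D.hcomm t)
      (diaZ (N1 * twC qv) (pvC qP qv) (pvH qP qv p eP n) D.h2 D.hc p u ^ e) :=
    fun t => (D.comm_dia u t).pow_right _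
  show thetaZ (thetaPv N1 S qP qv θ D.α) _ _ ^ e = 1
  rw [← thetaZ_pow (fun t => D.comm_dia u t) e hc1,
    thetaZ_congr hc1 (fun t => Commute.one_right _) h1]
  exact thetaZ_one _

/-- **P-GAL (iii)**: `⟨u⟩ ^ (p ^ E) = 1`, `E = n + ∑ eP j`. -/
theorem p_dia_pow (u : (ZMod (pvC qP qv))ˣ) : D.dia u ^ (p ^ (n + ∑ j, eP j)) = 1 :=
  p_dia_pow_of_mem D u _ (pow_mem_pvH qP qv p eP n u)

/-- **P-GAL (iii-P)**: `c_j ^ (p ^ eP j) = 1`. -/
theorem p_c_pow (j : Fin k) : D.c j ^ (p ^ eP j) = 1 :=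
  p_dia_pow_of_mem D (D.δP j) _
    (pow_mem_pvH_P qP qv p eP n (D.δP j) j (D.hδ.P_P j) (D.hδ.P_Q j))

/-- **P-GAL (iii-Q)**: `d_i ^ (p ^ n) = 1`. -/
theorem p_d_pow (i : Fin r) : D.d i ^ (p ^ n) = 1 :=
  p_dia_pow_of_mem D (D.δQ i) _
    (pow_mem_pvH_Q qP qv p eP n (D.δQ i) i (D.hδ.Q_Q i) (D.hδ.Q_P i))

/-- **P-GAL (iv)**: the diamond operators commute. -/
theorem p_dia_comm (u v : (ZMod (pvC qP qv))ˣ) : Commute (D.dia u) (D.dia v) :=
  thetaZ_commute (fun t => D.comm_dia u t) (fun t => D.comm_dia v t)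
    (Fermat.Agent.NEB.Geom.H9.diaZ_commute _ _ _ _ _ _ _ _)

/-- The diamond operators are multiplicative. -/
theorem p_dia_mul (u v : (ZMod (pvC qP qv))ˣ) : D.dia (u * v) = D.dia u * D.dia v := by
  have h1 : diaZ (N1 * twC qv) (pvC qP qv) (pvH qP qv p eP n) D.h2 D.hc p (u * v)
      = diaZ (N1 * twC qv) (pvC qP qv) (pvH qP qv p eP n) D.h2 D.hc p u
        * diaZ (N1 * twC qv) (pvC qP qv) (pvH qP qv p eP n) D.h2 D.hc p v := map_mul _ _ _
  have hc1 : ∀ t, Commute (etaPv N1 S p eP n qP qv D.h2 D.hc D.hcomm t)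
      (diaZ (N1 * twC qv) (pvC qP qv) (pvH qP qv p eP n) D.h2 D.hc p u
        * diaZ (N1 * twC qv) (pvC qP qv) (pvH qP qv p eP n) D.h2 D.hc p v) :=
    fun t => (D.comm_dia u t).mul_right (D.comm_dia v t)
  exact (thetaZ_congr (θ := thetaPv N1 S qP qv θ D.α) (fun t => D.comm_dia (u * v) t) hc1 h1).trans
    (thetaZ_mul (fun t => D.comm_dia u t) (fun t => D.comm_dia v t) hc1)

/-- `⟨1⟩ = 1` on `W'`. -/
theorem p_dia_one : D.dia (1 : (ZMod (pvC qP qv))ˣ) = 1 := by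
  have h := p_dia_pow_of_mem D (1 : (ZMod (pvC qP qv))ˣ) 1
    (by rw [pow_one]; exact Subgroup.one_mem _)
  rwa [pow_one] at h

/-- **P-GAL (v)**: the diamond operators commute with the Hecke action. -/
theorem p_dia_eta (u : (ZMod (pvC qP qv))ˣ)
    (t : CuspForm.heckeAlgebra (pvLevel N1 qP qv) 2 (↑(twSet S qv) : Set ℕ)) :
    Commute (D.dia u) (D.WD.η t) :=
  commute_thetaZ_etaPv D _ (fun t => D.comm_dia u t) t

/-- **P-GAL (vi)**: the diamond operators commute with the Galois action. -/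
theorem p_dia_gal (u : (ZMod (pvC qP qv))ˣ) (g : GalK) : Commute (D.dia u) (D.gal g) :=
  thetaZ_commute (fun t => D.comm_dia u t) (fun t => D.comm_galHom g t)
    (commute_dia_galHomPv D u g)

/-- The diamond operators commute with the untwisted Galois action. -/
theorem p_dia_galU (u : (ZMod (pvC qP qv))ˣ) (g : GalK) : Commute (D.dia u) (D.galU g) :=
  thetaZ_commute (fun t => D.comm_dia u t) (fun t => D.comm_gal g t)
    (D.hcommG (Sum.inr (Sum.inr u)) g)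

/-- The twisted action is the untwisted one times a diamond operator. -/
theorem p_gal_eq (g : GalK) :
    D.gal g = D.galU g * D.dia (Fermat.Agent.NEB.Geom.H6.chiC (pvC qP qv) g) ^ (jPv p eP n + 1) := by
  have hc1 : ∀ t, Commute (etaPv N1 S p eP n qP qv D.h2 D.hc D.hcomm t)
      (diaZ (N1 * twC qv) (pvC qP qv) (pvH qP qv p eP n) D.h2 D.hc p
        (Fermat.Agent.NEB.Geom.H6.chiC (pvC qP qv) g) ^ (jPv p eP n + 1)) :=
    fun t => (D.comm_dia _ t).pow_right _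
  have hc2 : ∀ t, Commute (etaPv N1 S p eP n qP qv D.h2 D.hc D.hcomm t)
      (galZ (N1 * twC qv) (pvC qP qv) (pvH qP qv p eP n) p g *
        diaZ (N1 * twC qv) (pvC qP qv) (pvH qP qv p eP n) D.h2 D.hc p
          (Fermat.Agent.NEB.Geom.H6.chiC (pvC qP qv) g) ^ (jPv p eP n + 1)) :=
    fun t => (D.comm_gal g t).mul_right (hc1 t)
  have e1 := thetaZ_mul (θ := thetaPv N1 S qP qv θ D.α) (fun t => D.comm_gal g t) hc1 hc2
  have e2 := thetaZ_pow (θ := thetaPv N1 S qP qv θ D.α)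
    (fun t => D.comm_dia (Fermat.Agent.NEB.Geom.H6.chiC (pvC qP qv) g) t) (jPv p eP n + 1) hc1
  rw [e2] at e1
  exact e1

/-- The diamond operators `c_j`, `d_i` of `PVDiv` commute with everything. -/
theorem p_c_comm (j j' : Fin k) : Commute (D.c j) (D.c j') := p_dia_comm D _ _

theorem p_d_comm (i i' : Fin r) : Commute (D.d i) (D.d i') := p_dia_comm D _ _

theorem p_c_d_comm (j : Fin k) (i : Fin r) : Commute (D.c j) (D.d i) := p_dia_comm D _ _

theorem p_c_eta (j : Fin k)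
    (t : CuspForm.heckeAlgebra (pvLevel N1 qP qv) 2 (↑(twSet S qv) : Set ℕ)) :
    Commute (D.c j) (D.WD.η t) := p_dia_eta D _ t

theorem p_d_eta (i : Fin r)
    (t : CuspForm.heckeAlgebra (pvLevel N1 qP qv) 2 (↑(twSet S qv) : Set ℕ)) :
    Commute (D.d i) (D.WD.η t) := p_dia_eta D _ t

theorem p_c_gal (j : Fin k) (g : GalK) : Commute (D.c j) (D.gal g) := p_dia_gal D _ g

theorem p_d_gal (i : Fin r) (g : GalK) : Commute (D.d i) (D.gal g) := p_dia_gal D _ g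

/-- **P-GAL**. -/
theorem p_gal : Stmt_P_gal D :=
  ⟨fun x => p_gal_cont D x, fun g t => p_gal_eta D g t, fun j => p_c_pow D j,
    fun i => p_d_pow D i, fun u v => p_dia_comm D u v, fun u t => p_dia_eta D u t,
    fun u g => p_dia_gal D u g⟩

end Main

/-- **P-GAL** (universally quantified). -/
theorem stmt_P_GAL : Stmt_P_GAL := by
  intro 𝒪 _ _ _ _ _ _ ϖ p _ N1 _ S Smin θ ρbar k Pv eP hstd Dm n r qv _ _ _ _ D
  exact p_gal D

end Fermat.Agent.L.Pivot.Geom.H9
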