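/-
helper9, item 66 (PIVOT), package PV-GEOM, leaf **P-LG** = `Stmt_P_lg D` on `PvSetup`:
local–global compatibility at the Taylor–Wiles primes on the pivot module `W'`.

Clone of `NEB/Geom/H9_ALG.lean` + `NEB/Geom/H6_ALGParts.lean` (A-LG on `TwSetup`), for
helper19's `DefsPV.lean` / `AsmPV.lean`.  Wiring of `H46.stmt_W_LG` (abstract local–global) with
* the kernel of reduction `KUp` at `(M1, c', H')` (stable under `η⁺` and the decomposition group;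
  contains `(σ - 1) J_H'[p^∞]` for `σ` in the inertia group: helper70),
* helper70's `wkeyq_gen` (W-KEYq for general `(L, c, H)`) with `unrCond_of_five_le` (`5 ≤ p`),
* `Stmt_P_pi` (hypothesis: the socle is a pull-back from level `N1`, where inertia at `qv i` is
  trivial),
* `H9.tame_gen` (tame relations at finite level).
-/
import Fermat.Agent.L.Pivot.Geom.H9_PGal
import Fermat.Agent.L.Pivot.Geom.H70_UnrFive
import Fermat.Agent.L.Pivot3.H9_UnrAux2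
import Fermat.Agent.NEB.Geom.H9_GenK
import Fermat.Agent.NEB.Geom.H6_ALGParts
import Fermat.Agent.NEB.Geom.H46_WLG
import Fermat.Agent.NEB.Geom.H70_WKeyqGen
import Fermat.Agent.NEB.H34_Unr

set_option autoImplicit false
set_option linter.unusedSectionVars false
set_option linter.style.haveILetI false
set_option linter.unusedVariables false
set_option synthInstance.maxHeartbeats 400000
set_option maxHeartbeats 1000000

noncomputable section

open ModularCurve AlgebraicCurve IsLocalRing TensorProduct Polynomial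

namespace Fermat.Agent.L.Pivot.Geom.H9

open Fermat.Agent.NEB Fermat.Agent.NEB.JH Fermat.Agent.NEB.Geom Fermat.Agent.S59.Asm
  Fermat.Agent.S59.Lim Fermat.Agent.S59.Lim.H2 Fermat.Agent.L.Pivot.Geom

/-! ## Arithmetic of the level -/

section Arith

variable {N1 : ℕ} {S : Finset ℕ} {p : ℕ} {k : ℕ} {eP : Fin k → ℕ} {n : ℕ} {qP : Fin k → ℕ}
  {r : ℕ} {qv : Fin r → ℕ}

/-- The level `M1 = N1 c_Q` is squarefree. -/
theorem squarefree_pvM1 (hPV : PvHyp N1 S p eP n qP qv) : Squarefree (N1 * twC qv) := by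
  rw [Nat.squarefree_mul_iff]
  refine ⟨?_, hPV.hsq, ?_⟩
  · unfold twC
    refine Nat.Coprime.prod_right fun i _ => ?_
    exact ((Nat.Prime.coprime_iff_not_dvd (hPV.prime i)).2
      (fun h => hPV.notS i (hPV.hNS _ (hPV.prime i) h))).symm
  · unfold twC
    refine Finset.squarefree_prod_of_pairwise_isCoprime (fun a _ b _ hab => ?_)
      (fun a _ => (Nat.Prime.prime (hPV.prime a)).squarefree)
    show IsRelPrime (qv a) (qv b)
    rw [← Nat.coprime_iff_isRelPrime]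
    exact (Nat.coprime_primes (hPV.prime a) (hPV.prime b)).mpr (fun h => hab (hPV.inj h))

/-- The conductor `c'` is squarefree. -/
theorem squarefree_pvC (hPV : PvHyp N1 S p eP n qP qv) : Squarefree (pvC qP qv) :=
  Squarefree.squarefree_of_dvd hPV.dvd (squarefree_pvM1 hPV)

/-- `F_H' / F₀` is unramified (`5 ≤ p`: helper70's `unrCond_of_five_le`, helper34's FH-UNR). -/
theorem hunr_pv [NeZero (N1 * twC qv)] (hPV : PvHyp N1 S p eP n qP qv) :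
    ∀ w : Place Kbar ↥(FHbar (N1 * twC qv) (pvC qP qv) (pvH qP qv p eP n)),
      ∃ x : ↥(modularFunctionFieldBar (N1 * twC qv)),
        w.ord (inclBar (N1 * twC qv) (pvC qP qv) (pvH qP qv p eP n) x) = 1 :=
  Fermat.Agent.NEB.H34.fh_unr (pvC qP qv) (N1 * twC qv) (pvH qP qv p eP n) hPV.two_le hPV.dvd
    (NeZero.ne _)
    (Fermat.Agent.L.Pivot3.H9.unrCond_of_hU p (n + ∑ j, eP j) hPV.hp hPV.hp2
      (pvC qP qv) (N1 * twC qv) N1 (squarefree_pvC hPV) hPV.dvd (Dvd.intro _ rfl) hPV.hU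
      (pvH qP qv p eP n)
      (fun x => pow_mem_pvH qP qv p eP n x))

end Arith

/-! ## The kernel of reduction is stable under the operators -/

section KPv

variable (N1 : ℕ) (S : Finset ℕ) (p : ℕ) {k : ℕ} (eP : Fin k → ℕ) (n : ℕ) (qP : Fin k → ℕ)
  {r : ℕ} (qv : Fin r → ℕ) [NeZero (N1 * twC qv)] (h2 : 2 ≤ pvC qP qv)
  (hc : pvC qP qv ∣ N1 * twC qv) (P : ValuationSubring Kbar)

theorem opsPv_inl_good {ℓ : ℕ} (hg : GoodTw N1 S qv ℓ) :
    opsPv N1 S p eP n qP qv h2 hc (Sum.inl ℓ)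
      = TzTw (N1 * twC qv) (pvC qP qv) (pvH qP qv p eP n) h2 hc p (jPv p eP n) ℓ := by
  simp only [opsPv, if_pos hg]

theorem opsPv_inl_bad {ℓ : ℕ} (hg : ¬ GoodTw N1 S qv ℓ) :
    opsPv N1 S p eP n qP qv h2 hc (Sum.inl ℓ) = 0 := by
  simp only [opsPv, if_neg hg]

theorem opsPv_U (i : Fin r) :
    opsPv N1 S p eP n qP qv h2 hc (Sum.inr (Sum.inl i))
      = Uz (N1 * twC qv) (pvC qP qv) (pvH qP qv p eP n) h2 hc p (qv i) := rfl

theorem opsPv_dia (u : (ZMod (pvC qP qv))ˣ) :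
    opsPv N1 S p eP n qP qv h2 hc (Sum.inr (Sum.inr u))
      = diaZ (N1 * twC qv) (pvC qP qv) (pvH qP qv p eP n) h2 hc p u := rfl

theorem KUp_opsPv (hprime : ∀ i, (qv i).Prime) (i : IdxTw r (pvC qP qv))
    {x : AHpv N1 p eP n qP qv}
    (hx : x ∈ Fermat.Agent.NEB.Geom.H9.KUp P (N1 * twC qv) (pvC qP qv) (pvH qP qv p eP n)
      h2 hc p) :
    opsPv N1 S p eP n qP qv h2 hc i x
      ∈ Fermat.Agent.NEB.Geom.H9.KUp P (N1 * twC qv) (pvC qP qv) (pvH qP qv p eP n)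
        h2 hc p := by
  rcases i with ℓ | i | u
  · by_cases hg : GoodTw N1 S qv ℓ
    · rw [opsPv_inl_good N1 S p eP n qP qv h2 hc hg]
      exact Fermat.Agent.NEB.Geom.H9.KUp_TzTw hg.1
        (Fermat.Agent.NEB.Geom.H29.not_dvd_level_of_good hg) _ hx
    · rw [opsPv_inl_bad N1 S p eP n qP qv h2 hc hg, LinearMap.zero_apply]
      exact zero_mem _
  · rw [opsPv_U]
    exact Fermat.Agent.NEB.Geom.H9.KUp_Uz (hprime i)
      (show qv i ∣ N1 * twC qv from Dvd.dvd.mul_left (dvd_twC_self qv i) N1) hx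
  · rw [opsPv_dia]
    exact Fermat.Agent.NEB.Geom.H9.KUp_dia hx u

theorem KUp_etaPv (hprime : ∀ i, (qv i).Prime)
    (hcomm : ∀ i j, Commute (opsPv N1 S p eP n qP qv h2 hc i)
      (opsPv N1 S p eP n qP qv h2 hc j))
    (t : PolyTw r (pvC qP qv)) :
    ∀ x : AHpv N1 p eP n qP qv,
      x ∈ Fermat.Agent.NEB.Geom.H9.KUp P (N1 * twC qv) (pvC qP qv) (pvH qP qv p eP n)
        h2 hc p →
      etaPv N1 S p eP n qP qv h2 hc hcomm t x
        ∈ Fermat.Agent.NEB.Geom.H9.KUp P (N1 * twC qv) (pvC qP qv) (pvH qP qv p eP n)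
          h2 hc p := by
  induction t using MvPolynomial.induction_on with
  | C a =>
    intro x hx
    have : etaPv N1 S p eP n qP qv h2 hc hcomm (MvPolynomial.C a)
        = (a : Module.End ℤ (AHpv N1 p eP n qP qv)) := by
      rw [show (MvPolynomial.C a : PolyTw r (pvC qP qv)) = ((a : ℤ) : PolyTw r (pvC qP qv)) from
        (eq_intCast (MvPolynomial.C : ℤ →+* PolyTw r (pvC qP qv)) a), map_intCast]
    rw [this]
    have h1 : (a : Module.End ℤ (AHpv N1 p eP n qP qv)) x = a • x := by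
      rw [← zsmul_one, LinearMap.smul_apply, Module.End.one_apply]
    rw [h1]
    exact zsmul_mem hx a
  | add f g hf hg =>
    intro x hx
    rw [map_add, LinearMap.add_apply]
    exact add_mem (hf x hx) (hg x hx)
  | mul_X f i hf =>
    intro x hx
    rw [map_mul, Module.End.mul_apply]
    have h : etaPv N1 S p eP n qP qv h2 hc hcomm (MvPolynomial.X i)
        = opsPv N1 S p eP n qP qv h2 hc i :=
      polyHom_X _ _ _
    rw [h]
    exact hf _ (KUp_opsPv N1 S p eP n qP qv h2 hc P hprime i hx)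

end KPv

/-! ## P-LG -/

section Main

variable {𝒪 : Type} [CommRing 𝒪] [IsDomain 𝒪] [IsDiscreteValuationRing 𝒪]
  {ϖ : 𝒪} {p : ℕ} {N1 : ℕ} [NeZero N1] {S : Finset ℕ}
  {θ : CuspForm.heckeAlgebra N1 2 (↑S : Set ℕ) →+* ResidueField 𝒪}
  {ρbar : ResidualGaloisRep (ResidueField 𝒪)} {k : ℕ} {eP : Fin k → ℕ} {n : ℕ}
  {qP : Fin k → ℕ} {r : ℕ} {qv : Fin r → ℕ}
  [NeZero (N1 * twC qv)] [NeZero (pvC qP qv)] [NeZero (twLevel N1 qv)]
  [NeZero (pvLevel N1 qP qv)]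

theorem alphaPv_sq_ne_one (D : PvSetup 𝒪 ϖ p N1 S θ ρbar eP n qP qv) (i : Fin r) :
    D.α i ^ 2 ≠ 1 := by
  intro h
  have h1 : D.α i * (D.α i - D.β i) = 0 := by
    rw [mul_sub, D.eig.mul i, ← sq, h, sub_self]
  have hα : D.α i ≠ 0 := fun h0 => by
    have := D.eig.mul i
    rw [h0, zero_mul] at this
    exact zero_ne_one this
  rcases mul_eq_zero.mp h1 with h2 | h2
  · exact hα h2
  · exact D.eig.ne i (sub_eq_zero.mp h2)

/-- `T'_ℓ₀ = T_ℓ₀^H` on the `Δ'`-fixed classes. -/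
theorem etaPv_T_fixed (D : PvSetup 𝒪 ϖ p N1 S θ ρbar eP n qP qv)
    (y : AHpv N1 p eP n qP qv)
    (hy : ∀ u, diaZ (N1 * twC qv) (pvC qP qv) (pvH qP qv p eP n) D.h2 D.hc p u y = y) :
    etaPv N1 S p eP n qP qv D.h2 D.hc D.hcomm (MvPolynomial.X (Sum.inl D.ℓ₀)) y
      = Tz (N1 * twC qv) (pvC qP qv) (pvH qP qv p eP n) D.h2 D.hc p D.ℓ₀ y := by
  have h : etaPv N1 S p eP n qP qv D.h2 D.hc D.hcomm (MvPolynomial.X (Sum.inl D.ℓ₀))
      = TzTw (N1 * twC qv) (pvC qP qv) (pvH qP qv p eP n) D.h2 D.hc p (jPv p eP n) D.ℓ₀ :=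
    (polyHom_X _ _ _).trans (opsPv_inl_good N1 S p eP n qP qv D.h2 D.hc D.hℓ₀)
  rw [h]
  show (Tz (N1 * twC qv) (pvC qP qv) (pvH qP qv p eP n) D.h2 D.hc p D.ℓ₀
    * diaZ (N1 * twC qv) (pvC qP qv) (pvH qP qv p eP n) D.h2 D.hc p
      (Fermat.Agent.NEB.EIG.H39.unitOf (pvC qP qv) D.ℓ₀) ^ (jPv p eP n)) y = _
  rw [Module.End.mul_apply, Fermat.Agent.NEB.Geom.H70.pow_apply_of_fixed _ (hy _)]

/-- The instance of W-LG at the Taylor–Wiles prime `qv i`, on `W'`. -/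
theorem pwlg_inst [Finite (ResidueField 𝒪)] [CharZero 𝒪] [Fact p.Prime] (hϖ : Irreducible ϖ)
    (hpm : (p : 𝒪) ∈ maximalIdeal 𝒪)
    (D : PvSetup 𝒪 ϖ p N1 S θ ρbar eP n qP qv)
    (hsoc : ∀ (i : Fin r) (σ : GalK), σ ∈ (D.P i).inertiaSubgroupIn ℚ →
      ∀ x ∈ Wpv N1 S p eP n qP qv D.h2 D.hc 𝒪 D.hcomm θ D.α, ϖ • x = 0 →
        (∀ u, (diaZ (N1 * twC qv) (pvC qP qv) (pvH qP qv p eP n) D.h2 D.hc p
          u).baseChange 𝒪 x = x) →
        (galZ (N1 * twC qv) (pvC qP qv) (pvH qP qv p eP n) p σ).baseChange 𝒪 x = x)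
    (i : Fin r) (σ : GalK) (hσ : σ ∈ (D.P i).inertiaSubgroupIn ℚ)
    (x : 𝒪 ⊗[ℤ] AHpv N1 p eP n qP qv)
    (hx : x ∈ Wpv N1 S p eP n qP qv D.h2 D.hc 𝒪 D.hcomm θ D.α)
    (hgk : ∃ m : ℕ, ((((galZ (N1 * twC qv) (pvC qP qv) (pvH qP qv p eP n) p (D.frob i) *
        diaZ (N1 * twC qv) (pvC qP qv) (pvH qP qv p eP n) D.h2 D.hc p
          (Fermat.Agent.NEB.Geom.H6.chiC (pvC qP qv) (D.frob i)
            ^ (jPv p eP n + 1))).baseChange 𝒪
        - D.a i • (1 : Module.End 𝒪 (𝒪 ⊗[ℤ] AHpv N1 p eP n qP qv))) ^ m) x = 0)) :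
    (galZ (N1 * twC qv) (pvC qP qv) (pvH qP qv p eP n) p σ).baseChange 𝒪 x = x := by
  have hp0 : (p : 𝒪) ≠ 0 := Nat.cast_ne_zero.mpr (Fact.out : p.Prime).ne_zero
  have hPV := D.hPV
  rw [ValuationSubring.inertiaSubgroupIn, Subgroup.mem_map] at hσ
  obtain ⟨σ', hσ', rfl⟩ := hσ
  refine Fermat.Agent.NEB.Geom.H46.stmt_W_LG 𝒪 ϖ hϖ p hpm hp0
    (AHpv N1 p eP n qP qv) (fun y => isPTors_coe y)
    (Fermat.Agent.NEB.Geom.H9.finite_AH_tors (N1 * twC qv) (pvC qP qv) (pvH qP qv p eP n)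
      D.h2 D.hc p)
    (PolyTw r (pvC qP qv)) (etaPv N1 S p eP n qP qv D.h2 D.hc D.hcomm)
    (thetaPv N1 S qP qv θ D.α)
    (ZMod (pvC qP qv))ˣ (diaZ (N1 * twC qv) (pvC qP qv) (pvH qP qv p eP n) D.h2 D.hc p)
    (n + ∑ j, eP j)
    ?_ ?_ (Fermat.Agent.NEB.Geom.H9.KUp (D.P i) (N1 * twC qv) (pvC qP qv)
      (pvH qP qv p eP n) D.h2 D.hc p) ?_
    ↥((D.P i).decompositionSubgroup ℚ)
    ((galZ (N1 * twC qv) (pvC qP qv) (pvH qP qv p eP n) p).comp (Subgroup.subtype _))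
    ?_ ?_ ((D.P i).inertiaSubgroup ℚ)
    ⟨D.frob i, (D.frob_spec i).mem_decompositionSubgroup⟩
    ?_ ?_ (Fermat.Agent.NEB.Geom.H6.chiC (pvC qP qv) (D.frob i) ^ (jPv p eP n + 1))
    (MvPolynomial.X (Sum.inr (Sum.inl i))) (qv i) (D.a i) ?_ ?_ ?_ ?_ ?_ ?_ σ' hσ' x hx hgk
  · exact fun u => Fermat.Agent.NEB.Geom.H9.diaZ_pow_eq_one (pow_mem_pvH qP qv p eP n u)
  · exact fun u => ⟨MvPolynomial.X (Sum.inr (Sum.inr u)), polyHom_X _ _ _⟩
  · exact fun t y hy => KUp_etaPv N1 S p eP n qP qv D.h2 D.hc (D.P i) hPV.prime D.hcomm t y hy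
  · exact fun g t => D.comm_gal (g : GalK) t
  · exact fun g y hy => Fermat.Agent.NEB.Geom.H9.KUp_gal g.2 hy
  · exact fun τ hτ =>
      (Fermat.Agent.NEB.Geom.H9.normal_inertiaSubgroup (D.P i)).conj_mem τ hτ _
  · exact fun τ hτ y =>
      Fermat.Agent.NEB.Geom.H9.KUp_inertia (Subgroup.mem_map_of_mem _ hτ) y
  · rw [D.ha i, thetaPv_U]
  · exact D.eig.q_one i
  · rw [thetaPv_U]
    exact alphaPv_sq_ne_one D i
  · intro y hyW hyK hyfix
    have e : etaPv N1 S p eP n qP qv D.h2 D.hc D.hcomm (MvPolynomial.X (Sum.inr (Sum.inl i)))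
        = Uz (N1 * twC qv) (pvC qP qv) (pvH qP qv p eP n) D.h2 D.hc p (qv i) :=
      polyHom_X _ _ _
    rw [e]
    haveI : Module.Flat ℤ 𝒪 := flat_int (𝒪 := 𝒪)
    obtain ⟨M, hL, hqM⟩ := Fermat.Agent.NEB.Geom.H70.level_split N1 S p n qv
      (hPV.twHyp (Fin.pos i)) i
    have hqp : qv i ≠ p := fun h => hPV.notS i (h ▸ hPV.hpS)
    have hθU : thetaPv N1 S qP qv θ D.α (MvPolynomial.X (Sum.inr (Sum.inl i)))
        * thetaPv N1 S qP qv θ D.α (MvPolynomial.X (Sum.inr (Sum.inl i))) ≠ 1 := by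
      rw [thetaPv_U, ← sq]
      exact alphaPv_sq_ne_one D i
    have hθT : thetaPv N1 S qP qv θ D.α (MvPolynomial.X (Sum.inl D.ℓ₀))
        ≠ ((D.ℓ₀ : ResidueField 𝒪) + 1) := by
      rw [thetaPv_T N1 S qP qv θ D.α D.hℓ₀]
      exact D.hne
    exact Fermat.Agent.NEB.Geom.H70.wkeyq_gen (N1 * twC qv) (pvC qP qv) (pvH qP qv p eP n)
      D.h2 D.hc p 𝒪 hPV.hp (n + ∑ j, eP j)
      (fun d => Or.inl (pow_mem_pvH qP qv p eP n d)) (hunr_pv hPV) (qv i) M (hPV.prime i) hL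
      hqM hqp D.ℓ₀ D.hℓ₀.1 (Fermat.Agent.NEB.Geom.H29.not_dvd_level_of_good D.hℓ₀) (D.P i)
      (D.P_over i) (D.frob i) (D.frob_spec i)
      (etaPv N1 S p eP n qP qv D.h2 D.hc D.hcomm) (thetaPv N1 S qP qv θ D.α)
      (fun t => D.comm_gal (D.frob i) t)
      (MvPolynomial.X (Sum.inr (Sum.inl i))) (MvPolynomial.X (Sum.inl D.ℓ₀)) e
      (fun y hy => etaPv_T_fixed D y hy) hθU hθT y hyW hyK hyfix
  · intro τ hτ y hyW hy0 hyfix
    exact hsoc i (τ : GalK) (Subgroup.mem_map_of_mem _ hτ) y hyW hy0 hyfix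
  · exact fun m => Fermat.Agent.NEB.Geom.H9.tame_gen (N1 * twC qv) (pvC qP qv)
      (pvH qP qv p eP n) D.h2 D.hc p (qv i) (hPV.prime i) (D.P i) (D.P_over i) (D.frob i)
      (D.frob_spec i) m

/-! ### The untwisting step -/

theorem p_dia_pow_eq (D : PvSetup 𝒪 ϖ p N1 S θ ρbar eP n qP qv) (u : (ZMod (pvC qP qv))ˣ)
    (m : ℕ) : D.dia (u ^ m) = D.dia u ^ m := by
  have h1 : ∀ t, Commute (etaPv N1 S p eP n qP qv D.h2 D.hc D.hcomm t)
      (diaZ (N1 * twC qv) (pvC qP qv) (pvH qP qv p eP n) D.h2 D.hc p u ^ m) :=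
    fun t => (D.comm_dia u t).pow_right m
  have e1 := thetaZ_pow (θ := thetaPv N1 S qP qv θ D.α) (fun t => D.comm_dia u t) m h1
  have e2 := thetaZ_congr (θ := thetaPv N1 S qP qv θ D.α) (fun t => D.comm_dia (u ^ m) t) h1
    (map_pow (diaZ (N1 * twC qv) (pvC qP qv) (pvH qP qv p eP n) D.h2 D.hc p) u m)
  exact e2.trans e1

/-- The twisted Galois operator, with the power inside the diamond operator. -/
theorem galHomPv_eq_mul_dia_pow (D : PvSetup 𝒪 ϖ p N1 S θ ρbar eP n qP qv) (σ : GalK) :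
    D.galHom σ = galZ (N1 * twC qv) (pvC qP qv) (pvH qP qv p eP n) p σ *
      diaZ (N1 * twC qv) (pvC qP qv) (pvH qP qv p eP n) D.h2 D.hc p
        (Fermat.Agent.NEB.Geom.H6.chiC (pvC qP qv) σ ^ (jPv p eP n + 1)) := by
  rw [D.galHom_apply, map_pow]

/-- Powers of `gal'(σ) - a` on `W'` and on the ambient module. -/
theorem galPv_sub_smul_pow_coe (D : PvSetup 𝒪 ϖ p N1 S θ ρbar eP n qP qv) (σ : GalK) (a : 𝒪)
    (m : ℕ) (y : D.WD.W) :
    D.val (((D.gal σ - a • (1 : Module.End 𝒪 D.WD.W)) ^ m) y) =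
    (((galZ (N1 * twC qv) (pvC qP qv) (pvH qP qv p eP n) p σ *
      diaZ (N1 * twC qv) (pvC qP qv) (pvH qP qv p eP n) D.h2 D.hc p
        (Fermat.Agent.NEB.Geom.H6.chiC (pvC qP qv) σ ^ (jPv p eP n + 1))).baseChange 𝒪
      - a • (1 : Module.End 𝒪 (𝒪 ⊗[ℤ] AHpv N1 p eP n qP qv))) ^ m) (D.val y) := by
  have h1 := Fermat.Agent.NEB.Geom.H6.thetaZ_sub_smul_pow_coe
    (θ := thetaPv N1 S qP qv θ D.α) (D.galHom σ) (D.comm_galHom σ) a m y
  have h2 := congrArg (fun g : Module.End ℤ (AHpv N1 p eP n qP qv) =>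
    ((g.baseChange 𝒪
      - a • (1 : Module.End 𝒪 (𝒪 ⊗[ℤ] AHpv N1 p eP n qP qv))) ^ m) (D.val y))
    (galHomPv_eq_mul_dia_pow D σ)
  exact h1.trans h2

/-- **(G)**: `Stmt_P_lg D` from the conclusion of `Stmt_W_LG` at every `i`. -/
theorem p_lg_of_wlg (D : PvSetup 𝒪 ϖ p N1 S θ ρbar eP n qP qv)
    (hW : ∀ i, ∀ σ ∈ (D.P i).inertiaSubgroupIn ℚ,
      ∀ x ∈ Wpv N1 S p eP n qP qv D.h2 D.hc 𝒪 D.hcomm θ D.α,
      (∃ m : ℕ, ((((galZ (N1 * twC qv) (pvC qP qv) (pvH qP qv p eP n) p (D.frob i) *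
          diaZ (N1 * twC qv) (pvC qP qv) (pvH qP qv p eP n) D.h2 D.hc p
            (Fermat.Agent.NEB.Geom.H6.chiC (pvC qP qv) (D.frob i)
              ^ (jPv p eP n + 1))).baseChange 𝒪
          - D.a i • (1 : Module.End 𝒪 (𝒪 ⊗[ℤ] AHpv N1 p eP n qP qv))) ^ m) x = 0)) →
      (galZ (N1 * twC qv) (pvC qP qv) (pvH qP qv p eP n) p σ).baseChange 𝒪 x = x) :
    Stmt_P_lg D := by
  intro i x hx
  have hx' : ∃ m : ℕ, ((D.gal (D.frob i) - D.a i • (1 : Module.End 𝒪 D.WD.W)) ^ m) x = 0 := hx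
  exact Exists.elim hx' (fun m hm => by
    have hy : ((D.gal (D.frob i) - D.a i • (1 : Module.End 𝒪 D.WD.W)) ^ m) (D.d i x) = 0 :=
      Fermat.Agent.NEB.Geom.H6.pow_sub_smul_apply_comm _ _ (p_d_gal D i (D.frob i)) (D.a i) m
        x hm
    have hy' := (galPv_sub_smul_pow_coe D (D.frob i) (D.a i) m (D.d i x)).symm.trans
      (congrArg D.val hy)
    have hfix := hW i (D.σ i) (D.σ_mem i) (D.val (D.d i x)) (D.d i x).2 ⟨m, hy'⟩
    have e : D.gal (D.σ i) x = D.galU (D.σ i) (D.d i x) :=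
      congrArg (fun f : Module.End 𝒪 D.WD.W => f x)
        ((p_gal_eq D (D.σ i)).trans
          (congrArg (fun z => D.galU (D.σ i) * z) (p_dia_pow_eq D _ _).symm))
    exact e.trans (Subtype.ext hfix))

/-- **(E)**: inertia at `qv i` is trivial on `W'[ϖ]^Δ'` (the socle hypothesis of `Stmt_W_LG`),
from P-PI. -/
theorem plg_socle (Dm : MinSetup 𝒪 ϖ p N1 S θ) (D : PvSetup 𝒪 ϖ p N1 S θ ρbar eP n qP qv)
    (hpi : Stmt_P_pi Dm D) (i : Fin r) (σ : GalK) (hσ : σ ∈ (D.P i).inertiaSubgroupIn ℚ)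
    (x : 𝒪 ⊗[ℤ] AHpv N1 p eP n qP qv)
    (hx : x ∈ Wpv N1 S p eP n qP qv D.h2 D.hc 𝒪 D.hcomm θ D.α) (hϖx : ϖ • x = 0)
    (hfix : ∀ u, (diaZ (N1 * twC qv) (pvC qP qv) (pvH qP qv p eP n) D.h2 D.hc p
      u).baseChange 𝒪 x = x) :
    (galZ (N1 * twC qv) (pvC qP qv) (pvH qP qv p eP n) p σ).baseChange 𝒪 x = x := by
  have hq : (qv i).Prime := D.hPV.prime i
  have hqS' : qv i ∉ S := D.hPV.notS i
  have hqN : ¬ qv i ∣ N1 := fun h => hqS' (D.hPV.hNS (qv i) hq h)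
  have hqp : qv i ≠ p := fun h => hqS' (h ▸ D.hPV.hpS)
  have hunr : galZ0 N1 p σ = 1 := Dm.unr (qv i) hq hqN hqp (D.P i) (D.P_over i) σ hσ
  have hgalM : ∀ y : Dm.MD.W, Dm.gal σ y = y := by
    intro y
    have e1 := thetaZ_congr (θ := θ) (Dm.gal_comm σ) (fun t => Commute.one_right _) hunr
    have e2 := e1.trans (thetaZ_one _)
    exact congrArg (fun f : Module.End 𝒪 ↥(thetaPart Dm.ηC θ) => f y) e2
  exact Exists.elim hpi (fun π h1 => Exists.elim h1 (fun πup h2 => by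
    have hinv := h2.2.2.2.1
    have hgalπ := h2.2.2.2.2.2
    have hv : ϖ • (⟨x, hx⟩ : D.WD.W) = 0 := Subtype.ext hϖx
    have hcv : ∀ j, D.c j (⟨x, hx⟩ : D.WD.W) = ⟨x, hx⟩ :=
      fun j => Subtype.ext (hfix (D.δP j))
    have hdv : ∀ i', D.d i' (⟨x, hx⟩ : D.WD.W) = ⟨x, hx⟩ :=
      fun i' => Subtype.ext (hfix (D.δQ i'))
    exact Exists.elim (hinv ⟨x, hx⟩ hv hcv hdv) (fun y hy => by
      have h3 : D.val (πup (Dm.gal σ y))
          = (galZ (N1 * twC qv) (pvC qP qv) (pvH qP qv p eP n) p σ).baseChange 𝒪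
              (D.val (πup y)) :=
        hgalπ σ y
      have h4 : D.val (πup (Dm.gal σ y)) = x :=
        congrArg D.val ((congrArg πup (hgalM y)).trans hy)
      have h5 : D.val (πup y) = x := congrArg D.val hy
      exact (h4.symm.trans (h3.trans (congrArg _ h5))).symm)))

/-- **P-LG**, from P-PI. -/
theorem p_lg [Finite (ResidueField 𝒪)] [CharZero 𝒪] [Fact p.Prime] (hϖ : Irreducible ϖ)
    (hpm : (p : 𝒪) ∈ maximalIdeal 𝒪)
    (Dm : MinSetup 𝒪 ϖ p N1 S θ) (D : PvSetup 𝒪 ϖ p N1 S θ ρbar eP n qP qv)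
    (hPI : Stmt_P_pi Dm D) : Stmt_P_lg D :=
  p_lg_of_wlg D fun i σ hσ x hx hgk =>
    pwlg_inst hϖ hpm D (fun i' τ hτ y hyW hy0 hyfix =>
      plg_socle Dm D hPI i' τ hτ y hyW hy0 hyfix) i σ hσ x hx hgk

end Main

/-- **P-LG** (universally quantified), from P-PI. -/
theorem stmt_P_LG_of (hPI : Stmt_P_PI) : Stmt_P_LG := by
  intro 𝒪 _ _ _ _ _ _ ϖ p _ N1 _ S Smin θ ρbar k Pv eP hstd Dm n r qv _ _ _ _ D
  exact p_lg hstd.hϖ hstd.hyp.hp𝒪 Dm D
    (hPI 𝒪 ϖ p N1 S Smin θ ρbar k Pv eP hstd Dm n r qv D)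

end Fermat.Agent.L.Pivot.Geom.H9
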