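import Fermat.Agent.L.Pivot.Geom.H19_AsmTop
import Fermat.Agent.L.Pivot.Geom.H9_PGal
import Fermat.Agent.L.Pivot.Geom.H9_PLG
import Fermat.Agent.L.Pivot.Geom.H29_PES
import Fermat.Agent.L.Pivot.Geom.H70_PHstep
import Fermat.Agent.L.Pivot.Geom.H76_PFrobNil
import Fermat.Agent.L.Pivot.Geom.H18_PPiTop
import Fermat.Agent.L.Pivot.Geom.H11_PEta
import Fermat.Agent.NEB.Geom.H6_AMinFinal

/-!
# PIVOT, package PV-GEOM, Part I (design (C)): the closed top (helper19)

All landed leaves plugged into `stmt_PVBASE5_of`: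

* W-MD (`NEB.Geom.H6.stmt_W_MD`), P-SETUP (`H11.stmt_P_SETUP`: helper6's W-NONEIS, helper11's η,
  helper70's `isDiv_Wpv`), P-GAL / P-LG (helper9), P-ES (helper29), P-HSTEPC / P-HSTEPD (helper70),
  P-FROBNIL (helper76), P-PI (`H18.stmt_P_PI`: helper18, helper76, helper29, helper14).

The only remaining hypotheses are the two leaves that are still open:

* `Stmt_P_EIGPART` (`H19_AsmTop.lean`): `ker rest` kills the `Δ_Σ`-norms;
* `Stmt_P_NEW`     (`H19_AsmTop.lean`): Part II.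

`stmt_PVBASE5_of_open` : these two ⟹ `Stmt_PVBASE5` (= helper59's `Stmt_PVBASE` of `Base.lean`
once the hypotheses `5 ≤ p`, `0 < k` are threaded there).

Complete proofs, standard axioms only.
-/

set_option autoImplicit false

namespace Fermat.Agent.L.Pivot.Geom

open Fermat.Agent.NEB.Geom

/-- **PV-GEOM Part I, closed top**: the two open leaves imply `Stmt_PVBASE5`. -/
theorem stmt_PVBASE5_of_open (hEIG : Stmt_P_EIGPART) (hNEW : Stmt_P_NEW) : Stmt_PVBASE5 :=
  stmt_PVBASE5_of Fermat.Agent.NEB.Geom.H6.stmt_W_MD H11.stmt_P_SETUP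
    H9.stmt_P_GAL H29.stmt_P_ES H70.stmt_P_HSTEPC H70.stmt_P_HSTEPD H18.stmt_P_PI hEIG
    (H76.stmt_P_FROBNIL_of H18.stmt_P_PI) (H9.stmt_P_LG_of H18.stmt_P_PI) hNEW

end Fermat.Agent.L.Pivot.Geom
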