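import Fermat.Agent.L.Pivot.Geom.H4_EigPartW
import Fermat.Agent.L.Pivot.Geom.H19_AsmTop
import Fermat.Agent.L.Pivot.Geom.H9_PGal
import Fermat.Agent.L.Pivot.Geom.H59_KerNmE
import Fermat.Agent.NEB.Geom.H39_WEigTw
import Fermat.Agent.NEB.EIG.H98_Asm

/-!
# PIVOT / PV-GEOM, leaf P-EIGPART (helper4), part 5: the instance on `PvSetup`

`stmt_P_EIGPART : Stmt_P_EIGPART` : on the module `W'` of a `PvSetup`, a Hecke operator of level
`pvLevel` whose restriction to the level `twLevel` vanishes kills the `Δ_Σ`-norms.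

It is the instance of `H4.eigPart_W` at
`N = M₀ = N1 / c_Σ`, `qsP = pivots`, `qsQ = Taylor–Wiles primes`, `c = c' = c_Σ c_Q`,
`M = N1 c_Q`, `N' = pvLevel`, `N'' = twLevel`, `A = J_H'[p^∞]`, `𝕋 = PolyTw`, `etaW = D.η`, and
`ν = ∏_j ∑_{i < p^{e_j}} ⟨δP j⟩^i`.

* `unitsMap_Q_eq_one`, `exists_decomp_P` : a unit `d ≡ 1 mod c_Q` is `y ∏ δP_j^{s_j}`, `y ∈ H'`;
* `diaZ_mul_nmTotE` : `⟨y ∏ δ_j^{s_j}⟩ Nm = Nm`;
* `p_eigpart D : Stmt_P_eigpart D`, `stmt_P_EIGPART`.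

Complete proofs, standard axioms only.
-/

set_option autoImplicit false
set_option linter.unusedSectionVars false
set_option linter.style.haveILetI false
set_option linter.unusedVariables false
set_option synthInstance.maxHeartbeats 400000
set_option maxHeartbeats 1000000

noncomputable section

open ModularCurve AlgebraicCurve IsLocalRing TensorProduct Polynomial

namespace Fermat.Agent.L.Pivot.Geom.H4

open Fermat.Agent.NEB Fermat.Agent.NEB.JH Fermat.Agent.NEB.Geom Fermat.Agent.S59.Asm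
  Fermat.Agent.S59.Lim Fermat.Agent.S59.Lim.H2 Fermat.Agent.L.Pivot.Geom

/-! ## Group theory: the units `≡ 1 mod c_Q` -/

section Group

variable {k r : ℕ} (qP : Fin k → ℕ) (qv : Fin r → ℕ) (p : ℕ) (eP : Fin k → ℕ) (n : ℕ)

/-- A unit `≡ 1 mod c_Q` is `≡ 1` at every Taylor–Wiles prime. -/
theorem unitsMap_Q_eq_one {d : (ZMod (pvC qP qv))ˣ}
    (hd : ZMod.unitsMap (twC_Q_dvd_pvC qP qv) d = 1) (i : Fin r) :
    ZMod.unitsMap (dvd_pvC_Q qP qv i) d = 1 := by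
  have h2 : ZMod.unitsMap (dvd_pvC_Q qP qv i) d
      = ZMod.unitsMap (dvd_twC_self qv i) (ZMod.unitsMap (twC_Q_dvd_pvC qP qv) d) := by
    rw [← MonoidHom.comp_apply, ZMod.unitsMap_comp]
  rw [h2, hd, map_one]

/-- **Decomposition**: a unit `d ≡ 1 mod c_Q` is an element of `H'` times a monomial in the
generators `δP j` of `Δ_Σ`. -/
theorem exists_decomp_P (hprimeP : ∀ j, (qP j).Prime) (hcong : ∀ j, p ^ eP j ∣ qP j - 1)
    (δP : Fin k → (ZMod (pvC qP qv))ˣ)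
    (hPP : ∀ j j', j' ≠ j → ZMod.unitsMap (dvd_pvC_P qP qv j') (δP j) = 1)
    (hPQ : ∀ j i, ZMod.unitsMap (dvd_pvC_Q qP qv i) (δP j) = 1)
    (hord : ∀ j e, δP j ^ e ∈ pvH qP qv p eP n → p ^ eP j ∣ e)
    (d : (ZMod (pvC qP qv))ˣ) (hd : ZMod.unitsMap (twC_Q_dvd_pvC qP qv) d = 1) :
    ∃ (s : Fin k → ℕ) (y : (ZMod (pvC qP qv))ˣ),
      y ∈ pvH qP qv p eP n ∧ d = y * ∏ j, δP j ^ s j := by
  have key : ∀ j, ∃ (s : ℕ) (y : (ZMod (qP j))ˣ),
      ZMod.unitsMap (dvd_pvC_P qP qv j) d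
        = ZMod.unitsMap (dvd_pvC_P qP qv j) (δP j) ^ s * y ^ (p ^ eP j) := by
    intro j
    haveI := Fermat.Agent.NEB.Geom.H29.finite_units_of_prime (hprimeP j)
    haveI := Fermat.Agent.NEB.Geom.H29.isCyclic_units_of_prime (hprimeP j)
    refine Fermat.Agent.NEB.Geom.H29.cyc_gen (p ^ eP j)
      (by rw [Fermat.Agent.NEB.Geom.H29.card_units_of_prime (hprimeP j)]; exact hcong j) _
      (fun e he => ?_) _
    apply hord j e
    rw [mem_pvH]
    refine ⟨fun j' => ?_, fun i => ?_⟩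
    · by_cases h : j' = j
      · subst h
        obtain ⟨y, hy⟩ := he
        exact ⟨y, by rw [map_pow]; exact hy⟩
      · exact ⟨1, by rw [map_pow, hPP j j' h, one_pow, one_pow]⟩
    · exact ⟨1, by rw [map_pow, hPQ j i, one_pow, one_pow]⟩
  choose s y hy using key
  have hmon : ∀ j, ZMod.unitsMap (dvd_pvC_P qP qv j) (∏ i, δP i ^ s i)
      = ZMod.unitsMap (dvd_pvC_P qP qv j) (δP j) ^ s j := by
    intro j
    rw [map_prod, Finset.prod_eq_single j]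
    · rw [map_pow]
    · intro i _ hij
      rw [map_pow, hPP i j (fun e => hij e.symm), one_pow]
    · intro hj
      exact absurd (Finset.mem_univ j) hj
  have hmonQ : ∀ i, ZMod.unitsMap (dvd_pvC_Q qP qv i) (∏ j, δP j ^ s j) = 1 := by
    intro i
    rw [map_prod]
    refine Finset.prod_eq_one fun j _ => ?_
    rw [map_pow, hPQ j i, one_pow]
  refine ⟨s, d * (∏ j, δP j ^ s j)⁻¹, ?_, by rw [inv_mul_cancel_right]⟩
  rw [mem_pvH]
  refine ⟨fun j => ⟨y j, ?_⟩, fun i => ⟨1, ?_⟩⟩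
  · rw [map_mul, map_inv, hmon j, hy j, mul_comm (_ ^ s j), mul_assoc, mul_inv_cancel, mul_one]
  · rw [one_pow, map_mul, map_inv, hmonQ i, unitsMap_Q_eq_one qP qv hd i, inv_one, mul_one]

end Group

/-! ## The diamond operators and the total norm on `J_H[p^∞]` -/

section Op

variable (M c : ℕ) [NeZero M] (H : Subgroup (ZMod c)ˣ) (h2 : 2 ≤ c) (hc : c ∣ M) (p : ℕ)

/-- `⟨y ∏ δ_j^{s_j}⟩ Nm = Nm` for `y ∈ H`, `Nm = ∏_j ∑_{i < m_j} ⟨δ_j⟩^i`, `δ_j^{m_j} ∈ H`. -/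
theorem diaZ_mul_nmTotE {k : ℕ} (m : Fin k → ℕ) (δ : Fin k → (ZMod c)ˣ)
    (hpow : ∀ j, δ j ^ m j ∈ H) (s : Fin k → ℕ) (y : (ZMod c)ˣ) (hy : y ∈ H) :
    diaZ M c H h2 hc p (y * ∏ j, δ j ^ s j) *
        H59.nmTotE m (fun j => diaZ M c H h2 hc p (δ j))
      = H59.nmTotE m (fun j => diaZ M c H h2 hc p (δ j)) := by
  have hcomm : ∀ i j, Commute (diaZ M c H h2 hc p (δ i)) (diaZ M c H h2 hc p (δ j)) :=
    fun i j => Fermat.Agent.NEB.Geom.H9.diaZ_commute M c H h2 hc p _ _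
  have hp1 : ∀ j, diaZ M c H h2 hc p (δ j) ^ m j = 1 := fun j => by
    rw [← map_pow]
    exact Fermat.Agent.NEB.Geom.H9.diaZ_eq_one_of_mem M c H h2 hc p (hpow j)
  have h1 : ∀ j, diaZ M c H h2 hc p (δ j) *
      H59.nmTotE m (fun j => diaZ M c H h2 hc p (δ j))
        = H59.nmTotE m (fun j => diaZ M c H h2 hc p (δ j)) :=
    H59.mul_nmTotE m _ hcomm hp1
  let Sf : Submonoid (ZMod c)ˣ :=
    { carrier := {u | diaZ M c H h2 hc p u *
          H59.nmTotE m (fun j => diaZ M c H h2 hc p (δ j))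
        = H59.nmTotE m (fun j => diaZ M c H h2 hc p (δ j))}
      one_mem' := by
        show diaZ M c H h2 hc p 1 * _ = _
        rw [map_one, one_mul]
      mul_mem' := by
        intro a b ha hb
        show diaZ M c H h2 hc p (a * b) * _ = _
        rw [map_mul, mul_assoc]
        exact (congrArg (fun t => diaZ M c H h2 hc p a * t) hb).trans ha }
  have hmem : y * ∏ j, δ j ^ s j ∈ Sf := by
    refine Sf.mul_mem ?_ (Sf.prod_mem fun j _ => Sf.pow_mem (h1 j) _)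
    show diaZ M c H h2 hc p y * _ = _
    rw [Fermat.Agent.NEB.Geom.H9.diaZ_eq_one_of_mem M c H h2 hc p hy, one_mul]
  exact hmem

end Op

/-! ## The instance on `PvSetup` -/

section Main

variable {𝒪 : Type} [CommRing 𝒪] [IsDomain 𝒪] [IsDiscreteValuationRing 𝒪] [CharZero 𝒪]
  {ϖ : 𝒪} {p : ℕ} [Fact p.Prime] {N1 : ℕ} [NeZero N1] {S : Finset ℕ}
  {θ : CuspForm.heckeAlgebra N1 2 (↑S : Set ℕ) →+* ResidueField 𝒪}
  {ρbar : ResidualGaloisRep (ResidueField 𝒪)} {k : ℕ} {eP : Fin k → ℕ} {n : ℕ}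
  {qP : Fin k → ℕ} {r : ℕ} {qv : Fin r → ℕ}
  [NeZero (N1 * twC qv)] [NeZero (pvC qP qv)] [NeZero (twLevel N1 qv)]
  [NeZero (pvLevel N1 qP qv)]
  (D : PvSetup 𝒪 ϖ p N1 S θ ρbar eP n qP qv)

/-- The polynomial `ν = ∏_j ∑_{i < p^{e_j}} z_{δP j}^i` (the total norm of `Δ_Σ`). -/
def nuPv : PolyTw r (pvC qP qv) :=
  (List.ofFn fun j : Fin k => ∑ i ∈ Finset.range (p ^ eP j),
    (MvPolynomial.X (Sum.inr (Sum.inr (D.δP j))) : PolyTw r (pvC qP qv)) ^ i).prod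

/-- `η⁺ ν` is the total norm of `Δ_Σ` on `J_H'[p^∞]`. -/
theorem etaPv_nuPv :
    etaPv N1 S p eP n qP qv D.h2 D.hc D.hcomm (nuPv D)
      = H59.nmTotE (fun j => p ^ eP j)
          (fun j => diaZ (N1 * twC qv) (pvC qP qv) (pvH qP qv p eP n) D.h2 D.hc p (D.δP j)) := by
  unfold nuPv H59.nmTotE
  rw [map_list_prod, List.map_ofFn]
  congr 1
  congr 1
  funext j
  show etaPv N1 S p eP n qP qv D.h2 D.hc D.hcomm (∑ i ∈ Finset.range (p ^ eP j),
    (MvPolynomial.X (Sum.inr (Sum.inr (D.δP j))) : PolyTw r (pvC qP qv)) ^ i) = _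
  rw [map_sum, Fermat.Agent.S59.TWH.H90.nm]
  refine Finset.sum_congr rfl fun i _ => ?_
  rw [map_pow, polyHom_X]
  rfl

/-- The restriction to `W'` of `η⁺ z_u` is the diamond operator. -/
theorem thetaEta_dia (u : (ZMod (pvC qP qv))ˣ) :
    thetaEta (etaPv N1 S p eP n qP qv D.h2 D.hc D.hcomm) (thetaPv N1 S qP qv θ D.α)
      (MvPolynomial.X (Sum.inr (Sum.inr u))) = D.dia u := by
  rw [thetaEta_eq]
  exact thetaZ_congr _ _ (polyHom_X _ _ _)

/-- The restriction to `W'` of `η⁺ ν` is the total norm of `Δ_Σ`. -/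
theorem thetaEta_nuPv :
    thetaEta (etaPv N1 S p eP n qP qv D.h2 D.hc D.hcomm) (thetaPv N1 S qP qv θ D.α) (nuPv D)
      = H59.nmTotE (fun j => p ^ eP j) D.c := by
  unfold nuPv H59.nmTotE
  rw [map_list_prod, List.map_ofFn]
  congr 1
  congr 1
  funext j
  show thetaEta (etaPv N1 S p eP n qP qv D.h2 D.hc D.hcomm) (thetaPv N1 S qP qv θ D.α)
    (∑ i ∈ Finset.range (p ^ eP j),
      (MvPolynomial.X (Sum.inr (Sum.inr (D.δP j))) : PolyTw r (pvC qP qv)) ^ i) = _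
  rw [map_sum, Fermat.Agent.S59.TWH.H90.nm]
  refine Finset.sum_congr rfl fun i _ => ?_
  rw [map_pow, thetaEta_dia]
  rfl

/-- **P-EIGPART** on a `PvSetup`. -/
theorem p_eigpart (hϖ : Irreducible ϖ) : Stmt_P_eigpart D := by
  classical
  intro t ht x
  have hPV := D.hPV
  have hp0 : (p : 𝒪) ≠ 0 := Nat.cast_ne_zero.mpr hPV.hp.ne_zero
  -- the level `M₀ = N1 / c_Σ`
  obtain ⟨M₀, hM₀⟩ : ∃ M₀ : ℕ, N1 = M₀ * twC qP :=
    ⟨N1 / twC qP,
      (Nat.div_mul_cancel (twC_dvd_of_prime qP hPV.injP hPV.primeP N1 hPV.dvdP)).symm⟩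
  have hM₀0 : M₀ ≠ 0 := by
    rintro rfl
    rw [zero_mul] at hM₀
    exact hPV.hN hM₀
  have hM : N1 * twC qv = M₀ * pvC qP qv := by
    rw [pvC, ← mul_assoc, ← hM₀]
  have hN' : pvLevel N1 qP qv = M₀ * pvC qP qv * pvC qP qv := by
    rw [pvLevel, Fermat.Agent.NEB.Geom.H39.twLevel_eq_mul, pvC]
    show N1 * twC qv * twC qv * twC qP = _
    rw [hM₀]
    ring
  have hN'' : twLevel N1 qv = M₀ * twC qP * twC qv * twC qv := by
    rw [Fermat.Agent.NEB.Geom.H39.twLevel_eq_mul, ← hM₀]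
  -- the primes
  have hnd : (List.ofFn qP ++ List.ofFn qv).Nodup := by
    rw [List.nodup_append]
    refine ⟨List.nodup_ofFn.mpr hPV.injP, List.nodup_ofFn.mpr hPV.inj, ?_⟩
    intro a ha b hb
    obtain ⟨j, rfl⟩ := (List.mem_ofFn' qP a).mp ha
    obtain ⟨i, rfl⟩ := (List.mem_ofFn' qv b).mp hb
    exact hPV.qP_ne_qv j i
  have hpr : ∀ q ∈ List.ofFn qP ++ List.ofFn qv, q.Prime := by
    intro q hq
    rcases List.mem_append.mp hq with h | h
    · obtain ⟨j, rfl⟩ := (List.mem_ofFn' qP q).mp h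
      exact hPV.primeP j
    · obtain ⟨i, rfl⟩ := (List.mem_ofFn' qv q).mp h
      exact hPV.prime i
  have hqN : ∀ q ∈ List.ofFn qP ++ List.ofFn qv, ¬ q ∣ M₀ := by
    intro q hq hd
    rcases List.mem_append.mp hq with h | h
    · obtain ⟨j, rfl⟩ := (List.mem_ofFn' qP q).mp h
      have h1 : qP j * qP j ∣ N1 := by
        rw [hM₀]
        exact mul_dvd_mul hd (dvd_twC_self qP j)
      exact (hPV.primeP j).not_isUnit (hPV.hsq (qP j) h1)
    · obtain ⟨i, rfl⟩ := (List.mem_ofFn' qv q).mp h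
      refine hPV.notS i (hPV.hNS _ (hPV.prime i) ?_)
      rw [hM₀]
      exact dvd_mul_of_dvd_left hd _
  -- the diamonds have odd order
  have hdn : ∀ d, diaZ (N1 * twC qv) (pvC qP qv) (pvH qP qv p eP n) D.h2 D.hc p d
      ^ (2 * jPv p eP n + 1) = 1 := by
    intro d
    refine Fermat.Agent.NEB.EIG.H98.diaZ_pow_eq_one _ _ _ _ _ _ (fun d' => Or.inl ?_) d
    rw [two_jPv p eP n hPV.hp hPV.hp2]
    exact pow_mem_pvH qP qv p eP n d'
  -- the norm has values in the invariants of the pivot diamonds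
  have hν : ∀ d : (ZMod (pvC qP qv))ˣ, ZMod.unitsMap (twC_Q_dvd_pvC qP qv) d = 1 →
      diaZ (N1 * twC qv) (pvC qP qv) (pvH qP qv p eP n) D.h2 D.hc p d *
        etaPv N1 S p eP n qP qv D.h2 D.hc D.hcomm (nuPv D)
      = etaPv N1 S p eP n qP qv D.h2 D.hc D.hcomm (nuPv D) := by
    intro d hd
    rw [etaPv_nuPv]
    obtain ⟨s, y, hy, rfl⟩ := exists_decomp_P qP qv p eP n hPV.primeP
      (fun j => (hPV.congP j).1) D.δP D.hδ.P_P D.hδ.P_Q D.hδ.P_ord d hd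
    exact diaZ_mul_nmTotE _ _ _ _ _ _ _ _
      (fun j => Fermat.Agent.L.Pivot.Geom.H9.pow_mem_pvH_P qP qv p eP n (D.δP j) j
        (D.hδ.P_P j) (D.hδ.P_Q j)) s y hy
  have key := eigPart_W p M₀ hM₀0 (List.ofFn qP) (List.ofFn qv) hnd hpr hqN
    (pvC qP qv) (twC qP) (twC qv) (pvLevel N1 qP qv) (twLevel N1 qv) (N1 * twC qv)
    (Fermat.Agent.NEB.Geom.H39.twC_eq_list_prod qP)
    (Fermat.Agent.NEB.Geom.H39.twC_eq_list_prod qv) rfl hM D.hc hN' hN''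
    (↑(twSet S qv) : Set ℕ) (Fermat.Agent.L.Pivot.Geom.H9.mem_twSet_of_dvd_pv hPV)
    (AHpv N1 p eP n qP qv) (fun x => isPTors_coe x)
    (Fermat.Agent.NEB.Geom.H84.finite_AH_p (pvH qP qv p eP n) D.h2 D.hc p)
    (Fermat.Agent.NEB.EIG.H98.monoSys (N1 * twC qv) (pvC qP qv) (pvH qP qv p eP n) D.h2 D.hc p
      Fermat.Agent.NEB.H70.iotaC)
    (Tz (N1 * twC qv) (pvC qP qv) (pvH qP qv p eP n) D.h2 D.hc p)
    (fun ℓ hℓ hℓM k x hx => Fermat.Agent.NEB.EIG.H98.monoSys_Tz (N1 * twC qv) (pvC qP qv)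
      (pvH qP qv p eP n) D.h2 D.hc p Fermat.Agent.NEB.H70.iotaC ℓ hℓ hℓM k x hx)
    (diaZ (N1 * twC qv) (pvC qP qv) (pvH qP qv p eP n) D.h2 D.hc p)
    (fun g hg d hd k x hx => Fermat.Agent.NEB.EIG.H98.monoSys_diaZ (N1 * twC qv) (pvC qP qv)
      (pvH qP qv p eP n) D.h2 D.hc p Fermat.Agent.NEB.H70.iotaC g hg d hd k x hx)
    (fun ℓ _ _ d => Fermat.Agent.NEB.EIG.H98.commute_Tz_diaZ (N1 * twC qv) (pvC qP qv)
      (pvH qP qv p eP n) D.h2 D.hc p ℓ d)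
    (jPv p eP n) hdn
    (etaPv N1 S p eP n qP qv D.h2 D.hc D.hcomm) (thetaPv N1 S qP qv θ D.α)
    (fun w => Fermat.Agent.NEB.Geom.H39.pdiv_of_div hϖ hp0 D.isDiv.div w)
    (fun ℓ => MvPolynomial.X (Sum.inl ℓ))
    (fun ℓ hℓ hℓN hℓS => by
      show polyHom (opsPv N1 S p eP n qP qv D.h2 D.hc) D.hcomm (MvPolynomial.X (Sum.inl ℓ)) = _
      rw [polyHom_X]
      show (if GoodTw N1 S qv ℓ then _ else 0) = _
      rw [if_pos (goodTw_of_pv N1 S qP qv hℓ hℓN hℓS)]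
      rfl)
    D.η D.η_T
    (restPV N1 S qP qv hPV.dvdP) (restPV_T N1 S qP qv hPV.dvdP)
    (twC_Q_dvd_pvC qP qv) (nuPv D) hν t ht
  have h2 := LinearMap.congr_fun key x
  rw [thetaEta_nuPv D] at h2
  exact h2

end Main

/-- **P-EIGPART** (universally quantified). -/
theorem stmt_P_EIGPART : Stmt_P_EIGPART := by
  intro 𝒪 _ _ _ _ _ _ ϖ p _ N1 _ S Smin θ ρbar k Pv eP hstd Dm n r qv _ _ _ _ D
  exact p_eigpart D hstd.hϖ

end Fermat.Agent.L.Pivot.Geom.H4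

end
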