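import Fermat.Agent.L.Pivot.Geom.H50_NewJ0Final
import Fermat.Agent.S36.NU.H10_Out

/-!
# PIVOT, PV-GEOM part II, leaf PVG-N2 (helper50): `Stmt_NewJ0` UNCONDITIONALLY

`stmt_NewJ0 M q p : Stmt_NewJ0 M q p` from `newJ0_of_torsNU` and the output of S36 / NU-B
(`S36.NU.H10.torsNU`, helper10).
-/

set_option autoImplicit false

namespace Fermat.Agent.L.Pivot.Geom.H50

/-- **PVG-N2, unconditional**: a system of eigenvalues which occurs in the `q`-new part of the
level `M q` (`q ∥ M`) does not occur at the level `M`. -/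
theorem stmt_NewJ0 (M q p : ℕ) [NeZero M] [NeZero q] : Stmt_NewJ0 M q p :=
  newJ0_of_torsNU (Fermat.Agent.S36.NU.H10.torsNU M q p)

end Fermat.Agent.L.Pivot.Geom.H50
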