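import Fermat.Agent.L.Pivot.Geom.H19_PNewInst
import Fermat.Agent.L.Pivot.Geom.H50_NewJ0Uncond
import Fermat.Agent.L.Pivot.Geom.H19_Final
import Fermat.Agent.L.Pivot.Geom.H4_EigPartInst

/-!
# PIVOT, package PV-GEOM: `Stmt_P_NEW` and `Stmt_PVBASE5`, unconditional (helper19)

* `H19.stmt_P_NEW : Stmt_P_NEW` : helper81's `H81.new_W` (PVG-NEW-ASM) instantiated on a setup
  (`H19_PNewInst.lean`) with helper50's `H50.stmt_NewJ0` (from the core of S36);
* `stmt_PVBASE5_final : Stmt_PVBASE5` : all the leaves of PV-GEOM Part I and Part II plugged into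
  `stmt_PVBASE5_of` (P-EIGPART = helper4's `H4.stmt_P_EIGPART`).

Complete proofs, standard axioms only.
-/

set_option autoImplicit false

namespace Fermat.Agent.L.Pivot.Geom

/-- **P-NEW**, unconditional. -/
theorem H19.stmt_P_NEW : Stmt_P_NEW :=
  H19.stmt_P_NEW_of_newJ0 (fun M q p _ _ => H50.stmt_NewJ0 M q p)

/-- **PV-BASE**, unconditional (with `5 ≤ p`, `0 < k`). -/
theorem stmt_PVBASE5_final : Stmt_PVBASE5 :=
  stmt_PVBASE5_of_open H4.stmt_P_EIGPART H19.stmt_P_NEW

end Fermat.Agent.L.Pivot.Geom
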