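import Fermat.Agent.L.Pivot.Geom.H81_NewAsmV
import Fermat.Agent.NEB.Geom.H39_WEig2
import Fermat.Agent.R.H89_CycChar

/-!
# PIVOT, PV-GEOM, leaf PVG-NEW-ASM (helper81), part 6: the field `new` of `PVBase`

`new_W` : in the abstract setting of helper4's `H4.eigPart_W` (= helper39's `stmt_EIG_W`, level
`M = N c` as a variable), with pivot primes `qP i ∈ qs`, `qP i ≠ p`, units `δ i` of `ℤ/c` which
are `≡ 1` modulo the primes of `c` other than `qP i`, `zc i : 𝕋` with `etaT (zc i) = ⟨δ i⟩`,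
operators `cW i` on `W = thetaPart etaT θ` induced by `⟨δ i⟩`, and `Stmt_NewJ0 (N'/qP i) (qP i) p`:
the statement of the field `new` of `PVBase` (`Stmt_P_new`), verbatim.
-/

set_option autoImplicit false

open IsLocalRing TensorProduct

namespace Fermat.Agent.L.Pivot.Geom.H81

open CongruenceSubgroup Matrix.SpecialLinearGroup ModularForm Finset
open scoped MatrixGroups
open Fermat.Agent.NEB.EIG.H39 Fermat.Agent.Betti ModularCurve.Period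
open Fermat.Agent.S59.Lim Fermat.Agent.S59.Lim.H2 Fermat.Agent.L.Pivot
open Fermat.Agent.NEB.Geom.H39

/-- A `ϖ`-divisible module over a discrete valuation ring is `p`-divisible (`p ≠ 0`). -/
theorem pdiv_of_isDiv_h81 {𝒪 : Type} [CommRing 𝒪] [IsDomain 𝒪] [IsDiscreteValuationRing 𝒪]
    {ϖ : 𝒪} (hϖ : Irreducible ϖ) {p : ℕ} (hp0 : (p : 𝒪) ≠ 0)
    {W : Type*} [AddCommGroup W] [Module 𝒪 W] (h : IsDiv ϖ W) :
    ∀ w : W, ∃ w' : W, (p : 𝒪) • w' = w := by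
  obtain ⟨e, u, hu⟩ := IsDiscreteValuationRing.eq_unit_mul_pow_irreducible hp0 hϖ
  have hpow : ∀ (e : ℕ) (w : W), ∃ w' : W, ϖ ^ e • w' = w := by
    intro e
    induction e with
    | zero => exact fun w => ⟨w, by rw [pow_zero, one_smul]⟩
    | succ e ih =>
      intro w
      obtain ⟨w₁, hw₁⟩ := h.div w
      obtain ⟨w₂, hw₂⟩ := ih w₁
      exact ⟨w₂, by rw [pow_succ, mul_comm, mul_smul, hw₂, hw₁]⟩
  intro w
  obtain ⟨w₁, hw₁⟩ := hpow e w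
  refine ⟨((u⁻¹ : 𝒪ˣ) : 𝒪) • w₁, ?_⟩
  rw [hu, smul_smul, mul_comm (↑u : 𝒪) (ϖ ^ e), mul_assoc, Units.mul_inv, mul_one, hw₁]

/-- An element of `𝕋⁺` which kills the Tate module of `p ^ e A` kills the (`p`-divisible)
`θ`-part of `𝒪 ⊗ A`. -/
theorem thetaEta_eq_zero_of_mapEnd {𝒪 : Type} [CommRing 𝒪] [IsLocalRing 𝒪] {𝕋 : Type}
    [CommRing 𝕋] {A : Type} [AddCommGroup A] (etaT : 𝕋 →+* Module.End ℤ A)
    (θ : 𝕋 →+* ResidueField 𝒪) (p e : ℕ)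
    (hWdiv : ∀ w : ↥(thetaPart etaT θ), ∃ w' : ↥(thetaPart etaT θ), (p : 𝒪) • w' = w)
    (hdiv : ∀ w : ↥(divSub p e A), ∃ v : ↥(divSub p e A), (p : ℤ) • v = w)
    (htors : ∀ w : ↥(divSub p e A), ∃ k : ℕ, (p : ℤ) ^ k • w = 0)
    (s : 𝕋) (hs : H2.mapEnd (p : ℤ) ↥(divSub p e A) (resEnd p e (etaT s)) = 0) :
    thetaEta etaT θ s = 0 := by
  have h1 : resEnd p e (etaT s) = 0 := by
    apply H2.mapEnd_injective hdiv htors
    rw [hs, map_zero]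
  apply Fermat.Agent.NEB.Geom.H39.thetaEta_eq_zero_of etaT θ p e hWdiv
  intro x
  have h2 : ((resEnd p e (etaT s) ⟨p ^ e • x, pow_smul_mem_divSub x⟩ : ↥(divSub p e A)) : A)
      = 0 := by
    rw [h1]
    rfl
  exact h2

set_option maxHeartbeats 1000000 in
/-- **PVG-NEW-ASM**: the field `new` of `PVBase` in the abstract setting of `H4.eigPart_W`. -/
theorem new_W (p : ℕ) [Fact p.Prime] (N : ℕ) (hN : N ≠ 0) (qs : List ℕ) (hnd : qs.Nodup)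
    (hpr : ∀ q ∈ qs, q.Prime) (hqN : ∀ q ∈ qs, ¬ q ∣ N)
    (c N' M : ℕ) (hc : c = qs.prod) (hM : M = N * c) (hcM : c ∣ M) (hN' : N' = N * c * c)
    [NeZero N'] (S : Finset ℕ)
    (hS : ∀ q : ℕ, q.Prime → q ∣ N' → q ∈ (↑S : Set ℕ))
    (A : Type) [AddCommGroup A] (htors : ∀ x : A, ∃ k : ℕ, p ^ k • x = 0)
    (hfin : Finite {x : A // p • x = 0})
    (ms : MonoSys p M c A)
    (TA : ℕ → Module.End ℤ A)
    (hTA : ∀ (ℓ : ℕ) (hℓ : ℓ.Prime) (hℓM : ¬ ℓ ∣ M) (k : ℕ) (x : A), p ^ k • x = 0 →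
      ms.m k (TA ℓ x) = TDg M c hcM hℓ hℓM (ms.m k x))
    (diaA : (ZMod c)ˣ →* Module.End ℤ A)
    (hdiaA : ∀ (g : SL(2, ℤ)) (hg : ((M : ℕ) : ℤ) ∣ g 1 0) (d : (ZMod c)ˣ),
      (d : ZMod c) = ((g 0 0 : ℤ) : ZMod c) → ∀ (k : ℕ) (x : A), p ^ k • x = 0 →
      ms.m k (diaA d x) = Dg hcM g hg (ms.m k x))
    (hcomm : ∀ (ℓ : ℕ), ℓ.Prime → ¬ ℓ ∣ M → ∀ d, Commute (TA ℓ) (diaA d))
    (j : ℕ) (hdn : ∀ d, diaA d ^ (2 * j + 1) = 1)
    {𝒪 : Type} [CommRing 𝒪] [IsDomain 𝒪] [IsDiscreteValuationRing 𝒪]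
    [IsAdicComplete (maximalIdeal 𝒪) 𝒪] [CharZero 𝒪]
    (ϖ : 𝒪) (hϖ : Irreducible ϖ) (hp𝒪 : (p : 𝒪) ∈ maximalIdeal 𝒪)
    {𝕋 : Type} [CommRing 𝕋]
    (etaT : 𝕋 →+* Module.End ℤ A) (θ : 𝕋 →+* ResidueField 𝒪)
    (hW : IsDiv ϖ ↥(thetaPart etaT θ))
    (z : ℕ → 𝕋)
    (hz : ∀ (ℓ : ℕ), ℓ.Prime → ¬ ℓ ∣ N' → ℓ ∉ (↑S : Set ℕ) →
      etaT (z ℓ) = TA ℓ * diaA (unitOf c ℓ) ^ j)
    (etaW : CuspForm.heckeAlgebra N' 2 (↑S : Set ℕ) →+* Module.End 𝒪 ↥(thetaPart etaT θ))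
    (hetaW : ∀ (ℓ : ℕ) (hℓ : ℓ.Prime) (hℓN : ¬ ℓ ∣ N') (hℓS : ℓ ∉ (↑S : Set ℕ)),
      etaW (CuspForm.heckeAlgebra.T hℓ hℓN hℓS) = thetaEta etaT θ (z ℓ))
    {k : ℕ} (qP : Fin k → ℕ) (hqP : ∀ i, qP i ∈ qs) (hqPp : ∀ i, qP i ≠ p)
    (δ : Fin k → (ZMod c)ˣ)
    (hδ : ∀ i, ∀ q' ∈ qs, q' ≠ qP i → ∀ hd : q' ∣ c, ZMod.unitsMap hd (δ i) = 1)
    (zc : Fin k → 𝕋) (hzc : ∀ i, etaT (zc i) = diaA (δ i))
    (cW : Fin k → Module.End 𝒪 ↥(thetaPart etaT θ))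
    (hcW : ∀ i (x : ↥(thetaPart etaT θ)),
      ((cW i x : ↥(thetaPart etaT θ)) : 𝒪 ⊗[ℤ] A) = (diaA (δ i)).baseChange 𝒪 (x : 𝒪 ⊗[ℤ] A))
    (eP : Fin k → ℕ) (hcWpow : ∀ i, cW i ^ (p ^ eP i) = 1)
    (hN2 : ∀ (i : Fin k) [NeZero (N' / qP i)] [NeZero (qP i)],
      H50.Stmt_NewJ0 (N' / qP i) (qP i) p) :
    ∀ (ψ : Fin k → 𝒪), (∀ i, ψ i ^ (p ^ eP i) = 1 ∧ ψ i ≠ 1) →
    ∀ (E : Type) [CommRing E] [IsDomain E] [CharZero E]
      (χ : CuspForm.heckeAlgebra N' 2 (↑S : Set ℕ) →+* E),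
      (∀ t, (∀ v : H2.tate ϖ ↥(thetaPart etaT θ),
        H2.mapEnd ϖ ↥(thetaPart etaT θ) (etaW t) v ∈
          typeSub (fun i => H2.mapEnd ϖ ↥(thetaPart etaT θ) (cW i)) ψ) → χ t = 0) →
      ∀ (i : Fin k) [NeZero (N' / qP i)]
        (χ' : CuspForm.heckeAlgebra (N' / qP i) 2 (↑S : Set ℕ) →+* E),
        ¬ ∀ (ℓ : ℕ) (hℓ : ℓ.Prime) (hℓN' : ¬ ℓ ∣ N') (hℓS : ℓ ∉ (↑S : Set ℕ))
          (hℓN : ¬ ℓ ∣ N' / qP i),
          χ' (CuspForm.heckeAlgebra.T hℓ hℓN hℓS) = χ (CuspForm.heckeAlgebra.T hℓ hℓN' hℓS) := by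
  classical
  have hp : p.Prime := Fact.out
  have hp0 : (p : 𝒪) ≠ 0 := Nat.cast_ne_zero.mpr hp.ne_zero
  have hWdiv := pdiv_of_isDiv_h81 hϖ hp0 hW
  obtain ⟨e, he⟩ := exists_pow_smul_stable p htors hfin
  have hc0 : c ≠ 0 := by
    rw [hc]
    exact prod_primes_ne_zero hpr
  have hM0 : M ≠ 0 := by
    rw [hM]
    exact mul_ne_zero hN hc0
  -- the field
  have hL : Function.Injective (algebraMap 𝒪 (AlgebraicClosure (FractionRing 𝒪))) := by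
    rw [IsScalarTower.algebraMap_eq 𝒪 (FractionRing 𝒪) (AlgebraicClosure (FractionRing 𝒪))]
    exact (algebraMap (FractionRing 𝒪) (AlgebraicClosure (FractionRing 𝒪))).injective.comp
      (IsFractionRing.injective 𝒪 (FractionRing 𝒪))
  let ι : ℤ_[p] →+* AlgebraicClosure (FractionRing 𝒪) :=
    (algebraMap 𝒪 (AlgebraicClosure (FractionRing 𝒪))).comp
      (Fermat.Agent.R.H89.h89PadicHom p 𝒪 hp𝒪)
  have hι : Function.Injective ι := hL.comp (padic_hom_injective _)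
  -- the divisible part
  have hdivD : ∀ w : ↥(divSub p e A), ∃ v : ↥(divSub p e A), (p : ℤ) • v = w := fun w => by
    obtain ⟨v, hv⟩ := divSub_div he w
    exact ⟨v, by rw [natCast_zsmul, hv]⟩
  have htorsD : ∀ w : ↥(divSub p e A), ∃ k : ℕ, (p : ℤ) ^ k • w = 0 := fun w => by
    obtain ⟨k, hk⟩ := divSub_tors htors w
    exact ⟨k, by rw [← Nat.cast_pow, natCast_zsmul, hk]⟩
  have hTAD : ∀ (ℓ : ℕ) (hℓ : ℓ.Prime) (hℓM : ¬ ℓ ∣ M) (k : ℕ) (x : ↥(divSub p e A)),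
      p ^ k • x = 0 → (monoRestrict ms (divSub p e A)).m k (resEnd p e (TA ℓ) x)
        = TDg M c hcM hℓ hℓM ((monoRestrict ms (divSub p e A)).m k x) :=
    fun ℓ hℓ hℓM k x hx => hTA ℓ hℓ hℓM k x (congrArg Subtype.val hx)
  have hdiaD : ∀ (g : SL(2, ℤ)) (hg : ((M : ℕ) : ℤ) ∣ g 1 0) (d : (ZMod c)ˣ),
      (d : ZMod c) = ((g 0 0 : ℤ) : ZMod c) → ∀ (k : ℕ) (x : ↥(divSub p e A)), p ^ k • x = 0 →
      (monoRestrict ms (divSub p e A)).m k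
          (((resEnd p e : Module.End ℤ A →+* _).toMonoidHom.comp diaA) d x)
        = Dg hcM g hg ((monoRestrict ms (divSub p e A)).m k x) :=
    fun g hg d hd k x hx => hdiaA g hg d hd k x (congrArg Subtype.val hx)
  haveI := finiteDimensional_Vsp ι (monoRestrict ms (divSub p e A)) hM0 hc0
  refine new_V p N hN qs hnd hpr hqN c N' M hc hM hcM hN' S hS ϖ hϖ hp𝒪 hL
    (V := ↥(Vsp ι (monoRestrict ms (divSub p e A))))
    (Vsp ι (monoRestrict ms (divSub p e A))).subtype (Submodule.injective_subtype _)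
    (Vsp_par ι (monoRestrict ms (divSub p e A)))
    (TVop ι (monoRestrict ms (divSub p e A)) hcM (fun ℓ => resEnd p e (TA ℓ)) hTAD)
    (fun ℓ hℓ hℓM v => coe_TVop ι (monoRestrict ms (divSub p e A)) hcM _ hTAD hℓ hℓM v)
    (diaV ι (monoRestrict ms (divSub p e A)) hcM hM0
      ((resEnd p e : Module.End ℤ A →+* _).toMonoidHom.comp diaA) hdiaD)
    (fun g hg d hd v => coe_diaV ι (monoRestrict ms (divSub p e A)) hcM hM0 _ hdiaD g hg d hd v)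
    ?_ j ?_
    (gen ι (monoRestrict ms (divSub p e A)))
    (gen_injective ι (monoRestrict ms (divSub p e A)) hι)
    (((H2.mapEnd (p : ℤ) ↥(divSub p e A)).toRingHom).comp ((resEnd p e).comp etaT))
    hW (thetaEta etaT θ)
    (fun s hs => thetaEta_eq_zero_of_mapEnd etaT θ p e hWdiv hdivD htorsD s hs)
    z ?_ etaW hetaW qP hqP hqPp δ hδ zc ?_ cW ?_ eP hcWpow hN2
  · -- commutation on the span
    intro ℓ d
    by_cases h : ℓ.Prime ∧ ¬ ℓ ∣ M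
    · apply Vsp_ext ι (monoRestrict ms (divSub p e A))
      intro ξ
      have e1 : resEnd p e (TA ℓ) * ((resEnd p e : Module.End ℤ A →+* _).toMonoidHom.comp diaA) d
          = ((resEnd p e : Module.End ℤ A →+* _).toMonoidHom.comp diaA) d * resEnd p e (TA ℓ) := by
        show resEnd p e (TA ℓ) * resEnd p e (diaA d) = resEnd p e (diaA d) * resEnd p e (TA ℓ)
        rw [← map_mul, ← map_mul, (hcomm ℓ h.1 h.2 d).eq]
      rw [Module.End.mul_apply, Module.End.mul_apply, diaV_gen,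
        TVop_gen ι _ hcM _ hTAD h.1 h.2, TVop_gen ι _ hcM _ hTAD h.1 h.2, diaV_gen,
        ← Module.End.mul_apply, ← Module.End.mul_apply, ← map_mul, ← map_mul, e1]
    · rw [TVop, dif_neg h]
      exact Commute.zero_left _
  · -- the order of the diamond operators
    intro d
    apply Vsp_ext ι (monoRestrict ms (divSub p e A))
    intro ξ
    rw [diaV_pow_gen]
    have e1 : ((resEnd p e : Module.End ℤ A →+* _).toMonoidHom.comp diaA) d ^ (2 * j + 1)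
        = 1 := by
      show resEnd p e (diaA d) ^ (2 * j + 1) = 1
      rw [← map_pow, hdn d, map_one]
    rw [e1, map_one, Module.End.one_apply, Module.End.one_apply]
  · -- the Hecke operators on the lattice
    intro ℓ hℓ hℓN hℓS ξ
    have hℓM : ¬ ℓ ∣ M := fun h => hℓN (by
      rw [hN', ← hM]
      exact Dvd.dvd.mul_right h c)
    unfold tOp
    rw [Module.End.mul_apply, diaV_pow_gen, TVop_gen ι _ hcM _ hTAD hℓ hℓM]
    congr 1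
    show _ = H2.mapEnd (p : ℤ) ↥(divSub p e A) (resEnd p e (etaT (z ℓ))) ξ
    rw [hz ℓ hℓ hℓN hℓS, map_mul, map_mul, Module.End.mul_apply, map_pow (resEnd p e)]
    rfl
  · -- the pivot diamond operators on the lattice
    intro i ξ
    rw [diaV_gen]
    congr 1
    show _ = H2.mapEnd (p : ℤ) ↥(divSub p e A) (resEnd p e (etaT (zc i))) ξ
    rw [hzc i]
    rfl
  · -- the pivot diamond operators on `W`
    intro i
    refine LinearMap.ext fun x => Subtype.ext ?_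
    rw [hcW i x, H2.thetaEta_apply, hzc i]

end Fermat.Agent.L.Pivot.Geom.H81
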