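import Fermat.Agent.L.Pivot.Geom.H19_AsmTop
import Fermat.Agent.L.Pivot.Geom.H11_PEta
import Fermat.Agent.L.Pivot.Geom.H9_PGal
import Fermat.Agent.L.Pivot.Geom.H81_NewAsm

/-!
# PIVOT, package PV-GEOM, Part II, leaf P-NEW-INST (helper19)

The field `new` of `PVBase` on a setup `D : PvSetup`: instantiation of helper81's abstract
`H81.new_W` (PVG-NEW-ASM) at `A = J_H'[p^∞]`, `𝕋⁺ = ℤ[x_ℓ, u_i, ⟨d⟩]`, `η⁺ = etaPv`,
`θ⁺ = thetaPv`, `W = W'`, `c_j = ⟨δP j⟩`.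

* `p_new_of`            : `Stmt_P_new D` from `c_j ^ (p ^ eP j) = 1` and `Stmt_NewJ0`;
* `stmt_P_NEW_of_newJ0` : `(∀ M q p, H50.Stmt_NewJ0 M q p) → Stmt_P_NEW`.

The arithmetic of the levels and the EIG-ASM data are those of helper11's `H11_PEta.lean`.
Complete proofs, standard axioms only.
-/

set_option autoImplicit false
set_option linter.unusedSectionVars false
set_option linter.style.haveILetI false
set_option linter.unusedVariables false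

noncomputable section

open ModularCurve AlgebraicCurve IsLocalRing TensorProduct Polynomial

namespace Fermat.Agent.L.Pivot.Geom.H19

open Fermat.Agent.NEB Fermat.Agent.NEB.JH Fermat.Agent.NEB.Geom Fermat.Agent.S59.Lim
  Fermat.Agent.S59.Lim.H2 Fermat.Agent.S59.Asm Fermat.Agent.L.Pivot.Geom

section Inst

variable {𝒪 : Type} [CommRing 𝒪] [IsDomain 𝒪] [IsDiscreteValuationRing 𝒪]
  [IsAdicComplete (maximalIdeal 𝒪) 𝒪] [CharZero 𝒪]
  {ϖ : 𝒪} {p : ℕ} [Fact p.Prime] {N1 : ℕ} [NeZero N1] {S : Finset ℕ}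
  {θ : CuspForm.heckeAlgebra N1 2 (↑S : Set ℕ) →+* ResidueField 𝒪}
  {ρbar : ResidualGaloisRep (ResidueField 𝒪)} {k : ℕ} {eP : Fin k → ℕ} {n : ℕ}
  {qP : Fin k → ℕ} {r : ℕ} {qv : Fin r → ℕ}
  [NeZero (N1 * twC qv)] [NeZero (pvC qP qv)] [NeZero (twLevel N1 qv)]
  [NeZero (pvLevel N1 qP qv)]

/-- The pivot primes are primes of `c'`. -/
theorem qP_mem_pvList (j : Fin k) : qP j ∈ H11.pvList qP qv :=
  (H11.mem_pvList qP qv).mpr (Or.inl ⟨j, rfl⟩)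

/-- `δP j` is `≡ 1` modulo the primes of `c'` other than `qP j`. -/
theorem deltaP_unitsMap {δP : Fin k → (ZMod (pvC qP qv))ˣ} {δQ : Fin r → (ZMod (pvC qP qv))ˣ}
    (hδ : IsDeltaGenPv p eP n qP qv δP δQ) (j : Fin k) :
    ∀ q' ∈ H11.pvList qP qv, q' ≠ qP j → ∀ hd : q' ∣ pvC qP qv,
      ZMod.unitsMap hd (δP j) = 1 := by
  intro q' hq' hne hd
  rcases (H11.mem_pvList qP qv).mp hq' with ⟨j', rfl⟩ | ⟨i, rfl⟩
  · exact hδ.P_P j j' (fun e => hne (by rw [e]))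
  · exact hδ.P_Q j i

/-- **P-NEW on a setup**: helper81's `new_W` at `A = J_H'[p^∞]`. -/
theorem p_new_of (hϖ : Irreducible ϖ) (hpm : (p : 𝒪) ∈ maximalIdeal 𝒪)
    (D : PvSetup 𝒪 ϖ p N1 S θ ρbar eP n qP qv)
    (hcpow : ∀ j, D.c j ^ (p ^ eP j) = 1)
    (hN2 : ∀ (i : Fin k) [NeZero (pvLevel N1 qP qv / qP i)] [NeZero (qP i)],
      H50.Stmt_NewJ0 (pvLevel N1 qP qv / qP i) (qP i) p) :
    Stmt_P_new D := by
  have hPV := D.hPV
  exact H81.new_W p (N1 / twC qP) (H11.base_ne_zero hPV)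
    (H11.pvList qP qv) (H11.pvList_nodup hPV) (H11.pvList_prime hPV) (H11.not_dvd_base hPV)
    (pvC qP qv) (pvLevel N1 qP qv) (N1 * twC qv) (H11.pvList_prod qP qv).symm
    (H11.pvM_eq qP qv N1 (H11.twC_P_dvd hPV) (H11.twC_P_ne_zero hPV))
    D.hc
    (H11.pvLevel_eq qP qv N1 (H11.twC_P_dvd hPV) (H11.twC_P_ne_zero hPV))
    (twSet S qv) (H11.prime_mem_twSet hPV)
    (AH (N1 * twC qv) (pvC qP qv) (pvH qP qv p eP n) p) (fun x => isPTors_coe x)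
    (Fermat.Agent.NEB.Geom.H84.finite_AH_p (pvH qP qv p eP n) D.h2 D.hc p)
    (Fermat.Agent.NEB.EIG.H98.monoSys (N1 * twC qv) (pvC qP qv) (pvH qP qv p eP n) D.h2 D.hc p
      Fermat.Agent.NEB.H70.iotaC)
    (Tz (N1 * twC qv) (pvC qP qv) (pvH qP qv p eP n) D.h2 D.hc p)
    (fun ℓ hℓ hℓM k x hx =>
      Fermat.Agent.NEB.EIG.H98.monoSys_Tz (N1 * twC qv) (pvC qP qv) (pvH qP qv p eP n)
        D.h2 D.hc p Fermat.Agent.NEB.H70.iotaC ℓ hℓ hℓM k x hx)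
    (diaZ (N1 * twC qv) (pvC qP qv) (pvH qP qv p eP n) D.h2 D.hc p)
    (fun g hg d hd k x hx =>
      Fermat.Agent.NEB.EIG.H98.monoSys_diaZ (N1 * twC qv) (pvC qP qv) (pvH qP qv p eP n)
        D.h2 D.hc p Fermat.Agent.NEB.H70.iotaC g hg d hd k x hx)
    (fun ℓ _ _ d =>
      Fermat.Agent.NEB.EIG.H98.commute_Tz_diaZ (N1 * twC qv) (pvC qP qv) (pvH qP qv p eP n)
        D.h2 D.hc p ℓ d)
    (jPv p eP n)
    (fun d => Fermat.Agent.NEB.EIG.H98.diaZ_pow_eq_one (N1 * twC qv) (pvC qP qv)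
      (pvH qP qv p eP n) D.h2 D.hc p (H11.pow_jPv_mem hPV) d)
    ϖ hϖ hpm
    (etaPv N1 S p eP n qP qv D.h2 D.hc D.hcomm) (thetaPv N1 S qP qv θ D.α)
    D.isDiv
    (fun ℓ => MvPolynomial.X (Sum.inl ℓ))
    (H11.etaPv_X_good p N1 S qP eP n qv D.h2 D.hc D.hcomm)
    D.η D.η_T
    qP (fun j => qP_mem_pvList j) hPV.neP
    D.δP (fun j => deltaP_unitsMap D.hδ j)
    (fun i => MvPolynomial.X (Sum.inr (Sum.inr (D.δP i))))
    (fun i => polyHom_X _ _ _)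
    D.c (fun i x => rfl)
    eP hcpow hN2

end Inst

/-- **P-NEW** from `Stmt_NewJ0` (helper50: `H50.newJ0_of_torsNU`, i.e. from the core of S36). -/
theorem stmt_P_NEW_of_newJ0
    (hN2 : ∀ (M q p : ℕ) [NeZero M] [NeZero q], H50.Stmt_NewJ0 M q p) : Stmt_P_NEW := by
  intro 𝒪 _ _ _ _ _ _ ϖ p _ N1 _ S Smin θ ρbar k Pv eP hstd Dm n r qv _ _ _ _ D
  have hgal := H9.stmt_P_GAL 𝒪 ϖ p N1 S Smin θ ρbar k Pv eP hstd Dm n r qv D
  exact p_new_of hstd.hϖ hstd.hyp.hp𝒪 D hgal.2.2.1 (fun i _ _ => hN2 _ _ _)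

end Fermat.Agent.L.Pivot.Geom.H19

end
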