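import Fermat.Agent.L.Pivot.Geom.AsmPV
import Fermat.Agent.L.Pivot.Geom.H19_Choice
import Fermat.Agent.L.Pivot.Geom.H19_PComm
import Fermat.Agent.NEB.Geom.H84_Setup

/-!
# PIVOT, package PV-GEOM, Part I, leaf P-SETUP (helper19)

Mirror of helper84's `NEB/Geom/H84_Setup.lean`:

* `pvHyp_of`        : `PvHyp` from the standing hypotheses `PvStd`, a Taylor–Wiles family and
  `0 < k`;
* `Stmt_P_ETA`      : divisibility of `W'` and the Hecke action of level `pvLevel` on `W'` (leaf);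
* `Stmt_P_SETUP`    : the setup `PvSetup` exists for every Taylor–Wiles family (`0 < k`);
* `stmt_P_SETUP_of : Stmt_W_NONEIS → Stmt_P_ETA → Stmt_P_SETUP`
  (P-COMM = `H19.stmt_Z_COMMpv` and P-CHOICE = `H19.exists_sigma_pv`, `H19.exists_eig_pv` are
  proved).

Complete proofs, standard axioms only.
-/

set_option autoImplicit false
set_option linter.unusedSectionVars false
set_option linter.style.haveILetI false
set_option linter.unusedVariables false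

noncomputable section

open ModularCurve AlgebraicCurve IsLocalRing TensorProduct Polynomial

namespace Fermat.Agent.L.Pivot.Geom

open Fermat.Agent.NEB Fermat.Agent.NEB.JH Fermat.Agent.NEB.Geom Fermat.Agent.S59.Lim
  Fermat.Agent.S59.Lim.H2 Fermat.Agent.S59.Asm

/-- `PvHyp` from the standing hypotheses, a Taylor–Wiles family and `0 < k`. -/
theorem pvHyp_of {𝒪 : Type} [CommRing 𝒪] [IsLocalRing 𝒪] {ϖ : 𝒪} {p : ℕ} [Fact p.Prime]
    {N1 : ℕ} [NeZero N1] {S Smin : Finset ℕ}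
    {θ : CuspForm.heckeAlgebra N1 2 (↑S : Set ℕ) →+* ResidueField 𝒪}
    {ρbar : ResidualGaloisRep (ResidueField 𝒪)} {k : ℕ} {Pv : PivotPrimes k} {eP : Fin k → ℕ}
    (hstd : PvStd 𝒪 ϖ p N1 S Smin θ ρbar Pv eP) (hk : 0 < k)
    {n r : ℕ} {qv : Fin r → ℕ} (hfam : Fermat.Agent.S56.IsTWFamily ρbar p n S qv) :
    PvHyp N1 S p eP n Pv.q qv where
  hp := Fact.out
  hp2 := hstd.hyp.hp2
  hU := hstd.hU
  hN := NeZero.ne N1
  hsq := hstd.hsq
  hk := hk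
  injP := Pv.q_inj
  primeP := Pv.q_prime
  dvdP := hstd.hdvd
  neP := fun j => (hstd.hex j).2.1
  congP := hstd.heP
  posP := fun j => by
    rcases Nat.eq_zero_or_pos (eP j) with h0 | h0
    · exfalso
      have h1 := (hstd.heP j).2
      rw [h0, zero_add, pow_one] at h1
      exact h1 (hstd.hex j).1
    · exact h0
  memP := fun j => hstd.hNS _ (Pv.q_prime j) (hstd.hdvd j)
  inj := hfam.1
  prime := fun i => (hfam.2.1 i).1
  cong := fun i => (hfam.2.1 i).2.2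
  notS := fun i => (hfam.2.1 i).2.1
  hNS := hstd.hNS
  hpS := hstd.hyp.hSmin hstd.hyp.hpSmin

/-- **P-ETA**: `W'` is `IsDiv`, and the Hecke ring of level `pvLevel` acts on it through the
twisted operators `T'_ℓ`, locally at `θ ∘ restTW ∘ restPV`.  (Clone of `Stmt_A_ETA`:
W-DIV + the mixed tower for the divisibility, EIG at `(M₀, pivots ++ Taylor–Wiles primes)` for
the Hecke action.) -/
def Stmt_P_ETA : Prop :=
  ∀ (𝒪 : Type) [CommRing 𝒪] [IsDomain 𝒪] [IsDiscreteValuationRing 𝒪]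
    [IsAdicComplete (maximalIdeal 𝒪) 𝒪] [Finite (ResidueField 𝒪)] [CharZero 𝒪]
    (ϖ : 𝒪) (p : ℕ) [Fact p.Prime] (N1 : ℕ) [NeZero N1] (S Smin : Finset ℕ)
    (θ : CuspForm.heckeAlgebra N1 2 (↑S : Set ℕ) →+* ResidueField 𝒪)
    (ρbar : ResidualGaloisRep (ResidueField 𝒪)) (k : ℕ) (Pv : PivotPrimes k)
    (eP : Fin k → ℕ), PvStd 𝒪 ϖ p N1 S Smin θ ρbar Pv eP →
    ∀ (n r : ℕ) (qv : Fin r → ℕ)
      [NeZero (N1 * twC qv)] [NeZero (pvC Pv.q qv)] [NeZero (twLevel N1 qv)]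
      [NeZero (pvLevel N1 Pv.q qv)]
      (hPV : PvHyp N1 S p eP n Pv.q qv) (h2 : 2 ≤ pvC Pv.q qv)
      (hc : pvC Pv.q qv ∣ N1 * twC qv)
      (hcomm : ∀ i j, Commute (opsPv N1 S p eP n Pv.q qv h2 hc i)
        (opsPv N1 S p eP n Pv.q qv h2 hc j))
      (α : Fin r → ResidueField 𝒪) (ℓ₀ : ℕ) (hℓ₀ : GoodTw N1 S qv ℓ₀),
      θ (CuspForm.heckeAlgebra.T hℓ₀.1 hℓ₀.not_dvd hℓ₀.not_mem) ≠ ((ℓ₀ : ResidueField 𝒪) + 1) →
    IsDiv ϖ ↥(Wpv N1 S p eP n Pv.q qv h2 hc 𝒪 hcomm θ α) ∧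
    ∃ η : CuspForm.heckeAlgebra (pvLevel N1 Pv.q qv) 2 (↑(twSet S qv) : Set ℕ) →+*
        Module.End 𝒪 ↥(Wpv N1 S p eP n Pv.q qv h2 hc 𝒪 hcomm θ α),
      (∀ (ℓ : ℕ) (hℓ : ℓ.Prime) (hℓN : ¬ ℓ ∣ pvLevel N1 Pv.q qv)
        (hℓS : ℓ ∉ (↑(twSet S qv) : Set ℕ)),
        η (CuspForm.heckeAlgebra.T hℓ hℓN hℓS) =
          thetaEta (etaPv N1 S p eP n Pv.q qv h2 hc hcomm) (thetaPv N1 S Pv.q qv θ α)
            (MvPolynomial.X (Sum.inl ℓ))) ∧
      (∀ (t : CuspForm.heckeAlgebra (pvLevel N1 Pv.q qv) 2 (↑(twSet S qv) : Set ℕ)) (a₀ : 𝒪),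
        residue 𝒪 a₀ = thetaLvl 𝒪 N1 S θ Pv.q qv hPV.prime hPV.dvdP t →
        ∀ x : ↥(Wpv N1 S p eP n Pv.q qv h2 hc 𝒪 hcomm θ α), ϖ • x = 0 →
          ∃ m : ℕ, ((η t - a₀ • (1 : Module.End 𝒪
            ↥(Wpv N1 S p eP n Pv.q qv h2 hc 𝒪 hcomm θ α))) ^ m) x = 0)

/-- **P-SETUP**: the setup exists for every Taylor–Wiles family, when there is at least one
pivot prime. -/
def Stmt_P_SETUP : Prop :=
  ∀ (𝒪 : Type) [CommRing 𝒪] [IsDomain 𝒪] [IsDiscreteValuationRing 𝒪]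
    [IsAdicComplete (maximalIdeal 𝒪) 𝒪] [Finite (ResidueField 𝒪)] [CharZero 𝒪]
    (ϖ : 𝒪) (p : ℕ) [Fact p.Prime] (N1 : ℕ) [NeZero N1] (S Smin : Finset ℕ)
    (θ : CuspForm.heckeAlgebra N1 2 (↑S : Set ℕ) →+* ResidueField 𝒪)
    (ρbar : ResidualGaloisRep (ResidueField 𝒪)) (k : ℕ) (Pv : PivotPrimes k)
    (eP : Fin k → ℕ), PvStd 𝒪 ϖ p N1 S Smin θ ρbar Pv eP → 0 < k →
    ∀ (n r : ℕ) (qv : Fin r → ℕ), Fermat.Agent.S56.IsTWFamily ρbar p n S qv →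
    ∀ [NeZero (N1 * twC qv)] [NeZero (pvC Pv.q qv)] [NeZero (twLevel N1 qv)]
      [NeZero (pvLevel N1 Pv.q qv)],
      Nonempty (PvSetup 𝒪 ϖ p N1 S θ ρbar eP n Pv.q qv)

/-- **P-SETUP** from W-NONEIS and P-ETA (P-COMM and P-CHOICE are proved). -/
theorem stmt_P_SETUP_of (hNE : Stmt_W_NONEIS) (hETA : Stmt_P_ETA) : Stmt_P_SETUP := by
  intro 𝒪 _ _ _ _ _ _ ϖ p _ N1 _ S Smin θ ρbar k Pv eP hstd hk n r qv hfam _ _ _ _
  have hPV : PvHyp N1 S p eP n Pv.q qv := pvHyp_of hstd hk hfam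
  have h2 : 2 ≤ pvC Pv.q qv := hPV.two_le
  have hc : pvC Pv.q qv ∣ N1 * twC qv := hPV.dvd
  obtain ⟨hc1, hc2, -⟩ := H19.stmt_Z_COMMpv N1 S p eP n Pv.q qv h2 hc hPV.prime
  -- places and Frobenius elements at the Taylor–Wiles primes
  have hex : ∀ i : Fin r, ∃ (A : ValuationSubring Kbar) (σ : GalK),
      A.LiesOverPrime (qv i) ∧ A.IsFrobeniusAt σ (qv i) :=
    fun i => Fermat.Agent.Lib.FrobExists.exists_place_and_frobenius (qv i) (hPV.prime i)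
  choose P frob hP hfr using hex
  obtain ⟨σ, δP, hσ, hδ⟩ := H19.exists_sigma_pv hPV P hP
  obtain ⟨α, β, a, a', heig, ha, ha', hcp⟩ :=
    H19.exists_eig_pv ρbar θ hstd.hyp.hp𝒪 hPV hfam hstd.hfrob P hP frob hfr
  -- a non-Eisenstein prime
  have hpk : ((p : ℕ) : ResidueField 𝒪) = 0 := by
    have : residue 𝒪 (p : 𝒪) = 0 := (residue_eq_zero_iff _).mpr hstd.hyp.hp𝒪
    rwa [map_natCast] at this
  obtain ⟨ℓ₀, hℓ, hℓN, hℓS, hℓT, hne⟩ :=
    hNE (ResidueField 𝒪) p hstd.hyp.hp2 hpk ρbar hstd.hyp.habs N1 S hPV.hpS θ hstd.hfrob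
      (Finset.univ.image qv)
  have hgood : GoodTw N1 S qv ℓ₀ := by
    refine ⟨hℓ, ?_, ?_⟩
    · intro hd
      rw [twLevel] at hd
      rcases (Nat.Prime.dvd_mul hℓ).mp hd with h | h
      · exact hℓN h
      · obtain ⟨j, -, hj⟩ := (Prime.dvd_finsetProd_iff hℓ.prime _).mp h
        have h1 : ℓ₀ ∣ qv j := hℓ.dvd_of_dvd_pow hj
        have h2' : ℓ₀ = qv j := (Nat.prime_dvd_prime_iff_eq hℓ (hPV.prime j)).mp h1
        exact hℓT (Finset.mem_image.mpr ⟨j, Finset.mem_univ j, h2'.symm⟩)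
    · intro h
      simp only [twSet, Finset.coe_union, Set.mem_union] at h
      rcases h with h | h
      · exact hℓS h
      · exact hℓT (by exact_mod_cast h)
  obtain ⟨hdiv, η, hηT, hηloc⟩ :=
    hETA 𝒪 ϖ p N1 S Smin θ ρbar k Pv eP hstd n r qv hPV h2 hc hc1 α ℓ₀ hgood hne
  exact ⟨{
    hPV := hPV
    h2 := h2
    hc := hc
    hcomm := hc1
    hcommG := hc2
    α := α
    β := β
    eig := heig
    a := a
    a' := a'
    ha := ha
    ha' := ha'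
    ℓ₀ := ℓ₀
    hℓ₀ := hgood
    hne := hne
    P := P
    P_over := hP
    frob := frob
    frob_spec := hfr
    σ := σ
    σ_mem := hσ
    δP := δP
    hδ := hδ
    charpoly_frob := hcp
    isDiv := hdiv
    η := η
    η_T := hηT
    η_local := hηloc }⟩

end Fermat.Agent.L.Pivot.Geom

end
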