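import Fermat.Agent.L.Pivot.Geom.H59_LayerA1

/-!
# PIVOT, package PV-GEOM, leaf PVG-A' (helper59): freeness of `T_ϖ W` over `𝒪[Δ_Σ × Δ_Q]`

`exists_basis_tate_pv`: the Tate module of `W` has an `𝒪`-basis of the shape
`mon c x (mon d y (b i))`, `x ∈ ∏ j, Fin (p ^ e j)`, `y ∈ (Fin (p ^ n)) ^ r` (the shape of
`PVGeom.b_basis`), from
* the tower over `Δ_Q` on `W1[ϖ]` with totally fixed part `πup (WM[ϖ])` (data of `TWDiv`),
* the tower over `Δ_Σ` on `W[ϖ]` with totally fixed part `κup (W1[ϖ])`.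
-/

set_option autoImplicit false
set_option linter.style.haveILetI false
set_option linter.unusedSectionVars false

noncomputable section

open IsLocalRing

namespace Fermat.Agent.L.Pivot.Geom.H59

open Fermat.Agent.S59.TWH Fermat.Agent.S59.Lim

section Intertwine

variable {A : Type*} [CommRing A] {V V' : Type*} [AddCommGroup V] [Module A V]
  [AddCommGroup V'] [Module A V']

theorem pow_intertwine (L : V →ₗ[A] V') (f : Module.End A V) (g : Module.End A V')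
    (h : ∀ v, L (f v) = g (L v)) (m : ℕ) (v : V) : L ((f ^ m) v) = (g ^ m) (L v) := by
  induction m generalizing v with
  | zero => simp
  | succ m ih =>
    rw [pow_succ, pow_succ, Module.End.mul_apply, Module.End.mul_apply, ih, h]

theorem mon_intertwine (L : V →ₗ[A] V') :
    ∀ {r : ℕ} (f : Fin r → Module.End A V) (g : Fin r → Module.End A V'),
      (∀ j v, L (f j v) = g j (L v)) → ∀ (x : Fin r → ℕ) (v : V),
      L (H90.mon f x v) = H90.mon g x (L v) := by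
  intro r
  induction r with
  | zero =>
    intro f g _ x v
    rw [H90.mon_zero, H90.mon_zero]
    rfl
  | succ r ih =>
    intro f g h x v
    rw [H90.mon_succ, H90.mon_succ, Module.End.mul_apply, Module.End.mul_apply,
      pow_intertwine L (f 0) (g 0) (h 0),
      ih (fun j => f j.succ) (fun j => g j.succ) (fun j => h j.succ)]

end Intertwine

section Main

variable {𝒪 : Type} [CommRing 𝒪] [IsDomain 𝒪] [IsDiscreteValuationRing 𝒪]
  [IsAdicComplete (maximalIdeal 𝒪) 𝒪] {ϖ : 𝒪}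
  {W W1 WM : Type} [AddCommGroup W] [Module 𝒪 W] [AddCommGroup W1] [Module 𝒪 W1]
  [AddCommGroup WM] [Module 𝒪 WM]

/-- **Freeness of the Tate module over `𝒪[Δ_Σ × Δ_Q]`.** -/
theorem exists_basis_tate_pv (hϖ : Irreducible ϖ) {p : ℕ} [Fact p.Prime]
    (hp : (p : 𝒪) ∈ maximalIdeal 𝒪) (n r k : ℕ) (eP : Fin k → ℕ)
    (hW : IsDiv ϖ W) (hW1 : IsDiv ϖ W1) (hWM : IsDiv ϖ WM)
    (d1 : Fin r → Module.End 𝒪 W1) (d1_pow : ∀ j, d1 j ^ (p ^ n) = 1)
    (d1_comm : ∀ i j, Commute (d1 i) (d1 j))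
    (hstep1 : ∀ (j : Fin r) (v : W1), ϖ • v = 0 → (∀ i, i ≤ j → d1 i v = v) →
      ∃ w : W1, ϖ • w = 0 ∧ (∀ i, i < j → d1 i w = w) ∧ H90.nm (p ^ n) (d1 j) w = v)
    (πup : WM →ₗ[𝒪] W1) (πup_inj : Function.Injective πup)
    (d1_πup : ∀ (j : Fin r) (y : WM), d1 j (πup y) = πup y)
    (inv1 : ∀ v : W1, ϖ • v = 0 → (∀ j, d1 j v = v) → ∃ y : WM, πup y = v)
    (c : Fin k → Module.End 𝒪 W) (c_pow : ∀ j, c j ^ (p ^ eP j) = 1)
    (c_comm : ∀ i j, Commute (c i) (c j))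
    (d : Fin r → Module.End 𝒪 W) (c_d : ∀ j i, Commute (c j) (d i))
    (hstep_c : ∀ (j : Fin k) (v : W), ϖ • v = 0 → (∀ i, i ≤ j → c i v = v) →
      ∃ w : W, ϖ • w = 0 ∧ (∀ i, i < j → c i w = w) ∧ H90.nm (p ^ eP j) (c j) w = v)
    (κ : W →ₗ[𝒪] W1) (κup : W1 →ₗ[𝒪] W) (κup_inj : Function.Injective κup)
    (κup_κ : ∀ x : W, κup (κ x) = nmTotE (fun j => p ^ eP j) c x)
    (c_κup : ∀ (j : Fin k) (y : W1), c j (κup y) = κup y)
    (inv_c : ∀ v : W, ϖ • v = 0 → (∀ j, c j v = v) → ∃ y : W1, κup y = v)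
    (κ_d : ∀ (i : Fin r) (v : W), κ (d i v) = d1 i (κ v)) :
    ∃ (rk : ℕ) (b : Fin rk → H2.tate ϖ W),
      Function.Bijective
        (fun f : Fin rk × (∀ j : Fin k, Fin (p ^ eP j)) × (Fin r → Fin (p ^ n)) → 𝒪 =>
          ∑ x : Fin rk × (∀ j : Fin k, Fin (p ^ eP j)) × (Fin r → Fin (p ^ n)),
            f x • H90.mon (fun j => H2.mapEnd ϖ W (c j)) (fun j => (x.2.1 j : ℕ))
              (H90.mon (fun i => H2.mapEnd ϖ W (d i)) (fun i => (x.2.2 i : ℕ)) (b x.1))) := by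
  classical
  haveI hmax : (Ideal.span {ϖ}).IsMaximal := PrincipalIdealRing.isMaximal_of_irreducible hϖ
  letI : Field (𝒪 ⧸ Ideal.span {ϖ}) := Ideal.Quotient.field _
  haveI := hW.fin
  haveI := hW1.fin
  -- stage 1: the tower over `Δ_Q` on `W1[ϖ]`
  obtain ⟨rk, b₁, hli1, hsp1⟩ := exists_basis_torsion hϖ hp n r hW1 hWM d1 d1_pow d1_comm
    hstep1 πup πup_inj d1_πup inv1
  -- the operators on `W[ϖ]`
  set cV : Fin k → Module.End (𝒪 ⧸ Ideal.span {ϖ}) (Submodule.torsionBy 𝒪 W ϖ) :=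
    fun j => resT ϖ (c j) with hcV
  set dV : Fin r → Module.End (𝒪 ⧸ Ideal.span {ϖ}) (Submodule.torsionBy 𝒪 W ϖ) :=
    fun i => resT ϖ (d i) with hdV
  set d1V : Fin r → Module.End (𝒪 ⧸ Ideal.span {ϖ}) (Submodule.torsionBy 𝒪 W1 ϖ) :=
    fun i => resT ϖ (d1 i) with hd1V
  have hcomm : ∀ i j, Commute (cV i) (cV j) := fun i j => (c_comm i j).map (resT ϖ)
  have hcd : ∀ j i, Commute (cV j) (dV i) := fun j i => (c_d j i).map (resT ϖ)
  have hc : ∀ j, cV j ^ (p ^ eP j) = 1 := fun j => by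
    rw [hcV]
    show resT ϖ (c j) ^ (p ^ eP j) = 1
    rw [← map_pow, c_pow, map_one]
  have hV : ∀ v : Submodule.torsionBy 𝒪 W ϖ, ∃ m : ℕ, (p ^ m) • v = 0 :=
    fun v => torsion_pgroup hϖ hp v
  have hstep' : ∀ (j : Fin k) (v : Submodule.torsionBy 𝒪 W ϖ), (∀ i, i ≤ j → cV i v = v) →
      ∃ w, (∀ i, i < j → cV i w = w) ∧ H90.nm (p ^ eP j) (cV j) w = v :=
    fun j v hv => hstep_resT (fun j => p ^ eP j) c hstep_c j v hv
  -- the pull-back on the torsion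
  set κk : Submodule.torsionBy 𝒪 W1 ϖ →ₗ[𝒪 ⧸ Ideal.span {ϖ}] Submodule.torsionBy 𝒪 W ϖ :=
    resL ϖ κup with hκk
  have hκk_inj : Function.Injective κk := resL_injective ϖ κup_inj
  -- the pull-back commutes with the diamond operators at the Taylor–Wiles primes
  have hκd : ∀ (i : Fin r) (y : Submodule.torsionBy 𝒪 W1 ϖ), κk (d1V i y) = dV i (κk y) := by
    intro i y
    obtain ⟨w, -, hw⟩ := κ_torsion_onto (fun j => p ^ eP j) c c_comm hstep_c κ κup κup_inj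
      κup_κ c_κup (y : W1) ((Submodule.mem_torsionBy_iff _ _).mp y.2)
    apply Subtype.ext
    show κup (d1 i (y : W1)) = d i (κup (y : W1))
    rw [← hw, ← κ_d, κup_κ, κup_κ]
    have h1 := (commute_nmTotE (fun j => p ^ eP j) c (d := d i) (fun j => (c_d j i).symm)).eq
    exact (congrArg (fun f : Module.End 𝒪 W => f w) h1).symm
  -- the basis of the fixed part
  set e' : Fin rk × (Fin r → Fin (p ^ n)) → Submodule.torsionBy 𝒪 W ϖ :=
    fun x => κk (H90.fam (p ^ n) d1V b₁ x) with he'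
  have he_li : LinearIndependent (𝒪 ⧸ Ideal.span {ϖ}) e' :=
    hli1.map' κk (LinearMap.ker_eq_bot.mpr hκk_inj)
  have he_span : ∀ v, (∀ j, cV j v = v) →
      v ∈ Submodule.span (𝒪 ⧸ Ideal.span {ϖ}) (Set.range e') := by
    intro v hv
    obtain ⟨y, hy⟩ := inv_c (v : W) ((Submodule.mem_torsionBy_iff _ _).mp v.2)
      (fun j => congrArg Subtype.val (hv j))
    have hy0 : ϖ • y = 0 := by
      apply κup_inj
      rw [map_smul, hy, map_zero]
      exact (Submodule.mem_torsionBy_iff _ _).mp v.2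
    have hv' : v = κk ⟨y, (Submodule.mem_torsionBy_iff _ _).mpr hy0⟩ := Subtype.ext hy.symm
    rw [hv']
    have h1 : (⟨y, (Submodule.mem_torsionBy_iff _ _).mpr hy0⟩ : Submodule.torsionBy 𝒪 W1 ϖ)
        ∈ Submodule.span (𝒪 ⧸ Ideal.span {ϖ}) (Set.range (H90.fam (p ^ n) d1V b₁)) := by
      rw [hsp1]
      exact Submodule.mem_top
    have h2 := Submodule.apply_mem_span_image_of_mem_span κk h1
    have h3 : (κk '' Set.range (H90.fam (p ^ n) d1V b₁)) = Set.range e' := by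
      rw [← Set.range_comp]
      rfl
    rw [h3] at h2
    exact h2
  -- lifts of the `κk (b₁ i)` along the total norm of `Δ_Σ`
  have hex : ∀ i, ∃ w, nmTotE (fun j => p ^ eP j) cV w = κk (b₁ i) := fun i =>
    exists_nmTotE_eq k (fun j => p ^ eP j) (Submodule.torsionBy 𝒪 W ϖ) cV hcomm hstep'
      (κk (b₁ i)) (fun j => Subtype.ext (c_κup j _))
  choose b₀ hb₀ using hex
  set b' : Fin rk × (Fin r → Fin (p ^ n)) → Submodule.torsionBy 𝒪 W ϖ :=
    fun x => H90.mon dV (fun i => (x.2 i : ℕ)) (b₀ x.1) with hb'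
  have hnb' : ∀ x, nmTotE (fun j => p ^ eP j) cV (b' x) = e' x := by
    intro x
    have h1 : Commute (H90.mon dV (fun i => (x.2 i : ℕ))) (nmTotE (fun j => p ^ eP j) cV) :=
      commute_nmTotE (fun j => p ^ eP j) cV
        (fun j => (H90.commute_mon dV (fun i => (x.2 i : ℕ)) (fun i => hcd j i)).symm)
    rw [hb', he']
    show nmTotE (fun j => p ^ eP j) cV (H90.mon dV (fun i => (x.2 i : ℕ)) (b₀ x.1)) = _
    have h2 := congrArg (fun f : Module.End (𝒪 ⧸ Ideal.span {ϖ})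
      (Submodule.torsionBy 𝒪 W ϖ) => f (b₀ x.1)) h1.eq
    simp only [Module.End.mul_apply] at h2
    rw [← h2, hb₀]
    exact (mon_intertwine κk d1V dV hκd _ _).symm
  -- the tower over `Δ_Σ` on `W[ϖ]`
  obtain ⟨-, -, hbij⟩ := towerE_basis_of_lift k eP hV cV hcomm hc hstep' e' he_li he_span b' hnb'
  -- lift the `b₀ i` to the Tate module
  have hlift : ∀ i, ∃ x : H2.tate ϖ W, H2.ev ϖ W 1 x = (b₀ i : W) := fun i =>
    H2.exists_ev_eq hW.div 1 _ (by
      rw [pow_one]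
      exact (Submodule.mem_torsionBy_iff _ _).mp (b₀ i).2)
  choose b hb using hlift
  refine ⟨rk, b, ?_⟩
  haveI : Module.Finite 𝒪 (H2.tate ϖ W) := H2.finite_tate_dvr hϖ hW.div hW.fg_torsionBy
  haveI : Module.Free 𝒪 (H2.tate ϖ W) := H2.free_tate hϖ hW.div hW.fg_torsionBy
  let red : H2.tate ϖ W →ₗ[𝒪] Submodule.torsionBy 𝒪 W ϖ :=
    LinearMap.codRestrict (Submodule.torsionBy 𝒪 W ϖ) (H2.ev ϖ W 1) (fun x => by
      rw [Submodule.mem_torsionBy_iff]
      have := H2.pow_smul_ev 1 x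
      rwa [pow_one] at this)
  have hker : ∀ m, red m = 0 → m ∈ (maximalIdeal 𝒪 • ⊤ : Submodule 𝒪 (H2.tate ϖ W)) :=
    fun m hm => H2.mem_maximalIdeal_smul_of_ev_one hϖ m (congrArg Subtype.val hm)
  refine H14.olift (k := 𝒪 ⧸ Ideal.span {ϖ}) Ideal.Quotient.mk_surjective red hker _ ?_
  -- reindexing
  let ε : Fin rk × (∀ j : Fin k, Fin (p ^ eP j)) × (Fin r → Fin (p ^ n)) ≃
      (Fin rk × (Fin r → Fin (p ^ n))) × (∀ j : Fin k, Fin (p ^ eP j)) :=
    { toFun := fun x => ((x.1, x.2.2), x.2.1)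
      invFun := fun y => (y.1.1, y.2, y.1.2)
      left_inv := fun _ => rfl
      right_inv := fun _ => rfl }
  have hred : ∀ x : Fin rk × (∀ j : Fin k, Fin (p ^ eP j)) × (Fin r → Fin (p ^ n)),
      red (H90.mon (fun j => H2.mapEnd ϖ W (c j)) (fun j => (x.2.1 j : ℕ))
        (H90.mon (fun i => H2.mapEnd ϖ W (d i)) (fun i => (x.2.2 i : ℕ)) (b x.1)))
        = famE (fun j => p ^ eP j) cV b' (ε x) := by
    intro x
    apply Subtype.ext
    rw [famE, hcV, resT_mon]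
    show H2.ev ϖ W 1 _ = H90.mon c _ ((H90.mon dV (fun i => (x.2.2 i : ℕ)) (b₀ x.1) :
      Submodule.torsionBy 𝒪 W ϖ) : W)
    rw [hdV, resT_mon, mapEnd_mon, mapEnd_mon, H2.ev_mapEnd, H2.ev_mapEnd, hb]
    rfl
  simp only [hred]
  exact bijective_sum_equiv ε _ hbij

end Main

end Fermat.Agent.L.Pivot.Geom.H59
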