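import Fermat.Agent.L.Pivot.Geom.Defs
import Fermat.Agent.L.Pivot.Geom.H59_LayerA2
import Fermat.Agent.S59.Lim.H2_KerNm

/-!
# PIVOT, package PV-GEOM, leaf PVG-A' (helper59): Layer A', `PVDiv ⟹ PVGeom2`

* `tate_dec'`          : the decomposition at a Taylor–Wiles prime, from the hypotheses of `TWDiv`;
* `twGeomOf`           : helper94's Layer A (`Lim.twGeom_of_twDiv`) as a DEFINITION, so that the
  fields of the resulting `TWGeom` are visible (`(twGeomOf …).W = D.WD.toHMod hϖ` etc.);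
* `pvGeom2_of_pvDiv`   : `PVDiv … MD … ⟹ Nonempty (PVGeom2 … (MD.toHMod hϖ) …)`;
* `stmt_PVGeom2_of_pvDiv` : `Stmt_PVDIV → Stmt_PVGeom2`.

Pure algebra; no `sorry`.
-/

set_option autoImplicit false
set_option linter.style.haveILetI false
set_option linter.unusedSectionVars false

noncomputable section

open IsLocalRing Polynomial CuspForm

namespace Fermat.Agent.L.Pivot.Geom.H59

open Fermat.Agent.S59.TWH Fermat.Agent.S59.Lim Fermat.Agent.S59.Asm Fermat.Agent.S59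
  Fermat.Agent.S56 Fermat.Agent.L.Pivot Fermat.Agent.L.Pivot.Geom

section Dec

variable {𝒪 : Type} [CommRing 𝒪] [IsDomain 𝒪] [IsDiscreteValuationRing 𝒪]
  [IsAdicComplete (maximalIdeal 𝒪) 𝒪] {ϖ : 𝒪} {W : Type} [AddCommGroup W] [Module 𝒪 W]

omit [IsAdicComplete (maximalIdeal 𝒪) 𝒪] in
/-- The decomposition of the Tate module at a Taylor–Wiles prime (all clauses of `TWGeom`). -/
theorem tate_dec' (hϖ : Irreducible ϖ) (hW : IsDiv ϖ W) (F : Module.End 𝒪 W) (a a' : 𝒪)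
    (hne : residue 𝒪 a ≠ residue 𝒪 a')
    (hnil : ∀ x : W, ϖ • x = 0 → ∃ m : ℕ,
      (((F - a • (1 : Module.End 𝒪 W)) * (F - a' • (1 : Module.End 𝒪 W))) ^ m) x = 0) :
    IsCompl (H2.tateSub ϖ (F.maxGenEigenspace a)) (H2.tateSub ϖ (F.maxGenEigenspace a')) ∧
    (∀ G : Module.End 𝒪 W, Commute F G → ∀ v ∈ H2.tateSub ϖ (F.maxGenEigenspace a),
      H2.mapEnd ϖ W G v ∈ H2.tateSub ϖ (F.maxGenEigenspace a)) ∧
    (∀ G : Module.End 𝒪 W, Commute F G → ∀ v ∈ H2.tateSub ϖ (F.maxGenEigenspace a'),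
      H2.mapEnd ϖ W G v ∈ H2.tateSub ϖ (F.maxGenEigenspace a')) ∧
    (∃ N : ℕ, ∀ v ∈ H2.tateSub ϖ (F.maxGenEigenspace a),
      ((H2.mapEnd ϖ W F - a • (1 : Module.End 𝒪 (H2.tate ϖ W))) ^ N) v ∈
        (maximalIdeal 𝒪 • ⊤ : Submodule 𝒪 (H2.tate ϖ W))) ∧
    (∃ N : ℕ, ∀ v ∈ H2.tateSub ϖ (F.maxGenEigenspace a'),
      ((H2.mapEnd ϖ W F - a' • (1 : Module.End 𝒪 (H2.tate ϖ W))) ^ N) v ∈
        (maximalIdeal 𝒪 • ⊤ : Submodule 𝒪 (H2.tate ϖ W))) := by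
  obtain ⟨N, hN⟩ := IsDiv.exists_pow_kill_torsion (W := W) hW _ hnil
  have h := H2.tate_dec (W := W) (mem_maximalIdeal_of_irreducible hϖ) hW.tors F a a'
    (H2.isUnit_sub_of_residue_ne hne) N hN
  exact ⟨h.1, h.2.1, h.2.2.1, ⟨N, h.2.2.2.1⟩, ⟨N, h.2.2.2.2⟩⟩

end Dec

section TWG

variable {𝒪 : Type} [CommRing 𝒪] [IsDomain 𝒪] [IsDiscreteValuationRing 𝒪]
  [IsAdicComplete (maximalIdeal 𝒪) 𝒪] {ϖ : 𝒪}

/-- the basis of the Tate module of a `TWDiv` exists -/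
theorem twDiv_basis (hϖ : Irreducible ϖ) (p : ℕ) [Fact p.Prime]
    (hp : (p : 𝒪) ∈ maximalIdeal 𝒪)
    (ρbar : ResidualGaloisRep (ResidueField 𝒪)) (N : ℕ) [NeZero N] (S : Finset ℕ)
    (θ : CuspForm.heckeAlgebra N 2 (↑S : Set ℕ) →+* ResidueField 𝒪)
    (MD : HDiv 𝒪 ϖ N (↑S : Set ℕ) θ) {r : ℕ} (n : ℕ) (qv : Fin r → ℕ)
    [NeZero (twLevel N qv)] (D : TWDiv 𝒪 ϖ p ρbar N S θ MD n qv) :
    ∃ (rk : ℕ) (b : Fin rk → H2.tate ϖ D.WD.W),
      Function.Bijective (fun f : Fin rk × (Fin r → Fin (p ^ n)) → 𝒪 =>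
        ∑ x : Fin rk × (Fin r → Fin (p ^ n)),
          f x • H90.mon (fun j => H2.mapEnd ϖ D.WD.W (D.d j)) (fun j => (x.2 j : ℕ)) (b x.1)) :=
  exists_basis_tate (W := D.WD.W) (WM := MD.W) hϖ hp n r D.WD.isDiv MD.isDiv
    D.d D.d_pow D.d_comm D.hstep D.πup D.πup_injective D.d_πup D.inv

/-- **Layer A of helper94 as a definition**: the Tate module of the divisible data is a `TWGeom`,
with visible fields. -/
def twGeomOf (hϖ : Irreducible ϖ) (p : ℕ) [Fact p.Prime] (hp : (p : 𝒪) ∈ maximalIdeal 𝒪)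
    (ρbar : ResidualGaloisRep (ResidueField 𝒪)) (N : ℕ) [NeZero N] (S : Finset ℕ)
    (θ : CuspForm.heckeAlgebra N 2 (↑S : Set ℕ) →+* ResidueField 𝒪)
    (MD : HDiv 𝒪 ϖ N (↑S : Set ℕ) θ) {r : ℕ} (n : ℕ) (qv : Fin r → ℕ)
    [NeZero (twLevel N qv)] (D : TWDiv 𝒪 ϖ p ρbar N S θ MD n qv) :
    TWGeom 𝒪 p ρbar N S θ (MD.toHMod hϖ) n qv where
  rest := D.rest
  rest_T := D.rest_T
  W := D.WD.toHMod hϖ
  gal := H2.tateGal ϖ D.gal
  gal_cont := H2.adicContinuous_tateGal (W := D.WD.W) hϖ D.gal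
    (fun k => exists_uniform_field (W := D.WD.W) D.WD.isDiv D.gal D.gal_cont k)
  gal_η := fun g t => mapEnd_commute (W := D.WD.W) (D.gal_η g t)
  es := fun ℓ hℓ hℓN hℓS A hA σ hσ => mapEnd_es (W := D.WD.W) (D.es ℓ hℓ hℓN hℓS A hA σ hσ)
  d := fun j => H2.mapEnd ϖ D.WD.W (D.d j)
  d_pow := fun j => mapEnd_pow_eq_one (W := D.WD.W) (D.d_pow j)
  d_comm := fun i j => mapEnd_commute (W := D.WD.W) (D.d_comm i j)
  d_η := fun j t => mapEnd_commute (W := D.WD.W) (D.d_η j t)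
  d_gal := fun j g => mapEnd_commute (W := D.WD.W) (D.d_gal j g)
  rk := (twDiv_basis hϖ p hp ρbar N S θ MD n qv D).choose
  b := (twDiv_basis hϖ p hp ρbar N S θ MD n qv D).choose_spec.choose
  b_basis := (twDiv_basis hϖ p hp ρbar N S θ MD n qv D).choose_spec.choose_spec
  π := H2.map ϖ D.π
  π_surjective := map_π_surjective (W := D.WD.W) (WM := MD.W) hϖ n r D.WD.isDiv MD.isDiv D.d
    D.d_comm D.hstep D.π D.πup D.πup_injective D.πup_π D.d_πup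
  ker_π := (ker_map_π_eq_ker_nmTot (W := D.WD.W) (WM := MD.W) n r D.d D.π D.πup
      D.πup_injective D.πup_π).trans
    (H2.stmt_KERNM 𝒪 (H2.tate ϖ D.WD.W) (p ^ n) r (pow_pos (Fact.out : p.Prime).pos n)
      (fun j => H2.mapEnd ϖ D.WD.W (D.d j))
      (fun i j => mapEnd_commute (W := D.WD.W) (D.d_comm i j))
      (fun j => mapEnd_pow_eq_one (W := D.WD.W) (D.d_pow j))
      (twDiv_basis hϖ p hp ρbar N S θ MD n qv D).choose
      (twDiv_basis hϖ p hp ρbar N S θ MD n qv D).choose_spec.choose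
      (twDiv_basis hϖ p hp ρbar N S θ MD n qv D).choose_spec.choose_spec).1
  π_η := fun t v => map_equivariant (W := D.WD.W) (WM := MD.W) D.π (D.WD.η t)
    (MD.η (D.rest t)) (D.π_η t) v
  P := D.P
  P_over := D.P_over
  frob := D.frob
  frob_spec := D.frob_spec
  σ := D.σ
  σ_mem := D.σ_mem
  a := D.a
  a' := D.a'
  a_ne := D.a_ne
  charpoly_frob := D.charpoly_frob
  Vα := fun j => H2.tateSub ϖ ((D.gal (D.frob j)).maxGenEigenspace (D.a j))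
  Vβ := fun j => H2.tateSub ϖ ((D.gal (D.frob j)).maxGenEigenspace (D.a' j))
  isCompl := fun j => (tate_dec' hϖ D.WD.isDiv (D.gal (D.frob j)) (D.a j) (D.a' j) (D.a_ne j)
    (D.frob_nil j)).1
  Vα_η := fun j t v hv => (tate_dec' hϖ D.WD.isDiv (D.gal (D.frob j)) (D.a j) (D.a' j)
    (D.a_ne j) (D.frob_nil j)).2.1 (D.WD.η t) (D.gal_η (D.frob j) t) v hv
  Vα_d := fun j i v hv => (tate_dec' hϖ D.WD.isDiv (D.gal (D.frob j)) (D.a j) (D.a' j)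
    (D.a_ne j) (D.frob_nil j)).2.1 (D.d i) (D.d_gal i (D.frob j)).symm v hv
  Vα_frob := fun j v hv => (tate_dec' hϖ D.WD.isDiv (D.gal (D.frob j)) (D.a j) (D.a' j)
    (D.a_ne j) (D.frob_nil j)).2.1 (D.gal (D.frob j)) (Commute.refl _) v hv
  Vβ_frob := fun j v hv => (tate_dec' hϖ D.WD.isDiv (D.gal (D.frob j)) (D.a j) (D.a' j)
    (D.a_ne j) (D.frob_nil j)).2.2.1 (D.gal (D.frob j)) (Commute.refl _) v hv
  Vα_nil := fun j => (tate_dec' hϖ D.WD.isDiv (D.gal (D.frob j)) (D.a j) (D.a' j)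
    (D.a_ne j) (D.frob_nil j)).2.2.2.1
  Vβ_nil := fun j => (tate_dec' hϖ D.WD.isDiv (D.gal (D.frob j)) (D.a j) (D.a' j)
    (D.a_ne j) (D.frob_nil j)).2.2.2.2
  lg := fun j v hv => map_lg (W := D.WD.W) (D.gal (D.frob j)) (D.gal (D.σ j)) (D.d j) (D.a j)
    (D.lg j) v hv

end TWG

section PV

variable {𝒪 : Type} [CommRing 𝒪] [IsDomain 𝒪] [IsDiscreteValuationRing 𝒪]
  [IsAdicComplete (maximalIdeal 𝒪) 𝒪] {ϖ : 𝒪}

set_option maxHeartbeats 4000000 in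
/-- **Layer A'**: the Tate module of the divisible data of PIVOT is a `PVGeom2`. -/
theorem pvGeom2_of_pvDiv (hϖ : Irreducible ϖ) (p : ℕ) [Fact p.Prime]
    (hp : (p : 𝒪) ∈ maximalIdeal 𝒪)
    (ρbar : ResidualGaloisRep (ResidueField 𝒪)) (N1 : ℕ) [NeZero N1] (S : Finset ℕ)
    (θ : CuspForm.heckeAlgebra N1 2 (↑S : Set ℕ) →+* ResidueField 𝒪)
    (MD : HDiv 𝒪 ϖ N1 (↑S : Set ℕ) θ) {k : ℕ} (qP : Fin k → ℕ) (eP : Fin k → ℕ)
    {r : ℕ} (n : ℕ) (qv : Fin r → ℕ)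
    [NeZero (twLevel N1 qv)] [NeZero (pvLevel N1 qP qv)]
    (D : PVDiv 𝒪 ϖ p ρbar N1 S θ MD qP eP n qv) :
    Nonempty (PVGeom2 𝒪 p ρbar N1 S θ (MD.toHMod hϖ) qP eP n qv) := by
  classical
  have hϖm : ϖ ∈ maximalIdeal 𝒪 := mem_maximalIdeal_of_irreducible hϖ
  -- freeness
  obtain ⟨rk, b, hb⟩ := exists_basis_tate_pv (W := D.WD.W) (W1 := D.G1D.WD.W) (WM := MD.W)
    hϖ hp n r k eP D.WD.isDiv D.G1D.WD.isDiv MD.isDiv
    D.G1D.d D.G1D.d_pow D.G1D.d_comm D.G1D.hstep D.G1D.πup D.G1D.πup_injective D.G1D.d_πup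
    D.G1D.inv D.c D.c_pow D.c_comm D.d D.c_d D.hstep D.κ D.κup D.κup_injective D.κup_κ
    D.c_κup D.inv D.κ_d
  -- the operators on the Tate module
  have hcpow : ∀ j, H2.mapEnd ϖ D.WD.W (D.c j) ^ (p ^ eP j) = 1 := fun j =>
    mapEnd_pow_eq_one (W := D.WD.W) (D.c_pow j)
  have hccomm : ∀ i j, Commute (H2.mapEnd ϖ D.WD.W (D.c i)) (H2.mapEnd ϖ D.WD.W (D.c j)) :=
    fun i j => mapEnd_commute (W := D.WD.W) (D.c_comm i j)
  -- the kernel of `κ`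
  let ε : (Fin rk × (Fin r → Fin (p ^ n))) × (∀ j : Fin k, Fin (p ^ eP j)) ≃
      Fin rk × (∀ j : Fin k, Fin (p ^ eP j)) × (Fin r → Fin (p ^ n)) :=
    { toFun := fun y => (y.1.1, y.2, y.1.2)
      invFun := fun x => ((x.1, x.2.2), x.2.1)
      left_inv := fun _ => rfl
      right_inv := fun _ => rfl }
  have hb' := bijective_sum_equiv ε
    (fun x : Fin rk × (∀ j : Fin k, Fin (p ^ eP j)) × (Fin r → Fin (p ^ n)) =>
      H90.mon (fun j => H2.mapEnd ϖ D.WD.W (D.c j)) (fun j => (x.2.1 j : ℕ))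
        (H90.mon (fun i => H2.mapEnd ϖ D.WD.W (D.d i)) (fun i => (x.2.2 i : ℕ)) (b x.1))) hb
  have hker0 := ker_nmTotE_eq (𝒪 := 𝒪) (V := H2.tate ϖ D.WD.W) (fun j => p ^ eP j)
    (fun j => pow_pos (Fact.out : p.Prime).pos (eP j))
    (fun j => H2.mapEnd ϖ D.WD.W (D.c j)) hccomm hcpow
    (fun y : Fin rk × (Fin r → Fin (p ^ n)) =>
      H90.mon (fun i => H2.mapEnd ϖ D.WD.W (D.d i)) (fun i => (y.2 i : ℕ)) (b y.1)) hb'
  have hkerκ : LinearMap.ker (H2.map ϖ D.κ) =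
      typeSub (fun j => H2.mapEnd ϖ D.WD.W (D.c j)) (fun _ => (1 : 𝒪)) := by
    have h1 := ker_map_κ_eq_ker_nmTotE (ϖ := ϖ) (W := D.WD.W) (W1 := D.G1D.WD.W)
      (fun j => p ^ eP j) D.c D.κ D.κup D.κup_injective D.κup_κ
    have h2 : (⨆ j, LinearMap.range (H2.mapEnd ϖ D.WD.W (D.c j) - 1)) =
        typeSub (fun j => H2.mapEnd ϖ D.WD.W (D.c j)) (fun _ => (1 : 𝒪)) := by
      unfold typeSub
      simp only [one_smul]
    exact h1.trans (hker0.trans h2)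
  have hsurj := map_κ_surjective (W := D.WD.W) (W1 := D.G1D.WD.W) hϖ (fun j => p ^ eP j)
    D.WD.isDiv D.G1D.WD.isDiv D.c D.c_comm D.hstep D.κ D.κup D.κup_injective D.κup_κ D.c_κup
  have hdec := fun i => tate_dec' hϖ D.WD.isDiv (D.gal (D.G1D.frob i)) (D.G1D.a i)
    (D.G1D.a' i) (D.G1D.a_ne i) (D.frob_nil i)
  exact ⟨{
    G1 := twGeomOf hϖ p hp ρbar N1 S θ MD n qv D.G1D
    rest := D.rest
    rest_T := D.rest_T
    W := D.WD.toHMod hϖ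
    gal := H2.tateGal ϖ D.gal
    gal_cont := H2.adicContinuous_tateGal (W := D.WD.W) hϖ D.gal
      (fun k => exists_uniform_field (W := D.WD.W) D.WD.isDiv D.gal D.gal_cont k)
    gal_η := fun g t => mapEnd_commute (W := D.WD.W) (D.gal_η g t)
    es := fun ℓ hℓ hℓN hℓS A hA σ hσ =>
      mapEnd_es (W := D.WD.W) (D.es ℓ hℓ hℓN hℓS A hA σ hσ)
    c := fun j => H2.mapEnd ϖ D.WD.W (D.c j)
    c_pow := hcpow
    d := fun i => H2.mapEnd ϖ D.WD.W (D.d i)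
    d_pow := fun i => mapEnd_pow_eq_one (W := D.WD.W) (D.d_pow i)
    c_comm := hccomm
    d_comm := fun i j => mapEnd_commute (W := D.WD.W) (D.d_comm i j)
    c_d := fun j i => mapEnd_commute (W := D.WD.W) (D.c_d j i)
    c_η := fun j t => mapEnd_commute (W := D.WD.W) (D.c_η j t)
    d_η := fun i t => mapEnd_commute (W := D.WD.W) (D.d_η i t)
    c_gal := fun j g => mapEnd_commute (W := D.WD.W) (D.c_gal j g)
    d_gal := fun i g => mapEnd_commute (W := D.WD.W) (D.d_gal i g)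
    rk := rk
    b := b
    b_basis := hb
    κ := H2.map ϖ D.κ
    κ_surjective := hsurj
    ker_κ := hkerκ
    κ_η := fun t v => map_equivariant (W := D.WD.W) (WM := D.G1D.WD.W) D.κ (D.WD.η t)
      (D.G1D.WD.η (D.rest t)) (D.κ_η t) v
    κ_d := fun i v => map_equivariant (W := D.WD.W) (WM := D.G1D.WD.W) D.κ (D.d i)
      (D.G1D.d i) (D.κ_d i) v
    κ_gal := fun g v => map_equivariant (W := D.WD.W) (WM := D.G1D.WD.W) D.κ (D.gal g)
      (D.G1D.gal g) (D.κ_gal g) v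
    new := fun ψ hψ E _ _ _ χ hχ j _ χ' => D.new ψ hψ E χ hχ j χ'
    Wα := fun i => H2.tateSub ϖ ((D.gal (D.G1D.frob i)).maxGenEigenspace (D.G1D.a i))
    Wβ := fun i => H2.tateSub ϖ ((D.gal (D.G1D.frob i)).maxGenEigenspace (D.G1D.a' i))
    W_isCompl := fun i => (hdec i).1
    Wα_η := fun i t v hv => (hdec i).2.1 (D.WD.η t) (D.gal_η (D.G1D.frob i) t) v hv
    Wα_d := fun i v hv => (hdec i).2.1 (D.d i) (D.d_gal i (D.G1D.frob i)).symm v hv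
    Wα_frob := fun i v hv => (hdec i).2.1 (D.gal (D.G1D.frob i)) (Commute.refl _) v hv
    Wβ_frob := fun i v hv => (hdec i).2.2.1 (D.gal (D.G1D.frob i)) (Commute.refl _) v hv
    Wα_nil := fun i => (hdec i).2.2.2.1
    Wβ_nil := fun i => (hdec i).2.2.2.2
    W_lg := fun i v hv => map_lg (W := D.WD.W) (D.gal (D.G1D.frob i)) (D.gal (D.G1D.σ i))
      (D.d i) (D.G1D.a i) (D.lg i) v hv }⟩

/-- **PV-GEOM from the divisible data**: `Stmt_PVDIV → Stmt_PVGeom2`. -/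
theorem stmt_PVGeom2_of_pvDiv (h : Stmt_PVDIV) : Stmt_PVGeom2 := by
  intro 𝒪 _ _ _ _ _ _ p _ ρbar S Smin hyp N1 _ _ hN1S hsq hU θ hθ k Pv hk hex hdvd eP heP
  obtain ⟨ϖ, hϖ⟩ := IsDiscreteValuationRing.exists_irreducible 𝒪
  obtain ⟨MD, hnt, hD⟩ :=
    h 𝒪 ϖ hϖ p ρbar S Smin hyp N1 hN1S hsq hU θ hθ k Pv hk hex hdvd eP heP
  refine ⟨MD.toHMod hϖ, ?_, ?_⟩
  · exact MD.isDiv.nontrivial_tate
  · intro r n qv hqv _ _ _ _
    obtain ⟨D⟩ := hD r n qv hqv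
    exact pvGeom2_of_pvDiv hϖ p hyp.hp𝒪 ρbar N1 S θ MD Pv.q eP n qv D

end PV

end Fermat.Agent.L.Pivot.Geom.H59
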