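import Fermat.Agent.L.Pivot.Geom.H59_LayerA1

/-!
# PIVOT, package PV-GEOM, Layer B' (helper59): the range of the total norm (abstract part)

`W` a divisible module with commuting operators `c j` (`c j ^ m j = 1`), `N := nmTotE m c`.

* `inv_torsion_mem_range` : `Δ`-invariants of `W[ϖ]` are norms of elements of `W[ϖ]` (from `hstep`);
* `inv_mem_range`         : `Δ`-invariants of a `ϖ`-power torsion, `ϖ`-divisible `W` are norms;
* `resRange`, `resRangeHom`, `resRangeMonoidHom` : restriction of operators commuting with `N` to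
  `range N`;
* `isDiv_range`           : `range N` is `IsDiv`.
-/

set_option autoImplicit false
set_option linter.style.haveILetI false
set_option linter.unusedSectionVars false

noncomputable section

open IsLocalRing

namespace Fermat.Agent.L.Pivot.Geom.H59

open Fermat.Agent.S59.TWH Fermat.Agent.S59.Lim

section Inv

variable {𝒪 : Type} [CommRing 𝒪] {ϖ : 𝒪} {W : Type} [AddCommGroup W] [Module 𝒪 W]

/-- `Δ`-invariants of `W[ϖ]` are total norms of elements of `W[ϖ]`. -/
theorem inv_torsion_mem_range {k : ℕ} (m : Fin k → ℕ)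
    (c : Fin k → Module.End 𝒪 W) (c_comm : ∀ i j, Commute (c i) (c j))
    (hstep : ∀ (j : Fin k) (v : W), ϖ • v = 0 → (∀ i, i ≤ j → c i v = v) →
      ∃ w : W, ϖ • w = 0 ∧ (∀ i, i < j → c i w = w) ∧ H90.nm (m j) (c j) w = v)
    (v : W) (hv : ϖ • v = 0) (hfix : ∀ j, c j v = v) :
    ∃ w : W, ϖ • w = 0 ∧ nmTotE m c w = v := by
  classical
  have hcomm : ∀ i j, Commute (resT ϖ (c i)) (resT ϖ (c j)) :=
    fun i j => (c_comm i j).map (resT ϖ)
  have hv0 : v ∈ Submodule.torsionBy 𝒪 W ϖ := (Submodule.mem_torsionBy_iff _ _).mpr hv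
  obtain ⟨w, hw⟩ := exists_nmTotE_eq k m (Submodule.torsionBy 𝒪 W ϖ)
    (fun j => resT ϖ (c j)) hcomm (hstep_resT m c hstep)
    ⟨v, hv0⟩ (fun j => Subtype.ext (hfix j))
  refine ⟨(w : W), (Submodule.mem_torsionBy_iff _ _).mp w.2, ?_⟩
  have := congrArg Subtype.val hw
  rw [resT_nmTotE] at this
  exact this

/-- the total norm has invariant values. -/
theorem fix_nmTotE {k : ℕ} (m : Fin k → ℕ)
    (c : Fin k → Module.End 𝒪 W) (c_comm : ∀ i j, Commute (c i) (c j))
    (c_pow : ∀ j, c j ^ m j = 1) (j : Fin k) (x : W) :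
    c j (nmTotE m c x) = nmTotE m c x := by
  have h := mul_nmTotE m c c_comm c_pow j
  have h2 := congrArg (fun f : Module.End 𝒪 W => f x) h
  exact h2

/-- `Δ`-invariants of a `ϖ`-power torsion, `ϖ`-divisible module are total norms. -/
theorem inv_mem_range {k : ℕ} (m : Fin k → ℕ)
    (c : Fin k → Module.End 𝒪 W) (c_comm : ∀ i j, Commute (c i) (c j))
    (c_pow : ∀ j, c j ^ m j = 1)
    (htors : ∀ x : W, ∃ e : ℕ, ϖ ^ e • x = 0) (hdiv : ∀ x : W, ∃ y : W, ϖ • y = x)
    (hstep : ∀ (j : Fin k) (v : W), ϖ • v = 0 → (∀ i, i ≤ j → c i v = v) →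
      ∃ w : W, ϖ • w = 0 ∧ (∀ i, i < j → c i w = w) ∧ H90.nm (m j) (c j) w = v)
    (x : W) (hfix : ∀ j, c j x = x) : ∃ w : W, nmTotE m c w = x := by
  have hdivpow : ∀ (e : ℕ) (x : W), ∃ y : W, ϖ ^ e • y = x := by
    intro e
    induction e with
    | zero => intro x; exact ⟨x, by rw [pow_zero, one_smul]⟩
    | succ e ih =>
      intro x
      obtain ⟨y, hy⟩ := hdiv x
      obtain ⟨z, hz⟩ := ih y
      exact ⟨z, by rw [pow_succ, mul_comm, mul_smul, hz, hy]⟩
  have key : ∀ (e : ℕ) (x : W), ϖ ^ e • x = 0 → (∀ j, c j x = x) →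
      ∃ w : W, nmTotE m c w = x := by
    intro e
    induction e with
    | zero =>
      intro x hx _
      rw [pow_zero, one_smul] at hx
      exact ⟨0, by rw [map_zero, hx]⟩
    | succ e ih =>
      intro x hx hfx
      have h1 : ϖ • (ϖ ^ e • x) = 0 := by
        rw [← mul_smul, ← pow_succ']
        exact hx
      have h2 : ∀ j, c j (ϖ ^ e • x) = ϖ ^ e • x := fun j => by rw [map_smul, hfx j]
      obtain ⟨w, -, hw⟩ := inv_torsion_mem_range m c c_comm hstep _ h1 h2
      obtain ⟨w', hw'⟩ := hdivpow e w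
      have h3 : ϖ ^ e • (x - nmTotE m c w') = 0 := by
        rw [smul_sub, ← map_smul, hw', hw, sub_self]
      have h4 : ∀ j, c j (x - nmTotE m c w') = x - nmTotE m c w' := fun j => by
        rw [map_sub, hfx j, fix_nmTotE m c c_comm c_pow j]
      obtain ⟨w'', hw''⟩ := ih _ h3 h4
      exact ⟨w'' + w', by rw [map_add, hw'']; abel⟩
  obtain ⟨e, he⟩ := htors x
  exact key e x he hfix

end Inv

section Res

variable {𝒪 : Type} [CommRing 𝒪] {W : Type} [AddCommGroup W] [Module 𝒪 W]

/-- restriction of an endomorphism commuting with `N` to `range N`. -/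
def resRange (N f : Module.End 𝒪 W) (h : Commute f N) : Module.End 𝒪 ↥(LinearMap.range N) :=
  f.restrict (p := LinearMap.range N) (q := LinearMap.range N) (fun x hx => by
    obtain ⟨y, rfl⟩ := hx
    refine ⟨f y, ?_⟩
    have := congrArg (fun g : Module.End 𝒪 W => g y) h.eq
    exact this.symm)

@[simp] theorem coe_resRange (N f : Module.End 𝒪 W) (h : Commute f N)
    (x : ↥(LinearMap.range N)) : ((resRange N f h x : ↥(LinearMap.range N)) : W) = f x := rfl

theorem resRange_mul (N f g : Module.End 𝒪 W) (hf : Commute f N) (hg : Commute g N) :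
    resRange N (f * g) (hf.mul_left hg) = resRange N f hf * resRange N g hg := by
  ext x
  rfl

theorem resRange_one (N : Module.End 𝒪 W) :
    resRange N 1 (Commute.one_left N) = 1 := by
  ext x
  rfl

theorem resRange_commute (N f g : Module.End 𝒪 W) (hf : Commute f N) (hg : Commute g N)
    (h : Commute f g) : Commute (resRange N f hf) (resRange N g hg) := by
  apply LinearMap.ext
  intro x
  apply Subtype.ext
  have := congrArg (fun u : Module.End 𝒪 W => u (x : W)) h.eq
  exact this

theorem resRange_pow (N f : Module.End 𝒪 W) (hf : Commute f N) (e : ℕ) :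
    resRange N f hf ^ e = resRange N (f ^ e) (hf.pow_left e) := by
  induction e with
  | zero =>
    apply LinearMap.ext
    intro x
    rfl
  | succ e ih =>
    rw [pow_succ, ih]
    apply LinearMap.ext
    intro x
    apply Subtype.ext
    show (f ^ e) (f x) = (f ^ (e + 1)) x
    rw [pow_succ]
    rfl

theorem coe_resRange_pow (N f : Module.End 𝒪 W) (hf : Commute f N) (e : ℕ)
    (x : ↥(LinearMap.range N)) :
    (((resRange N f hf ^ e) x : ↥(LinearMap.range N)) : W) = (f ^ e) x := by
  rw [resRange_pow]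
  rfl

/-- restriction of a ring homomorphism with values commuting with `N`. -/
def resRangeHom {T : Type*} [Semiring T] (N : Module.End 𝒪 W) (η : T →+* Module.End 𝒪 W)
    (h : ∀ t, Commute (η t) N) : T →+* Module.End 𝒪 ↥(LinearMap.range N) where
  toFun t := resRange N (η t) (h t)
  map_one' := by
    apply LinearMap.ext
    intro x
    apply Subtype.ext
    show η 1 (x : W) = x
    rw [map_one]
    rfl
  map_mul' s t := by
    apply LinearMap.ext
    intro x
    apply Subtype.ext
    show η (s * t) (x : W) = η s (η t x)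
    rw [map_mul]
    rfl
  map_zero' := by
    apply LinearMap.ext
    intro x
    apply Subtype.ext
    show η 0 (x : W) = 0
    rw [map_zero]
    rfl
  map_add' s t := by
    apply LinearMap.ext
    intro x
    apply Subtype.ext
    show η (s + t) (x : W) = η s x + η t x
    rw [map_add]
    rfl

@[simp] theorem coe_resRangeHom {T : Type*} [Semiring T] (N : Module.End 𝒪 W)
    (η : T →+* Module.End 𝒪 W) (h : ∀ t, Commute (η t) N) (t : T)
    (x : ↥(LinearMap.range N)) :
    ((resRangeHom N η h t x : ↥(LinearMap.range N)) : W) = η t x := rfl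

/-- restriction of a monoid homomorphism with values commuting with `N`. -/
def resRangeMonoidHom {G : Type*} [Monoid G] (N : Module.End 𝒪 W) (ρ : G →* Module.End 𝒪 W)
    (h : ∀ g, Commute (ρ g) N) : G →* Module.End 𝒪 ↥(LinearMap.range N) where
  toFun g := resRange N (ρ g) (h g)
  map_one' := by
    apply LinearMap.ext
    intro x
    apply Subtype.ext
    show ρ 1 (x : W) = x
    rw [map_one]
    rfl
  map_mul' s t := by
    apply LinearMap.ext
    intro x
    apply Subtype.ext
    show ρ (s * t) (x : W) = ρ s (ρ t x)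
    rw [map_mul]
    rfl

@[simp] theorem coe_resRangeMonoidHom {G : Type*} [Monoid G] (N : Module.End 𝒪 W)
    (ρ : G →* Module.End 𝒪 W) (h : ∀ g, Commute (ρ g) N) (g : G)
    (x : ↥(LinearMap.range N)) :
    ((resRangeMonoidHom N ρ h g x : ↥(LinearMap.range N)) : W) = ρ g x := rfl

/-- `range N` is `IsDiv` if `W` is. -/
theorem isDiv_range {ϖ : 𝒪} (hW : IsDiv ϖ W) (N : Module.End 𝒪 W) :
    IsDiv ϖ ↥(LinearMap.range N) where
  tors x := by
    obtain ⟨k, hk⟩ := hW.tors (x : W)
    exact ⟨k, Subtype.ext hk⟩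
  div x := by
    obtain ⟨y, hy⟩ := x.2
    obtain ⟨z, hz⟩ := hW.div y
    refine ⟨⟨N z, ⟨z, rfl⟩⟩, Subtype.ext ?_⟩
    show ϖ • N z = (x : W)
    rw [← map_smul, hz, hy]
  fin := by
    haveI := hW.fin
    let f : Submodule.torsionBy 𝒪 ↥(LinearMap.range N) ϖ → Submodule.torsionBy 𝒪 W ϖ :=
      fun x => ⟨((x : ↥(LinearMap.range N)) : W), by
        rw [Submodule.mem_torsionBy_iff]
        have := (Submodule.mem_torsionBy_iff _ _).mp x.2
        exact congrArg Subtype.val this⟩
    have hf : Function.Injective f := by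
      intro x y hxy
      apply Subtype.ext
      apply Subtype.ext
      have h1 : ((f x : Submodule.torsionBy 𝒪 W ϖ) : W) = ((f y : Submodule.torsionBy 𝒪 W ϖ) : W) :=
        congrArg Subtype.val hxy
      exact h1
    exact Finite.of_injective f hf

end Res

end Fermat.Agent.L.Pivot.Geom.H59

end
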