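import Fermat.Agent.L.Pivot.Geom.Base
import Fermat.Agent.L.Pivot.Geom.H59_LayerB1

/-!
# PIVOT, package PV-GEOM, Layer B' (helper59): `PVBase → PVDiv`  (design (C), pure algebra)

`B : PVBase …` the base datum on `W'`.  `B.Nm := nmTotE (p ^ eP j) c` the total norm of the pivot
diamonds.  The Taylor–Wiles datum of unipotent type is

  `B.G1D : TWDiv … MD n qv`,   `B.G1D.WD.W = range B.Nm`,

and `pvDivOf B : PVDiv …` has `κ = B.Nm` (range-restricted), `κup` = inclusion.

* `stmt_PVDIV_of_base : Stmt_PVBASE → Stmt_PVDIV`.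
-/

set_option autoImplicit false
set_option linter.style.haveILetI false
set_option linter.unusedSectionVars false

noncomputable section

open IsLocalRing

namespace Fermat.Agent.L.Pivot.Geom

open Polynomial CuspForm Fermat.Agent.S56 Fermat.Agent.S59 Fermat.Agent.S59.Asm
  Fermat.Agent.S59.Lim Fermat.Agent.L.Pivot Fermat.Agent.S59.TWH

namespace H59

section Coe

variable {𝒪 : Type} [CommRing 𝒪] {W : Type} [AddCommGroup W] [Module 𝒪 W]

/-- powers of an operator on `range N` which is the restriction of an operator on `W`. -/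
theorem coe_pow_of_coe (N : Module.End 𝒪 W) (F : Module.End 𝒪 ↥(LinearMap.range N))
    (f : Module.End 𝒪 W) (h : ∀ x : ↥(LinearMap.range N), ((F x : ↥(LinearMap.range N)) : W) = f x)
    (m : ℕ) (x : ↥(LinearMap.range N)) :
    (((F ^ m) x : ↥(LinearMap.range N)) : W) = (f ^ m) x := by
  induction m generalizing x with
  | zero => rfl
  | succ m ih =>
    rw [pow_succ, pow_succ, Module.End.mul_apply, Module.End.mul_apply, ih, h]

theorem coe_nm_resRange (N f : Module.End 𝒪 W) (hf : Commute f N) (m : ℕ)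
    (x : ↥(LinearMap.range N)) :
    ((H90.nm m (resRange N f hf) x : ↥(LinearMap.range N)) : W) = H90.nm m f x := by
  rw [H90.nm_apply, H90.nm_apply, Submodule.coe_sum]
  refine Finset.sum_congr rfl fun e _ => ?_
  exact coe_pow_of_coe N _ f (fun _ => rfl) e x

theorem coe_nmTotE_resRange (N : Module.End 𝒪 W) :
    ∀ {r : ℕ} (m : Fin r → ℕ) (d : Fin r → Module.End 𝒪 W) (hd : ∀ j, Commute (d j) N)
      (x : ↥(LinearMap.range N)),
      ((nmTotE m (fun j => resRange N (d j) (hd j)) x : ↥(LinearMap.range N)) : W)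
        = nmTotE m d x := by
  intro r
  induction r with
  | zero =>
    intro m d hd x
    rw [nmTotE_zero, nmTotE_zero]
    rfl
  | succ r ih =>
    intro m d hd x
    rw [nmTotE_succ, nmTotE_succ, Module.End.mul_apply, Module.End.mul_apply, coe_nm_resRange,
      ih (fun j => m j.succ) (fun j => d j.succ) (fun j => hd j.succ)]

theorem coe_nmTot_resRange (N : Module.End 𝒪 W) {r : ℕ} (m : ℕ) (d : Fin r → Module.End 𝒪 W)
    (hd : ∀ j, Commute (d j) N) (x : ↥(LinearMap.range N)) :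
    ((H90.nmTot m (fun j => resRange N (d j) (hd j)) x : ↥(LinearMap.range N)) : W)
      = H90.nmTot m d x :=
  coe_nmTotE_resRange N (fun _ => m) d hd x

/-- `(F - a)^m` on `range N`, for `F` the restriction of `f`. -/
theorem sub_smul_pow_of_coe (N : Module.End 𝒪 W) (F : Module.End 𝒪 ↥(LinearMap.range N))
    (f : Module.End 𝒪 W) (h : ∀ x : ↥(LinearMap.range N), ((F x : ↥(LinearMap.range N)) : W) = f x)
    (a : 𝒪) (m : ℕ) (x : ↥(LinearMap.range N))
    (hm : ((f - a • (1 : Module.End 𝒪 W)) ^ m) (x : W) = 0) :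
    ((F - a • (1 : Module.End 𝒪 ↥(LinearMap.range N))) ^ m) x = 0 := by
  apply Subtype.ext
  rw [coe_pow_of_coe N _ (f - a • (1 : Module.End 𝒪 W)) (fun y => by
    rw [LinearMap.sub_apply, LinearMap.sub_apply, Submodule.coe_sub, h]
    rfl) m x]
  exact hm

theorem coe_sub_smul_of_coe (N : Module.End 𝒪 W) (F : Module.End 𝒪 ↥(LinearMap.range N))
    (f : Module.End 𝒪 W) (h : ∀ x : ↥(LinearMap.range N), ((F x : ↥(LinearMap.range N)) : W) = f x)
    (a : 𝒪) (y : ↥(LinearMap.range N)) :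
    (((F - a • (1 : Module.End 𝒪 ↥(LinearMap.range N))) y : ↥(LinearMap.range N)) : W)
      = (f - a • (1 : Module.End 𝒪 W)) y := by
  rw [LinearMap.sub_apply, LinearMap.sub_apply, Submodule.coe_sub, h]
  rfl

theorem coe_mul_of_coe (N : Module.End 𝒪 W) (F G : Module.End 𝒪 ↥(LinearMap.range N))
    (f g : Module.End 𝒪 W) (hF : ∀ x : ↥(LinearMap.range N), ((F x : ↥(LinearMap.range N)) : W) = f x)
    (hG : ∀ x : ↥(LinearMap.range N), ((G x : ↥(LinearMap.range N)) : W) = g x)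
    (y : ↥(LinearMap.range N)) :
    (((F * G) y : ↥(LinearMap.range N)) : W) = (f * g) y := by
  rw [Module.End.mul_apply, Module.End.mul_apply, hF, hG]

/-- `((F - a)(F - a'))^m` on `range N`, for `F` the restriction of `f`. -/
theorem mul_pow_of_coe (N : Module.End 𝒪 W) (F : Module.End 𝒪 ↥(LinearMap.range N))
    (f : Module.End 𝒪 W) (h : ∀ x : ↥(LinearMap.range N), ((F x : ↥(LinearMap.range N)) : W) = f x)
    (a a' : 𝒪) (m : ℕ) (x : ↥(LinearMap.range N))
    (hm : (((f - a • (1 : Module.End 𝒪 W)) * (f - a' • (1 : Module.End 𝒪 W))) ^ m) (x : W) = 0) :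
    (((F - a • (1 : Module.End 𝒪 ↥(LinearMap.range N))) *
      (F - a' • (1 : Module.End 𝒪 ↥(LinearMap.range N)))) ^ m) x = 0 := by
  apply Subtype.ext
  rw [coe_pow_of_coe N _ ((f - a • (1 : Module.End 𝒪 W)) * (f - a' • (1 : Module.End 𝒪 W)))
    (fun y => coe_mul_of_coe N _ _ _ _ (coe_sub_smul_of_coe N F f h a)
      (coe_sub_smul_of_coe N F f h a') y) m x]
  exact hm

/-- the lift of the restricted action along a surjection whose kernel kills `range N`. -/
def liftRange {T T1 : Type*} [CommRing T] [CommRing T1] (rest : T →+* T1)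
    (hs : Function.Surjective rest) (N : Module.End 𝒪 W) (η : T →+* Module.End 𝒪 W)
    (h : ∀ t, Commute (η t) N) (hk : ∀ t, rest t = 0 → ∀ x : W, η t (N x) = 0) :
    T1 →+* Module.End 𝒪 ↥(LinearMap.range N) :=
  RingHom.liftOfSurjective rest hs ⟨resRangeHom N η h, by
    intro t ht
    rw [RingHom.mem_ker] at ht ⊢
    apply LinearMap.ext
    intro x
    apply Subtype.ext
    obtain ⟨y, hy⟩ := x.2
    show η t (x : W) = 0
    rw [← hy]
    exact hk t ht y⟩

theorem liftRange_rest {T T1 : Type*} [CommRing T] [CommRing T1] (rest : T →+* T1)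
    (hs : Function.Surjective rest) (N : Module.End 𝒪 W) (η : T →+* Module.End 𝒪 W)
    (h : ∀ t, Commute (η t) N) (hk : ∀ t, rest t = 0 → ∀ x : W, η t (N x) = 0) (t : T) :
    liftRange rest hs N η h hk (rest t) = resRangeHom N η h t :=
  RingHom.liftOfSurjective_comp_apply rest hs ⟨resRangeHom N η h, _⟩ t

theorem coe_liftRange_rest {T T1 : Type*} [CommRing T] [CommRing T1] (rest : T →+* T1)
    (hs : Function.Surjective rest) (N : Module.End 𝒪 W) (η : T →+* Module.End 𝒪 W)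
    (h : ∀ t, Commute (η t) N) (hk : ∀ t, rest t = 0 → ∀ x : W, η t (N x) = 0) (t : T)
    (x : ↥(LinearMap.range N)) :
    ((liftRange rest hs N η h hk (rest t) x : ↥(LinearMap.range N)) : W) = η t x := by
  rw [liftRange_rest]
  rfl

/-- the descent of `π` to `range N`. -/
def descRange {WM : Type} [AddCommGroup WM] [Module 𝒪 WM] (N : Module.End 𝒪 W)
    (π : W →ₗ[𝒪] WM) (h : LinearMap.ker N ≤ LinearMap.ker π) :
    ↥(LinearMap.range N) →ₗ[𝒪] WM :=
  ((LinearMap.ker N).liftQ π h).comp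
    (N.quotKerEquivRange.symm : ↥(LinearMap.range N) →ₗ[𝒪] _)

theorem descRange_apply {WM : Type} [AddCommGroup WM] [Module 𝒪 WM] (N : Module.End 𝒪 W)
    (π : W →ₗ[𝒪] WM) (h : LinearMap.ker N ≤ LinearMap.ker π) (y : W)
    (hy : N y ∈ LinearMap.range N) : descRange N π h ⟨N y, hy⟩ = π y := by
  rw [descRange, LinearMap.comp_apply]
  have h1 : (N.quotKerEquivRange.symm : ↥(LinearMap.range N) →ₗ[𝒪] _) ⟨N y, hy⟩
      = (LinearMap.ker N).mkQ y :=
    LinearMap.quotKerEquivRange_symm_apply_image N y hy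
  rw [h1]
  rfl

end Coe

end H59

section Main

variable {𝒪 : Type} [CommRing 𝒪] [IsLocalRing 𝒪] {ϖ : 𝒪} {p : ℕ}
  {ρbar : ResidualGaloisRep (ResidueField 𝒪)} {N1 : ℕ} [NeZero N1] {S : Finset ℕ}
  {θ : CuspForm.heckeAlgebra N1 2 (↑S : Set ℕ) →+* ResidueField 𝒪}
  {MD : HDiv 𝒪 ϖ N1 (↑S : Set ℕ) θ} {k : ℕ} {qP : Fin k → ℕ} {eP : Fin k → ℕ}
  {r : ℕ} {n : ℕ} {qv : Fin r → ℕ}
  [NeZero (twLevel N1 qv)] [NeZero (pvLevel N1 qP qv)]
  (B : PVBase 𝒪 ϖ p ρbar N1 S θ MD qP eP n qv)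

namespace PVBase

/-- the total norm of the pivot diamonds. -/
def Nm : Module.End 𝒪 B.WD.W := H59.nmTotE (fun j => p ^ eP j) B.c

theorem comm_Nm {f : Module.End 𝒪 B.WD.W} (h : ∀ j, Commute f (B.c j)) : Commute f B.Nm :=
  H59.commute_nmTotE _ _ h

theorem fix_Nm (j : Fin k) (x : B.WD.W) : B.c j (B.Nm x) = B.Nm x :=
  H59.fix_nmTotE (fun j => p ^ eP j) B.c B.c_comm B.c_pow j x

/-- invariants of `W'[ϖ]` are norms. -/
theorem mem_range_of_fix_torsion (v : B.WD.W) (hv : ϖ • v = 0) (hfix : ∀ j, B.c j v = v) :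
    v ∈ LinearMap.range B.Nm := by
  obtain ⟨w, -, hw⟩ := H59.inv_torsion_mem_range (fun j => p ^ eP j) B.c B.c_comm B.hstepC
    v hv hfix
  exact ⟨w, hw⟩

/-- invariants of `W'` are norms. -/
theorem mem_range_of_fix (v : B.WD.W) (hfix : ∀ j, B.c j v = v) :
    v ∈ LinearMap.range B.Nm := by
  obtain ⟨w, hw⟩ := H59.inv_mem_range (fun j => p ^ eP j) B.c B.c_comm B.c_pow
    B.WD.isDiv.tors B.WD.isDiv.div B.hstepC v hfix
  exact ⟨w, hw⟩

theorem eigpart' (t : CuspForm.heckeAlgebra (pvLevel N1 qP qv) 2 (↑(twSet S qv) : Set ℕ))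
    (ht : B.rest t = 0) (x : B.WD.W) : B.WD.η t (B.Nm x) = 0 := B.eigpart t ht x

set_option maxHeartbeats 1000000 in
/-- the Hecke action of level `twLevel` on the norms (P-EIGPART). -/
def η1 : CuspForm.heckeAlgebra (twLevel N1 qv) 2 (↑(twSet S qv) : Set ℕ) →+*
    Module.End 𝒪 ↥(LinearMap.range B.Nm) :=
  H59.liftRange B.rest B.rest_surj B.Nm B.WD.η
    (fun t => B.comm_Nm (fun j => (B.c_η j t).symm)) B.eigpart'

set_option maxHeartbeats 1000000 in
theorem coe_η1_rest (t : CuspForm.heckeAlgebra (pvLevel N1 qP qv) 2 (↑(twSet S qv) : Set ℕ))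
    (x : ↥(LinearMap.range B.Nm)) :
    ((B.η1 (B.rest t) x : ↥(LinearMap.range B.Nm)) : B.WD.W) = B.WD.η t x :=
  H59.coe_liftRange_rest B.rest B.rest_surj B.Nm B.WD.η _ B.eigpart' t x

set_option maxHeartbeats 4000000 in
theorem η1_local (t : CuspForm.heckeAlgebra (twLevel N1 qv) 2 (↑(twSet S qv) : Set ℕ)) (a : 𝒪)
    (ha : residue 𝒪 a = θ (B.rest1 t)) (x : ↥(LinearMap.range B.Nm)) (hx : ϖ • x = 0) :
    ∃ m : ℕ, ((B.η1 t - a • (1 : Module.End 𝒪 ↥(LinearMap.range B.Nm))) ^ m) x = 0 := by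
  obtain ⟨t', ht'⟩ := B.rest_surj t
  have hx' : ϖ • (x : B.WD.W) = 0 := congrArg Subtype.val hx
  have ha' : residue 𝒪 a = ((θ.comp B.rest1).comp B.rest) t' := by
    rw [RingHom.comp_apply, RingHom.comp_apply, ht']
    exact ha
  obtain ⟨m, hm⟩ := B.WD.η_local t' a ha' (x : B.WD.W) hx'
  have hc : ∀ y : ↥(LinearMap.range B.Nm),
      ((B.η1 t y : ↥(LinearMap.range B.Nm)) : B.WD.W) = B.WD.η t' y := by
    intro y
    rw [← ht']
    exact B.coe_η1_rest t' y
  exact ⟨m, H59.sub_smul_pow_of_coe B.Nm (B.η1 t) (B.WD.η t') hc a m x hm⟩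

set_option maxHeartbeats 1000000 in
/-- the divisible Hecke module of the unipotent type: the norms. -/
def WD1 : HDiv 𝒪 ϖ (twLevel N1 qv) (↑(twSet S qv) : Set ℕ) (θ.comp B.rest1) where
  W := ↥(LinearMap.range B.Nm)
  isDiv := H59.isDiv_range B.WD.isDiv B.Nm
  η := B.η1
  η_local := fun t a ha x hx => B.η1_local t a ha x hx

/-- the Galois action on the norms. -/
def gal1 : GalQ →* Module.End 𝒪 ↥(LinearMap.range B.Nm) :=
  H59.resRangeMonoidHom B.Nm B.gal (fun g => B.comm_Nm (fun j => (B.c_gal j g).symm))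

theorem coe_gal1 (g : GalQ) (x : ↥(LinearMap.range B.Nm)) :
    ((B.gal1 g x : ↥(LinearMap.range B.Nm)) : B.WD.W) = B.gal g x := rfl

/-- the Taylor–Wiles diamonds on the norms. -/
def d1 (i : Fin r) : Module.End 𝒪 ↥(LinearMap.range B.Nm) :=
  H59.resRange B.Nm (B.d i) (B.comm_Nm (fun j => (B.c_d j i).symm))

theorem coe_d1 (i : Fin r) (x : ↥(LinearMap.range B.Nm)) :
    ((B.d1 i x : ↥(LinearMap.range B.Nm)) : B.WD.W) = B.d i x := rfl

theorem ker_Nm_le_ker_π : LinearMap.ker B.Nm ≤ LinearMap.ker B.π := by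
  intro y hy
  rw [LinearMap.mem_ker] at hy ⊢
  apply B.πup_injective
  rw [B.πup_π, map_zero]
  show (H90.nmTot (p ^ n) B.d) (B.Nm y) = 0
  rw [hy, map_zero]

/-- the projection from the norms to the minimal level: `π₁ (Nm y) = π y`. -/
def π1 : ↥(LinearMap.range B.Nm) →ₗ[𝒪] MD.W :=
  H59.descRange B.Nm B.π B.ker_Nm_le_ker_π

theorem π1_Nm (y : B.WD.W) (h : B.Nm y ∈ LinearMap.range B.Nm) :
    B.π1 ⟨B.Nm y, h⟩ = B.π y :=
  H59.descRange_apply B.Nm B.π B.ker_Nm_le_ker_π y h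

/-- the pull-back from the minimal level lands in the norms. -/
def πup1 : MD.W →ₗ[𝒪] ↥(LinearMap.range B.Nm) :=
  B.πup.codRestrict (LinearMap.range B.Nm)
    (fun y => B.mem_range_of_fix (B.πup y) (fun j => B.c_πup j y))

theorem coe_πup1 (y : MD.W) : ((B.πup1 y : ↥(LinearMap.range B.Nm)) : B.WD.W) = B.πup y := rfl

end PVBase

end Main

end Fermat.Agent.L.Pivot.Geom

end
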