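/-
helper9, item 66 (PIVOT), package PV-GEOM, leaf **PVG-LAYERB2** (design (C) of helper59):
the pure-algebra glue `PVBase → TWDiv G1D + PVDiv`.

`B : PVBase …` the base datum on `W'`, `B.Nm` the total norm of the pivot diamonds.

* `PVBase.G1D B hgood : TWDiv … MD n qv` : the Taylor–Wiles datum of unipotent type, with module
  `range B.Nm`;
* `PVBase.pvDivOf B hgood : PVDiv …` : `κ = B.Nm` (range-restricted), `κup` = inclusion;
* `stmt_PVDIV_of_base : Stmt_PVBASE → Stmt_PVDIV`.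
-/
import Fermat.Agent.L.Pivot.Geom.H59_LayerB
import Fermat.Agent.L.Pivot.Geom.H4_Rest

set_option autoImplicit false
set_option linter.style.haveILetI false
set_option linter.unusedSectionVars false
set_option linter.unusedVariables false
set_option maxHeartbeats 8000000
set_option synthInstance.maxHeartbeats 400000

noncomputable section

open IsLocalRing

namespace Fermat.Agent.L.Pivot.Geom

open Polynomial CuspForm Fermat.Agent.S56 Fermat.Agent.S59 Fermat.Agent.S59.Asm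
  Fermat.Agent.S59.Lim Fermat.Agent.L.Pivot Fermat.Agent.S59.TWH

section Main

variable {𝒪 : Type} [CommRing 𝒪] [IsLocalRing 𝒪] {ϖ : 𝒪} {p : ℕ}
  {ρbar : ResidualGaloisRep (ResidueField 𝒪)} {N1 : ℕ} [NeZero N1] {S : Finset ℕ}
  {θ : CuspForm.heckeAlgebra N1 2 (↑S : Set ℕ) →+* ResidueField 𝒪}
  {MD : HDiv 𝒪 ϖ N1 (↑S : Set ℕ) θ} {k : ℕ} {qP : Fin k → ℕ} {eP : Fin k → ℕ}
  {r : ℕ} {n : ℕ} {qv : Fin r → ℕ}
  [NeZero (twLevel N1 qv)] [NeZero (pvLevel N1 qP qv)]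
  (B : PVBase 𝒪 ϖ p ρbar N1 S θ MD qP eP n qv)

namespace PVBase

/-! ### Commutation with the norm -/

theorem Nm_η (t : CuspForm.heckeAlgebra (pvLevel N1 qP qv) 2 (↑(twSet S qv) : Set ℕ))
    (x : B.WD.W) : B.Nm (B.WD.η t x) = B.WD.η t (B.Nm x) := by
  have h := (B.comm_Nm (f := B.WD.η t) (fun j => (B.c_η j t).symm)).eq
  exact (congrArg (fun f : Module.End 𝒪 B.WD.W => f x) h).symm

theorem Nm_gal (g : GalQ) (x : B.WD.W) : B.Nm (B.gal g x) = B.gal g (B.Nm x) := by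
  have h := (B.comm_Nm (f := B.gal g) (fun j => (B.c_gal j g).symm)).eq
  exact (congrArg (fun f : Module.End 𝒪 B.WD.W => f x) h).symm

theorem Nm_d (i : Fin r) (x : B.WD.W) : B.Nm (B.d i x) = B.d i (B.Nm x) := by
  have h := (B.comm_Nm (f := B.d i) (fun j => (B.c_d j i).symm)).eq
  exact (congrArg (fun f : Module.End 𝒪 B.WD.W => f x) h).symm

/-- elements of the range are fixed by the pivot diamonds. -/
theorem fix_range (j : Fin k) (x : ↥(LinearMap.range B.Nm)) :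
    B.c j (x : B.WD.W) = (x : B.WD.W) := by
  obtain ⟨y, hy⟩ := x.2
  rw [← hy]
  exact B.fix_Nm j y

/-! ### The fields of `G1D` -/

theorem g1_gal_cont (x : ↥(LinearMap.range B.Nm)) :
    ∃ L : IntermediateField ℚ (AlgebraicClosure ℚ),
      FiniteDimensional ℚ L ∧ ∀ σ : GalQ, (∀ y ∈ L, σ y = y) → B.gal1 σ x = x := by
  obtain ⟨L, hL, h⟩ := B.gal_cont (x : B.WD.W)
  exact ⟨L, hL, fun σ hσ => Subtype.ext (h σ hσ)⟩

theorem g1_gal_η (g : GalQ)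
    (t : CuspForm.heckeAlgebra (twLevel N1 qv) 2 (↑(twSet S qv) : Set ℕ)) :
    Commute (B.gal1 g) (B.η1 t) := by
  obtain ⟨t', ht'⟩ := B.rest_surj t
  rw [← ht']
  apply LinearMap.ext
  intro x
  apply Subtype.ext
  show B.gal g ((B.η1 (B.rest t') x : ↥(LinearMap.range B.Nm)) : B.WD.W)
    = ((B.η1 (B.rest t') (B.gal1 g x) : ↥(LinearMap.range B.Nm)) : B.WD.W)
  rw [B.coe_η1_rest, B.coe_η1_rest]
  exact congrArg (fun f : Module.End 𝒪 B.WD.W => f (x : B.WD.W)) (B.gal_η g t').eq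

theorem g1_es
    (hgood : ∀ ℓ : ℕ, ℓ.Prime → ¬ ℓ ∣ twLevel N1 qv → ℓ ∉ (↑(twSet S qv) : Set ℕ) →
      ¬ ℓ ∣ pvLevel N1 qP qv)
    (ℓ : ℕ) (hℓ : ℓ.Prime) (hℓN : ¬ ℓ ∣ twLevel N1 qv)
    (hℓS : ℓ ∉ (↑(twSet S qv) : Set ℕ))
    (A : ValuationSubring (AlgebraicClosure ℚ)) (hA : A.LiesOverPrime ℓ)
    (σ : GalQ) (hσ : A.IsFrobeniusAt σ ℓ) :
    B.gal1 σ * B.gal1 σ - B.η1 (CuspForm.heckeAlgebra.T hℓ hℓN hℓS) * B.gal1 σ
      + (ℓ : 𝒪) • (1 : Module.End 𝒪 ↥(LinearMap.range B.Nm)) = 0 := by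
  have hℓN' : ¬ ℓ ∣ pvLevel N1 qP qv := hgood ℓ hℓ hℓN hℓS
  have hes := B.es ℓ hℓ hℓN' hℓS A hA σ hσ
  rw [← B.rest_T ℓ hℓ hℓN' hℓS hℓN]
  apply LinearMap.ext
  intro x
  apply Subtype.ext
  have h1 := congrArg (fun f : Module.End 𝒪 B.WD.W => f (x : B.WD.W)) hes
  simp only [LinearMap.add_apply, LinearMap.sub_apply, Module.End.mul_apply,
    LinearMap.smul_apply, Module.End.one_apply, LinearMap.zero_apply] at h1
  simp only [LinearMap.add_apply, LinearMap.sub_apply, Module.End.mul_apply,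
    LinearMap.smul_apply, Module.End.one_apply, LinearMap.zero_apply, Submodule.coe_add,
    Submodule.coe_sub, Submodule.coe_smul, Submodule.coe_zero, B.coe_η1_rest, B.coe_gal1]
  exact h1

theorem g1_d_pow (i : Fin r) : B.d1 i ^ (p ^ n) = 1 := by
  apply LinearMap.ext
  intro x
  apply Subtype.ext
  have h := H59.coe_resRange_pow B.Nm (B.d i) (B.comm_Nm (fun j => (B.c_d j i).symm))
    (p ^ n) x
  rw [B.d_pow i] at h
  exact h

theorem g1_d_comm (i j : Fin r) : Commute (B.d1 i) (B.d1 j) :=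
  H59.resRange_commute B.Nm (B.d i) (B.d j) _ _ (B.d_comm i j)

theorem g1_d_η (i : Fin r)
    (t : CuspForm.heckeAlgebra (twLevel N1 qv) 2 (↑(twSet S qv) : Set ℕ)) :
    Commute (B.d1 i) (B.η1 t) := by
  obtain ⟨t', ht'⟩ := B.rest_surj t
  rw [← ht']
  apply LinearMap.ext
  intro x
  apply Subtype.ext
  show B.d i ((B.η1 (B.rest t') x : ↥(LinearMap.range B.Nm)) : B.WD.W)
    = ((B.η1 (B.rest t') (B.d1 i x) : ↥(LinearMap.range B.Nm)) : B.WD.W)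
  rw [B.coe_η1_rest, B.coe_η1_rest]
  exact congrArg (fun f : Module.End 𝒪 B.WD.W => f (x : B.WD.W)) (B.d_η i t').eq

theorem g1_d_gal (i : Fin r) (g : GalQ) : Commute (B.d1 i) (B.gal1 g) := by
  apply LinearMap.ext
  intro x
  apply Subtype.ext
  exact congrArg (fun f : Module.End 𝒪 B.WD.W => f (x : B.WD.W)) (B.d_gal i g).eq

theorem g1_hstep (i : Fin r) (v : ↥(LinearMap.range B.Nm)) (hv : ϖ • v = 0)
    (hfix : ∀ i', i' ≤ i → B.d1 i' v = v) :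
    ∃ w : ↥(LinearMap.range B.Nm), ϖ • w = 0 ∧ (∀ i', i' < i → B.d1 i' w = w) ∧
      H90.nm (p ^ n) (B.d1 i) w = v := by
  have hv' : ϖ • (v : B.WD.W) = 0 := congrArg Subtype.val hv
  obtain ⟨w, hw0, hwc, hwd, hw⟩ := B.hstepD i (v : B.WD.W) hv' (fun j => B.fix_range j v)
    (fun i' hi' => congrArg Subtype.val (hfix i' hi'))
  refine ⟨⟨w, B.mem_range_of_fix_torsion w hw0 hwc⟩, Subtype.ext hw0,
    fun i' hi' => Subtype.ext (hwd i' hi'), Subtype.ext ?_⟩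
  exact (H59.coe_nm_resRange B.Nm (B.d i) (B.comm_Nm (fun j => (B.c_d j i).symm)) (p ^ n)
    ⟨w, B.mem_range_of_fix_torsion w hw0 hwc⟩).trans hw

theorem g1_πup_injective : Function.Injective B.πup1 := by
  intro y y' h
  exact B.πup_injective (congrArg Subtype.val h)

theorem g1_πup_π (x : ↥(LinearMap.range B.Nm)) :
    B.πup1 (B.π1 x) = H90.nmTot (p ^ n) B.d1 x := by
  apply Subtype.ext
  have h2 : ((H90.nmTot (p ^ n) B.d1 x : ↥(LinearMap.range B.Nm)) : B.WD.W)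
      = H90.nmTot (p ^ n) B.d (x : B.WD.W) :=
    H59.coe_nmTot_resRange B.Nm (p ^ n) B.d (fun i => B.comm_Nm (fun j => (B.c_d j i).symm)) x
  refine ((B.coe_πup1 (B.π1 x)).trans ?_).trans h2.symm
  obtain ⟨y, hy⟩ := x.2
  have hx : x = ⟨B.Nm y, ⟨y, rfl⟩⟩ := Subtype.ext hy.symm
  subst hx
  exact (congrArg B.πup (B.π1_Nm y ⟨y, rfl⟩)).trans (B.πup_π y)

theorem g1_d_πup (i : Fin r) (y : MD.W) : B.d1 i (B.πup1 y) = B.πup1 y :=
  Subtype.ext (B.d_πup i y)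

theorem g1_inv (v : ↥(LinearMap.range B.Nm)) (hv : ϖ • v = 0)
    (hfix : ∀ i, B.d1 i v = v) : ∃ y : MD.W, B.πup1 y = v := by
  obtain ⟨y, hy⟩ := B.invAll (v : B.WD.W) (congrArg Subtype.val hv)
    (fun j => B.fix_range j v) (fun i => congrArg Subtype.val (hfix i))
  exact ⟨y, Subtype.ext hy⟩

theorem g1_π_η (t : CuspForm.heckeAlgebra (twLevel N1 qv) 2 (↑(twSet S qv) : Set ℕ))
    (v : ↥(LinearMap.range B.Nm)) :
    B.π1 (B.η1 t v) = MD.η (B.rest1 t) (B.π1 v) := by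
  obtain ⟨t', ht'⟩ := B.rest_surj t
  rw [← ht']
  obtain ⟨y, hy⟩ := v.2
  have hv : v = ⟨B.Nm y, ⟨y, rfl⟩⟩ := Subtype.ext hy.symm
  subst hv
  have h1 : B.η1 (B.rest t') ⟨B.Nm y, ⟨y, rfl⟩⟩
      = ⟨B.Nm (B.WD.η t' y), ⟨B.WD.η t' y, rfl⟩⟩ :=
    Subtype.ext ((B.coe_η1_rest t' ⟨B.Nm y, ⟨y, rfl⟩⟩).trans (B.Nm_η t' y).symm)
  exact (congrArg B.π1 h1).trans ((B.π1_Nm (B.WD.η t' y) ⟨B.WD.η t' y, rfl⟩).trans
    ((B.π_η t' y).trans
      (congrArg (MD.η (B.rest1 (B.rest t'))) (B.π1_Nm y ⟨y, rfl⟩).symm)))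

theorem g1_frob_nil (i : Fin r) (x : ↥(LinearMap.range B.Nm)) (hx : ϖ • x = 0) :
    ∃ m : ℕ, (((B.gal1 (B.frob i) - B.a i • (1 : Module.End 𝒪 ↥(LinearMap.range B.Nm))) *
      (B.gal1 (B.frob i) - B.a' i • (1 : Module.End 𝒪 ↥(LinearMap.range B.Nm)))) ^ m) x
        = 0 := by
  obtain ⟨m, hm⟩ := B.frob_nil i (x : B.WD.W) (congrArg Subtype.val hx)
  exact ⟨m, H59.mul_pow_of_coe B.Nm (B.gal1 (B.frob i)) (B.gal (B.frob i)) (fun _ => rfl)
    (B.a i) (B.a' i) m x hm⟩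

theorem g1_lg (i : Fin r) (x : ↥(LinearMap.range B.Nm))
    (hx : x ∈ gk (B.gal1 (B.frob i) - B.a i • (1 : Module.End 𝒪 ↥(LinearMap.range B.Nm)))) :
    B.gal1 (B.σ i) x = B.d1 i x := by
  obtain ⟨m, hm⟩ := hx
  have h1 := H59.coe_pow_of_coe B.Nm
    (B.gal1 (B.frob i) - B.a i • (1 : Module.End 𝒪 ↥(LinearMap.range B.Nm)))
    (B.gal (B.frob i) - B.a i • (1 : Module.End 𝒪 B.WD.W))
    (H59.coe_sub_smul_of_coe B.Nm (B.gal1 (B.frob i)) (B.gal (B.frob i)) (fun _ => rfl)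
      (B.a i)) m x
  rw [hm] at h1
  exact Subtype.ext (B.lg i (x : B.WD.W) ⟨m, h1.symm⟩)

/-! ### The Taylor–Wiles datum of unipotent type -/

/-- **The Taylor–Wiles datum of unipotent type**: the module is the range of the total norm of
the pivot diamonds. -/
def G1D
    (hgood : ∀ ℓ : ℕ, ℓ.Prime → ¬ ℓ ∣ twLevel N1 qv → ℓ ∉ (↑(twSet S qv) : Set ℕ) →
      ¬ ℓ ∣ pvLevel N1 qP qv) :
    TWDiv 𝒪 ϖ p ρbar N1 S θ MD n qv where
  rest := B.rest1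
  rest_T := B.rest1_T
  WD := B.WD1
  gal := B.gal1
  gal_cont := B.g1_gal_cont
  gal_η := B.g1_gal_η
  es := B.g1_es hgood
  d := B.d1
  d_pow := B.g1_d_pow
  d_comm := B.g1_d_comm
  d_η := B.g1_d_η
  d_gal := B.g1_d_gal
  hstep := B.g1_hstep
  π := B.π1
  πup := B.πup1
  πup_injective := B.g1_πup_injective
  πup_π := B.g1_πup_π
  d_πup := B.g1_d_πup
  inv := B.g1_inv
  π_η := B.g1_π_η
  P := B.P
  P_over := B.P_over
  frob := B.frob
  frob_spec := B.frob_spec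
  σ := B.σ
  σ_mem := B.σ_mem
  a := B.a
  a' := B.a'
  a_ne := B.a_ne
  charpoly_frob := B.charpoly_frob
  frob_nil := B.g1_frob_nil
  lg := B.g1_lg

/-! ### The fields of `PVDiv` -/

theorem pv_c_κup (j : Fin k) (y : ↥(LinearMap.range B.Nm)) :
    B.c j ((LinearMap.range B.Nm).subtype y) = (LinearMap.range B.Nm).subtype y :=
  B.fix_range j y

theorem pv_inv (v : B.WD.W) (hv : ϖ • v = 0) (hfix : ∀ j, B.c j v = v) :
    ∃ y : ↥(LinearMap.range B.Nm), (LinearMap.range B.Nm).subtype y = v :=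
  ⟨⟨v, B.mem_range_of_fix_torsion v hv hfix⟩, rfl⟩

theorem pv_κ_η (t : CuspForm.heckeAlgebra (pvLevel N1 qP qv) 2 (↑(twSet S qv) : Set ℕ))
    (v : B.WD.W) :
    B.Nm.rangeRestrict (B.WD.η t v) = B.η1 (B.rest t) (B.Nm.rangeRestrict v) :=
  Subtype.ext ((B.Nm_η t v).trans (B.coe_η1_rest t (B.Nm.rangeRestrict v)).symm)

theorem pv_κ_d (i : Fin r) (v : B.WD.W) :
    B.Nm.rangeRestrict (B.d i v) = B.d1 i (B.Nm.rangeRestrict v) :=
  Subtype.ext (B.Nm_d i v)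

theorem pv_κ_gal (g : GalQ) (v : B.WD.W) :
    B.Nm.rangeRestrict (B.gal g v) = B.gal1 g (B.Nm.rangeRestrict v) :=
  Subtype.ext (B.Nm_gal g v)

/-- **`PVBase → PVDiv`**: `κ` is the total norm of the pivot diamonds (range-restricted),
`κup` the inclusion of its range. -/
def pvDivOf
    (hgood : ∀ ℓ : ℕ, ℓ.Prime → ¬ ℓ ∣ twLevel N1 qv → ℓ ∉ (↑(twSet S qv) : Set ℕ) →
      ¬ ℓ ∣ pvLevel N1 qP qv) :
    PVDiv 𝒪 ϖ p ρbar N1 S θ MD qP eP n qv where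
  G1D := B.G1D hgood
  rest := B.rest
  rest_T := B.rest_T
  WD := B.WD
  gal := B.gal
  gal_cont := B.gal_cont
  gal_η := B.gal_η
  es := B.es
  c := B.c
  c_pow := B.c_pow
  d := B.d
  d_pow := B.d_pow
  c_comm := B.c_comm
  d_comm := B.d_comm
  c_d := B.c_d
  c_η := B.c_η
  d_η := B.d_η
  c_gal := B.c_gal
  d_gal := B.d_gal
  hstep := B.hstepC
  κ := B.Nm.rangeRestrict
  κup := (LinearMap.range B.Nm).subtype
  κup_injective := Subtype.val_injective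
  κup_κ := fun _ => rfl
  c_κup := B.pv_c_κup
  inv := B.pv_inv
  κ_η := B.pv_κ_η
  κ_d := B.pv_κ_d
  κ_gal := B.pv_κ_gal
  frob_nil := B.frob_nil
  lg := B.lg
  new := B.new

end PVBase

end Main

end Fermat.Agent.L.Pivot.Geom

end
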