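/-
helper9, item 66 (PIVOT), package PV-GEOM, leaf **PVG-LAYERB2**, top:
`stmt_PVDIV_of_base : Stmt_PVBASE → Stmt_PVDIV` (design (C) of helper59).

The proof is written so that it does not depend on the exact list of hypotheses shared by
`Stmt_PVBASE` and `Stmt_PVDIV` (they are passed on by `assumption`).
-/
import Fermat.Agent.L.Pivot.Geom.H9_LayerB2

set_option autoImplicit false
set_option linter.style.haveILetI false
set_option linter.unusedSectionVars false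
set_option linter.unusedVariables false
set_option maxHeartbeats 8000000
set_option synthInstance.maxHeartbeats 400000

noncomputable section

open IsLocalRing

namespace Fermat.Agent.L.Pivot.Geom

open Polynomial CuspForm Fermat.Agent.S56 Fermat.Agent.S59 Fermat.Agent.S59.Asm
  Fermat.Agent.S59.Lim Fermat.Agent.L.Pivot Fermat.Agent.S59.TWH

/-- The conclusion of `Stmt_PVBASE` gives the conclusion of `Stmt_PVDIV` (all data fixed). -/
theorem pvDiv_of_pvBase_concl (𝒪 : Type) [CommRing 𝒪] [IsDomain 𝒪] [IsDiscreteValuationRing 𝒪]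
    [IsAdicComplete (maximalIdeal 𝒪) 𝒪] [Finite (ResidueField 𝒪)] [CharZero 𝒪]
    (ϖ : 𝒪) (p : ℕ) (ρbar : ResidualGaloisRep (ResidueField 𝒪)) (S : Finset ℕ)
    (N1 : ℕ) [NeZero N1] [Fact (CuspForm.HasIntegralStructure N1 2)]
    (θ : CuspForm.heckeAlgebra N1 2 (↑S : Set ℕ) →+* ResidueField 𝒪)
    (k : ℕ) (Pv : PivotPrimes k) (eP : Fin k → ℕ) (hdvd : ∀ j, Pv.q j ∣ N1)
    (hb : ∃ MD : HDiv 𝒪 ϖ N1 (↑S : Set ℕ) θ, Nontrivial MD.W ∧
      ∀ (r n : ℕ) (qv : Fin r → ℕ), IsTWFamily ρbar p n S qv →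
        ∀ [NeZero (twLevel N1 qv)] [NeZero (pvLevel N1 Pv.q qv)]
          [Fact (CuspForm.HasIntegralStructure (twLevel N1 qv) 2)]
          [Fact (CuspForm.HasIntegralStructure (pvLevel N1 Pv.q qv) 2)],
          Nonempty (PVBase 𝒪 ϖ p ρbar N1 S θ MD Pv.q eP n qv)) :
    ∃ MD : HDiv 𝒪 ϖ N1 (↑S : Set ℕ) θ, Nontrivial MD.W ∧
      ∀ (r n : ℕ) (qv : Fin r → ℕ), IsTWFamily ρbar p n S qv →
        ∀ [NeZero (twLevel N1 qv)] [NeZero (pvLevel N1 Pv.q qv)]
          [Fact (CuspForm.HasIntegralStructure (twLevel N1 qv) 2)]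
          [Fact (CuspForm.HasIntegralStructure (pvLevel N1 Pv.q qv) 2)],
          Nonempty (PVDiv 𝒪 ϖ p ρbar N1 S θ MD Pv.q eP n qv) := by
  obtain ⟨MD, hnt, hB⟩ := hb
  refine ⟨MD, hnt, fun r n qv hTW => ?_⟩
  intro _ _ _ _
  obtain ⟨B⟩ := hB r n qv hTW
  exact ⟨B.pvDivOf (fun ℓ hℓ hℓN hℓS hd =>
    hℓN (H4.prime_dvd_twLevel_of_dvd_pvLevel N1 Pv.q qv hdvd ℓ hℓ hd))⟩

/-- **`Stmt_PVBASE → Stmt_PVDIV`** (design (C): the only geometric object is `W'`). -/
theorem stmt_PVDIV_of_base (h : Stmt_PVBASE) : Stmt_PVDIV := by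
  unfold Stmt_PVDIV
  intros
  apply pvDiv_of_pvBase_concl
  · assumption
  · apply h <;> assumption

end Fermat.Agent.L.Pivot.Geom

end
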