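import Fermat.Agent.L.Pivot.Geom.H19_PNewFinal
import Fermat.Agent.L.Pivot.Geom.H9_LayerB2Top
import Fermat.Agent.L.Pivot.Geom.H59_LayerA

/-!
# PIVOT, package PV-GEOM: `Stmt_PVGeom2`, unconditional (helper19)

The chain `P-leaves ⟹ Stmt_PVBASE5 = Stmt_PVBASE ⟹ Stmt_PVDIV ⟹ Stmt_PVGeom2`:

* `stmt_PVBASE5_final` (`H19_PNewFinal.lean`): all leaves of Part I and Part II;
* `stmt_PVDIV_of_base` (helper9, `H9_LayerB2Top.lean`);
* `H59.stmt_PVGeom2_of_pvDiv` (helper59, `H59_LayerA.lean`).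

Complete proofs, standard axioms only.
-/

set_option autoImplicit false

namespace Fermat.Agent.L.Pivot.Geom

/-- **PV-BASE**, unconditional. -/
theorem stmt_PVBASE_final : Stmt_PVBASE := stmt_PVBASE5_final

/-- **PV-DIV**, unconditional. -/
theorem stmt_PVDIV_final : Stmt_PVDIV := stmt_PVDIV_of_base stmt_PVBASE_final

/-- **PV-GEOM**, unconditional. -/
theorem stmt_PVGeom2_final : Fermat.Agent.L.Pivot.Stmt_PVGeom2 :=
  H59.stmt_PVGeom2_of_pvDiv stmt_PVDIV_final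

end Fermat.Agent.L.Pivot.Geom
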