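import Fermat.Agent.GTor.Clo.H96_RatioCusp
import Fermat.Agent.RED.ES.H95_NormEmb
import Fermat.Agent.S41.H19_Transfer
import Fermat.Agent.Lib.HeckeComm.H2_NormBC
import Fermat.Prelude.Def_ModularCurve_HeckeOperator

/-!
# PIVOT, PV-GEOM, leaf PVG-B2 (helper24), part 2: the norm along `α` in the Galois closure over `ℂ`

`M`, `q` arbitrary, `α = heckeAlphaBar ℂ M q : F_M → F_{Mq}` (inclusion), `L = LN (M q)` the
Galois closure of `F_{Mq} / ℂ(j)` of `GTor/Clo`.

* `piN_phi_alpha_of_mem_Gamma0` : `Γ₀(M)` fixes `phi (α x)`;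
* `mem_Gamma0_of_piN_phi_alpha` : an element of `SL₂(ℤ)` fixing `phi (α j_M)` lies in `Γ₀(M)`;
* `phi_norm_alpha` : for a system `t` of representatives of `Γ₀(M) / Γ₀(M q)`:
  `phi (α (N_α y)) = ∏ i, piN (t i) (phi y)`.
-/

set_option autoImplicit false
set_option linter.style.haveILetI false
set_option linter.unusedSectionVars false

open UpperHalfPlane CongruenceSubgroup ModularCurve AlgebraicCurve
open scoped MatrixGroups

noncomputable section

namespace Fermat.Agent.L.Pivot.Geom.H24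

open Fermat.Agent.GTor.Clo Fermat.Agent.S41 Fermat.Agent.S41.H19 Fermat.Agent.Lib.HeckeComm

variable (M q : ℕ) [NeZero M] [NeZero q]

/-- `α` over `ℂ` (in the vocabulary of `GTor/Clo`). -/
def alphaC : FN M →ₐ[Kbar] FN (M * q) := heckeAlphaBar Kbar M q

theorem coe_alphaC (x : FN M) : ((alphaC M q x : FN (M * q)) : LaurentSeries Kbar) = x :=
  coe_heckeAlphaBar M q x

theorem alphaC_jdF (d : ℕ) [NeZero d] (hd : d ∣ M) :
    alphaC M q (jdF M d hd) = jdF (M * q) d (hd.trans (dvd_mul_right M q)) :=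
  Subtype.ext rfl

theorem alphaC_jF : alphaC M q (jF M) = jF (M * q) := Subtype.ext rfl

/-- `Γ₀(M)` fixes `j (d τ)`, `d ∣ M`, in `Atil (M q)`. -/
theorem smul_jdA_mul_of_mem_Gamma0 (d : ℕ) (hd : 0 < d) (hdM : d ∣ M) (γ : SL(2, ℤ))
    (hγ : γ ∈ Gamma0 M) : γ • jdA (M * q) d = jdA (M * q) d := by
  have h1 := congrArg (fun f : Atil M => (f : Fermat.Agent.S24.Hol))
    (smul_jdA_of_mem_Gamma0 M d hd hdM γ hγ)
  simp only [coe_smul_Atil, jdA_coe M d hd hdM] at h1
  apply Subtype.ext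
  rw [coe_smul_Atil, jdA_coe (M * q) d hd (hdM.trans (dvd_mul_right M q))]
  exact h1

/-- **`Γ₀(M)` fixes the image of `F_M` in the closure of level `M q`.** -/
theorem piN_phi_alpha_of_mem_Gamma0 (γ : SL(2, ℤ)) (hγ : γ ∈ Gamma0 M) (y : FN M) :
    piN (M * q) γ (phi (M * q) (alphaC M q y)) = phi (M * q) (alphaC M q y) := by
  let ψ : FN M →ₐ[Kbar] LN (M * q) := (phi (M * q)).comp (alphaC M q)
  have hψ : ∀ y, ψ y = phi (M * q) (alphaC M q y) := fun _ => rfl
  have hmul : ∀ a b : FN M, ψ (a * b) = ψ a * ψ b := fun a b => ψ.toRingHom.map_mul a b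
  have hadd : ∀ a b : FN M, ψ (a + b) = ψ a + ψ b := fun a b => ψ.toRingHom.map_add a b
  have hone : ψ 1 = 1 := ψ.toRingHom.map_one
  have hzero : ψ 0 = 0 := ψ.toRingHom.map_zero
  have hinv : ∀ a : FN M, ψ a⁻¹ = (ψ a)⁻¹ := fun a => map_inv₀ ψ.toRingHom a
  let S : IntermediateField Kbar (FN M) :=
    { carrier := {y | piN (M * q) γ (ψ y) = ψ y}
      mul_mem' := fun {a b} ha hb => by
        show piN (M * q) γ (ψ (a * b)) = ψ (a * b)
        have ha' : piN (M * q) γ (ψ a) = ψ a := ha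
        have hb' : piN (M * q) γ (ψ b) = ψ b := hb
        rw [hmul, map_mul, ha', hb']
      one_mem' := by
        show piN (M * q) γ (ψ 1) = ψ 1
        rw [hone, map_one]
      add_mem' := fun {a b} ha hb => by
        show piN (M * q) γ (ψ (a + b)) = ψ (a + b)
        have ha' : piN (M * q) γ (ψ a) = ψ a := ha
        have hb' : piN (M * q) γ (ψ b) = ψ b := hb
        rw [hadd, map_add, ha', hb']
      zero_mem' := by
        show piN (M * q) γ (ψ 0) = ψ 0
        rw [hzero, map_zero]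
      algebraMap_mem' := fun c => by
        show piN (M * q) γ (ψ (algebraMap Kbar (FN M) c)) = ψ (algebraMap Kbar (FN M) c)
        rw [ψ.commutes c, IsScalarTower.algebraMap_apply Kbar EN (LN (M * q))]
        exact (piN (M * q) γ).commutes _
      inv_mem' := fun a ha => by
        show piN (M * q) γ (ψ a⁻¹) = ψ a⁻¹
        have ha' : piN (M * q) γ (ψ a) = ψ a := ha
        rw [hinv, map_inv₀, ha'] }
  have hS : S = ⊤ := by
    rw [eq_top_iff, ← adjoin_jdF M, IntermediateField.adjoin_le_iff]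
    rintro _ ⟨d, hd0, hd, rfl⟩
    show piN (M * q) γ (ψ (jdF M d hd)) = ψ (jdF M d hd)
    rw [hψ, alphaC_jdF, piN_phi_jdF,
      smul_jdA_mul_of_mem_Gamma0 M q d (Nat.pos_of_ne_zero (NeZero.ne d)) hd γ hγ, phi_jdF]
  have : y ∈ S := by rw [hS]; exact IntermediateField.mem_top
  exact this

/-- An element of `SL₂(ℤ)` fixing `phi (α j_M)` lies in `Γ₀(M)`. -/
theorem mem_Gamma0_of_piN_phi_alpha (γ : SL(2, ℤ))
    (h : piN (M * q) γ (phi (M * q) (alphaC M q (jdF M M dvd_rfl)))
      = phi (M * q) (alphaC M q (jdF M M dvd_rfl))) : γ ∈ Gamma0 M := by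
  rw [alphaC_jdF, piN_phi_jdF, phi_jdF] at h
  have h2 := IsFractionRing.injective (AT (M * q)) (LN (M * q)) h
  have h3 : γ • jdA (M * q) M = jdA (M * q) M := (toAT (M * q)).injective h2
  apply mem_Gamma0_of_smul_jdA
  have hM : 0 < M := Nat.pos_of_ne_zero (NeZero.ne M)
  have h4 := congrArg (fun f : Atil (M * q) => (f : Fermat.Agent.S24.Hol)) h3
  simp only [coe_smul_Atil, jdA_coe (M * q) M hM (dvd_mul_right M q)] at h4
  apply Subtype.ext
  rw [coe_smul_Atil, jdA_coe M M hM dvd_rfl]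
  exact h4

/-! ### The algebra structures -/

/-- `ℂ(j) → F_{Mq}` factors through `α`. -/
theorem algebraMap_EN_alpha (y : EN) :
    algebraMap EN (FN (M * q)) y = alphaC M q (algebraMap EN (FN M) y) := by
  have hp : ∀ p : Polynomial Kbar, algebraMap EN (FN (M * q)) (Polynomial.aeval tE p)
      = alphaC M q (algebraMap EN (FN M) (Polynomial.aeval tE p)) := by
    intro p
    rw [← Polynomial.aeval_algebraMap_apply, ← Polynomial.aeval_algebraMap_apply, tE_map_FN,
      tE_map_FN, ← Polynomial.aeval_algHom_apply, alphaC_jF]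
  obtain ⟨p, r, -, rfl⟩ := tE_gen y
  rw [map_div₀, map_div₀, map_div₀, hp, hp]

/-- The norm along `α`, over `ℂ`. -/
def normAlphaC (y : FN (M * q)) : FN M := normAlongHom (alphaC M q).toRingHom y

/-- **The norm along `α` in the Galois closure.** -/
theorem phi_norm_alpha {I : Type} [Fintype I] (t : I → Gamma0 M) (ht : IsReps (inclG M q) t)
    (y : FN (M * q)) :
    phi (M * q) (alphaC M q (normAlphaC M q y))
      = ∏ i, piN (M * q) ((t i : Gamma0 M) : SL(2, ℤ)) (phi (M * q) y) := by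
  letI algF : Algebra (FN M) (FN (M * q)) := (alphaC M q).toRingHom.toAlgebra
  letI algL : Algebra (FN M) (LN (M * q)) :=
    ((phi (M * q)).toRingHom.comp (alphaC M q).toRingHom).toAlgebra
  haveI tow : IsScalarTower (FN M) (FN (M * q)) (LN (M * q)) :=
    IsScalarTower.of_algebraMap_eq fun x => rfl
  haveI towE : IsScalarTower EN (FN M) (LN (M * q)) :=
    IsScalarTower.of_algebraMap_eq fun x => by
      rw [IsScalarTower.algebraMap_apply EN (FN (M * q)) (LN (M * q)), algebraMap_EN_alpha]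
      rfl
  haveI finL : FiniteDimensional (FN M) (LN (M * q)) :=
    Module.Finite.of_restrictScalars_finite EN (FN M) (LN (M * q))
  haveI galL : IsGalois (FN M) (LN (M * q)) := IsGalois.tower_top_of_isGalois EN (FN M) (LN (M * q))
  haveI : CharZero (FN M) := charZero_of_injective_algebraMap (algebraMap Kbar (FN M)).injective
  let ρ : FN (M * q) →ₐ[FN M] LN (M * q) := IsScalarTower.toAlgHom (FN M) (FN (M * q)) (LN (M * q))
  have hρ : ∀ z, ρ z = phi (M * q) z := fun _ => rfl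
  haveI finF : FiniteDimensional (FN M) (FN (M * q)) :=
    Fermat.Agent.RED.H95.finiteDimensional_of_algHom ρ
  haveI : Algebra.IsSeparable (FN M) (FN (M * q)) := inferInstance
  let σ : I → (LN (M * q) →ₐ[FN M] LN (M * q)) := fun i =>
    { (piN (M * q) ((t i : Gamma0 M) : SL(2, ℤ)) : LN (M * q) →+* LN (M * q)) with
      commutes' := fun x => piN_phi_alpha_of_mem_Gamma0 M q _ (t i).2 x }
  have hσ : ∀ i z, σ i z = piN (M * q) ((t i : Gamma0 M) : SL(2, ℤ)) z := fun _ _ => rfl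
  have hcover : ∀ τ : LN (M * q) →ₐ[FN M] LN (M * q), ∃ c, τ.comp ρ = (σ c).comp ρ := by
    intro τ
    let τE : LN (M * q) →ₐ[EN] LN (M * q) := τ.restrictScalars EN
    let τ' : LN (M * q) ≃ₐ[EN] LN (M * q) :=
      AlgEquiv.ofBijective τE (Algebra.IsAlgebraic.algHom_bijective τE)
    obtain ⟨γ, hγ⟩ := piN_surjective (M * q) τ'
    have hγ' : ∀ z, piN (M * q) γ z = τ z := fun z => by rw [hγ]; rfl
    have hfix : γ ∈ Gamma0 M := by
      apply mem_Gamma0_of_piN_phi_alpha M q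
      rw [hγ']
      exact τ.commutes (jdF M M dvd_rfl)
    obtain ⟨c, κ, hκ⟩ := ht.surj ⟨γ, hfix⟩
    refine ⟨c, ?_⟩
    ext z
    rw [AlgHom.comp_apply, AlgHom.comp_apply, hσ, hρ, ← hγ']
    have h1 : γ = ((t c : Gamma0 M) : SL(2, ℤ)) * ((κ : Gamma0 (M * q)) : SL(2, ℤ)) := by
      have h2 := congrArg (fun g : Gamma0 M => (g : SL(2, ℤ))) hκ
      simp only [Subgroup.coe_mul, Subgroup.coe_inv] at h2
      have h3 : ((κ : Gamma0 (M * q)) : SL(2, ℤ)) = ((t c : Gamma0 M) : SL(2, ℤ))⁻¹ * γ := h2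
      rw [h3, mul_inv_cancel_left]
    rw [h1, map_mul, AlgEquiv.mul_apply, piN_phi_of_mem_Gamma0 (M * q) _ κ.2]
  have hinj : Function.Injective fun c => (σ c).comp ρ := by
    intro c c' hcc
    apply ht.inj
    refine ⟨⟨((t c : Gamma0 M) : SL(2, ℤ))⁻¹ * ((t c' : Gamma0 M) : SL(2, ℤ)), ?_⟩, ?_⟩
    · rw [← piN_comap (M * q), Subgroup.mem_comap, IntermediateField.mem_fixingSubgroup_iff]
      rintro _ ⟨z, rfl⟩
      have h1 := congrArg (fun f : FN (M * q) →ₐ[FN M] LN (M * q) => f z) hcc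
      simp only [AlgHom.comp_apply, hσ, hρ] at h1
      show piN (M * q) _ (phi (M * q) z) = phi (M * q) z
      rw [map_mul, AlgEquiv.mul_apply, ← h1, map_inv, AlgEquiv.aut_inv,
        AlgEquiv.symm_apply_apply]
    · apply Subtype.ext
      rfl
  have key := Fermat.Agent.RED.H95.norm_eq_prod_of_cover ρ σ hcover hinj y
  exact key

end Fermat.Agent.L.Pivot.Geom.H24
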