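import Fermat.Agent.L.Pivot.Geom.H24_B2Prod
import Fermat.Agent.L.Pivot.Geom.H24_B2Clo

/-!
# PIVOT, PV-GEOM, leaf PVG-B2 (helper24), part 3: the character of the norm along `α` (over `ℂ`)

* `hasChar_normAlpha` : if `f' ∈ F_ℂ(M q)` has character `φ` then `N_α f' ∈ F_ℂ(M)` has character
  `cor1 φ` (the transfer of `φ` from `Γ₀(M q)` to `Γ₀(M)`).

Proof: `phi f' = a / b` in the closure, `a B = b A` on `ℍ` (`Clo.H96.ratio_core`), slash by the
coset representatives and multiply (`phi_norm_alpha`), compare expansions at `∞`.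
-/

set_option autoImplicit false
set_option linter.style.haveILetI false
set_option linter.unusedSectionVars false

open UpperHalfPlane ModularForm CongruenceSubgroup ModularCurve AlgebraicCurve
open scoped MatrixGroups ModularForm Manifold

noncomputable section

namespace Fermat.Agent.L.Pivot.Geom.H24

open Fermat.Agent.GTor Fermat.Agent.GTor.Clo Fermat.Agent.GTor.Clo.H96 Fermat.Agent.S24
  Fermat.Agent.S41 Fermat.Agent.S41.H19

/-- The range of `inclG` has finite index. -/
theorem finiteIndex_inclG_h24 (M q : ℕ) [NeZero M] [NeZero q] :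
    (inclG M q).range.FiniteIndex := by
  have h1 : (inclG M q).range = (Gamma0 (M * q)).subgroupOf (Gamma0 M) :=
    Subgroup.inclusion_range (gamma0_mul_le M q)
  rw [h1]
  infer_instance

/-- A modular form on `Γ₀(M)` has an expansion in `u = exp (2 π i τ / N)` for every `N`. -/
theorem hasUExp_modularForm_level (M N : ℕ) [NeZero M] [NeZero N] {k : ℤ}
    (A : ModularForm (Gamma0 M) k) :
    HasUExp N (A : ℍ → ℂ) (qExpand ℂ N (qLaurent A)) := by
  apply hasUExp_qExpand
  have hX : Fermat.Agent.GTor.H96.IsCuspRegular ((1 : ℕ) : ℝ) ((A : ℍ → ℂ)) := by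
    rw [Nat.cast_one]
    exact ⟨SlashInvariantFormClass.periodic_comp_ofComplex A
      (CongruenceSubgroup.one_mem_strictPeriods_Gamma0 M), A.holo',
      ModularFormClass.bdd_at_infty A⟩
  have h := hasUExp_of_isCuspRegular 1 hX
  rw [Nat.cast_one] at h
  exact h

/-- The value of a product in `AT N`. -/
theorem valAT_prod_apply (N : ℕ) {I : Type} [Fintype I] (a : I → AT N) (τ : ℍ) :
    ((valAT N (∏ i, a i) : Hol) : ℍ → ℂ) τ = ∏ i, ((valAT N (a i) : Hol) : ℍ → ℂ) τ := by
  let ev : Hol →+* ℂ :=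
    { toFun := fun f => (f : ℍ → ℂ) τ
      map_one' := rfl
      map_mul' := fun _ _ => rfl
      map_zero' := rfl
      map_add' := fun _ _ => rfl }
  have h := map_prod (ev.comp (valAT N)) a Finset.univ
  exact h

variable (M q n : ℕ) [NeZero M] [NeZero q]

/-- The expansion of an element of `α F_M` from its numerator and denominator in the closure. -/
theorem series_of_phi_alpha (x : Clo.FN M) (a' b' : AT (M * q))
    (h : phi (M * q) (alphaC M q x) * algebraMap (AT (M * q)) (LN (M * q)) b'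
      = algebraMap (AT (M * q)) (LN (M * q)) a') :
    qExpand ℂ (M * q) ((toFNLc M x : FNL ℂ M) : LaurentSeries ℂ) * uExpC (M * q) b'
      = uExpC (M * q) a' := by
  have h1 := congrArg (UL (M * q)) h
  rw [map_mul, UL_phi, UL_algebraMap, UL_algebraMap, qN_apply, coe_alphaC] at h1
  exact h1

/-- Numerator and denominator of a product of conjugates. -/
theorem phi_mul_prod {I : Type} [Fintype I] (t : I → SL(2, ℤ)) (f' : Clo.FN (M * q))
    (g : Clo.FN M) (a b : AT (M * q))
    (hab : phi (M * q) f' * algebraMap (AT (M * q)) (LN (M * q)) b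
      = algebraMap (AT (M * q)) (LN (M * q)) a)
    (hnorm : phi (M * q) (alphaC M q g) = ∏ i, piN (M * q) (t i) (phi (M * q) f')) :
    phi (M * q) (alphaC M q g) * algebraMap (AT (M * q)) (LN (M * q)) (∏ i, t i • b)
      = algebraMap (AT (M * q)) (LN (M * q)) (∏ i, t i • a) := by
  rw [hnorm, map_prod, map_prod, ← Finset.prod_mul_distrib]
  refine Finset.prod_congr rfl fun i _ => ?_
  rw [← piN_algebraMap, ← piN_algebraMap, ← map_mul, hab]

/-- The identity `a B = b A` on `ℍ`, slashed and multiplied over a family of matrices. -/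
theorem prod_slash_identity {I : Type} [Fintype I] (t : I → SL(2, ℤ)) (N : ℕ) (k : ℤ)
    (a b : AT N) (A B : ℍ → ℂ)
    (hcore : ∀ τ : ℍ, ((valAT N a : Hol) : ℍ → ℂ) τ * B τ = ((valAT N b : Hol) : ℍ → ℂ) τ * A τ)
    (τ : ℍ) :
    ((valAT N (∏ i, t i • a) : Hol) : ℍ → ℂ) τ * cosetProd k t B τ
      = ((valAT N (∏ i, t i • b) : Hol) : ℍ → ℂ) τ * cosetProd k t A τ := by
  rw [cosetProd_apply, cosetProd_apply, valAT_prod_apply, valAT_prod_apply,
    ← Finset.prod_mul_distrib, ← Finset.prod_mul_distrib]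
  refine Finset.prod_congr rfl fun i _ => ?_
  rw [valAT_smul, valAT_smul, Hol.smul_apply, Hol.smul_apply, ModularForm.SL_slash_apply,
    ModularForm.SL_slash_apply, ← mul_assoc, ← mul_assoc, hcore]

theorem smul_AT_ne_zero (N : ℕ) (γ : SL(2, ℤ)) {b : AT N} (hb : b ≠ 0) : γ • b ≠ 0 := by
  intro h0
  apply hb
  have h1 : γ⁻¹ • (γ • b) = γ⁻¹ • (0 : AT N) := by rw [h0]
  rwa [inv_smul_smul, smul_zero] at h1

/-- **The character of a function whose image in the closure is the product of the conjugates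
of `f'`.** -/
theorem hasChar_of_phi_prod {I : Type} [Fintype I] [Nonempty I] (t : I → Gamma0 M)
    (ht : IsReps (inclG M q) t) (f' : Clo.FN (M * q))
    (φ : Additive (Gamma0 (M * q)) →+ ZMod n)
    (h : HasChar (M * q) n (toFNLc (M * q) f') φ) (g : Clo.FN M)
    (hnorm : phi (M * q) (alphaC M q g) = ∏ i, piN (M * q) (coeT t i) (phi (M * q) f')) :
    HasChar M n (toFNLc M g) (cor1 M q (ZMod n) φ) := by
  obtain ⟨k, R, B, hR, hB, hq⟩ := h
  -- the modular forms `Rⁿ`, `Bⁿ`
  have hBt : IsTwistedForm (M * q) n k 0 (B : ℍ → ℂ) := H56.isTwistedForm_of_modularForm n B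
  obtain ⟨A₁, hA₁⟩ : ∃ A₁ : ModularForm (Gamma0 (M * q)) ((n : ℤ) * k),
      (A₁ : ℍ → ℂ) = fun z => R z ^ n := ⟨H56.toModularForm hR.pow, rfl⟩
  obtain ⟨B₁, hB₁⟩ : ∃ B₁ : ModularForm (Gamma0 (M * q)) ((n : ℤ) * k),
      (B₁ : ℍ → ℂ) = fun z => (B : ℍ → ℂ) z ^ n := ⟨H56.toModularForm hBt.pow, rfl⟩
  have hq' : qLaurent A₁ = ((toFNLc (M * q) f' : FNL ℂ (M * q)) : LaurentSeries ℂ) * qLaurent B₁ := by
    rw [hA₁, hB₁]
    exact hq
  -- numerator and denominator in the closure
  obtain ⟨a, b, hb, hab⟩ := IsFractionRing.div_surjective (A := AT (M * q)) (phi (M * q) f')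
  have hb0 : b ≠ 0 := nonZeroDivisors.ne_zero hb
  have hbL : algebraMap (AT (M * q)) (LN (M * q)) b ≠ 0 :=
    IsFractionRing.to_map_ne_zero_of_mem_nonZeroDivisors hb
  have hab' : phi (M * q) f' * algebraMap (AT (M * q)) (LN (M * q)) b
      = algebraMap (AT (M * q)) (LN (M * q)) a := by
    rw [← hab, div_mul_cancel₀ _ hbL]
  have hcore := ratio_core (M * q) f' A₁ B₁ hq' a b hab'
  rw [hA₁, hB₁] at hcore
  -- the products
  have hb'0 : (∏ i, coeT t i • b) ≠ 0 :=
    Finset.prod_ne_zero_iff.mpr fun i _ => smul_AT_ne_zero (M * q) _ hb0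
  have hab'' := phi_mul_prod M q (coeT t) f' g a b hab' hnorm
  have hser1 := series_of_phi_alpha M q g _ _ hab''
  have hprod : ∀ τ : ℍ, ((valAT (M * q) (∏ i, coeT t i • a) : Hol) : ℍ → ℂ) τ
        * (fun z => cosetProd k (coeT t) (B : ℍ → ℂ) z ^ n) τ
      = ((valAT (M * q) (∏ i, coeT t i • b) : Hol) : ℍ → ℂ) τ
        * (fun z => cosetProd k (coeT t) R z ^ n) τ := by
    intro τ
    rw [← cosetProd_pow, ← cosetProd_pow]
    exact prod_slash_identity (coeT t) (M * q) ((n : ℤ) * k) a b _ _ hcore τ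
  -- modular forms of level `M`
  have hR' := isTwistedForm_cosetProd t ht hR
  have hB' := isTwistedForm_cosetProd_zero n t ht B
  obtain ⟨A₂, hA₂⟩ : ∃ A₂ : ModularForm (Gamma0 M)
      ((n : ℤ) * (k * (Fintype.card I : ℤ))),
      (A₂ : ℍ → ℂ) = fun z => cosetProd k (coeT t) R z ^ n := ⟨H56.toModularForm hR'.pow, rfl⟩
  obtain ⟨B₂, hB₂⟩ : ∃ B₂ : ModularForm (Gamma0 M)
      ((n : ℤ) * (k * (Fintype.card I : ℤ))),
      (B₂ : ℍ → ℂ) = fun z => cosetProd k (coeT t) (B : ℍ → ℂ) z ^ n :=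
    ⟨H56.toModularForm hB'.pow, rfl⟩
  have e1 := (hasUExp_valAT (M * q) (∏ i, coeT t i • a)).mul
    (hasUExp_modularForm_level M (M * q) B₂)
  have e2 := (hasUExp_valAT (M * q) (∏ i, coeT t i • b)).mul
    (hasUExp_modularForm_level M (M * q) A₂)
  rw [hB₂] at e1
  rw [hA₂] at e2
  have hser2 := (e1.congr hprod).unique e2
  rw [← hser1] at hser2
  -- cancel
  have hub : uExpC (M * q) (∏ i, coeT t i • b) ≠ 0 := by
    intro h0
    exact hb'0 (uExpT_injective (M * q) (by rw [map_zero]; exact h0))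
  have hser3 : qExpand ℂ (M * q)
      (((toFNLc M g : FNL ℂ M) : LaurentSeries ℂ)
        * qLaurent (fun z => cosetProd k (coeT t) (B : ℍ → ℂ) z ^ n))
      = qExpand ℂ (M * q) (qLaurent (fun z => cosetProd k (coeT t) R z ^ n)) := by
    apply mul_left_cancel₀ hub
    rw [map_mul]
    linear_combination hser2
  have hfin := ModularCurve.qExpand_injective (R := ℂ) (N := M * q) hser3
  exact hasChar_cosetProd t ht hR hB _ hfin.symm

/-- **The character of the norm along `α`.** -/
theorem hasChar_normAlpha (f' : Clo.FN (M * q)) (φ : Additive (Gamma0 (M * q)) →+ ZMod n)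
    (h : HasChar (M * q) n (toFNLc (M * q) f') φ) :
    HasChar M n (toFNLc M (normAlphaC M q f')) (cor1 M q (ZMod n) φ) := by
  classical
  haveI hfi : (inclG M q).range.FiniteIndex := finiteIndex_inclG_h24 M q
  letI : Fintype (Gamma0 M ⧸ (inclG M q).range) := (inclG M q).range.fintypeQuotientOfFiniteIndex
  haveI : Nonempty (Gamma0 M ⧸ (inclG M q).range) := ⟨((1 : Gamma0 M) : Gamma0 M ⧸ _)⟩
  exact hasChar_of_phi_prod M q n (fun x : Gamma0 M ⧸ (inclG M q).range => x.out)
    (isReps_out (inclG M q)) f' φ h _ (phi_norm_alpha M q _ (isReps_out (inclG M q)) f')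

end Fermat.Agent.L.Pivot.Geom.H24
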