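import Fermat.Agent.L.Pivot.Geom.H24_B2BC
import Fermat.Agent.L.Pivot.Geom.H24_B2Ratio
import Fermat.Agent.S36.H44_PushComm
import Fermat.Agent.GTor.TateDefs

/-!
# PIVOT, PV-GEOM, leaf PVG-B2 (helper24), part 5: assembly

* `torChar_push` : generic: if the norm along `p : F_M → F_{Mq}` transports characters `φ ↦ ψ φ`
  (after base change to `ℂ`), then `p_*` transports `TorChar`;
* `torChar_alphaPush` : **the `α` half of PVG-B2**:
  `TorChar (M q) n ι x φ → TorChar M n ι (α_* x) (cor1 φ)` (all `M`, `q`).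
-/

set_option autoImplicit false
set_option linter.style.haveILetI false
set_option linter.unusedSectionVars false

open ModularCurve AlgebraicCurve CongruenceSubgroup
open scoped MatrixGroups

noncomputable section

namespace Fermat.Agent.L.Pivot.Geom.H24

open Fermat.Agent.GTor Fermat.Agent.GTor.Clo Fermat.Agent.GTor.Clo.H96 Fermat.Agent.Lib.HeckeComm

local notation "Kb" => AlgebraicClosure ℚ

variable (M q n : ℕ) [NeZero M] [NeZero q]

/-- Generic assembly: transport of `TorChar` along a push-forward. -/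
theorem torChar_push (ι : Kb →+* ℂ)
    (p : Fermat.Agent.S24.FN M →ₐ[Kb] Fermat.Agent.S24.FN (M * q))
    (hp : p.toRingHom.IsIntegral) (hfin : FiniteAlong Kb p) (hN : NormFormulaAlong Kb p hfin)
    (ψ : (Additive (Gamma0 (M * q)) →+ ZMod n) → (Additive (Gamma0 M) →+ ZMod n))
    (hch : ∀ (f : Fermat.Agent.S24.FN (M * q)) (φ : Additive (Gamma0 (M * q)) →+ ZMod n),
      f ≠ 0 → HasChar (M * q) n (toFNLc (M * q) (bcC ι (M * q) f)) φ →
        HasChar M n (toFNLc M (bcC ι M (normAlongHom p.toRingHom f))) (ψ φ))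
    (x : JZero (M * q)) (φ : Additive (Gamma0 (M * q)) →+ ZMod n)
    (h : TorChar (M * q) n ι x φ) :
    TorChar M n ι (Fermat.Agent.S36.H44.pic0Push p hp hfin hN x) (ψ φ) := by
  obtain ⟨D, f, f', hf, hx, hord, hco, hchar⟩ := h
  have hf' : f' = toFNLc (M * q) (bcC ι (M * q) f) := by
    apply Subtype.ext
    ext m
    rw [hco m]
    rfl
  refine ⟨Fermat.Agent.S36.H44.degZeroPush p hp D, normAlongHom p.toRingHom f,
    toFNLc M (bcC ι M (normAlongHom p.toRingHom f)),
    Fermat.Agent.S36.H44.normAlongHom_ne_zero p hfin hf, ?_, ?_, ?_, ?_⟩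
  · rw [hx]
    rfl
  · intro v
    have hE : ∀ w : Place Kb (Fermat.Agent.S24.FN (M * q)),
        ((n : ℤ) • (D : Divisor Kb (Fermat.Agent.S24.FN (M * q)))) w = w.ord f := fun w => by
      rw [Finsupp.smul_apply, smul_eq_mul]
      exact hord w
    have h1 := Fermat.Agent.S36.H44.pushforwardAlong_ord p hp hfin hN hf _ hE v
    rw [map_zsmul, Finsupp.smul_apply, smul_eq_mul] at h1
    exact h1
  · intro m
    rfl
  · rw [hf'] at hchar
    exact hch f φ hf hchar

/-- **PVG-B2, the `α` half**: the Betti character of `α_* x` is `cor1 φ`. -/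
theorem torChar_alphaPush (ι : Kb →+* ℂ) (x : JZero (M * q))
    (φ : Additive (Gamma0 (M * q)) →+ ZMod n) (h : TorChar (M * q) n ι x φ) :
    TorChar M n ι (Fermat.Agent.S36.H44.alphaPush M q x)
      (Fermat.Agent.S41.cor1 M q (ZMod n) φ) := by
  refine torChar_push M q n ι (heckeAlphaBar Kb M q) _ _ _
    (fun φ => Fermat.Agent.S41.cor1 M q (ZMod n) φ) ?_ x φ h
  intro f φ _ hc
  rw [bcC_normAlpha]
  exact hasChar_normAlpha M q n _ φ hc

end Fermat.Agent.L.Pivot.Geom.H24
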