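import Fermat.Agent.L.Pivot.Geom.H24_B2TowerC
import Fermat.Agent.Lib.HeckeComm.H2_NormBC
import Fermat.Agent.Lib.HeckeComm.H2_Deg
import Fermat.Agent.Lib.HeckeComm.H44_GenJ
import Fermat.Agent.GTor.H75_DescDefs

/-!
# PIVOT, PV-GEOM, leaf PVG-B2 (helper24), part 4b: base change `ℚ̄ → ℂ` of the norm along `α`

`bcC ι N : F_{ℚ̄,N} → F_{ℂ,N}` is the coefficientwise base change.  Main result:

* `bcC_normAlpha` : `bcC ι M (Norm_α f) = Norm_α (bcC ι (M q) f)`.
-/

set_option autoImplicit false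
set_option linter.style.haveILetI false
set_option linter.unusedSectionVars false

open ModularCurve AlgebraicCurve IntermediateField
open scoped MatrixGroups

noncomputable section

namespace Fermat.Agent.L.Pivot.Geom.H24

open Fermat.Agent.GTor.Clo

local notation "Kb" => AlgebraicClosure ℚ

/-- The coefficientwise base change `F_{ℚ̄,N} → F_{ℂ,N}` along `ι`. -/
def bcC (ι : Kb →+* ℂ) (N : ℕ) : Fermat.Agent.S24.FN N →+* GTor.Clo.FN N :=
  Fermat.Agent.GTor.H75.bcHom (L₁ := Kb) (L₂ := Kbar) ι (modularFunctionFieldFull N)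

theorem coe_bcC (ι : Kb →+* ℂ) (N : ℕ) (x : Fermat.Agent.S24.FN N) :
    ((bcC ι N x : GTor.Clo.FN N) : LaurentSeries Kbar) = coeffMap ι (x : LaurentSeries Kb) := rfl

theorem bcC_jdF (ι : Kb →+* ℂ) (N : ℕ) [NeZero N] (d : ℕ) [NeZero d] (hd : d ∣ N) :
    bcC ι N (Fermat.Agent.S24.jdF N d hd) = GTor.Clo.jdF N d hd :=
  Subtype.ext (Fermat.Agent.GTor.H75.coeffMap_coeffEmb' (L₁ := Kb) (L₂ := Kbar) ι _)

variable (M q : ℕ) [NeZero M] [NeZero q]

theorem coe_alphaQ (a : Fermat.Agent.S24.FN M) :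
    ((heckeAlphaBar Kb M q a : Fermat.Agent.S24.FN (M * q)) : LaurentSeries Kb) = a :=
  Fermat.Agent.Lib.HeckeComm.coe_inclFN M (M * q) (dvd_mul_right M q) a

theorem bcC_alpha (ι : Kb →+* ℂ) (a : Fermat.Agent.S24.FN M) :
    bcC ι (M * q) ((heckeAlphaBar Kb M q).toRingHom a)
      = (alphaC M q).toRingHom (bcC ι M a) := by
  apply Subtype.ext
  show ((bcC ι (M * q) (heckeAlphaBar Kb M q a) : GTor.Clo.FN (M * q)) : LaurentSeries Kbar)
    = ((alphaC M q (bcC ι M a) : GTor.Clo.FN (M * q)) : LaurentSeries Kbar)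
  rw [coe_alphaC, coe_bcC, coe_bcC, coe_alphaQ]

theorem finrank_alpha_eq :
    (letI := (heckeAlphaBar Kb M q).toRingHom.toAlgebra;
      Module.finrank (Fermat.Agent.S24.FN M) (Fermat.Agent.S24.FN (M * q)))
      = (letI := (alphaC M q).toRingHom.toAlgebra; Module.finrank (GTor.Clo.FN M) (GTor.Clo.FN (M * q))) := by
  have h1 := Fermat.Agent.Lib.HeckeComm.stmt_Deg M (M * q) (dvd_mul_right M q)
  unfold Fermat.Agent.Lib.HeckeComm.Stmt_Deg at h1
  have h2 := finrank_alphaC_mul M q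
  have h3 := dedekindPsi_pos_h24 M
  exact Nat.eq_of_mul_eq_mul_right h3 (h1.trans h2.symm)

/-- **Base change of the norm along `α`**. -/
theorem bcC_normAlpha (ι : Kb →+* ℂ) (f : Fermat.Agent.S24.FN (M * q)) :
    bcC ι M (Fermat.Agent.Lib.HeckeComm.normAlongHom (heckeAlphaBar Kb M q).toRingHom f)
      = normAlphaC M q (bcC ι (M * q) f) := by
  refine Fermat.Agent.Lib.HeckeComm.normAlongHom_baseChange
    (heckeAlphaBar Kb M q).toRingHom (alphaC M q).toRingHom (bcC ι M) (bcC ι (M * q))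
    (bcC_alpha M q ι)
    (Fermat.Agent.Lib.HeckeComm.stmt_Fin M (M * q) (dvd_mul_right M q))
    (finite_alphaC M q)
    (Fermat.Agent.S24.jdF (M * q) (M * q) dvd_rfl)
    (Fermat.Agent.Lib.HeckeComm.stmt_GenJ M (M * q) (dvd_mul_right M q))
    ?_ (finrank_alpha_eq M q) f
  rw [bcC_jdF]
  exact adjoin_alphaC_jdF M q

end Fermat.Agent.L.Pivot.Geom.H24
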