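import Fermat.Agent.L.Pivot.Geom.H24_B2BetaDeg
import Fermat.Agent.L.Pivot.Geom.H24_B2BC
import Fermat.Agent.RED.ES.H95_NormEmb
import Fermat.Agent.GTor.H44_NormSeriesBC
import Fermat.Agent.S36.H44_Push

/-!
# PIVOT, PV-GEOM, leaf PVG-B2 (helper24), part 6d: the `q`-expansion of the norm along `β`

For a prime `q ∣ M`, `f ∈ F_{ℚ̄}(M q)` and `ι : ℚ̄ → ℂ`:

  `(ι (Norm_β f)) (q^q) = ∏_{j<q} (ι f) (ζ^j q)`,   `ζ = exp(2πi/q)`

(`qExpand_bc_normBeta`).  The `q` conjugates of `F(Mq)` over `β F(M)` are the twists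
`f ↦ f (ζ^j q)`; the degree is `q` (`finrank_beta_of_dvd`).
-/

set_option autoImplicit false
set_option linter.style.haveILetI false
set_option linter.unusedSectionVars false

open ModularCurve AlgebraicCurve
open scoped MatrixGroups

noncomputable section

namespace Fermat.Agent.L.Pivot.Geom.H24

open Fermat.Agent.GTor Fermat.Agent.GTor.H44 Fermat.Agent.Lib.HeckeComm

local notation "Kb" => AlgebraicClosure ℚ

theorem twistBy_qExpand_h24 {K : Type} [Field K] (ℓ : ℕ) [NeZero ℓ] {ζ : Kˣ} (hζ : ζ ^ ℓ = 1)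
    (x : LaurentSeries K) : twistBy ζ (qExpand K ℓ x) = qExpand K ℓ x := by
  ext m
  rw [twistBy_coeff]
  by_cases hm : (ℓ : ℤ) ∣ m
  · obtain ⟨k, rfl⟩ := hm
    have : ζ ^ ((ℓ : ℤ) * k) = 1 := by
      rw [zpow_mul, zpow_natCast, hζ, one_zpow]
    rw [this, Units.val_one, one_mul]
  · rw [qExpand_coeff_of_not_dvd ℓ _ hm, mul_zero]

variable (M q : ℕ) [NeZero M] [NeZero q]

/-- The embedding `F_{ℚ̄}(N) → ℂ((q))` given by `ι` on the coefficients. -/
def embC (ι : Kb →+* ℂ) (N : ℕ) : Fermat.Agent.S24.FN N →+* LaurentSeries ℂ :=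
  (coeffMap ι).comp (algebraMap (Fermat.Agent.S24.FN N) (LaurentSeries Kb))

theorem embC_apply (ι : Kb →+* ℂ) (N : ℕ) (x : Fermat.Agent.S24.FN N) :
    embC ι N x = coeffMap ι (x : LaurentSeries Kb) := rfl

/-- The conjugate `f ↦ (ι f) (ζ^j q)`. -/
def sigB (ι : Kb →+* ℂ) (j : ℕ) : Fermat.Agent.S24.FN (M * q) →+* LaurentSeries ℂ :=
  (twistBy (zetaUnit q ^ j)).comp (embC ι (M * q))

theorem sigB_apply (ι : Kb →+* ℂ) (j : ℕ) (x : Fermat.Agent.S24.FN (M * q)) :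
    sigB M q ι j x = twistBy (zetaUnit q ^ j) (coeffMap ι (x : LaurentSeries Kb)) := rfl

/-- The base embedding `f ↦ (ι f) (q^q)`. -/
def psiB (ι : Kb →+* ℂ) : Fermat.Agent.S24.FN M →+* LaurentSeries ℂ :=
  (qExpand ℂ q).comp (embC ι M)

theorem psiB_apply (ι : Kb →+* ℂ) (x : Fermat.Agent.S24.FN M) :
    psiB M q ι x = qExpand ℂ q (coeffMap ι (x : LaurentSeries Kb)) := rfl

theorem zetaUnit_pow_pow (j : ℕ) : (zetaUnit q ^ j) ^ q = 1 := by
  rw [← pow_mul, mul_comm, pow_mul, (isPrimitiveRoot_zetaUnit q).pow_eq_one, one_pow]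

theorem sigB_beta (ι : Kb →+* ℂ) (j : ℕ) (x : Fermat.Agent.S24.FN M) :
    sigB M q ι j (heckeBetaBar Kb M q x) = psiB M q ι x := by
  rw [sigB_apply, psiB_apply, coe_heckeBetaBar, ModularCurve.coeffMap_qExpand,
    twistBy_qExpand_h24 q (zetaUnit_pow_pow q j)]

theorem sigB_jF_coeff (ι : Kb →+* ℂ) (j : ℕ) :
    (sigB M q ι j (Fermat.Agent.S24.jF (M * q))).coeff (-1 : ℤ)
      = (((zetaUnit q ^ j) ^ (-1 : ℤ) : ℂˣ) : ℂ) := by
  rw [sigB_apply, twistBy_coeff]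
  have h1 : ((Fermat.Agent.S24.jF (M * q) : Fermat.Agent.S24.FN (M * q)) : LaurentSeries Kb)
      = coeffEmb Kb jq := rfl
  rw [h1, Fermat.Agent.GTor.H75.coeffMap_coeffEmb' (L₁ := Kb) (L₂ := ℂ) ι jq, coeffEmb_coeff,
    coeff_jq_neg_one, map_one, mul_one]

theorem sigB_injOn (ι : Kb →+* ℂ) {a b : ℕ} (ha : a < q) (hb : b < q)
    (h : sigB M q ι a = sigB M q ι b) : a = b := by
  have hval := congrArg (fun σ : Fermat.Agent.S24.FN (M * q) →+* LaurentSeries ℂ =>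
    (σ (Fermat.Agent.S24.jF (M * q))).coeff (-1 : ℤ)) h
  beta_reduce at hval
  rw [sigB_jF_coeff, sigB_jF_coeff] at hval
  have h1 : (zetaUnit q ^ a) ^ (-1 : ℤ) = (zetaUnit q ^ b) ^ (-1 : ℤ) := Units.ext hval
  rw [zpow_neg_one, zpow_neg_one, inv_inj] at h1
  exact (isPrimitiveRoot_zetaUnit q).pow_inj ha hb h1

/-- **The `q`-expansion of the norm along `β`**, `q ∣ M` prime. -/
theorem qExpand_bc_normBeta (hq : q.Prime) (hqM : q ∣ M) (ι : Kb →+* ℂ)
    (f : Fermat.Agent.S24.FN (M * q)) :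
    qExpand ℂ q (coeffMap ι
        ((normAlongHom (heckeBetaBar Kb M q).toRingHom f : Fermat.Agent.S24.FN M) :
          LaurentSeries Kb))
      = ∏ j ∈ Finset.range q, twistBy (zetaUnit q ^ j) (coeffMap ι (f : LaurentSeries Kb)) := by
  letI := (heckeBetaBar Kb M q).toRingHom.toAlgebra
  letI : Algebra (Fermat.Agent.S24.FN M) (LaurentSeries ℂ) := (psiB M q ι).toAlgebra
  haveI : FiniteDimensional (Fermat.Agent.S24.FN M) (Fermat.Agent.S24.FN (M * q)) :=
    Fermat.Agent.S36.H44.beta_finite M q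
  let σ' : Fin q → (Fermat.Agent.S24.FN (M * q) →ₐ[Fermat.Agent.S24.FN M] LaurentSeries ℂ) :=
    fun i => { sigB M q ι (i : ℕ) with commutes' := fun x => sigB_beta M q ι (i : ℕ) x }
  have hinj' : Function.Injective σ' := by
    intro i j h
    apply Fin.ext
    apply sigB_injOn M q ι i.2 j.2
    refine RingHom.ext fun z => ?_
    exact congrArg (fun g : Fermat.Agent.S24.FN (M * q) →ₐ[Fermat.Agent.S24.FN M]
      LaurentSeries ℂ => g z) h
  have hcard : Fintype.card (Fin q)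
      = Module.finrank (Fermat.Agent.S24.FN M) (Fermat.Agent.S24.FN (M * q)) := by
    rw [Fintype.card_fin]
    exact (finrank_beta_of_dvd M q hq hqM).symm
  have key := Fermat.Agent.RED.H95.norm_eq_prod_of_injective σ' hinj' hcard f
  rw [← Fin.prod_univ_eq_prod_range]
  exact key

end Fermat.Agent.L.Pivot.Geom.H24
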