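import Fermat.Agent.L.Pivot.Geom.H24_B2BetaReps
import Fermat.Agent.L.Pivot.Geom.H24_B2BetaNorm
import Fermat.Agent.L.Pivot.Geom.H24_B2Asm
import Fermat.Agent.GTor.H44_HKan

/-!
# PIVOT, PV-GEOM, leaf PVG-B2 (helper24): the Betti characters of `α_* x` and `β_* x`

* `hasChar_normBeta` : the character of (the base change of) the norm along `β` is `cor2 φ`
  (`q ∣ M` prime);
* `torChar_betaPush` : **the `β` half**;
* `stmt_B2` : **PVG-B2**: for a prime `q ∣ M`,
  `TorChar (M q) n ι x φ → TorChar M n ι (α_* x) (cor1 φ) ∧ TorChar M n ι (β_* x) (cor2 φ)`.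
-/

set_option autoImplicit false
set_option linter.style.haveILetI false
set_option linter.unusedSectionVars false

open UpperHalfPlane ModularForm CongruenceSubgroup ModularCurve AlgebraicCurve
open scoped MatrixGroups ModularForm Manifold

noncomputable section

namespace Fermat.Agent.L.Pivot.Geom.H24

open Fermat.Agent.S23.H22 (Nice)
open Fermat.Agent.S28.H30 (pexp BPH)
open Fermat.Agent.GTor Fermat.Agent.GTor.H76 Fermat.Agent.GTor.H44 Fermat.Agent.GTor.Clo
  Fermat.Agent.GTor.Clo.H96 Fermat.Agent.Lib.HeckeComm Fermat.Agent.S41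

local notation "Kb" => AlgebraicClosure ℚ

/-! ### Expansions -/

section Exp

variable (q : ℕ) [NeZero q]

/-- `∏_{j<q} A ((z + j) / q)`. -/
def uComp (A : ℍ → ℂ) : ℍ → ℂ := ∏ j ∈ Finset.range q, fun z => A (heckeMatrix q j • z)

theorem pexp_uComp {A : ℍ → ℂ} (hA : Nice 1 A) :
    pexp q (uComp q A) = ∏ j ∈ Finset.range q, twistBy (zetaUnit q ^ j) (qLaurent A) := by
  have h1 : ∀ j ∈ Finset.range q, BPH q (fun z => A (heckeMatrix q j • z)) :=
    fun j _ => bph_comp_heckeMatrix q hA j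
  rw [uComp, Fermat.Agent.S28.H30.pexp_prod _ _ h1]
  exact Finset.prod_congr rfl fun j _ => pexp_comp_heckeMatrix q hA j

theorem qExpand_qLaurent_uComp {A : ℍ → ℂ} (hA : Nice 1 A) (hP : Nice 1 (uComp q A)) :
    qExpand ℂ q (qLaurent (uComp q A))
      = ∏ j ∈ Finset.range q, twistBy (zetaUnit q ^ j) (qLaurent A) := by
  rw [← pexp_uComp q hA]
  exact (Fermat.Agent.S28.H76.ofPS_qExpansion_natCast q hP).symm

/-- The constant `q^(-q n)`. -/
def uConst (n : ℕ) : ℂ := ((q : ℂ)⁻¹) ^ (q * n)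

theorem uConst_ne_zero (n : ℕ) : uConst q n ≠ 0 := by
  have h : (q : ℂ) ≠ 0 := by exact_mod_cast NeZero.ne q
  exact pow_ne_zero _ (inv_ne_zero h)

theorem uProd_pow_eq (k : ℤ) (n : ℕ) (R : ℍ → ℂ) :
    (fun z => uProd k q R z ^ n) = uConst q n • uComp q (fun z => R z ^ n) := by
  funext τ
  rw [uProd_apply, Pi.smul_apply, uComp, Finset.prod_apply, smul_eq_mul, Finset.prod_mul_distrib,
    Finset.prod_const, Finset.card_range, mul_pow, ← pow_mul, uConst, Finset.prod_pow]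

theorem uComp_eq (k : ℤ) (n : ℕ) (R : ℍ → ℂ) :
    uComp q (fun z => R z ^ n) = (uConst q n)⁻¹ • (fun z => uProd k q R z ^ n) := by
  rw [uProd_pow_eq, smul_smul, inv_mul_cancel₀ (uConst_ne_zero q n), one_smul]

end Exp

/-! ### The character of the norm along `β` -/

variable (M q n : ℕ) [NeZero M] [NeZero q]

theorem hasChar_normBeta (hq : q.Prime) (hqM : q ∣ M) (ι : Kb →+* ℂ)
    (f : Fermat.Agent.S24.FN (M * q)) (φ : Additive (Gamma0 (M * q)) →+ ZMod n)
    (h : HasChar (M * q) n (toFNLc (M * q) (bcC ι (M * q) f)) φ) :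
    HasChar M n (toFNLc M (bcC ι M (normAlongHom (heckeBetaBar Kb M q).toRingHom f)))
      (cor2 M q (ZMod n) φ) := by
  obtain ⟨k, R, B, hR, hB, hqe⟩ := h
  have hBt : IsTwistedForm (M * q) n k 0 (B : ℍ → ℂ) := H56.isTwistedForm_of_modularForm n B
  have hRn : Nice 1 (fun z => R z ^ n) := hR.nice_pow
  have hBn : Nice 1 (fun z => (B : ℍ → ℂ) z ^ n) := hBt.nice_pow
  have hUR : Nice 1 (uComp q (fun z => R z ^ n)) := by
    rw [uComp_eq q k n R]
    exact (isTwistedForm_uProd hq hqM hR).nice_pow.smul _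
  have hUB : Nice 1 (uComp q (fun z => (B : ℍ → ℂ) z ^ n)) := by
    rw [uComp_eq q k n (B : ℍ → ℂ)]
    exact (isTwistedForm_uProd hq hqM hBt).nice_pow.smul _
  have hqe' : qLaurent (fun z => R z ^ n)
      = coeffMap ι (f : LaurentSeries Kb) * qLaurent (fun z => (B : ℍ → ℂ) z ^ n) := hqe
  have key : qLaurent (uComp q (fun z => R z ^ n))
      = coeffMap ι ((normAlongHom (heckeBetaBar Kb M q).toRingHom f : Fermat.Agent.S24.FN M) :
          LaurentSeries Kb) * qLaurent (uComp q (fun z => (B : ℍ → ℂ) z ^ n)) := by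
    apply H44.qExpand_injective (K := ℂ) (ℓ := q)
    rw [map_mul, qExpand_qLaurent_uComp q hRn hUR, qExpand_qLaurent_uComp q hBn hUB, hqe',
      qExpand_bc_normBeta M q hq hqM ι f, ← Finset.prod_mul_distrib]
    exact Finset.prod_congr rfl fun j _ => map_mul _ _ _
  refine hasChar_uProd hq hqM hR hB _ ?_
  rw [uProd_pow_eq, uProd_pow_eq, qLaurent_smul _ hUR, qLaurent_smul _ hUB, key]
  show _ = coeffMap ι ((normAlongHom (heckeBetaBar Kb M q).toRingHom f : Fermat.Agent.S24.FN M) :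
          LaurentSeries Kb) * _
  ring

/-- **PVG-B2, the `β` half**: the Betti character of `β_* x` is `cor2 φ` (`q ∣ M` prime). -/
theorem torChar_betaPush (hq : q.Prime) (hqM : q ∣ M) (ι : Kb →+* ℂ) (x : JZero (M * q))
    (φ : Additive (Gamma0 (M * q)) →+ ZMod n) (h : TorChar (M * q) n ι x φ) :
    TorChar M n ι (Fermat.Agent.S36.H44.betaPush M q x) (cor2 M q (ZMod n) φ) := by
  refine torChar_push M q n ι (heckeBetaBar Kb M q) _ _ _
    (fun φ => cor2 M q (ZMod n) φ) ?_ x φ h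
  intro f φ _ hc
  exact hasChar_normBeta M q n hq hqM ι f φ hc

/-- **PVG-B2.** -/
theorem stmt_B2 (hq : q.Prime) (hqM : q ∣ M) (ι : Kb →+* ℂ) (x : JZero (M * q))
    (φ : Additive (Gamma0 (M * q)) →+ ZMod n) (h : TorChar (M * q) n ι x φ) :
    TorChar M n ι (Fermat.Agent.S36.H44.alphaPush M q x) (cor1 M q (ZMod n) φ) ∧
    TorChar M n ι (Fermat.Agent.S36.H44.betaPush M q x) (cor2 M q (ZMod n) φ) :=
  ⟨torChar_alphaPush M q n ι x φ h, torChar_betaPush M q n hq hqM ι x φ h⟩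

end Fermat.Agent.L.Pivot.Geom.H24
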