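import Fermat.Agent.NEB.OLD.H6_DegBeta

/-!
# PIVOT, PV-GEOM, leaf PVG-B2 (helper24), part 6a: the degree of `β` at a prime `q ∣ M`

`finrank_beta_of_dvd` : `[F₀(M q) : β F₀(M)] = q` for a prime `q ∣ M`
(same argument as `NEB.Geom.H70.finrankAlong_beta_of_dvd`, repeated here to keep the imports small).
-/

set_option autoImplicit false
set_option linter.style.haveILetI false
set_option linter.unusedSectionVars false

noncomputable section

open ModularCurve AlgebraicCurve

namespace Fermat.Agent.L.Pivot.Geom.H24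

open Fermat.Agent.S36.H44

local notation "Kb" => AlgebraicClosure ℚ

theorem finrank_alpha_ne_zero_h24 (M q : ℕ) [NeZero M] [NeZero q] (hq : q.Prime) :
    finrankAlong Kb (heckeAlphaBar Kb M q) ≠ 0 := by
  by_cases h : q ∣ M
  · rw [Fermat.Agent.NEB.OLD.H6.finrankAlong_alpha_of_dvd M q hq h]
    exact hq.ne_zero
  · rw [Fermat.Agent.RED.H95.finrankAlong_alpha hq h]
    exact Nat.succ_ne_zero q

/-- The degrees of the two degeneracy maps agree, for every level. -/
theorem finrank_beta_eq_alpha_h24 (q : ℕ) [NeZero q] (hq : q.Prime) :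
    ∀ (M : ℕ) [NeZero M],
      finrankAlong Kb (heckeBetaBar Kb M q) = finrankAlong Kb (heckeAlphaBar Kb M q) := by
  intro M
  induction M using Nat.strong_induction_on with
  | _ M ih =>
    intro hM
    by_cases h : q ∣ M
    · obtain ⟨M', rfl⟩ := h
      have hM'0 : M' ≠ 0 := fun h0 => by
        apply NeZero.ne (q * M')
        rw [h0, mul_zero]
      haveI : NeZero M' := ⟨hM'0⟩
      have hlt : M' < q * M' := by
        have := hq.one_lt
        nlinarith [Nat.pos_of_ne_zero hM'0]
      have hih := ih M' hlt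
      have hcomm : q * M' = M' * q := mul_comm q M'
      revert hM
      rw [hcomm]
      intro hM
      haveI : NeZero (M' * q * q) :=
        ⟨Nat.mul_ne_zero (NeZero.ne (M' * q)) (NeZero.ne q)⟩
      have hsq : (heckeBetaBar Kb (M' * q) q).toRingHom.comp (heckeAlphaBar Kb M' q).toRingHom
          = (heckeAlphaBar Kb (M' * q) q).toRingHom.comp (heckeBetaBar Kb M' q).toRingHom := by
        ext x
        simp only [RingHom.comp_apply, AlgHom.toRingHom_eq_coe, RingHom.coe_coe,
          coe_heckeBetaBar, coe_heckeAlphaBar]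
      have h1 := finrank_comp_h44 (heckeAlphaBar Kb M' q).toRingHom
        (heckeBetaBar Kb (M' * q) q).toRingHom
      have h2 := finrank_comp_h44 (heckeBetaBar Kb M' q).toRingHom
        (heckeAlphaBar Kb (M' * q) q).toRingHom
      rw [hsq, h2] at h1
      have e1 : finrankHom (heckeBetaBar Kb M' q).toRingHom
          = finrankHom (heckeAlphaBar Kb M' q).toRingHom := hih
      rw [e1] at h1
      have h0 : finrankHom (heckeAlphaBar Kb M' q).toRingHom ≠ 0 :=
        finrank_alpha_ne_zero_h24 M' q hq
      exact (Nat.eq_of_mul_eq_mul_left (Nat.pos_of_ne_zero h0) h1).symm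
    · rw [Fermat.Agent.RED.H95.finrankAlong_alpha hq h,
        Fermat.Agent.RED.H95.finrankAlong_beta hq h]

/-- `[F₀(M q) : β F₀(M)] = q` for a prime `q ∣ M`. -/
theorem finrank_beta_of_dvd (M q : ℕ) [NeZero M] [NeZero q] (hq : q.Prime) (hqM : q ∣ M) :
    finrankAlong Kb (heckeBetaBar Kb M q) = q := by
  rw [finrank_beta_eq_alpha_h24 q hq M]
  exact Fermat.Agent.NEB.OLD.H6.finrankAlong_alpha_of_dvd M q hq hqM

end Fermat.Agent.L.Pivot.Geom.H24
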