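import Fermat.Agent.L.Pivot.Geom.H24_B2Prod
import Fermat.Agent.S41.H19_RelMat

/-!
# PIVOT, PV-GEOM, leaf PVG-B2 (helper24), part 6b: the product over the cosets of `conjG`

For a family `t : I → Γ₀(M)` of representatives of the left cosets of `δ Γ₀(M q) δ⁻¹`
(`δ = diag(q, 1)`, the range of `conjG M q`) in `Γ₀(M)` put

  `conjProd k q t R = ∏ i, R ∣[k] ([1,0;0,q] * (t i)⁻¹)`.

* `isTwistedForm_conjProd` : if `R` is a twisted form of weight `k` on `Γ₀(M q)` with multiplier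
  `ζ^φ` then `conjProd k q t R` is a twisted form on `Γ₀(M)` with multiplier `ζ^(cor2 φ)`;
* `isReps_tRep` : for `q ∣ M` the translations `[1,-j;0,1]`, `j ∈ ℤ/q`, are representatives;
* `conjProd_tRep` : for them `conjProd k q t R = ∏_{j<q} R ∣[k] [1,j;0,q]`.
-/

set_option autoImplicit false
set_option linter.style.haveILetI false
set_option linter.unusedSectionVars false

open UpperHalfPlane ModularForm CongruenceSubgroup Matrix.SpecialLinearGroup
open scoped MatrixGroups ModularForm Manifold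
open P2MW.S_ModularForm_heckeT_slash_eq_self_of_mem_Gamma0.ModularForm.HeckeSlashInvariance

noncomputable section

namespace Fermat.Agent.L.Pivot.Geom.H24

open Fermat.Agent.GTor Fermat.Agent.S41 Fermat.Agent.S41.H19

/-! ### Matrix identities -/

theorem conjMat_real (q : ℕ) (hq : q ≠ 0) (A : Matrix (Fin 2) (Fin 2) ℤ) (hA : (q : ℤ) ∣ A 1 0) :
    (!![(1 : ℝ), ((0 : ℕ) : ℝ); 0, (q : ℝ)] : Matrix (Fin 2) (Fin 2) ℝ)
        * (algebraMap ℤ ℝ).mapMatrix (conjMat q A)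
      = (algebraMap ℤ ℝ).mapMatrix A * !![(1 : ℝ), ((0 : ℕ) : ℝ); 0, (q : ℝ)] := by
  have hq' : (q : ℤ) ≠ 0 := by exact_mod_cast hq
  obtain ⟨c, hc⟩ := hA
  ext i j
  fin_cases i <;> fin_cases j <;>
    simp [conjMat, Matrix.mul_apply, Fin.sum_univ_two, hc, Int.mul_ediv_cancel_left _ hq'] <;> ring

/-- `[1,0;0,q] * conjG h = h * [1,0;0,q]`. -/
theorem heckeMatrix_zero_mul_conjG (M q : ℕ) [NeZero q] (h : Gamma0 (M * q)) :
    heckeMatrix q 0 * mapGL ℝ ((conjG M q h : Gamma0 M) : SL(2, ℤ))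
      = mapGL ℝ ((h : Gamma0 (M * q)) : SL(2, ℤ)) * heckeMatrix q 0 := by
  have hq : q ≠ 0 := NeZero.ne q
  apply Matrix.GeneralLinearGroup.ext
  intro i k
  simp only [Matrix.GeneralLinearGroup.coe_mul, val_heckeMatrix hq,
    Matrix.SpecialLinearGroup.mapGL_coe_matrix, Matrix.SpecialLinearGroup.map_apply_coe]
  exact congrFun (congrFun (conjMat_real q hq (mat h) (q_dvd_of_mem_gamma0_mul h.2)) i) k

/-- The translation `[1,j;0,1]` in `Γ₀(M)`. -/
def uRep (M : ℕ) (j : ℤ) : Gamma0 M := mkG0 M 1 j 0 1 (by ring) (dvd_zero _)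

@[simp] theorem mat_uRep (M : ℕ) (j : ℤ) : mat (uRep M j) = !![1, j; 0, 1] := rfl

/-- `[1,0;0,q] * [1,j;0,1] = [1,j;0,q]`. -/
theorem heckeMatrix_zero_mul_uRep (M q : ℕ) [NeZero q] (j : ℕ) :
    heckeMatrix q 0 * mapGL ℝ ((uRep M (j : ℤ) : Gamma0 M) : SL(2, ℤ)) = heckeMatrix q j := by
  have hq : q ≠ 0 := NeZero.ne q
  apply Matrix.GeneralLinearGroup.ext
  intro i k
  simp only [Matrix.GeneralLinearGroup.coe_mul, val_heckeMatrix hq,
    Matrix.SpecialLinearGroup.mapGL_coe_matrix, Matrix.SpecialLinearGroup.map_apply_coe]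
  have h : ((uRep M (j : ℤ) : Gamma0 M) : SL(2, ℤ)).1 = !![1, (j : ℤ); 0, 1] := rfl
  rw [h]
  fin_cases i <;> fin_cases k <;> simp [Matrix.mul_apply, Fin.sum_univ_two]

/-! ### The product -/

section ConjProd

variable {I : Type} [Fintype I]

/-- The product of the slashes of `R` by the matrices `[1,0;0,q] * (t i)⁻¹`. -/
def conjProd (k : ℤ) (q : ℕ) (t : I → SL(2, ℤ)) (R : ℍ → ℂ) : ℍ → ℂ :=
  ∏ i, R ∣[k] (heckeMatrix q 0 * mapGL ℝ (t i)⁻¹)

theorem conjProd_slash (k : ℤ) (q : ℕ) (t : I → SL(2, ℤ)) (R : ℍ → ℂ) (γ : SL(2, ℤ)) :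
    (conjProd k q t R) ∣[k * (Fintype.card I : ℤ)] γ
      = ∏ i, R ∣[k] (heckeMatrix q 0 * mapGL ℝ ((t i)⁻¹ * γ)) := by
  rw [conjProd, ← H76.slash_mapGL, ← Finset.card_univ, H76.prod_slash_mapGL]
  refine Finset.prod_congr rfl fun i _ => ?_
  rw [← SlashAction.slash_mul, mul_assoc, ← map_mul]

theorem mdifferentiable_conjProd (k : ℤ) (q : ℕ) (t : I → SL(2, ℤ)) {R : ℍ → ℂ}
    (hR : MDifferentiable 𝓘(ℂ) 𝓘(ℂ) R) : MDifferentiable 𝓘(ℂ) 𝓘(ℂ) (conjProd k q t R) := by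
  rw [conjProd]
  exact MDifferentiable.prod fun j _ => hR.slash k _

theorem conjProd_eq_zero_iff [Nonempty I] (k : ℤ) (q : ℕ) (t : I → SL(2, ℤ)) {F : ℍ → ℂ}
    (hF : MDifferentiable 𝓘(ℂ) 𝓘(ℂ) F) : conjProd k q t F = 0 ↔ F = 0 := by
  rw [conjProd, UpperHalfPlane.prod_eq_zero_iff
    (f := fun i => F ∣[k] (heckeMatrix q 0 * mapGL ℝ (t i)⁻¹))
    (s := Finset.univ) (fun j _ => hF.slash k _)]
  constructor
  · rintro ⟨i, -, h⟩
    exact (H76.slash_eq_zero_iff k _ F).mp h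
  · intro h
    obtain ⟨i⟩ := (inferInstance : Nonempty I)
    exact ⟨i, Finset.mem_univ _, (H76.slash_eq_zero_iff k _ F).mpr h⟩

end ConjProd

section Twisted

variable {I : Type} [Fintype I] {M q n : ℕ} {k : ℤ}
  {φ : Additive (Gamma0 (M * q)) →+ ZMod n} {R : ℍ → ℂ}

/-- `R ∣ ([1,0;0,q] s)` is bounded at `∞` for every `s ∈ SL₂(ℤ)`. -/
theorem bdd_slash_heckeMatrix_zero (hq : q.Prime) (h : IsTwistedForm (M * q) n k φ R)
    (s : SL(2, ℤ)) : IsBoundedAtImInfty (R ∣[k] (heckeMatrix q 0 * mapGL ℝ s)) := by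
  haveI : Fact q.Prime := ⟨hq⟩
  have h0 : heckeMatrix q 0 = heckeRep q (((0 : ZMod q)) : OnePoint (ZMod q)) := by
    rw [heckeRep_coe, ZMod.val_zero]
  obtain ⟨g', -, hg'⟩ := heckeRep_mul (N := 1) (p := q) hq.not_dvd_one s (by simp)
    (((0 : ZMod q)) : OnePoint (ZMod q))
  rw [h0, hg', SlashAction.slash_mul, H76.slash_mapGL]
  exact (h.bdd g').slash k (H76.heckeRep_apply_one_zero q _)

/-- **The product over the cosets of `conjG` is a twisted form with multiplier the transfer.** -/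
theorem isTwistedForm_conjProd [NeZero q] (hq : q.Prime) (t : I → Gamma0 M)
    (ht : IsReps (conjG M q) t) (h : IsTwistedForm (M * q) n k φ R) :
    IsTwistedForm M n (k * (Fintype.card I : ℤ)) (cor2 M q (ZMod n) φ)
      (conjProd k q (coeT t) R) := by
  refine ⟨mdifferentiable_conjProd k q _ h.mdiff, fun γ => ?_, fun σ => ?_⟩
  · obtain ⟨σ, κ, hκ⟩ := ht.exists_sol γ
    have hσ : Function.Bijective σ := ht.sol_bijective hκ
    have hcor : cor2 M q (ZMod n) φ (Additive.ofMul γ) = ∑ i, φ (Additive.ofMul (κ i)) :=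
      corAlong_eq_sum (conjG M q) (conjG_injective M q (NeZero.ne q)) t ht φ γ σ κ hκ
    rw [conjProd_slash, hcor, H76.zetaPow_sum]
    have hterm : ∀ i : I, R ∣[k] (heckeMatrix q 0 * mapGL ℝ ((coeT t (σ i))⁻¹ * (γ : SL(2, ℤ))))
        = zetaPow n (φ (Additive.ofMul (κ i)))
          • (R ∣[k] (heckeMatrix q 0 * mapGL ℝ (coeT t i)⁻¹)) := by
      intro i
      have h1 : (coeT t (σ i))⁻¹ * (γ : SL(2, ℤ))
          = ((conjG M q (κ i) : Gamma0 M) : SL(2, ℤ)) * (coeT t i)⁻¹ := by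
        have h2 := congrArg (fun g : Gamma0 M => (g : SL(2, ℤ))) (hκ i)
        simp only [Subgroup.coe_mul] at h2
        unfold coeT
        rw [inv_mul_eq_iff_eq_mul, ← mul_assoc, eq_mul_inv_iff_mul_eq]
        exact h2
      rw [h1, map_mul, ← mul_assoc, heckeMatrix_zero_mul_conjG, mul_assoc,
        SlashAction.slash_mul, H76.slash_mapGL, h.slash (κ i), ModularForm.smul_slash]
      congr 1
      have hdet : (0 : ℝ) < ((heckeMatrix q 0 * mapGL ℝ (coeT t i)⁻¹ : GL (Fin 2) ℝ).det : ℝ) := by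
        rw [map_mul, Units.val_mul, det_heckeMatrix (NeZero.ne q)]
        have h1 : ((mapGL ℝ (coeT t i)⁻¹ : GL (Fin 2) ℝ).det : ℝ) = 1 := by
          rw [Matrix.GeneralLinearGroup.val_det_apply,
            Matrix.SpecialLinearGroup.mapGL_coe_matrix]
          exact (Matrix.SpecialLinearGroup.map (algebraMap ℤ ℝ) _).det_coe
        rw [h1, mul_one]
        exact_mod_cast Nat.pos_of_ne_zero (NeZero.ne q)
      rw [UpperHalfPlane.σ, if_pos hdet]
      rfl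
    have hre : ∏ i, R ∣[k] (heckeMatrix q 0 * mapGL ℝ ((coeT t i)⁻¹ * (γ : SL(2, ℤ))))
        = ∏ i, R ∣[k] (heckeMatrix q 0 * mapGL ℝ ((coeT t (σ i))⁻¹ * (γ : SL(2, ℤ)))) :=
      (Equiv.prod_comp (Equiv.ofBijective σ hσ)
        (fun i => R ∣[k] (heckeMatrix q 0 * mapGL ℝ ((coeT t i)⁻¹ * (γ : SL(2, ℤ)))))).symm
    rw [hre, Finset.prod_congr rfl fun i _ => hterm i, H76.prod_smul_fun]
    rfl
  · rw [conjProd_slash, IsBoundedAtImInfty]
    exact Filter.BoundedAtFilter.prod _ fun i _ => bdd_slash_heckeMatrix_zero hq h _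

end Twisted

end Fermat.Agent.L.Pivot.Geom.H24
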