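import Fermat.Agent.L.Pivot.Geom.H24_B2BetaProd

/-!
# PIVOT, PV-GEOM, leaf PVG-B2 (helper24), part 6c: explicit representatives for `conjG`, `q ∣ M`

* `isReps_tRep` : for `q ∣ M` the translations `tRep j = [1,j;0,1]⁻¹`, `j ∈ ℤ/q`, are
  representatives of the left cosets of the range of `conjG M q` in `Γ₀(M)`;
* `conjProd_tRep` : for them `conjProd k q t R = ∏_{j<q} R ∣[k] [1,j;0,q] = uProd k q R`;
* `isTwistedForm_uProd`, `uProdForm`.
-/

set_option autoImplicit false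
set_option linter.style.haveILetI false
set_option linter.unusedSectionVars false

open UpperHalfPlane ModularForm CongruenceSubgroup Matrix.SpecialLinearGroup
open scoped MatrixGroups ModularForm Manifold

noncomputable section

namespace Fermat.Agent.L.Pivot.Geom.H24

open Fermat.Agent.GTor Fermat.Agent.S41 Fermat.Agent.S41.H19

variable (M q : ℕ) [NeZero q]

/-- The representatives `[1,j;0,1]⁻¹`, `j ∈ ℤ/q`. -/
def tRep (j : ZMod q) : Gamma0 M := (uRep M ((j.val : ℕ) : ℤ))⁻¹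

theorem tRep_inv (j : ZMod q) : (tRep M q j)⁻¹ = uRep M ((j.val : ℕ) : ℤ) := inv_inv _

theorem isReps_tRep (hqM : q ∣ M) : IsReps (conjG M q) (tRep M q) := by
  have hq : q ≠ 0 := NeZero.ne q
  constructor
  · intro i j hij
    rw [tRep_inv] at hij
    obtain ⟨h, hh⟩ := hij
    have h1 : conjG M q h * uRep M ((j.val : ℕ) : ℤ) = uRep M ((i.val : ℕ) : ℤ) := by
      rw [hh, tRep, inv_mul_cancel_right]
    have h2 := congrArg mat h1
    rw [mat_mul, mat_conjG, mat_uRep, mat_uRep] at h2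
    obtain ⟨a, ha⟩ : ∃ a : ℤ, a = (mat h) 0 0 := ⟨_, rfl⟩
    obtain ⟨b, hb⟩ : ∃ b : ℤ, b = (mat h) 0 1 := ⟨_, rfl⟩
    have e00 : a = 1 := by
      have := congrFun (congrFun h2 0) 0
      simp only [conjMat, Matrix.mul_apply, Fin.sum_univ_two, Matrix.of_apply, Matrix.cons_val',
        Matrix.cons_val_zero, Matrix.cons_val_one, Matrix.empty_val', Matrix.cons_val_fin_one,
        mul_one, mul_zero, add_zero] at this
      rw [ha]
      exact this
    have e01 : a * ((j.val : ℕ) : ℤ) + (q : ℤ) * b = ((i.val : ℕ) : ℤ) := by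
      have := congrFun (congrFun h2 0) 1
      simp only [conjMat, Matrix.mul_apply, Fin.sum_univ_two, Matrix.of_apply, Matrix.cons_val',
        Matrix.cons_val_zero, Matrix.cons_val_one, Matrix.empty_val', Matrix.cons_val_fin_one,
        mul_one] at this
      rw [ha, hb]
      exact this
    rw [e00, one_mul] at e01
    have h3 := congrArg (Int.cast : ℤ → ZMod q) e01
    push_cast at h3
    rw [ZMod.natCast_self, zero_mul, add_zero, ZMod.natCast_zmod_val, ZMod.natCast_zmod_val] at h3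
    exact h3.symm
  · intro g
    obtain ⟨c, hc⟩ := mat_dvd g
    obtain ⟨c', hc'⟩ := hqM
    have hdet := mat_det' g
    obtain ⟨a, ha⟩ : ∃ a : ℤ, a = (mat g) 0 0 := ⟨_, rfl⟩
    obtain ⟨b, hb⟩ : ∃ b : ℤ, b = (mat g) 0 1 := ⟨_, rfl⟩
    obtain ⟨d, hd⟩ : ∃ d : ℤ, d = (mat g) 1 1 := ⟨_, rfl⟩
    rw [← ha, ← hb, ← hd, hc, hc'] at hdet
    -- `a d ≡ 1 mod q`
    have had : (a : ZMod q) * (d : ZMod q) = 1 := by
      have h1 := congrArg (Int.cast : ℤ → ZMod q) hdet
      push_cast at h1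
      rw [ZMod.natCast_self, zero_mul, zero_mul, mul_zero, sub_zero] at h1
      exact h1
    refine ⟨-(b : ZMod q) * (a : ZMod q), ?_⟩
    rw [tRep_inv]
    apply exists_conjG_eq hq
    rw [mat_mul, mat_uRep]
    have e : (!![(1 : ℤ), (((-(b : ZMod q) * (a : ZMod q)).val : ℕ) : ℤ); 0, 1] * mat g) 0 1
        = b + (((-(b : ZMod q) * (a : ZMod q)).val : ℕ) : ℤ) * d := by
      simp only [Matrix.mul_apply, Fin.sum_univ_two, Matrix.of_apply, Matrix.cons_val',
        Matrix.cons_val_zero, Matrix.cons_val_one, Matrix.empty_val', Matrix.cons_val_fin_one,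
        one_mul]
      rw [hb, hd]
    rw [e, ← ZMod.intCast_zmod_eq_zero_iff_dvd]
    push_cast
    rw [ZMod.natCast_zmod_val]
    linear_combination (-(b : ZMod q)) * had

/-! ### The product `∏_{j<q} R ∣[k] [1,j;0,q]` -/

/-- `uProd k q R = ∏_{j<q} R ∣[k] [1,j;0,q]`. -/
def uProd (k : ℤ) (q : ℕ) (R : ℍ → ℂ) : ℍ → ℂ := ∏ j ∈ Finset.range q, R ∣[k] heckeMatrix q j

theorem conjProd_tRep (k : ℤ) (R : ℍ → ℂ) :
    conjProd k q (coeT (tRep M q)) R = uProd k q R := by
  rw [conjProd, uProd, H76.prod_range_eq_prod_zmod]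
  refine Finset.prod_congr rfl fun j _ => ?_
  have h1 : (coeT (tRep M q) j)⁻¹ = ((uRep M ((j.val : ℕ) : ℤ) : Gamma0 M) : SL(2, ℤ)) := by
    unfold coeT
    rw [← Subgroup.coe_inv, tRep_inv]
  rw [h1, heckeMatrix_zero_mul_uRep]

theorem uProd_apply (k : ℤ) (R : ℍ → ℂ) (τ : ℍ) :
    uProd k q R τ = ∏ j ∈ Finset.range q, ((q : ℂ)⁻¹ * R (heckeMatrix q j • τ)) := by
  simp only [uProd, Finset.prod_apply, slash_heckeMatrix_apply k (NeZero.ne q)]

variable {M q} {n : ℕ} {k : ℤ}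

theorem isTwistedForm_uProd (hq : q.Prime) (hqM : q ∣ M)
    {φ : Additive (Gamma0 (M * q)) →+ ZMod n} {R : ℍ → ℂ}
    (h : IsTwistedForm (M * q) n k φ R) :
    IsTwistedForm M n (k * (q : ℤ)) (cor2 M q (ZMod n) φ) (uProd k q R) := by
  have h1 := isTwistedForm_conjProd hq (tRep M q) (isReps_tRep M q hqM) h
  rw [conjProd_tRep, ZMod.card] at h1
  exact h1

theorem cor2_zero_h24 (M q n : ℕ) :
    cor2 M q (ZMod n) (0 : Additive (Gamma0 (M * q)) →+ ZMod n) = 0 := by
  have := corAlong_add (A := ZMod n) (conjG M q) (0 : Additive (Gamma0 (M * q)) →+ ZMod n) 0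
  rw [add_zero] at this
  exact add_eq_left.mp this.symm

theorem isTwistedForm_uProd_zero [NeZero M] [NeZero (M * q)] (n : ℕ) (hq : q.Prime)
    (hqM : q ∣ M) (B : ModularForm (Gamma0 (M * q)) k) :
    IsTwistedForm M n (k * (q : ℤ)) 0 (uProd k q B) := by
  have h := isTwistedForm_uProd hq hqM (H56.isTwistedForm_of_modularForm n B)
  rwa [cor2_zero_h24] at h

/-- The modular form `uProd k q B`. -/
def uProdForm [NeZero M] [NeZero (M * q)] (hq : q.Prime) (hqM : q ∣ M)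
    (B : ModularForm (Gamma0 (M * q)) k) : ModularForm (Gamma0 M) (k * (q : ℤ)) :=
  H56.toModularForm (isTwistedForm_uProd_zero 1 hq hqM B)

@[simp] theorem coe_uProdForm [NeZero M] [NeZero (M * q)] (hq : q.Prime) (hqM : q ∣ M)
    (B : ModularForm (Gamma0 (M * q)) k) :
    (uProdForm hq hqM B : ℍ → ℂ) = uProd k q B := rfl

theorem uProd_eq_zero_iff (k : ℤ) {F : ℍ → ℂ} (hF : MDifferentiable 𝓘(ℂ) 𝓘(ℂ) F) :
    uProd k q F = 0 ↔ F = 0 := by
  rw [← conjProd_tRep 1 q k F]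
  exact conjProd_eq_zero_iff k q _ hF

theorem uProdForm_ne_zero [NeZero M] [NeZero (M * q)] (hq : q.Prime) (hqM : q ∣ M)
    {B : ModularForm (Gamma0 (M * q)) k} (hB : B ≠ 0) : uProdForm hq hqM B ≠ 0 := by
  intro h
  apply hB
  have h1 : uProd k q (B : ℍ → ℂ) = 0 := by
    rw [← coe_uProdForm hq hqM B, h]
    rfl
  exact DFunLike.coe_injective ((uProd_eq_zero_iff k B.holo').mp h1)

/-- Packaging for `HasChar`. -/
theorem hasChar_uProd [NeZero M] [NeZero (M * q)] (hq : q.Prime) (hqM : q ∣ M)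
    {φ : Additive (Gamma0 (M * q)) →+ ZMod n} {R : ℍ → ℂ}
    (hR : IsTwistedForm (M * q) n k φ R) {B : ModularForm (Gamma0 (M * q)) k} (hB : B ≠ 0)
    (g' : FNL ℂ M)
    (hqe : qLaurent (fun z => uProd k q R z ^ n)
      = (g' : LaurentSeries ℂ) * qLaurent (fun z => uProd k q (B : ℍ → ℂ) z ^ n)) :
    HasChar M n g' (cor2 M q (ZMod n) φ) :=
  ⟨k * (q : ℤ), uProd k q R, uProdForm hq hqM B,
    isTwistedForm_uProd hq hqM hR, uProdForm_ne_zero hq hqM hB, hqe⟩

end Fermat.Agent.L.Pivot.Geom.H24
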