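import Fermat.Agent.GTor.H76_HKan
import Fermat.Agent.S41.H19_Transfer

/-!
# PIVOT, PV-GEOM, leaf PVG-B2 (helper24), part 1: the product over cosets of a twisted form

For a family `t : I → Γ₀(N)` of representatives of the left cosets of `Γ₀(N q)` in `Γ₀(N)` and a
function `R` on the upper half plane put

  `cosetProd k t R = ∏ i, R ∣[k] (t i)⁻¹`.

* `isTwistedForm_cosetProd`: if `R` is a twisted form of weight `k` on `Γ₀(N q)` with multiplier
  `ζ^φ` then `cosetProd k t R` is a twisted form of weight `k * card I` on `Γ₀(N)` with multiplier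
  `ζ^(cor1 φ)` (`cor1` = transfer along the inclusion, `S41/Defs.lean`);
* `cosetProd_pow`, `cosetProd_eq_zero_iff`;
* `hasChar_cosetProd`: packaging for `GTor.HasChar`.

The same for an arbitrary injective homomorphism is not needed here.
-/

set_option autoImplicit false
set_option linter.style.haveILetI false
set_option linter.unusedSectionVars false

open UpperHalfPlane ModularForm CongruenceSubgroup Matrix.SpecialLinearGroup
open scoped MatrixGroups ModularForm Manifold

noncomputable section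

namespace Fermat.Agent.L.Pivot.Geom.H24

open Fermat.Agent.GTor Fermat.Agent.S41 Fermat.Agent.S41.H19

section CosetProd

variable {I : Type} [Fintype I]

/-- The product of the slashes of `R` by the inverses of a family `t` of matrices. -/
def cosetProd (k : ℤ) (t : I → SL(2, ℤ)) (R : ℍ → ℂ) : ℍ → ℂ :=
  ∏ i, R ∣[k] (t i)⁻¹

theorem cosetProd_apply (k : ℤ) (t : I → SL(2, ℤ)) (R : ℍ → ℂ) (τ : ℍ) :
    cosetProd k t R τ = ∏ i, (R ∣[k] (t i)⁻¹) τ := by
  rw [cosetProd, Finset.prod_apply]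

/-- The slash of `cosetProd` by an element of `SL₂(ℤ)`. -/
theorem cosetProd_slash (k : ℤ) (t : I → SL(2, ℤ)) (R : ℍ → ℂ) (γ : SL(2, ℤ)) :
    (cosetProd k t R) ∣[k * (Fintype.card I : ℤ)] γ = ∏ i, R ∣[k] ((t i)⁻¹ * γ) := by
  rw [cosetProd, ← H76.slash_mapGL, ← Finset.card_univ, H76.prod_slash_mapGL]
  refine Finset.prod_congr rfl fun i _ => ?_
  rw [H76.slash_mapGL, SlashAction.slash_mul]

theorem mdifferentiable_cosetProd (k : ℤ) (t : I → SL(2, ℤ)) {R : ℍ → ℂ}
    (hR : MDifferentiable 𝓘(ℂ) 𝓘(ℂ) R) : MDifferentiable 𝓘(ℂ) 𝓘(ℂ) (cosetProd k t R) := by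
  rw [cosetProd]
  exact MDifferentiable.prod fun j _ => hR.slash k _

theorem cosetProd_pow (k : ℤ) (t : I → SL(2, ℤ)) (n : ℕ) (R : ℍ → ℂ) :
    cosetProd ((n : ℤ) * k) t (fun z => R z ^ n) = fun z => cosetProd k t R z ^ n := by
  funext τ
  rw [cosetProd_apply, cosetProd_apply, ← Finset.prod_pow]
  refine Finset.prod_congr rfl fun i _ => ?_
  rw [H56.slash_pow_SL]

theorem cosetProd_eq_zero_iff [Nonempty I] (k : ℤ) (t : I → SL(2, ℤ)) {F : ℍ → ℂ}
    (hF : MDifferentiable 𝓘(ℂ) 𝓘(ℂ) F) : cosetProd k t F = 0 ↔ F = 0 := by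
  rw [cosetProd, UpperHalfPlane.prod_eq_zero_iff (f := fun i => F ∣[k] (t i)⁻¹)
    (s := Finset.univ) (fun j _ => hF.slash k _)]
  constructor
  · rintro ⟨i, -, h⟩
    exact (H76.slash_eq_zero_iff k _ F).mp h
  · intro h
    obtain ⟨i⟩ := (inferInstance : Nonempty I)
    exact ⟨i, Finset.mem_univ _, (H76.slash_eq_zero_iff k _ F).mpr h⟩

end CosetProd

section Twisted

variable {I : Type} [Fintype I] {N q n : ℕ} {k : ℤ}
  {φ : Additive (Gamma0 (N * q)) →+ ZMod n} {R : ℍ → ℂ}

/-- The family of the underlying matrices. -/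
def coeT (t : I → Gamma0 N) : I → SL(2, ℤ) := fun i => ((t i : Gamma0 N) : SL(2, ℤ))

theorem inclG_inj_h24 (N q : ℕ) : Function.Injective (inclG N q) :=
  Subgroup.inclusion_injective _

theorem coe_inclG (N q : ℕ) (h : Gamma0 (N * q)) :
    ((inclG N q h : Gamma0 N) : SL(2, ℤ)) = (h : SL(2, ℤ)) := rfl

/-- **The product over the cosets is a twisted form with multiplier the transfer.** -/
theorem isTwistedForm_cosetProd (t : I → Gamma0 N) (ht : IsReps (inclG N q) t)
    (h : IsTwistedForm (N * q) n k φ R) :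
    IsTwistedForm N n (k * (Fintype.card I : ℤ)) (cor1 N q (ZMod n) φ)
      (cosetProd k (coeT t) R) := by
  refine ⟨mdifferentiable_cosetProd k _ h.mdiff, fun γ => ?_, fun σ => ?_⟩
  · obtain ⟨σ, κ, hκ⟩ := ht.exists_sol γ
    have hσ : Function.Bijective σ := ht.sol_bijective hκ
    have hcor : cor1 N q (ZMod n) φ (Additive.ofMul γ) = ∑ i, φ (Additive.ofMul (κ i)) :=
      corAlong_eq_sum (inclG N q) (inclG_inj_h24 N q) t ht φ γ σ κ hκ
    rw [cosetProd_slash, hcor, H76.zetaPow_sum]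
    have hterm : ∀ i : I, R ∣[k] ((coeT t (σ i))⁻¹ * (γ : SL(2, ℤ)))
        = zetaPow n (φ (Additive.ofMul (κ i))) • (R ∣[k] (coeT t i)⁻¹) := by
      intro i
      have h1 : (coeT t (σ i))⁻¹ * (γ : SL(2, ℤ)) = ((κ i : Gamma0 (N * q)) : SL(2, ℤ))
          * (coeT t i)⁻¹ := by
        have h2 := congrArg (fun g : Gamma0 N => (g : SL(2, ℤ))) (hκ i)
        simp only [Subgroup.coe_mul, coe_inclG] at h2
        unfold coeT
        rw [inv_mul_eq_iff_eq_mul, ← mul_assoc, eq_mul_inv_iff_mul_eq]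
        exact h2
      rw [h1, SlashAction.slash_mul, h.slash (κ i), ModularForm.SL_smul_slash]
    have hre : ∏ i, R ∣[k] ((coeT t i)⁻¹ * (γ : SL(2, ℤ)))
        = ∏ i, R ∣[k] ((coeT t (σ i))⁻¹ * (γ : SL(2, ℤ))) :=
      (Equiv.prod_comp (Equiv.ofBijective σ hσ)
        (fun i => R ∣[k] ((coeT t i)⁻¹ * (γ : SL(2, ℤ))))).symm
    rw [hre, Finset.prod_congr rfl fun i _ => hterm i, H76.prod_smul_fun]
    rfl
  · rw [cosetProd_slash, IsBoundedAtImInfty]
    exact Filter.BoundedAtFilter.prod _ fun i _ => h.bdd _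

end Twisted

section Form

variable {I : Type} [Fintype I] {N q n : ℕ} [NeZero N] [NeZero (N * q)] {k : ℤ}

/-- The product over the cosets of a modular form on `Γ₀(N q)` is a modular form on `Γ₀(N)`. -/
theorem isTwistedForm_cosetProd_zero (n : ℕ) (t : I → Gamma0 N) (ht : IsReps (inclG N q) t)
    (B : ModularForm (Gamma0 (N * q)) k) :
    IsTwistedForm N n (k * (Fintype.card I : ℤ)) 0 (cosetProd k (coeT t) B) := by
  have h := isTwistedForm_cosetProd t ht (H56.isTwistedForm_of_modularForm n B)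
  have h0 : cor1 N q (ZMod n) (0 : Additive (Gamma0 (N * q)) →+ ZMod n) = 0 := by
    have := corAlong_add (A := ZMod n) (inclG N q) (0 : Additive (Gamma0 (N * q)) →+ ZMod n) 0
    rw [add_zero] at this
    exact add_eq_left.mp this.symm
  rwa [h0] at h

/-- The modular form `cosetProd k t B`. -/
def cosetProdForm (t : I → Gamma0 N) (ht : IsReps (inclG N q) t)
    (B : ModularForm (Gamma0 (N * q)) k) : ModularForm (Gamma0 N) (k * (Fintype.card I : ℤ)) :=
  H56.toModularForm (isTwistedForm_cosetProd_zero 1 t ht B)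

@[simp] theorem coe_cosetProdForm (t : I → Gamma0 N) (ht : IsReps (inclG N q) t)
    (B : ModularForm (Gamma0 (N * q)) k) :
    (cosetProdForm t ht B : ℍ → ℂ) = cosetProd k (coeT t) B := rfl

theorem cosetProdForm_ne_zero [Nonempty I] (t : I → Gamma0 N) (ht : IsReps (inclG N q) t)
    {B : ModularForm (Gamma0 (N * q)) k} (hB : B ≠ 0) : cosetProdForm t ht B ≠ 0 := by
  intro h
  apply hB
  have h1 : cosetProd k (coeT t) (B : ℍ → ℂ) = 0 := by
    rw [← coe_cosetProdForm t ht B, h]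
    rfl
  exact DFunLike.coe_injective ((cosetProd_eq_zero_iff k _ B.holo').mp h1)

/-- Packaging for `HasChar`. -/
theorem hasChar_cosetProd [Nonempty I] (t : I → Gamma0 N) (ht : IsReps (inclG N q) t)
    {φ : Additive (Gamma0 (N * q)) →+ ZMod n} {R : ℍ → ℂ}
    (hR : IsTwistedForm (N * q) n k φ R) {B : ModularForm (Gamma0 (N * q)) k} (hB : B ≠ 0)
    (g' : FNL ℂ N)
    (hq : qLaurent (fun z => cosetProd k (coeT t) R z ^ n)
      = (g' : LaurentSeries ℂ) * qLaurent (fun z => cosetProd k (coeT t) (B : ℍ → ℂ) z ^ n)) :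
    HasChar N n g' (cor1 N q (ZMod n) φ) :=
  ⟨k * (Fintype.card I : ℤ), cosetProd k (coeT t) R, cosetProdForm t ht B,
    isTwistedForm_cosetProd t ht hR, cosetProdForm_ne_zero t ht hB, hq⟩

end Form

end Fermat.Agent.L.Pivot.Geom.H24
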