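import Fermat.Agent.L.Pivot.Geom.H24_B2Clo
import Fermat.Agent.GTor.Clo.AsmDegree
import Fermat.Agent.GTor.Clo.Final

/-!
# PIVOT, PV-GEOM, leaf PVG-B2 (helper24), part 4a: the tower `F_M ⊂ F_{Mq}` over `ℂ`

Port to the closure over `ℂ` (`GTor/Clo`) of helper2's package D (`Lib/HeckeComm/H2_Deg.lean`) and
helper44's package G (`Lib/HeckeComm/H44_GenJ.lean`):

* `finrank_alphaC_mul` : `[F_{Mq} : α F_M] * ψ(M) = ψ(M q)`;
* `finite_alphaC` : `F_{Mq} / α F_M` is finite;
* `adjoin_alphaC_jdF` : `F_{Mq} = (α F_M) (j (q ^ (M q)))`.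
-/

set_option autoImplicit false
set_option linter.style.haveILetI false
set_option linter.unusedSectionVars false

open ModularCurve AlgebraicCurve IntermediateField
open scoped MatrixGroups

noncomputable section

namespace Fermat.Agent.L.Pivot.Geom.H24

open Fermat.Agent.GTor.Clo

/-! ### Degrees -/

/-- `ℂ(j)` inside the Laurent series. -/
def E0C : IntermediateField Kbar (LaurentSeries Kbar) := IntermediateField.adjoin Kbar {jBar}

theorem E0C_le (X : ℕ) [NeZero X] : E0C ≤ GTor.Clo.modularFunctionFieldBar X := by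
  rw [E0C, adjoin_le_iff]
  rintro _ rfl
  exact jBar_mem X

theorem map_adjoin_jFC (X : ℕ) [NeZero X] :
    (Kbar⟮jF X⟯).map (GTor.Clo.modularFunctionFieldBar X).val = E0C := by
  rw [adjoin_map, Set.image_singleton]
  rfl

theorem comap_E0C (X : ℕ) [NeZero X] :
    E0C.comap (GTor.Clo.modularFunctionFieldBar X).val = Kbar⟮jF X⟯ := by
  ext x
  show (GTor.Clo.modularFunctionFieldBar X).val x ∈ E0C ↔ _
  constructor
  · intro hx
    rw [← map_adjoin_jFC X] at hx
    obtain ⟨y, hy, hyx⟩ := hx
    have : y = x := Subtype.ext hyx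
    rwa [← this]
  · intro hx
    rw [← map_adjoin_jFC X]
    exact ⟨x, hx, rfl⟩

theorem relfinrank_E0C (X : ℕ) [NeZero X] :
    relfinrank E0C (GTor.Clo.modularFunctionFieldBar X) = dedekindPsi X := by
  have h := finrank_comap E0C (GTor.Clo.modularFunctionFieldBar X).val
  rw [fieldRange_val, comap_E0C] at h
  rw [← h]
  exact asm_finrank (modClosure X)

variable (M q : ℕ) [NeZero M] [NeZero q]

theorem modularFunctionFieldBar_le_mul :
    GTor.Clo.modularFunctionFieldBar M ≤ GTor.Clo.modularFunctionFieldBar (M * q) := by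
  show laurentBaseChange Kbar (modularFunctionFieldFull M)
    ≤ laurentBaseChange Kbar (modularFunctionFieldFull (M * q))
  rw [laurentBaseChange, IntermediateField.adjoin_le_iff]
  rintro _ ⟨y, hy, rfl⟩
  exact coeffEmb_mem_laurentBaseChange _ (full_degeneracy_le (dvd_mul_right M q) hy)

theorem relfinrank_alphaC :
    relfinrank (GTor.Clo.modularFunctionFieldBar M) (GTor.Clo.modularFunctionFieldBar (M * q))
      = (letI := (alphaC M q).toRingHom.toAlgebra; Module.finrank (FN M) (FN (M * q))) := by
  letI := (alphaC M q).toRingHom.toAlgebra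
  rw [relfinrank_eq_finrank_of_le (modularFunctionFieldBar_le_mul M q)]
  let e : FN (M * q) ≃ₗ[FN M] ↥(extendScalars (modularFunctionFieldBar_le_mul M q)) :=
    { toFun := fun y => ⟨y.1, y.2⟩
      invFun := fun y => ⟨y.1, y.2⟩
      map_add' := fun _ _ => rfl
      map_smul' := fun a y => Subtype.ext rfl
      left_inv := fun _ => rfl
      right_inv := fun _ => rfl }
  exact e.finrank_eq.symm

theorem dedekindPsi_pos_h24 (N : ℕ) [NeZero N] : 0 < dedekindPsi N := by
  rw [← Fermat.Agent.S20.H19.G1]
  exact Nat.pos_of_ne_zero Subgroup.FiniteIndex.index_ne_zero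

/-- **Package D over `ℂ`**: `[F_{Mq} : α F_M] * ψ(M) = ψ(M q)`. -/
theorem finrank_alphaC_mul :
    (letI := (alphaC M q).toRingHom.toAlgebra; Module.finrank (FN M) (FN (M * q)))
      * dedekindPsi M = dedekindPsi (M * q) := by
  rw [← relfinrank_alphaC M q, ← relfinrank_E0C M, ← relfinrank_E0C (M * q), mul_comm]
  exact relfinrank_mul_relfinrank (E0C_le M) (modularFunctionFieldBar_le_mul M q)

theorem finrank_alphaC_pos :
    0 < (letI := (alphaC M q).toRingHom.toAlgebra; Module.finrank (FN M) (FN (M * q))) := by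
  have h1 := finrank_alphaC_mul M q
  have h2 := dedekindPsi_pos_h24 (M * q)
  rw [← h1] at h2
  exact Nat.pos_of_mul_pos_right h2

/-- Finiteness of `F_{Mq} / α F_M` over `ℂ`. -/
theorem finite_alphaC :
    letI := (alphaC M q).toRingHom.toAlgebra
    Module.Finite (FN M) (FN (M * q)) := by
  letI := (alphaC M q).toRingHom.toAlgebra
  exact Module.finite_of_finrank_pos (finrank_alphaC_pos M q)

/-! ### Generation by `j_N` -/

section Gen

variable (N : ℕ) [NeZero N]

/-- An automorphism of the closure fixing `j_N` fixes `F_N`. -/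
theorem fixingSubgroup_adjoin_le_C :
    (IntermediateField.adjoin EN {phi N (jdF N N dvd_rfl)} :
        IntermediateField EN (LN N)).fixingSubgroup
      ≤ (IsScalarTower.toAlgHom EN (FN N) (LN N)).fieldRange.fixingSubgroup := by
  intro σ hσ
  obtain ⟨γ, rfl⟩ := piN_surjective N σ
  rw [IntermediateField.mem_fixingSubgroup_iff] at hσ ⊢
  have h1 := hσ (phi N (jdF N N dvd_rfl))
    (IntermediateField.subset_adjoin _ _ (Set.mem_singleton _))
  rw [piN_phi_jdF, phi_jdF] at h1
  have h2 := IsFractionRing.injective (AT N) (LN N) h1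
  have h3 := (toAT N).injective h2
  have hγ := mem_Gamma0_of_smul_jdA N γ h3
  rintro _ ⟨y, rfl⟩
  exact piN_phi_of_mem_Gamma0 N γ hγ y

/-- The image of `F_N` in the closure is `EN (j_N)`. -/
theorem fieldRange_eq_adjoin_C :
    (IsScalarTower.toAlgHom EN (FN N) (LN N)).fieldRange
      = IntermediateField.adjoin EN {phi N (jdF N N dvd_rfl)} := by
  apply le_antisymm
  · rw [← IsGalois.fixedField_fixingSubgroup
      (IntermediateField.adjoin EN {phi N (jdF N N dvd_rfl)} : IntermediateField EN (LN N)),
      IntermediateField.le_iff_le]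
    exact fixingSubgroup_adjoin_le_C N
  · rw [IntermediateField.adjoin_le_iff]
    rintro _ rfl
    exact ⟨jdF N N dvd_rfl, rfl⟩

/-- `F_N` is generated by `j_N` over `EN = ℂ(j)`. -/
theorem adjoin_EN_jdF_C :
    (IntermediateField.adjoin EN {jdF N N dvd_rfl} : IntermediateField EN (FN N)) = ⊤ := by
  apply IntermediateField.map_injective (IsScalarTower.toAlgHom EN (FN N) (LN N))
  rw [IntermediateField.adjoin_map, Set.image_singleton, ← AlgHom.fieldRange_eq_map,
    fieldRange_eq_adjoin_C]
  rfl

end Gen

/-- **Package G over `ℂ`**: `F_{Mq}` is generated over `α F_M` by `j (q ^ (M q))`. -/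
theorem adjoin_alphaC_jdF :
    letI := (alphaC M q).toRingHom.toAlgebra
    (IntermediateField.adjoin (FN M) {jdF (M * q) (M * q) dvd_rfl} :
      IntermediateField (FN M) (FN (M * q))) = ⊤ := by
  letI := (alphaC M q).toRingHom.toAlgebra
  let D : IntermediateField EN (FN (M * q)) :=
    { (IntermediateField.adjoin (FN M) {jdF (M * q) (M * q) dvd_rfl} :
        IntermediateField (FN M) (FN (M * q))).toSubfield with
      algebraMap_mem' := fun c => by
        have hc : algebraMap EN (FN (M * q)) c
            = algebraMap (FN M) (FN (M * q)) (algebraMap EN (FN M) c) :=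
          algebraMap_EN_alpha M q c
        rw [hc]
        exact (IntermediateField.adjoin (FN M) {jdF (M * q) (M * q) dvd_rfl} :
          IntermediateField (FN M) (FN (M * q))).algebraMap_mem _ }
  have hD : D = ⊤ := by
    rw [eq_top_iff, ← adjoin_EN_jdF_C (M * q), IntermediateField.adjoin_le_iff]
    rintro _ rfl
    exact IntermediateField.subset_adjoin (FN M) _ (Set.mem_singleton _)
  rw [eq_top_iff]
  intro x _
  have hx : x ∈ D := by rw [hD]; exact IntermediateField.mem_top
  exact hx

end Fermat.Agent.L.Pivot.Geom.H24
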