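import Fermat.Agent.S59.Asm.H41_Rest

/-!
# P-NEW, sub-lemma CHI-LOW (helper25)

`N'' ∣ N'`, `S` contains the primes dividing `N'`.  Then the restriction
`rest : 𝕋_S(N') → 𝕋_S(N'')` (helper41) is surjective, every character `χ'` of `𝕋_S(N'')`
agreeing with a character `χ` of `𝕋_S(N')` on the `T_ℓ` equals `χ` after restriction, and a
character `χ''` of `𝕋_S(N')` with the same kernel as `χ` descends to `𝕋_S(N'')`.

* `restSame` : the restriction map for equal sets `S`;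
* `restSame_surjective`;
* `comp_restSame_eq` : `χ'.comp rest = χ`;
* `exists_chiLow` : the statement asked for by helper81.

Complete proofs, standard axioms only.
-/

set_option autoImplicit false

open CuspForm Fermat.Agent.S59.Asm

namespace Fermat.Agent.L.Pivot.Geom.H25

section

variable {N' N'' : ℕ} [NeZero N'] [NeZero N'']

/-- Induction principle for `heckeAlgebra N 2 S` when `S` contains the primes dividing `N`. -/
theorem hecke_ind25 {N : ℕ} [NeZero N] {S : Set ℕ} (hS : ∀ q : ℕ, q.Prime → q ∣ N → q ∈ S)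
    {P : CuspForm.heckeAlgebra N 2 S → Prop}
    (hT : ∀ (ℓ : ℕ) (hℓ : ℓ.Prime) (hℓN : ¬ ℓ ∣ N) (hℓS : ℓ ∉ S),
      P (CuspForm.heckeAlgebra.T hℓ hℓN hℓS))
    (hint : ∀ n : ℤ, P (n : CuspForm.heckeAlgebra N 2 S))
    (hadd : ∀ x y, P x → P y → P (x + y)) (hmul : ∀ x y, P x → P y → P (x * y)) :
    ∀ x, P x := by
  rintro ⟨x, hx⟩
  induction hx using Algebra.adjoin_induction with
  | mem x hx =>
    rcases hx with ⟨ℓ, hℓ, hℓN, hℓS, rfl⟩ | ⟨q, hqN, hq, hqS, rfl⟩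
    · exact hT ℓ hℓ hℓN hℓS
    · exact absurd (hS q hq hqN) hqS
  | algebraMap n =>
    have : (⟨algebraMap ℤ _ n, Subalgebra.algebraMap_mem _ n⟩ : CuspForm.heckeAlgebra N 2 S)
        = (n : CuspForm.heckeAlgebra N 2 S) := by
      apply Subtype.ext
      simp
    rw [this]
    exact hint n
  | add x y hx hy ihx ihy =>
    have : (⟨x + y, Subalgebra.add_mem _ hx hy⟩ : CuspForm.heckeAlgebra N 2 S)
        = ⟨x, hx⟩ + ⟨y, hy⟩ := rfl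
    rw [this]
    exact hadd _ _ ihx ihy
  | mul x y hx hy ihx ihy =>
    have : (⟨x * y, Subalgebra.mul_mem _ hx hy⟩ : CuspForm.heckeAlgebra N 2 S)
        = ⟨x, hx⟩ * ⟨y, hy⟩ := rfl
    rw [this]
    exact hmul _ _ ihx ihy

/-- The restriction `𝕋_S(N') → 𝕋_S(N'')` for `N'' ∣ N'`, `S ⊇ {q ∣ N'}`. -/
noncomputable def restSame (hd : N'' ∣ N') (S : Set ℕ)
    (hS : ∀ q : ℕ, q.Prime → q ∣ N' → q ∈ S) :
    CuspForm.heckeAlgebra N' 2 S →+* CuspForm.heckeAlgebra N'' 2 S :=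
  H41.rest hd 2 (subset_refl S) (fun q hq hqN' _ => hS q hq hqN')

theorem restSame_T (hd : N'' ∣ N') (S : Set ℕ) (hS : ∀ q : ℕ, q.Prime → q ∣ N' → q ∈ S)
    {ℓ : ℕ} (hℓ : ℓ.Prime) (hℓN' : ¬ ℓ ∣ N') (hℓS : ℓ ∉ S) (hℓN : ¬ ℓ ∣ N'') :
    restSame hd S hS (CuspForm.heckeAlgebra.T hℓ hℓN' hℓS) =
      CuspForm.heckeAlgebra.T hℓ hℓN hℓS :=
  H41.rest_T hd 2 (subset_refl S) (fun q hq hqN' _ => hS q hq hqN') hℓ hℓN' hℓS hℓN hℓS

/-- The restriction is surjective: both algebras are generated by the `T_ℓ`, `ℓ ∉ S`. -/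
theorem restSame_surjective (hd : N'' ∣ N') (S : Set ℕ)
    (hS : ∀ q : ℕ, q.Prime → q ∣ N' → q ∈ S) :
    Function.Surjective (restSame hd S hS) := by
  have hS'' : ∀ q : ℕ, q.Prime → q ∣ N'' → q ∈ S := fun q hq hqN => hS q hq (hqN.trans hd)
  refine hecke_ind25 hS'' (fun ℓ hℓ hℓN hℓS => ?_) (fun n => ?_) (fun x y hx hy => ?_)
    (fun x y hx hy => ?_)
  · have hℓN' : ¬ ℓ ∣ N' := fun h => hℓS (hS ℓ hℓ h)
    exact ⟨CuspForm.heckeAlgebra.T hℓ hℓN' hℓS, restSame_T hd S hS hℓ hℓN' hℓS hℓN⟩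
  · exact ⟨(n : CuspForm.heckeAlgebra N' 2 S), map_intCast _ n⟩
  · obtain ⟨s, hs⟩ := hx
    obtain ⟨t, ht⟩ := hy
    exact ⟨s + t, by rw [map_add, hs, ht]⟩
  · obtain ⟨s, hs⟩ := hx
    obtain ⟨t, ht⟩ := hy
    exact ⟨s * t, by rw [map_mul, hs, ht]⟩

/-- Two ring homomorphisms out of `𝕋_S(N)` (with `S ⊇ {q ∣ N}`) agreeing on the `T_ℓ` are
equal. -/
theorem ringHom_ext25 {N : ℕ} [NeZero N] {S : Set ℕ} (hS : ∀ q : ℕ, q.Prime → q ∣ N → q ∈ S)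
    {E : Type*} [Ring E] (f g : CuspForm.heckeAlgebra N 2 S →+* E)
    (h : ∀ (ℓ : ℕ) (hℓ : ℓ.Prime) (hℓN : ¬ ℓ ∣ N) (hℓS : ℓ ∉ S),
      f (CuspForm.heckeAlgebra.T hℓ hℓN hℓS) = g (CuspForm.heckeAlgebra.T hℓ hℓN hℓS)) :
    f = g := by
  refine RingHom.ext ?_
  refine hecke_ind25 hS h (fun n => ?_) (fun x y hx hy => ?_) (fun x y hx hy => ?_)
  · rw [map_intCast, map_intCast]
  · rw [map_add, map_add, hx, hy]
  · rw [map_mul, map_mul, hx, hy]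

/-- A character of level `N''` agreeing with a character `χ` of level `N'` on the `T_ℓ` is `χ`
after restriction. -/
theorem comp_restSame_eq (hd : N'' ∣ N') (S : Set ℕ) (hS : ∀ q : ℕ, q.Prime → q ∣ N' → q ∈ S)
    {E : Type*} [Ring E]
    (χ : CuspForm.heckeAlgebra N' 2 S →+* E) (χ' : CuspForm.heckeAlgebra N'' 2 S →+* E)
    (hχ' : ∀ (ℓ : ℕ) (hℓ : ℓ.Prime) (hℓN' : ¬ ℓ ∣ N') (hℓS : ℓ ∉ S) (hℓN : ¬ ℓ ∣ N''),
      χ' (CuspForm.heckeAlgebra.T hℓ hℓN hℓS) = χ (CuspForm.heckeAlgebra.T hℓ hℓN' hℓS)) :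
    χ'.comp (restSame hd S hS) = χ := by
  refine ringHom_ext25 hS _ _ (fun ℓ hℓ hℓN' hℓS => ?_)
  have hℓN : ¬ ℓ ∣ N'' := fun h => hℓN' (h.trans hd)
  rw [RingHom.comp_apply, restSame_T hd S hS hℓ hℓN' hℓS hℓN]
  exact hχ' ℓ hℓ hℓN' hℓS hℓN

/-- The kernel of the restriction lies in the kernel of every character of level `N'` which
comes from level `N''`. -/
theorem ker_restSame_le (hd : N'' ∣ N') (S : Set ℕ) (hS : ∀ q : ℕ, q.Prime → q ∣ N' → q ∈ S)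
    {E : Type*} [Ring E]
    (χ : CuspForm.heckeAlgebra N' 2 S →+* E) (χ' : CuspForm.heckeAlgebra N'' 2 S →+* E)
    (hχ' : ∀ (ℓ : ℕ) (hℓ : ℓ.Prime) (hℓN' : ¬ ℓ ∣ N') (hℓS : ℓ ∉ S) (hℓN : ¬ ℓ ∣ N''),
      χ' (CuspForm.heckeAlgebra.T hℓ hℓN hℓS) = χ (CuspForm.heckeAlgebra.T hℓ hℓN' hℓS)) :
    RingHom.ker (restSame hd S hS) ≤ RingHom.ker χ := by
  intro x hx
  rw [RingHom.mem_ker] at hx ⊢
  rw [← comp_restSame_eq hd S hS χ χ' hχ', RingHom.comp_apply, hx, map_zero]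

/-- **CHI-LOW.**  `χ` a character of `𝕋_S(N')` coming from a character `χ'` of `𝕋_S(N'')`
(`N'' ∣ N'`, `S ⊇ {q ∣ N'}`), and `χ''` a character of `𝕋_S(N')` with `ker χ'' = ker χ`: then
`χ''` comes from a character of `𝕋_S(N'')` as well. -/
theorem exists_chiLow {N' N'' : ℕ} [NeZero N'] [NeZero N''] (hd : N'' ∣ N') (S : Set ℕ)
    (hS : ∀ q : ℕ, q.Prime → q ∣ N' → q ∈ S)
    {E L : Type} [CommRing E] [CommRing L]
    (χ : CuspForm.heckeAlgebra N' 2 S →+* E) (χ' : CuspForm.heckeAlgebra N'' 2 S →+* E)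
    (hχ' : ∀ (ℓ : ℕ) (hℓ : ℓ.Prime) (hℓN' : ¬ ℓ ∣ N') (hℓS : ℓ ∉ S) (hℓN : ¬ ℓ ∣ N''),
      χ' (CuspForm.heckeAlgebra.T hℓ hℓN hℓS) = χ (CuspForm.heckeAlgebra.T hℓ hℓN' hℓS))
    (χ'' : CuspForm.heckeAlgebra N' 2 S →+* L) (hker : RingHom.ker χ'' = RingHom.ker χ) :
    ∃ χlow : CuspForm.heckeAlgebra N'' 2 S →+* L,
      ∀ (ℓ : ℕ) (hℓ : ℓ.Prime) (hℓN : ¬ ℓ ∣ N'') (hℓS : ℓ ∉ S) (hℓN' : ¬ ℓ ∣ N'),
        χlow (CuspForm.heckeAlgebra.T hℓ hℓN hℓS) = χ'' (CuspForm.heckeAlgebra.T hℓ hℓN' hℓS) := by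
  have hle : RingHom.ker (restSame hd S hS) ≤ RingHom.ker χ'' := by
    rw [hker]
    exact ker_restSame_le hd S hS χ χ' hχ'
  have hsurj := restSame_surjective hd S hS
  refine ⟨RingHom.liftOfSurjective (restSame hd S hS) hsurj ⟨χ'', hle⟩, ?_⟩
  intro ℓ hℓ hℓN hℓS hℓN'
  rw [← restSame_T hd S hS hℓ hℓN' hℓS hℓN]
  exact RingHom.liftOfRightInverse_comp_apply _ _ _ _ _

/-- Variant with the full factorisation property. -/
theorem exists_chiLow_comp {N' N'' : ℕ} [NeZero N'] [NeZero N''] (hd : N'' ∣ N') (S : Set ℕ)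
    (hS : ∀ q : ℕ, q.Prime → q ∣ N' → q ∈ S)
    {E L : Type*} [CommRing E] [CommRing L]
    (χ : CuspForm.heckeAlgebra N' 2 S →+* E) (χ' : CuspForm.heckeAlgebra N'' 2 S →+* E)
    (hχ' : ∀ (ℓ : ℕ) (hℓ : ℓ.Prime) (hℓN' : ¬ ℓ ∣ N') (hℓS : ℓ ∉ S) (hℓN : ¬ ℓ ∣ N''),
      χ' (CuspForm.heckeAlgebra.T hℓ hℓN hℓS) = χ (CuspForm.heckeAlgebra.T hℓ hℓN' hℓS))
    (χ'' : CuspForm.heckeAlgebra N' 2 S →+* L) (hker : RingHom.ker χ'' = RingHom.ker χ) :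
    ∃ χlow : CuspForm.heckeAlgebra N'' 2 S →+* L,
      χlow.comp (restSame hd S hS) = χ'' := by
  have hle : RingHom.ker (restSame hd S hS) ≤ RingHom.ker χ'' := by
    rw [hker]
    exact ker_restSame_le hd S hS χ χ' hχ'
  have hsurj := restSame_surjective hd S hS
  exact ⟨RingHom.liftOfSurjective (restSame hd S hS) hsurj ⟨χ'', hle⟩,
    RingHom.liftOfRightInverse_comp _ _ _ _⟩

end

end Fermat.Agent.L.Pivot.Geom.H25
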