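import Fermat.Agent.L.Pivot.Geom.H3_LinCore
import Fermat.Agent.L.Pivot.Global

/-!
# PIVOT, PV-GEOM, leaf PVG-LIN (helper3)

`F` a finite free `𝒪`-module (the Tate module of `W`), `c_j` commuting automorphisms of finite
order `n_j` (the diamond operators at the pivot primes), `ψ_j ∈ 𝒪` with `ψ_j ^ n_j = 1`,
`typeSub c ψ = ∑ range (c_j - ψ_j)` saturated in `F`; `η : 𝕋 → End_𝒪 F` a ring homomorphism
commuting with the `c_j`, `𝕋` integral over `ℤ`; `χ : 𝕋 → D` (a domain of characteristic `0`)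
which kills every `t` with `η t F ⊆ typeSub c ψ`; `L` an algebraically closed field containing
`𝒪`.

* `lin_typeSub` (tensor form): there are `χ' : 𝕋 → L` with `ker χ' = ker χ` and
  `0 ≠ v ∈ L ⊗ F` with `(η t ⊗ 1) v = χ' t • v` and `(c_j ⊗ 1) v = ψ_j • v`.
* `lin_transport` (transport form): the same in any `L`-vector space `E` with an `𝒪`-linear
  `ι : F → E` mapping a basis of `F` to an `L`-linearly independent family: `0 ≠ w ∈ E` such
  that every `L`-linear `TE : E → E` with `TE ∘ ι = ι ∘ η t` satisfies `TE w = χ' t • w`, and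
  every `CE` with `CE ∘ ι = ι ∘ c_j` satisfies `CE w = ψ_j • w`.
* `Stmt_LIN` / `stmt_LIN`: the tensor form as a `Prop` (all types in `Type`).
-/

set_option autoImplicit false

open TensorProduct

namespace Fermat.Agent.L.Pivot.Geom.H3

open Fermat.Agent.L.Pivot

section

variable {𝒪 : Type} [CommRing 𝒪] {F : Type} [AddCommGroup F] [Module 𝒪 F]

theorem typeSub_eq {k : ℕ} (c : Fin k → Module.End 𝒪 F) (ψ : Fin k → 𝒪) :
    typeSub c ψ = ⨆ j, LinearMap.range (c j - ψ j • (1 : Module.End 𝒪 F)) := rfl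

/-- **PVG-LIN, tensor form, with `typeSub`.** -/
theorem lin_typeSub [IsDomain 𝒪] [CharZero 𝒪] {L : Type*} [Field L] [Algebra 𝒪 L]
    [IsAlgClosed L] (hL : Function.Injective (algebraMap 𝒪 L)) [Module.Finite 𝒪 F]
    [Module.Free 𝒪 F] {k : ℕ} (c : Fin k → Module.End 𝒪 F) (n : Fin k → ℕ) (hn : ∀ j, 0 < n j)
    (hc : ∀ j, c j ^ n j = 1) (hcc : ∀ i j, Commute (c i) (c j))
    (ψ : Fin k → 𝒪) (hψ : ∀ j, ψ j ^ n j = 1)
    (hsat : ∀ (a : 𝒪) (y : F), a ≠ 0 → a • y ∈ typeSub c ψ → y ∈ typeSub c ψ)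
    {𝕋 : Type*} [CommRing 𝕋] [Algebra.IsIntegral ℤ 𝕋] (η : 𝕋 →+* Module.End 𝒪 F)
    (hηc : ∀ t j, Commute (η t) (c j))
    {D : Type*} [CommRing D] [IsDomain D] [CharZero D] (χ : 𝕋 →+* D)
    (hχ : ∀ t, (∀ v, η t v ∈ typeSub c ψ) → χ t = 0) :
    ∃ χ' : 𝕋 →+* L, RingHom.ker χ' = RingHom.ker χ ∧ ∃ v : L ⊗[𝒪] F, v ≠ 0 ∧
      (∀ t, (η t).baseChange L v = χ' t • v) ∧
      (∀ j, (c j).baseChange L v = algebraMap 𝒪 L (ψ j) • v) :=
  lin_tensor hL c n hn hc hcc ψ hψ hsat η hηc χ hχ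

/-- The `L`-linear extension of `ι : F → E` is injective when `ι` maps a basis of `F` to an
`L`-linearly independent family. -/
theorem liftBaseChange_injective {L : Type*} [Field L] [Algebra 𝒪 L] {E : Type*}
    [AddCommGroup E] [Module L E] [Module 𝒪 E] [IsScalarTower 𝒪 L E] (ι : F →ₗ[𝒪] E)
    {κ : Type*} (b : Module.Basis κ 𝒪 F) (hb : LinearIndependent L (fun i => ι (b i))) :
    Function.Injective (ι.liftBaseChange L) := by
  classical
  have h : ι.liftBaseChange L = (Finsupp.linearCombination L (fun i => ι (b i))) ∘ₗ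
      ((Algebra.TensorProduct.basis L b).repr : L ⊗[𝒪] F →ₗ[L] κ →₀ L) := by
    refine (Algebra.TensorProduct.basis L b).ext (fun i => ?_)
    simp
  rw [h, LinearMap.coe_comp]
  exact Function.Injective.comp hb (Algebra.TensorProduct.basis L b).repr.injective

/-- **PVG-LIN, transport form.** -/
theorem lin_transport [IsDomain 𝒪] [CharZero 𝒪] {L : Type*} [Field L] [Algebra 𝒪 L]
    [IsAlgClosed L] (hL : Function.Injective (algebraMap 𝒪 L)) [Module.Finite 𝒪 F]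
    [Module.Free 𝒪 F] {k : ℕ} (c : Fin k → Module.End 𝒪 F) (n : Fin k → ℕ) (hn : ∀ j, 0 < n j)
    (hc : ∀ j, c j ^ n j = 1) (hcc : ∀ i j, Commute (c i) (c j))
    (ψ : Fin k → 𝒪) (hψ : ∀ j, ψ j ^ n j = 1)
    (hsat : ∀ (a : 𝒪) (y : F), a ≠ 0 → a • y ∈ typeSub c ψ → y ∈ typeSub c ψ)
    {𝕋 : Type*} [CommRing 𝕋] [Algebra.IsIntegral ℤ 𝕋] (η : 𝕋 →+* Module.End 𝒪 F)
    (hηc : ∀ t j, Commute (η t) (c j))
    {D : Type*} [CommRing D] [IsDomain D] [CharZero D] (χ : 𝕋 →+* D)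
    (hχ : ∀ t, (∀ v, η t v ∈ typeSub c ψ) → χ t = 0)
    {E : Type*} [AddCommGroup E] [Module L E] [Module 𝒪 E] [IsScalarTower 𝒪 L E]
    (ι : F →ₗ[𝒪] E) {κ : Type*} (b : Module.Basis κ 𝒪 F)
    (hb : LinearIndependent L (fun i => ι (b i))) :
    ∃ χ' : 𝕋 →+* L, RingHom.ker χ' = RingHom.ker χ ∧ ∃ w : E, w ≠ 0 ∧
      (∀ (t : 𝕋) (TE : Module.End L E), (∀ x, TE (ι x) = ι (η t x)) → TE w = χ' t • w) ∧
      (∀ (j : Fin k) (CE : Module.End L E), (∀ x, CE (ι x) = ι (c j x)) →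
        CE w = algebraMap 𝒪 L (ψ j) • w) := by
  obtain ⟨χ', hker, v, hv0, hvη, hvc⟩ :=
    lin_tensor hL c n hn hc hcc ψ hψ hsat η hηc χ hχ
  have hinj := liftBaseChange_injective ι b hb
  have hint : ∀ (g : Module.End 𝒪 F) (TE : Module.End L E), (∀ x, TE (ι x) = ι (g x)) →
      ∀ u : L ⊗[𝒪] F, TE (ι.liftBaseChange L u) = ι.liftBaseChange L (g.baseChange L u) := by
    intro g TE hTE u
    induction u using TensorProduct.induction_on with
    | zero => simp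
    | tmul l x =>
      rw [LinearMap.liftBaseChange_tmul, LinearMap.baseChange_tmul,
        LinearMap.liftBaseChange_tmul, map_smul, hTE]
    | add u u' hu hu' => rw [map_add, map_add, map_add, map_add, hu, hu']
  refine ⟨χ', hker, ι.liftBaseChange L v, ?_, ?_, ?_⟩
  · intro h
    exact hv0 (hinj (by rw [h, map_zero]))
  · intro t TE hTE
    rw [hint (η t) TE hTE v, hvη t, map_smul]
  · intro j CE hCE
    rw [hint (c j) CE hCE v, hvc j, map_smul]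

end

/-- **PVG-LIN** as a `Prop` (tensor form, all types in `Type`). -/
def Stmt_LIN : Prop :=
  ∀ (𝒪 : Type) [CommRing 𝒪] [IsDomain 𝒪] [CharZero 𝒪] (L : Type) [Field L] [Algebra 𝒪 L]
    [IsAlgClosed L], Function.Injective (algebraMap 𝒪 L) →
  ∀ (F : Type) [AddCommGroup F] [Module 𝒪 F] [Module.Finite 𝒪 F] [Module.Free 𝒪 F]
    (k : ℕ) (c : Fin k → Module.End 𝒪 F) (n : Fin k → ℕ), (∀ j, 0 < n j) →
    (∀ j, c j ^ n j = 1) → (∀ i j, Commute (c i) (c j)) →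
  ∀ (ψ : Fin k → 𝒪), (∀ j, ψ j ^ n j = 1) →
    (∀ (a : 𝒪) (y : F), a ≠ 0 → a • y ∈ typeSub c ψ → y ∈ typeSub c ψ) →
  ∀ (𝕋 : Type) [CommRing 𝕋] [Algebra.IsIntegral ℤ 𝕋] (η : 𝕋 →+* Module.End 𝒪 F),
    (∀ t j, Commute (η t) (c j)) →
  ∀ (D : Type) [CommRing D] [IsDomain D] [CharZero D] (χ : 𝕋 →+* D),
    (∀ t, (∀ v, η t v ∈ typeSub c ψ) → χ t = 0) →
    ∃ χ' : 𝕋 →+* L, RingHom.ker χ' = RingHom.ker χ ∧ ∃ v : L ⊗[𝒪] F, v ≠ 0 ∧
      (∀ t, (η t).baseChange L v = χ' t • v) ∧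
      (∀ j, (c j).baseChange L v = algebraMap 𝒪 L (ψ j) • v)

theorem stmt_LIN : Stmt_LIN := by
  intro 𝒪 _ _ _ L _ _ _ hL F _ _ _ _ k c n hn hc hcc ψ hψ hsat 𝕋 _ _ η hηc D _ _ _ χ hχ
  exact lin_tensor hL c n hn hc hcc ψ hψ hsat η hηc χ hχ

end Fermat.Agent.L.Pivot.Geom.H3
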