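import Mathlib

/-!
# PIVOT, PV-GEOM, leaf PVG-LIN (helper3): pure algebra, Mathlib only

* `mem_minimalPrimes_of_integral`: in a ring integral over `ℤ`, a prime with residue
  characteristic `0` is minimal over every ideal it contains.
* `exists_eigen_of_minimalPrime`: a commuting action `ρ : 𝕋 → End_L V` on a finite-dimensional
  space over an algebraically closed field, and a prime `𝔭` of `𝕋` minimal over `ker ρ`:
  there are a character `χ : 𝕋 → L` with kernel `𝔭` and a simultaneous eigenvector.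
* `exists_proj`: the projector (times `N`) on the simultaneous `ψ`-eigenspace of commuting
  operators `c_j` of finite order.
* `maps_to_typeSub_of_kills_eigen`: an operator commuting with the `c_j` which kills the
  `ψ`-eigenvectors maps everything into `∑ range (c_j - ψ_j)` (saturated).
* **`lin_tensor`** (PVG-LIN): `F` finite free over `𝒪`, `η : 𝕋 → End_𝒪 F` commuting with the `c_j`,
  `𝕋` integral over `ℤ`, `χ : 𝕋 → D` (characteristic-`0` domain) killing every `t` with
  `η t F ⊆ ∑ range (c_j - ψ_j)`.  Then there are `χ' : 𝕋 → L` with `ker χ' = ker χ` and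
  `0 ≠ v ∈ L ⊗ F` with `η t v = χ' t • v`, `c_j v = ψ_j • v`.
-/

set_option autoImplicit false

open Polynomial TensorProduct

namespace Fermat.Agent.L.Pivot.Geom.H3

/-- In a ring integral over `ℤ`, a prime of residue characteristic `0` is minimal over every ideal
contained in it. -/
theorem mem_minimalPrimes_of_integral {𝕋 : Type*} [CommRing 𝕋] [Algebra.IsIntegral ℤ 𝕋]
    (𝔞 𝔭 : Ideal 𝕋) [h𝔭 : 𝔭.IsPrime] (hle : 𝔞 ≤ 𝔭)
    (h0 : ∀ n : ℤ, (n : 𝕋) ∈ 𝔭 → n = 0) : 𝔭 ∈ 𝔞.minimalPrimes := by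
  refine ⟨⟨h𝔭, hle⟩, ?_⟩
  rintro 𝔮 ⟨h𝔮, -⟩ h𝔮𝔭
  by_contra hne
  obtain ⟨x, hx𝔭, hx𝔮⟩ := Set.not_subset.mp hne
  have hlt := Ideal.comap_lt_comap_of_integral_mem_sdiff (R := ℤ) (I := 𝔮) (J := 𝔭) h𝔮𝔭
    ⟨hx𝔭, hx𝔮⟩ (Algebra.IsIntegral.isIntegral x)
  have hbot : 𝔭.comap (algebraMap ℤ 𝕋) = ⊥ := by
    rw [eq_bot_iff]
    intro n hn
    rw [Ideal.mem_comap] at hn
    rw [Ideal.mem_bot]
    exact h0 n (by simpa using hn)
  rw [hbot] at hlt
  exact not_lt_bot hlt

/-- A commuting action `ρ : 𝕋 → End_L V` on a finite-dimensional space over an algebraically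
closed field, and a prime `𝔭` of `𝕋` minimal over `ker ρ`: there are a character `χ : 𝕋 → L`
with kernel `𝔭` and a simultaneous eigenvector. -/
theorem exists_eigen_of_minimalPrime {L : Type*} [Field L] [IsAlgClosed L] {V : Type*}
    [AddCommGroup V] [Module L V] [FiniteDimensional L V] {𝕋 : Type*} [CommRing 𝕋]
    (ρ : 𝕋 →+* Module.End L V) (𝔭 : Ideal 𝕋) (h𝔭 : 𝔭 ∈ (RingHom.ker ρ).minimalPrimes) :
    ∃ χ : 𝕋 →+* L, RingHom.ker χ = 𝔭 ∧ ∃ v : V, v ≠ 0 ∧ ∀ t, ρ t v = χ t • v := by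
  classical
  have hcomm : ∀ a ∈ Set.range ρ, ∀ b ∈ Set.range ρ, a * b = b * a := by
    rintro _ ⟨t, rfl⟩ _ ⟨t', rfl⟩
    rw [← map_mul, ← map_mul, mul_comm]
  letI : CommRing (Algebra.adjoin L (Set.range ρ)) :=
    { (inferInstance : Ring (Algebra.adjoin L (Set.range ρ))) with
      mul_comm := (Algebra.isMulCommutative_adjoin L hcomm).is_comm.comm }
  let B := Algebra.adjoin L (Set.range ρ)
  let f : 𝕋 →+* B := ρ.codRestrict B (fun t => Algebra.subset_adjoin ⟨t, rfl⟩)
  have hf : ∀ t, ((f t : B) : Module.End L V) = ρ t := fun t => rfl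
  have hker : (⊥ : Ideal B).comap f = RingHom.ker ρ := by
    ext t
    rw [Ideal.mem_comap, Ideal.mem_bot, RingHom.mem_ker, ← hf t]
    exact Subtype.ext_iff
  obtain ⟨𝔓, h𝔓min, h𝔓⟩ := Ideal.exists_minimalPrimes_comap_eq (I := (⊥ : Ideal B)) f 𝔭
    (by rw [hker]; exact h𝔭)
  have h𝔓prime : 𝔓.IsPrime := h𝔓min.1.1
  haveI : IsNoetherianRing B := IsNoetherianRing.of_finite L B
  haveI : IsArtinianRing B := IsArtinianRing.of_finite L B
  haveI : Module.Finite B V := Module.Finite.of_restrictScalars_finite L B V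
  have hann : Module.annihilator B V = ⊥ := by
    rw [eq_bot_iff]
    intro b hb
    rw [Module.mem_annihilator] at hb
    rw [Ideal.mem_bot]
    apply Subtype.ext
    apply LinearMap.ext
    intro v
    exact hb v
  have hass : 𝔓 ∈ associatedPrimes B V :=
    Module.associatedPrimes.minimalPrimes_annihilator_subset_associatedPrimes B V (by rw [hann]; exact h𝔓min)
  obtain ⟨-, v, hv⟩ := (isAssociatedPrime_iff).mp hass
  have hmem : ∀ b : B, b ∈ 𝔓 ↔ (b : Module.End L V) v = 0 := by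
    intro b
    rw [hv, Submodule.mem_colon_singleton, Submodule.mem_bot]
    rfl
  have hv0 : v ≠ 0 := by
    intro h0
    apply h𝔓prime.ne_top
    rw [Ideal.eq_top_iff_one, hmem, h0, map_zero]
  haveI : 𝔓.IsMaximal := (IsArtinianRing.isPrime_iff_isMaximal 𝔓).mp h𝔓prime
  letI : Field (B ⧸ 𝔓) := Ideal.Quotient.field 𝔓
  haveI : Algebra.IsIntegral L (B ⧸ 𝔓) := Algebra.IsIntegral.of_finite L (B ⧸ 𝔓)
  have hbij : Function.Bijective (algebraMap L (B ⧸ 𝔓)) :=
    IsAlgClosed.algebraMap_bijective_of_isIntegral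
  let e : L ≃+* B ⧸ 𝔓 := RingEquiv.ofBijective (algebraMap L (B ⧸ 𝔓)) hbij
  let χ : 𝕋 →+* L := (e.symm : (B ⧸ 𝔓) →+* L).comp ((Ideal.Quotient.mk 𝔓).comp f)
  have hχ : ∀ t, algebraMap L (B ⧸ 𝔓) (χ t) = Ideal.Quotient.mk 𝔓 (f t) := by
    intro t
    exact e.apply_symm_apply _
  refine ⟨χ, ?_, v, hv0, ?_⟩
  · ext t
    rw [RingHom.mem_ker, ← h𝔓, Ideal.mem_comap]
    constructor
    · intro h
      have := hχ t
      rw [h, map_zero] at this
      exact Ideal.Quotient.eq_zero_iff_mem.mp this.symm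
    · intro h
      have := hχ t
      rw [Ideal.Quotient.eq_zero_iff_mem.mpr h] at this
      exact (map_eq_zero_iff _ hbij.1).mp this
  · intro t
    have h1 : f t - algebraMap L B (χ t) ∈ 𝔓 := by
      rw [← Ideal.Quotient.eq_zero_iff_mem, map_sub, ← hχ t]
      rw [sub_eq_zero]
      rfl
    have h2 := (hmem _).mp h1
    have h3 : ((f t - algebraMap L B (χ t) : B) : Module.End L V) = ρ t - algebraMap L _ (χ t) := rfl
    rw [h3, LinearMap.sub_apply, sub_eq_zero] at h2
    rw [h2]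
    rfl

section Proj

variable {𝒪 : Type*} [CommRing 𝒪] {F : Type*} [AddCommGroup F] [Module 𝒪 F]

/-- Polynomials in `c` commute with everything which commutes with `c`. -/
theorem commute_aeval {g c : Module.End 𝒪 F} (h : Commute g c) (q : 𝒪[X]) :
    Commute g (aeval c q) := by
  induction q using Polynomial.induction_on with
  | C a =>
    rw [aeval_C]
    exact (Algebra.commutes a g).symm
  | add p q hp hq =>
    rw [map_add]
    exact hp.add_right hq
  | monomial n a ih =>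
    rw [pow_succ, ← mul_assoc, map_mul, aeval_X]
    exact ih.mul_right h

/-- The projector (times `n`) on the `ψ`-eigenspace of an operator of order `n`. -/
theorem exists_proj_one (c : Module.End 𝒪 F) (n : ℕ) (hn : 0 < n) (hc : c ^ n = 1) (ψ : 𝒪)
    (hψ : ψ ^ n = 1) :
    ∃ P H : Module.End 𝒪 F, (∀ g : Module.End 𝒪 F, Commute g c → Commute g P) ∧
      (c - ψ • (1 : Module.End 𝒪 F)) * P = 0 ∧
      (n : 𝒪) • (1 : Module.End 𝒪 F) - P = (c - ψ • (1 : Module.End 𝒪 F)) * H := by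
  obtain ⟨m, rfl⟩ : ∃ m, n = m + 1 := ⟨n - 1, by omega⟩
  set p0 : 𝒪[X] := X ^ (m + 1) - 1 with hp0
  have hroot : IsRoot p0 ψ := by
    simp [hp0, IsRoot.def, hψ]
  set g : 𝒪[X] := p0 /ₘ (X - C ψ) with hg
  have hmul : (X - C ψ) * g = p0 := mul_divByMonic_eq_iff_isRoot.mpr hroot
  have hgψ : eval ψ g = ((m + 1 : ℕ) : 𝒪) * ψ ^ m := by
    have h1 := congrArg (fun q => eval ψ (derivative q)) hmul
    simp only [derivative_mul, derivative_sub, derivative_X, derivative_C, sub_zero, one_mul,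
      eval_add, eval_mul, eval_sub, eval_X, eval_C, sub_self, zero_mul, add_zero, hp0,
      derivative_X_pow, derivative_one, eval_pow, Nat.add_sub_cancel, eval_natCast] at h1
    simpa using h1
  have hroot2 : IsRoot (C ((m + 1 : ℕ) : 𝒪) - C ψ * g) ψ := by
    rw [IsRoot.def, eval_sub, eval_mul, eval_C, eval_C, hgψ]
    have : ψ * (((m + 1 : ℕ) : 𝒪) * ψ ^ m) = ((m + 1 : ℕ) : 𝒪) * ψ ^ (m + 1) := by ring
    rw [this, hψ, mul_one, sub_self]
  obtain ⟨h, hh⟩ := dvd_iff_isRoot.mpr hroot2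
  have hX : aeval c (X - C ψ : 𝒪[X]) = c - ψ • (1 : Module.End 𝒪 F) := by
    rw [map_sub, aeval_X, aeval_C, Algebra.algebraMap_eq_smul_one]
  refine ⟨aeval c (C ψ * g), aeval c h, fun g' hg' => commute_aeval hg' _, ?_, ?_⟩
  · rw [← hX, ← map_mul]
    have : (X - C ψ) * (C ψ * g) = C ψ * p0 := by rw [← hmul]; ring
    rw [this, map_mul, hp0, map_sub, map_pow, aeval_X, hc, map_one, sub_self, mul_zero]
  · rw [← hX, ← map_mul, ← hh, map_sub, aeval_C, Algebra.algebraMap_eq_smul_one]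

/-- The projector (times `N`) on the simultaneous eigenspace of commuting operators of finite
order. -/
theorem exists_proj {k : ℕ} (c : Fin k → Module.End 𝒪 F) (n : Fin k → ℕ) (hn : ∀ j, 0 < n j)
    (hc : ∀ j, c j ^ n j = 1) (hcc : ∀ i j, Commute (c i) (c j))
    (ψ : Fin k → 𝒪) (hψ : ∀ j, ψ j ^ n j = 1) (s : Finset (Fin k)) :
    ∃ (N : ℕ) (P : Module.End 𝒪 F), 0 < N ∧
      (∀ g : Module.End 𝒪 F, (∀ j, Commute g (c j)) → Commute g P) ∧
      (∀ j ∈ s, ∀ v, c j (P v) = ψ j • P v) ∧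
      (∀ v, (N : 𝒪) • v - P v ∈
        ⨆ j ∈ s, LinearMap.range (c j - ψ j • (1 : Module.End 𝒪 F))) := by
  classical
  induction s using Finset.induction_on with
  | empty =>
    refine ⟨1, 1, Nat.one_pos, fun g _ => Commute.one_right g, ?_, ?_⟩
    · intro j hj
      exact absurd hj (Finset.notMem_empty j)
    · intro v
      simp
  | insert j s hjs ih =>
    obtain ⟨N, P, hN, hPc, hPe, hPr⟩ := ih
    obtain ⟨Pj, Hj, hPjc, hPj0, hPjH⟩ := exists_proj_one (c j) (n j) (hn j) (hc j) (ψ j) (hψ j)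
    refine ⟨n j * N, Pj * P, Nat.mul_pos (hn j) hN, ?_, ?_, ?_⟩
    · intro g hg
      exact (hPjc g (hg j)).mul_right (hPc g hg)
    · intro i hi v
      rcases Finset.mem_insert.mp hi with rfl | hi
      · have h1 := congrArg (fun f : Module.End 𝒪 F => f (P v)) hPj0
        simp only [Module.End.mul_apply, LinearMap.sub_apply, LinearMap.smul_apply,
          Module.End.one_apply, LinearMap.zero_apply] at h1
        rw [Module.End.mul_apply]
        exact sub_eq_zero.mp h1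
      · have hcomm : Commute (c i) Pj := hPjc (c i) (hcc i j)
        have h1 : c i (Pj (P v)) = Pj (c i (P v)) := by
          have := congrArg (fun f : Module.End 𝒪 F => f (P v)) hcomm.eq
          simpa [Module.End.mul_apply] using this
        rw [Module.End.mul_apply, h1, hPe i hi v, map_smul]
    · intro v
      have h1 : ((n j * N : ℕ) : 𝒪) • v - (Pj * P) v =
          (n j : 𝒪) • ((N : 𝒪) • v - P v) + ((n j : 𝒪) • (1 : Module.End 𝒪 F) - Pj) (P v) := by
        simp only [Module.End.mul_apply, LinearMap.sub_apply, LinearMap.smul_apply,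
          Module.End.one_apply, Nat.cast_mul, smul_sub, mul_smul]
        abel
      rw [h1]
      refine Submodule.add_mem _ (Submodule.smul_mem _ _ ?_) ?_
      · refine (iSup_le fun i => iSup_le fun hi => ?_ :
          (⨆ i ∈ s, LinearMap.range (c i - ψ i • (1 : Module.End 𝒪 F))) ≤ _) (hPr v)
        exact le_iSup₂_of_le i (Finset.mem_insert_of_mem hi) le_rfl
      · rw [hPjH, Module.End.mul_apply]
        exact (le_iSup₂_of_le j (Finset.mem_insert_self j s) le_rfl :
          LinearMap.range (c j - ψ j • (1 : Module.End 𝒪 F)) ≤ _) ⟨_, rfl⟩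

end Proj

section Main

variable {𝒪 : Type*} [CommRing 𝒪] {F : Type*} [AddCommGroup F] [Module 𝒪 F]

/-- An operator commuting with the `c_j` which kills the simultaneous `ψ`-eigenvectors maps
everything into `∑ range (c_j - ψ_j)`, when the latter is saturated. -/
theorem maps_to_typeSub_of_kills_eigen [CharZero 𝒪] {k : ℕ} (c : Fin k → Module.End 𝒪 F)
    (n : Fin k → ℕ) (hn : ∀ j, 0 < n j)
    (hc : ∀ j, c j ^ n j = 1) (hcc : ∀ i j, Commute (c i) (c j))
    (ψ : Fin k → 𝒪) (hψ : ∀ j, ψ j ^ n j = 1)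
    (hsat : ∀ (a : 𝒪) (y : F), a ≠ 0 →
      a • y ∈ (⨆ j, LinearMap.range (c j - ψ j • (1 : Module.End 𝒪 F))) →
      y ∈ ⨆ j, LinearMap.range (c j - ψ j • (1 : Module.End 𝒪 F)))
    (g : Module.End 𝒪 F) (hg : ∀ j, Commute g (c j))
    (hkill : ∀ m : F, (∀ j, c j m = ψ j • m) → g m = 0) (v : F) :
    g v ∈ ⨆ j, LinearMap.range (c j - ψ j • (1 : Module.End 𝒪 F)) := by
  obtain ⟨N, P, hN, hPc, hPe, hPr⟩ := exists_proj c n hn hc hcc ψ hψ Finset.univ
  have h1 : g (P v) = 0 := hkill (P v) (fun j => hPe j (Finset.mem_univ j) v)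
  have h2 : P (g v) = 0 := by
    have := congrArg (fun f : Module.End 𝒪 F => f v) (hPc g hg).eq
    simp only [Module.End.mul_apply] at this
    rw [← this, h1]
  have h3 := hPr (g v)
  rw [h2, sub_zero] at h3
  have h4 : (⨆ j ∈ (Finset.univ : Finset (Fin k)),
      LinearMap.range (c j - ψ j • (1 : Module.End 𝒪 F))) =
      ⨆ j, LinearMap.range (c j - ψ j • (1 : Module.End 𝒪 F)) := by
    simp
  rw [h4] at h3
  exact hsat (N : 𝒪) (g v) (Nat.cast_ne_zero.mpr hN.ne') h3

/-- `x ↦ 1 ⊗ x` is injective on a free module, when `𝒪 → L` is injective. -/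
theorem tmul_one_injective {L : Type*} [CommRing L] [Algebra 𝒪 L]
    (hL : Function.Injective (algebraMap 𝒪 L)) [Module.Free 𝒪 F] (x : F)
    (hx : (1 : L) ⊗ₜ[𝒪] x = 0) : x = 0 := by
  classical
  let b := Module.Free.chooseBasis 𝒪 F
  have h1 := congrArg (Algebra.TensorProduct.basis L b).repr hx
  rw [Algebra.TensorProduct.basis_repr_tmul, map_zero, one_smul] at h1
  apply b.repr.injective
  rw [map_zero]
  ext i
  have h2 := DFunLike.congr_fun h1 i
  simp only [Finsupp.mapRange_apply, Finsupp.coe_zero, Pi.zero_apply] at h2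
  rw [Finsupp.coe_zero, Pi.zero_apply]
  exact hL (by rw [h2, map_zero])

/-- Restriction of a ring homomorphism into endomorphisms to a stable submodule. -/
def restrictRingHom {L : Type*} [CommRing L] {E : Type*} [AddCommGroup E] [Module L E]
    {𝕋 : Type*} [Ring 𝕋] (ρ : 𝕋 →+* Module.End L E) (V : Submodule L E)
    (h : ∀ t, ∀ v ∈ V, ρ t v ∈ V) : 𝕋 →+* Module.End L V where
  toFun t := (ρ t).restrict (h t)
  map_one' := by
    ext v
    simp [LinearMap.restrict_apply]
  map_mul' := by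
    intro t t'
    ext v
    simp [LinearMap.restrict_apply]
  map_zero' := by
    ext v
    simp [LinearMap.restrict_apply]
  map_add' := by
    intro t t'
    ext v
    simp [LinearMap.restrict_apply]

theorem restrictRingHom_apply {L : Type*} [CommRing L] {E : Type*} [AddCommGroup E] [Module L E]
    {𝕋 : Type*} [Ring 𝕋] (ρ : 𝕋 →+* Module.End L E) (V : Submodule L E)
    (h : ∀ t, ∀ v ∈ V, ρ t v ∈ V) (t : 𝕋) (v : V) :
    ((restrictRingHom ρ V h t v : V) : E) = ρ t (v : E) := rfl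

/-- **PVG-LIN, tensor form.** -/
theorem lin_tensor [IsDomain 𝒪] [CharZero 𝒪] {L : Type*} [Field L] [Algebra 𝒪 L] [IsAlgClosed L]
    (hL : Function.Injective (algebraMap 𝒪 L)) [Module.Finite 𝒪 F] [Module.Free 𝒪 F]
    {k : ℕ} (c : Fin k → Module.End 𝒪 F) (n : Fin k → ℕ) (hn : ∀ j, 0 < n j)
    (hc : ∀ j, c j ^ n j = 1) (hcc : ∀ i j, Commute (c i) (c j))
    (ψ : Fin k → 𝒪) (hψ : ∀ j, ψ j ^ n j = 1)
    (hsat : ∀ (a : 𝒪) (y : F), a ≠ 0 →
      a • y ∈ (⨆ j, LinearMap.range (c j - ψ j • (1 : Module.End 𝒪 F))) →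
      y ∈ ⨆ j, LinearMap.range (c j - ψ j • (1 : Module.End 𝒪 F)))
    {𝕋 : Type*} [CommRing 𝕋] [Algebra.IsIntegral ℤ 𝕋] (η : 𝕋 →+* Module.End 𝒪 F)
    (hηc : ∀ t j, Commute (η t) (c j))
    {D : Type*} [CommRing D] [IsDomain D] [CharZero D] (χ : 𝕋 →+* D)
    (hχ : ∀ t, (∀ v, η t v ∈ ⨆ j, LinearMap.range (c j - ψ j • (1 : Module.End 𝒪 F))) →
      χ t = 0) :
    ∃ χ' : 𝕋 →+* L, RingHom.ker χ' = RingHom.ker χ ∧ ∃ v : L ⊗[𝒪] F, v ≠ 0 ∧
      (∀ t, (η t).baseChange L v = χ' t • v) ∧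
      (∀ j, (c j).baseChange L v = algebraMap 𝒪 L (ψ j) • v) := by
  classical
  -- the eigenspace
  obtain ⟨V, hV⟩ : ∃ V : Submodule L (L ⊗[𝒪] F),
      ∀ v, v ∈ V ↔ ∀ j, (c j).baseChange L v = algebraMap 𝒪 L (ψ j) • v := by
    refine ⟨⨅ j, LinearMap.ker ((c j).baseChange L -
      algebraMap 𝒪 L (ψ j) • (1 : Module.End L (L ⊗[𝒪] F))), fun v => ?_⟩
    simp only [Submodule.mem_iInf, LinearMap.mem_ker, LinearMap.sub_apply,
      LinearMap.smul_apply, Module.End.one_apply, sub_eq_zero]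
  have hcomm : ∀ t j v, (c j).baseChange L ((η t).baseChange L v) =
      (η t).baseChange L ((c j).baseChange L v) := by
    intro t j v
    have h1 := congrArg (fun f : Module.End 𝒪 F => f.baseChange L) (hηc t j).eq
    simp only [LinearMap.baseChange_mul] at h1
    have h2 := congrArg (fun f : Module.End L (L ⊗[𝒪] F) => f v) h1
    simp only [Module.End.mul_apply] at h2
    exact h2.symm
  have hstab : ∀ t, ∀ v ∈ V, (η t).baseChange L v ∈ V := by
    intro t v hv
    rw [hV] at hv ⊢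
    intro j
    rw [hcomm, hv j, map_smul]
  obtain ⟨ρV, hρV⟩ : ∃ ρV : 𝕋 →+* Module.End L V,
      ∀ t (v : V), ((ρV t v : V) : L ⊗[𝒪] F) = (η t).baseChange L (v : L ⊗[𝒪] F) :=
    ⟨restrictRingHom (((Module.End.baseChangeHom 𝒪 L F :
      Module.End 𝒪 F →ₐ[𝒪] Module.End L (L ⊗[𝒪] F)) :
      Module.End 𝒪 F →+* Module.End L (L ⊗[𝒪] F)).comp η) V hstab, fun t v => rfl⟩
  -- the kernel
  have hker : RingHom.ker ρV ≤ RingHom.ker χ := by
    intro t ht
    rw [RingHom.mem_ker] at ht ⊢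
    apply hχ t
    refine maps_to_typeSub_of_kills_eigen c n hn hc hcc ψ hψ hsat (η t) (hηc t) ?_
    intro m hm
    apply tmul_one_injective (L := L) hL
    have hmV : (1 : L) ⊗ₜ[𝒪] m ∈ V := by
      rw [hV]
      intro j
      rw [LinearMap.baseChange_tmul, hm j, TensorProduct.tmul_smul, algebraMap_smul]
    have h1 := hρV t ⟨_, hmV⟩
    rw [ht] at h1
    simp only [LinearMap.zero_apply, Submodule.coe_zero, LinearMap.baseChange_tmul] at h1
    exact h1.symm
  haveI : (RingHom.ker χ).IsPrime := RingHom.ker_isPrime χ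
  have hmin : RingHom.ker χ ∈ (RingHom.ker ρV).minimalPrimes := by
    refine mem_minimalPrimes_of_integral _ _ hker ?_
    intro m hm
    rw [RingHom.mem_ker, map_intCast] at hm
    exact_mod_cast hm
  have hfinE : Module.Finite L (L ⊗[𝒪] F) := Module.Finite.base_change 𝒪 L F
  have hfinV : FiniteDimensional L V := FiniteDimensional.finiteDimensional_submodule V
  have key := @exists_eigen_of_minimalPrime L _ _ V _ _ hfinV 𝕋 _ ρV (RingHom.ker χ) hmin
  obtain ⟨χ', hχ', v, hv0, hv⟩ := key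
  refine ⟨χ', hχ', (v : L ⊗[𝒪] F), ?_, ?_, ?_⟩
  · intro h
    exact hv0 (Subtype.ext h)
  · intro t
    rw [← hρV, hv t]
    rfl
  · exact (hV _).mp v.2

end Main

end Fermat.Agent.L.Pivot.Geom.H3
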