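import Fermat.Agent.L.Pivot.Geom.H19_Final
import Fermat.Agent.L.Pivot.Geom.H9_LayerB2Top
import Fermat.Agent.L.Pivot.Geom.H59_LayerA

/-!
# PIVOT, package PV-GEOM: the top (helper45)

`stmt_PVGeom2_of_open : Stmt_P_EIGPART → Stmt_P_NEW → L.Pivot.Stmt_PVGeom2`, the chain

  P-leaves ⟹ `Stmt_PVBASE5` (helper19, `stmt_PVBASE5_of_open`)
           ⟹ `Stmt_PVDIV`   (helper9, `stmt_PVDIV_of_base`)
           ⟹ `Stmt_PVGeom2` (helper59, `H59.stmt_PVGeom2_of_pvDiv`).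

Complete proofs, standard axioms only.
-/

set_option autoImplicit false

namespace Fermat.Agent.L.Pivot.Geom.H45

open Fermat.Agent.L.Pivot Fermat.Agent.L.Pivot.Geom

/-- `Stmt_PVBASE5` is `Stmt_PVBASE`. -/
theorem stmt_PVBASE_of_five (h : Stmt_PVBASE5) : Stmt_PVBASE := h

/-- **PV-GEOM top, from the base**: `Stmt_PVBASE5` gives `Stmt_PVGeom2`. -/
theorem stmt_PVGeom2_of_base5 (h : Stmt_PVBASE5) : Fermat.Agent.L.Pivot.Stmt_PVGeom2 :=
  H59.stmt_PVGeom2_of_pvDiv (stmt_PVDIV_of_base (stmt_PVBASE_of_five h))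

/-- **PV-GEOM top**: the two last leaves give `Stmt_PVGeom2`. -/
theorem stmt_PVGeom2_of_open (hEIG : Stmt_P_EIGPART) (hNEW : Stmt_P_NEW) :
    Fermat.Agent.L.Pivot.Stmt_PVGeom2 :=
  stmt_PVGeom2_of_base5 (stmt_PVBASE5_of_open hEIG hNEW)

end Fermat.Agent.L.Pivot.Geom.H45

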