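import Fermat.Agent.L.Pivot.Geom.H4_B1Beta

/-!
# PIVOT / PV-GEOM, leaf PVG-B1 (helper4): Betti `q`-newness of twists

`stmt_TWnew` : the statement of `NEB.EIG.H39.stmt_TW` (Betti twisting) for a list `qs` of primes
and a pivot prime `q ∈ qs` with `χ_q ≠ 1`, with the additional conclusion that the twisted classes
`Tw φ ∈ Hom(Γ₀(N₁ q), L)` (`N₁ q = N c²`) are killed by both transfers `S41.cor1`, `S41.cor2` to
level `N₁`.

Construction: the twisting map of helper39 for the list ordered with `q` LAST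
(`tw_exists_new`, induction over the other primes); the last step is `stepMap` at `q` with
`c₁ = 1`, killed by the transfers by `cor1_stepMap` (`H4_B1Alpha.lean`) and `cor2_stepMap`
(`H4_B1Beta.lean`).

Complete proofs, standard axioms only.
-/

set_option autoImplicit false

namespace Fermat.Agent.L.Pivot.Geom.H4

open CongruenceSubgroup Matrix.SpecialLinearGroup ModularForm Finset
open scoped MatrixGroups
open Fermat.Agent.NEB.EIG.H39 Fermat.Agent.S41 Fermat.Agent.Betti ModularCurve.Period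

section Induction

variable {L : Type*} [Field L] [CharZero L]

/-- The twisted classes are killed by the two transfers at `q`. -/
def IsNewAt (χ : (q : ℕ) → MulChar (ZMod q) L) (qs : List ℕ) (q M M₁ c : ℕ) (hc : c ∣ M)
    (Tw : (Additive (Gam1 M c) →+ L) →ₗ[L] (Additive (Gam1 (M₁ * q) 1) →+ L)) : Prop :=
  ∀ φ, IsEig M c hc (Om χ qs) φ →
    cor1 M₁ q L (resK (Gamma0_le_Gam1_one (M₁ * q)) (Tw φ)) = 0 ∧
    cor2 M₁ q L (resK (Gamma0_le_Gam1_one (M₁ * q)) (Tw φ)) = 0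

/-- The base case: the list `[q]`. -/
theorem tw_exists_new_nil (χ : (q : ℕ) → MulChar (ZMod q) L) (q : ℕ) (hχq : χ q ≠ 1)
    (hq : q.Prime)
    (hχ : χ q = 1 ∨ ∃ T : ℤ, ¬ (q : ℤ) ∣ T ∧ χ q ((T : ℤ) : ZMod q) ^ 2 ≠ 1)
    (N₀ M M₁ c : ℕ) (hqN : ¬ q ∣ N₀) (hcp : c = [q].prod) (hM : M = N₀ * c)
    (hM₁ : M₁ * q = M * c) (hc : c ∣ M) :
    ∃ Tw : (Additive (Gam1 M c) →+ L) →ₗ[L] (Additive (Gam1 (M₁ * q) 1) →+ L),
      IsTwMap χ [q] M (M₁ * q) c hc Tw ∧ IsNewAt χ [q] q M M₁ c hc Tw := by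
  have hc' : c = q * 1 := by rw [hcp]; simp
  subst hc'
  have hM2 : M = q * (N₀ * 1) := by rw [hM]; ring
  subst hM2
  have hM₁' : M₁ = q * (N₀ * 1) := Nat.eq_of_mul_eq_mul_right hq.pos (by rw [hM₁]; ring)
  subst hM₁'
  have hqm : ¬ q ∣ N₀ * 1 := by rwa [mul_one]
  have hω : ∀ g : SL(2, ℤ), Om χ [] g = 1 := fun g => Om_nil χ g
  have hEig : ∀ φ, IsEig (q * (N₀ * 1)) (q * 1) hc (Om χ [q]) φ →
      IsEig (q * (N₀ * 1)) (q * 1) (step_hcK1 (one_dvd (N₀ * 1)))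
        (fun g => χ q ((g 0 0 : ℤ) : ZMod q) ^ 2 * Om χ [] g) φ :=
    fun φ hφ => hφ.congr (fun g _ => Om_cons χ q [] g)
  refine ⟨stepMap hq (one_dvd (N₀ * 1)) (χ q), fun φ hφ => ⟨?_, ?_, ?_⟩, fun φ hφ => ⟨?_, ?_⟩⟩
  · exact stepMap_inj hq hqm (one_dvd _) (χ q) (Om χ []) (fun g _ => hω g) hχ (hEig φ hφ)
  · intro ℓ hℓ hℓM hℓM'
    have e : χ q (ℓ : ZMod q) * 1 = χ q (ℓ : ZMod q) := mul_one _
    rw [stepMap_TD hq hqm (one_dvd _) (χ q) (Om χ []) (fun g _ => hω g) (hEig φ hφ) hℓ hℓM hℓM',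
      chiProd_cons, chiProd_nil, e]
  · exact stepMap_isPar hq hqm (one_dvd _) (χ q) (Om χ []) (fun g _ => hω g) (hEig φ hφ)
  · exact cor1_stepMap hq hqm (χ q) hχq (Om χ []) (fun g _ => hω g) (hEig φ hφ)
  · exact cor2_stepMap hq hqm (χ q) hχq (Om χ []) (fun g _ => hω g) (hEig φ hφ)

/-- **Betti twisting with the pivot prime `q` last**, by induction over the other primes. -/
theorem tw_exists_new (χ : (q : ℕ) → MulChar (ZMod q) L) (q : ℕ) (hχq : χ q ≠ 1) :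
    ∀ (qs : List ℕ), (qs ++ [q]).Nodup → (∀ q' ∈ qs ++ [q], q'.Prime) →
      (∀ q' ∈ qs ++ [q],
        χ q' = 1 ∨ ∃ T : ℤ, ¬ (q' : ℤ) ∣ T ∧ χ q' ((T : ℤ) : ZMod q') ^ 2 ≠ 1) →
      ∀ (N₀ M M₁ c : ℕ), N₀ ≠ 0 → (∀ q' ∈ qs ++ [q], ¬ q' ∣ N₀) → c = (qs ++ [q]).prod →
        M = N₀ * c → M₁ * q = M * c → ∀ hc : c ∣ M,
          ∃ Tw : (Additive (Gam1 M c) →+ L) →ₗ[L] (Additive (Gam1 (M₁ * q) 1) →+ L),
            IsTwMap χ (qs ++ [q]) M (M₁ * q) c hc Tw ∧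
              IsNewAt χ (qs ++ [q]) q M M₁ c hc Tw := by
  intro qs
  induction qs with
  | nil =>
    intro _ hpr hχ N₀ M M₁ c hN₀ hqN hcp hM hM₁ hc
    exact tw_exists_new_nil χ q hχq (hpr q (by simp)) (hχ q (by simp)) N₀ M M₁ c
      (hqN q (by simp)) hcp hM hM₁ hc
  | cons q₁ qs' ih =>
    intro hnd hpr hχ N₀ M M₁ c hN₀ hqN hcp hM hM₁ hc
    rw [List.cons_append] at hnd hpr hχ hqN hcp ⊢
    have hq₁ : q₁.Prime := hpr q₁ List.mem_cons_self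
    have hnd' : (qs' ++ [q]).Nodup := (List.nodup_cons.mp hnd).2
    have hq_notin : q₁ ∉ qs' ++ [q] := (List.nodup_cons.mp hnd).1
    have hpr' : ∀ q' ∈ qs' ++ [q], q'.Prime := fun q' h => hpr q' (List.mem_cons_of_mem _ h)
    have hχ' : ∀ q' ∈ qs' ++ [q],
        χ q' = 1 ∨ ∃ T : ℤ, ¬ (q' : ℤ) ∣ T ∧ χ q' ((T : ℤ) : ZMod q') ^ 2 ≠ 1 :=
      fun q' h => hχ q' (List.mem_cons_of_mem _ h)
    obtain ⟨c₁, hc₁def⟩ : ∃ c₁ : ℕ, c₁ = (qs' ++ [q]).prod := ⟨_, rfl⟩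
    rw [List.prod_cons, ← hc₁def] at hcp
    subst hcp
    have hM2 : M = q₁ * (N₀ * c₁) := by rw [hM]; ring
    subst hM2
    have hc₁ : c₁ ∣ N₀ * c₁ := dvd_mul_left _ _
    have hq_c₁ : ¬ q₁ ∣ c₁ := by
      intro h
      rw [hc₁def] at h
      obtain ⟨a, ha, hqa⟩ := (Prime.dvd_prod_iff (Nat.Prime.prime hq₁)).mp h
      have : q₁ = a := (Nat.prime_dvd_prime_iff_eq hq₁ (hpr' a ha)).mp hqa
      exact hq_notin (this ▸ ha)
    have hqm : ¬ q₁ ∣ N₀ * c₁ := by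
      intro h
      rcases (Nat.Prime.dvd_mul hq₁).mp h with h | h
      · exact hqN q₁ List.mem_cons_self h
      · exact hq_c₁ h
    have hω : ∀ g ∈ Gam1 (q₁ * (N₀ * c₁) * q₁) c₁, Om χ (qs' ++ [q]) g = 1 := fun g hg =>
      Om_eq_one χ (qs' ++ [q]) (hc₁def ▸ hg.2.2)
    have hN₀' : N₀ * q₁ * q₁ ≠ 0 :=
      Nat.mul_ne_zero (Nat.mul_ne_zero hN₀ hq₁.ne_zero) hq₁.ne_zero
    have hqN' : ∀ q' ∈ qs' ++ [q], ¬ q' ∣ N₀ * q₁ * q₁ := by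
      intro q' hq' h
      have hq'p := hpr' q' hq'
      have hne : q' ≠ q₁ := fun e => hq_notin (e ▸ hq')
      have h1 : ¬ q' ∣ q₁ := fun h' => hne ((Nat.prime_dvd_prime_iff_eq hq'p hq₁).mp h')
      rcases (Nat.Prime.dvd_mul hq'p).mp h with h | h
      · rcases (Nat.Prime.dvd_mul hq'p).mp h with h | h
        · exact hqN q' (List.mem_cons_of_mem _ hq') h
        · exact h1 h
      · exact h1 h
    have hM₂ : q₁ * (N₀ * c₁) * q₁ = N₀ * q₁ * q₁ * c₁ := by ring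
    have hM'₂ : M₁ * q = q₁ * (N₀ * c₁) * q₁ * c₁ := by rw [hM₁]; ring
    obtain ⟨Tw', hTw', hNew'⟩ := ih hnd' hpr' hχ' (N₀ * q₁ * q₁) (q₁ * (N₀ * c₁) * q₁) M₁ c₁
      hN₀' hqN' hc₁def hM₂ hM'₂ (step_hcK2 hc₁)
    refine ⟨Tw'.comp (stepMap hq₁ hc₁ (χ q₁)), fun φ hφ => ?_, fun φ hφ => ?_⟩
    · have hφ' : IsEig (q₁ * (N₀ * c₁)) (q₁ * c₁) (step_hcK1 hc₁)
          (fun g => χ q₁ ((g 0 0 : ℤ) : ZMod q₁) ^ 2 * Om χ (qs' ++ [q]) g) φ :=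
        hφ.congr (fun g _ => Om_cons χ q₁ (qs' ++ [q]) g)
      have hS := stepMap_isEig hq₁ hqm hc₁ (χ q₁) (Om χ (qs' ++ [q])) hω hφ'
      obtain ⟨h1, h2, h3⟩ := hTw' _ hS
      refine ⟨?_, ?_, ?_⟩
      · intro h
        exact stepMap_inj hq₁ hqm hc₁ (χ q₁) (Om χ (qs' ++ [q])) hω
          (hχ q₁ List.mem_cons_self) hφ' (h1 h)
      · intro ℓ hℓ hℓM hℓM'
        have hℓ2 : ¬ ℓ ∣ q₁ * (N₀ * c₁) * q₁ := fun h => hℓM' (h.trans ⟨c₁, hM'₂⟩)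
        rw [LinearMap.comp_apply, h2 ℓ hℓ hℓ2 hℓM',
          stepMap_TD hq₁ hqm hc₁ (χ q₁) (Om χ (qs' ++ [q])) hω hφ' hℓ hℓM hℓ2, map_smul,
          smul_smul, chiProd_cons, mul_inv, mul_comm ((χ q₁) (ℓ : ZMod q₁))⁻¹]
        rfl
      · intro hpar
        exact h3 (stepMap_isPar hq₁ hqm hc₁ (χ q₁) (Om χ (qs' ++ [q])) hω hφ' hpar)
    · have hφ' : IsEig (q₁ * (N₀ * c₁)) (q₁ * c₁) (step_hcK1 hc₁)
          (fun g => χ q₁ ((g 0 0 : ℤ) : ZMod q₁) ^ 2 * Om χ (qs' ++ [q]) g) φ :=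
        hφ.congr (fun g _ => Om_cons χ q₁ (qs' ++ [q]) g)
      have hS := stepMap_isEig hq₁ hqm hc₁ (χ q₁) (Om χ (qs' ++ [q])) hω hφ'
      exact hNew' _ hS

omit [CharZero L] in
theorem Om_perm (χ : (q : ℕ) → MulChar (ZMod q) L) {qs qs' : List ℕ} (h : qs.Perm qs')
    (g : SL(2, ℤ)) : Om χ qs g = Om χ qs' g := by
  unfold Om
  exact (h.map _).prod_eq

omit [CharZero L] in
theorem chiProd_perm (χ : (q : ℕ) → MulChar (ZMod q) L) {qs qs' : List ℕ} (h : qs.Perm qs')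
    (ℓ : ℕ) : chiProd χ qs ℓ = chiProd χ qs' ℓ := by
  unfold chiProd
  exact (h.map _).prod_eq

/-- **PVG-B1** (Betti `q`-newness of twists).  `qs` a list of distinct primes not dividing `N`,
`c = ∏ qs`, characters `χ_q'` mod `q' ∈ qs` (`χ_q' = 1` or `χ_q'² ≠ 1`), `q ∈ qs` a prime with
`χ_q ≠ 1`, and the level `N c² = N₁ q`.  There is a twisting map
`Tw : Hom(Γ₀(N c) ∩ Γ₁(c), L) → Hom(Γ₀(N₁ q), L)` with all the properties of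
`NEB.EIG.H39.stmt_TW` (injective on the eigenspace, `TB_ℓ (Tw φ) = (∏ χ(ℓ))⁻¹ Tw (T_ℓ φ)`, parabolic
classes are preserved) such that in addition the twisted classes are **`q`-new**: they are killed
by the two transfers `S41.cor1`, `S41.cor2 : Hom(Γ₀(N₁ q), L) → Hom(Γ₀(N₁), L)`. -/
theorem stmt_TWnew (N : ℕ) (hN : N ≠ 0) (qs : List ℕ) (hnd : qs.Nodup)
    (hpr : ∀ q' ∈ qs, q'.Prime) (hqN : ∀ q' ∈ qs, ¬ q' ∣ N)
    (χ : (q : ℕ) → MulChar (ZMod q) L)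
    (hχ : ∀ q' ∈ qs, χ q' = 1 ∨ ∃ T : ℤ, ¬ (q' : ℤ) ∣ T ∧ χ q' ((T : ℤ) : ZMod q') ^ 2 ≠ 1)
    (q : ℕ) (hq : q ∈ qs) (hχq : χ q ≠ 1) (N₁ : ℕ) (hN₁ : N₁ * q = N * qs.prod * qs.prod) :
    ∃ Tw : (Additive (Gam1 (N * qs.prod) qs.prod) →+ L) →ₗ[L]
        (Additive (Gamma0 (N₁ * q)) →+ L),
      ∀ φ, IsEig (N * qs.prod) qs.prod (dvd_mul_left _ _) (Om χ qs) φ →
        (Tw φ = 0 → φ = 0) ∧
        (∀ (ℓ : ℕ) (hℓ : ℓ.Prime) (hℓM : ¬ ℓ ∣ N * qs.prod) (hℓM' : ¬ ℓ ∣ N₁ * q),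
          TB (N₁ * q) L hℓ hℓM' (Tw φ)
            = (chiProd χ qs ℓ)⁻¹ •
              Tw (TD (N * qs.prod) qs.prod (dvd_mul_left _ _) hℓ hℓM φ)) ∧
        (IsParabolicHom (Gam1 (N * qs.prod) qs.prod) φ →
          IsParabolicHom (Gamma0 (N₁ * q)) (Tw φ)) ∧
        cor1 N₁ q L (Tw φ) = 0 ∧ cor2 N₁ q L (Tw φ) = 0 := by
  classical
  have hc0 : qs.prod ≠ 0 := prod_primes_ne_zero hpr
  haveI : NeZero (N₁ * q) := ⟨by
    rw [hN₁]; exact Nat.mul_ne_zero (Nat.mul_ne_zero hN hc0) hc0⟩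
  have hperm : qs.Perm (qs.erase q ++ [q]) :=
    (List.perm_cons_erase hq).trans (List.perm_append_singleton q (qs.erase q)).symm
  have hmem : ∀ q' ∈ qs.erase q ++ [q], q' ∈ qs := fun q' h => hperm.mem_iff.mpr h
  obtain ⟨Tw, hTw, hNew⟩ := tw_exists_new χ q hχq (qs.erase q) (hperm.nodup_iff.mp hnd)
    (fun q' h => hpr q' (hmem q' h)) (fun q' h => hχ q' (hmem q' h)) N (N * qs.prod) N₁ qs.prod hN
    (fun q' h => hqN q' (hmem q' h)) hperm.prod_eq rfl hN₁ (dvd_mul_left _ _)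
  refine ⟨(resLin (Gamma0_le_Gam1_one _)).comp Tw, fun φ hφ => ?_⟩
  have hφ' : IsEig (N * qs.prod) qs.prod (dvd_mul_left _ _) (Om χ (qs.erase q ++ [q])) φ :=
    hφ.congr (fun g _ => Om_perm χ hperm g)
  obtain ⟨h1, h2, h3⟩ := hTw φ hφ'
  obtain ⟨h4, h5⟩ := hNew φ hφ'
  refine ⟨?_, ?_, ?_, h4, h5⟩
  · intro h
    apply h1
    have hz : resK (Gamma0_le_Gam1_one (N₁ * q))
        (0 : Additive (Gam1 (N₁ * q) 1) →+ L) = 0 := AddMonoidHom.zero_comp _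
    exact resK_inj (Gamma0_le_Gam1_one _) (Gamma_le_Gamma0' _) (h.trans hz.symm)
  · intro ℓ hℓ hℓM hℓM'
    rw [LinearMap.comp_apply, LinearMap.comp_apply, resLin_apply, resLin_apply,
      ← resK_TD_TB _ hℓ hℓM', h2 ℓ hℓ hℓM hℓM', resK_smul, chiProd_perm χ hperm]
  · intro hpar
    exact isPar_resK _ (h3 hpar)

end Induction

end Fermat.Agent.L.Pivot.Geom.H4
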