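import Mathlib

/-!
# PIVOT / PV-GEOM, leaf PVG-B1 (helper4): two character sums

* `sum_alpha_eq_zero` : if `f (u, w) = χ(s)² f (u', w')` whenever `u = u' s`,
  `s = 1 + m u (w - w')`, then `∑_{u, w} χ⁻¹(u) f (u, w) = 0` for `χ ≠ 1`;
* `sum_beta_eq_zero`  : `∑_{b, u} χ⁻¹(u) F (b - u) = 0` for `χ ≠ 1`.
-/

set_option autoImplicit false

namespace Fermat.Agent.L.Pivot.Geom.H4

open Finset

variable {q : ℕ} [Fact q.Prime] {L : Type*} [Field L]

theorem exists_ne_zero_chi_ne_one (χ : MulChar (ZMod q) L) (hχ : χ ≠ 1) :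
    ∃ t : ZMod q, t ≠ 0 ∧ χ t ≠ 1 := by
  obtain ⟨a, ha⟩ := MulChar.ne_one_iff.mp hχ
  exact ⟨a, a.ne_zero, ha⟩

theorem sum_alpha_eq_zero (χ : MulChar (ZMod q) L) (hχ : χ ≠ 1) (m : ZMod q) (hm : m ≠ 0)
    (f : ZMod q → ZMod q → L)
    (hrel : ∀ u u' w w' : ZMod q, u ≠ 0 → u = u' * (1 + m * u * (w - w')) →
      f u w = χ (1 + m * u * (w - w')) ^ 2 * f u' w') :
    ∑ u : ZMod q, ∑ w : ZMod q, χ⁻¹ u * f u w = 0 := by
  obtain ⟨t, ht0, ht1⟩ := exists_ne_zero_chi_ne_one χ hχ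
  set g : ZMod q × ZMod q → L := fun p => χ⁻¹ p.1 * f p.1 p.2 with hg
  have hS : ∑ u : ZMod q, ∑ w : ZMod q, χ⁻¹ u * f u w = ∑ p : ZMod q × ZMod q, g p := by
    rw [Fintype.sum_prod_type]
  rw [hS]
  let e : ZMod q × ZMod q ≃ ZMod q × ZMod q :=
    { toFun := fun p => (p.1 * t, p.2 + (t - 1) * (m * (p.1 * t))⁻¹)
      invFun := fun p => (p.1 * t⁻¹, p.2 - (t - 1) * (m * p.1)⁻¹)
      left_inv := by
        rintro ⟨a, b⟩
        simp only [Prod.mk.injEq]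
        refine ⟨mul_inv_cancel_right₀ ht0 a, by ring⟩
      right_inv := by
        rintro ⟨a, b⟩
        simp only [Prod.mk.injEq]
        refine ⟨inv_mul_cancel_right₀ ht0 a, ?_⟩
        rw [inv_mul_cancel_right₀ ht0 a]
        ring }
  have hkey : ∀ p : ZMod q × ZMod q, g (e p) = χ t * g p := by
    rintro ⟨u', w'⟩
    show χ⁻¹ (u' * t) * f (u' * t) (w' + (t - 1) * (m * (u' * t))⁻¹) = χ t * (χ⁻¹ u' * f u' w')
    by_cases hu' : u' = 0
    · subst hu'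
      simp [MulChar.map_zero]
    · have hu : u' * t ≠ 0 := mul_ne_zero hu' ht0
      have hmu : m * (u' * t) ≠ 0 := mul_ne_zero hm hu
      have hs : 1 + m * (u' * t) * (w' + (t - 1) * (m * (u' * t))⁻¹ - w') = t := by
        have : w' + (t - 1) * (m * (u' * t))⁻¹ - w' = (t - 1) * (m * (u' * t))⁻¹ := by ring
        rw [this, mul_comm (t - 1), ← mul_assoc, mul_inv_cancel₀ hmu]
        ring
      have h1 := hrel (u' * t) u' (w' + (t - 1) * (m * (u' * t))⁻¹) w' hu (by rw [hs])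
      rw [hs] at h1
      rw [h1, map_mul, MulChar.inv_apply_eq_inv' χ t]
      have hχt : χ t ≠ 0 := by
        have hunit : IsUnit t := isUnit_iff_ne_zero.mpr ht0
        exact (IsUnit.map χ hunit).ne_zero
      field_simp
  have h2 : ∑ p : ZMod q × ZMod q, g p = χ t * ∑ p : ZMod q × ZMod q, g p := by
    conv_lhs => rw [← Equiv.sum_comp e g]
    rw [Finset.mul_sum]
    exact Finset.sum_congr rfl fun p _ => hkey p
  have h3 : (1 - χ t) * ∑ p : ZMod q × ZMod q, g p = 0 := by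
    rw [sub_mul, one_mul, ← h2, sub_self]
  rcases mul_eq_zero.mp h3 with h | h
  · exact absurd (sub_eq_zero.mp h).symm ht1
  · exact h

theorem sum_beta_eq_zero (χ : MulChar (ZMod q) L) (hχ : χ ≠ 1) (F : ZMod q → L) :
    ∑ b : ZMod q, ∑ u : ZMod q, χ⁻¹ u * F (b - u) = 0 := by
  rw [Finset.sum_comm]
  have h1 : ∀ u : ZMod q, ∑ b : ZMod q, χ⁻¹ u * F (b - u) = χ⁻¹ u * ∑ b : ZMod q, F b := by
    intro u
    rw [Finset.mul_sum]
    exact Equiv.sum_comp (Equiv.subRight u) (fun b => χ⁻¹ u * F b)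
  rw [Finset.sum_congr rfl (fun u _ => h1 u), ← Finset.sum_mul]
  have hχ' : χ⁻¹ ≠ 1 := fun h => hχ (by rw [← inv_inv χ, h, inv_one])
  rw [MulChar.sum_eq_zero_of_ne_one hχ', zero_mul]

end Fermat.Agent.L.Pivot.Geom.H4
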