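import Fermat.Agent.NEB.EIG.H39_TW
import Fermat.Agent.L.Pivot.Geom.H4_B1Sum

/-!
# PIVOT / PV-GEOM, leaf PVG-B1 (helper4): the twisted class is killed by the transfer along the
inclusion `Γ₀(q m q) ⊂ Γ₀(q m)`

Setting of `NEB.EIG.H39` (Betti twisting, one step at the prime `q`, `c₁ = 1`):
`K₁ = Gam1 (q m) q ⊇ Γ' = Gam1 (q m q) q ⊆ K₂ = Gam1 (q m q) 1`, `S φ = cor (Tw_χ (res φ))`.

* `alpha_nu_eq`  : `α_U ν_W = δ α_{U'} ν_{W'}` with `δ ∈ Γ₀(q m)`, `δ₀₀ = 1 + m U (W - W')`, whenever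
  `q ∣ U - U' (1 + m U (W - W'))`;
* `fInt_rel`     : `φ (α_U ν_W g ν_W⁻¹ α_U⁻¹) = χ(1 + m U (W - W'))² φ (α_{U'} ν_{W'} g …)`;
* `isReps_repAlpha` : the `ν(q m v)⁻¹`, `v mod q`, represent `Γ₀(q m) / Γ₀(q m q)`;
* `cor1_stepMap` : `S41.cor1 (S φ) = 0` for `χ ≠ 1`.
-/

set_option autoImplicit false

namespace Fermat.Agent.L.Pivot.Geom.H4

open CongruenceSubgroup Matrix.SpecialLinearGroup ModularForm Finset
open scoped MatrixGroups
open Fermat.Agent.NEB.EIG.H39 Fermat.Agent.S41 Fermat.Agent.S41.H19 Fermat.Agent.Betti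

/-- The element `δ` with `α_U ν_W = δ α_{U'} ν_{W'}`. -/
def deltaSL (q m : ℕ) (U U' W W' e : ℤ)
    (he : U - U' * (1 + m * U * (W - W')) = q * e) : SL(2, ℤ) :=
  mkSL (1 + m * U * (W - W')) e (q * m * (W - W')) (1 - m * (W - W') * U')
    (by linear_combination ((m : ℤ) * (W - W')) * he)

theorem alpha_nu_eq {q : ℕ} (m : ℕ) (hq0 : q ≠ 0) (U U' W W' e : ℤ)
    (he : U - U' * (1 + m * U * (W - W')) = q * e) :
    alphaGL q U * mapGL ℝ (nuSL (q * m * W))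
      = mapGL ℝ (deltaSL q m U U' W W' e he) * alphaGL q U' * mapGL ℝ (nuSL (q * m * W')) := by
  have hq' : (q : ℝ) ≠ 0 := by exact_mod_cast hq0
  have he' : (U : ℝ) - U' * (1 + m * U * (W - W')) = q * e := by exact_mod_cast he
  have hdiv : (U : ℝ) / q = (1 + m * U * (W - W')) * (U' / q) + e := by
    field_simp
    linear_combination he'
  apply Units.ext
  ext i j
  fin_cases i <;> fin_cases j
  · simp [deltaSL, nuSL, Matrix.mul_apply, Fin.sum_univ_two]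
    rw [← hdiv]
    field_simp
    ring
  · simp [deltaSL, nuSL, Matrix.mul_apply, Fin.sum_univ_two]
    exact hdiv
  · simp [deltaSL, nuSL, Matrix.mul_apply, Fin.sum_univ_two]
    field_simp
    ring
  · simp [deltaSL, nuSL, Matrix.mul_apply, Fin.sum_univ_two]
    field_simp
    ring

theorem deltaSL_dvd (q m : ℕ) (U U' W W' e : ℤ)
    (he : U - U' * (1 + m * U * (W - W')) = q * e) :
    ((q * m : ℕ) : ℤ) ∣ (deltaSL q m U U' W W' e he) 1 0 := by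
  show ((q * m : ℕ) : ℤ) ∣ (q : ℤ) * m * (W - W')
  push_cast
  exact Dvd.intro _ rfl

theorem deltaSL_mem {q m c₁ : ℕ} (hc₁ : c₁ ∣ m) (U U' W W' e : ℤ)
    (he : U - U' * (1 + m * U * (W - W')) = q * e) :
    deltaSL q m U U' W W' e he ∈ Gam1 (q * m) c₁ := by
  obtain ⟨m', rfl⟩ := hc₁
  refine ⟨deltaSL_dvd q _ U U' W W' e he, ?_, ?_⟩
  · show (c₁ : ℤ) ∣ (q : ℤ) * ((c₁ * m' : ℕ) : ℤ) * (W - W')
    push_cast
    exact ⟨q * m' * (W - W'), by ring⟩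
  · show (c₁ : ℤ) ∣ 1 + ((c₁ * m' : ℕ) : ℤ) * U * (W - W') - 1
    push_cast
    exact ⟨m' * U * (W - W'), by ring⟩

section Step

variable {q m c₁ : ℕ} {L : Type*} [Field L]
variable (hq : q.Prime) (hc₁ : c₁ ∣ m)

/-- The conjugate `ν_W g ν_W⁻¹` of `g ∈ Γ(q m q)`, as an element of `Γ' = Gam1 (q m q) (q c₁)`. -/
def xNu (g : SL(2, ℤ)) (hg : g ∈ Gamma (q * m * q)) (W : ℤ) : Gam1 (q * m * q) (q * c₁) :=
  ⟨nuSL (q * m * W) * g * (nuSL (q * m * W))⁻¹,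
    step_hN hc₁ ((Gamma_normal (q * m * q)).conj_mem g hg _)⟩

/-- The value `φ (α_U ν_W g ν_W⁻¹ α_U⁻¹)`. -/
noncomputable def fInt (φ : Additive (Gam1 (q * m) (q * c₁)) →+ L) (g : SL(2, ℤ))
    (hg : g ∈ Gamma (q * m * q)) (U W : ℤ) : L :=
  Aop hq.ne_zero (dvd_mul_right q c₁) (step_hcq hc₁) U (resK (step_hle1 q m c₁) φ)
    (Additive.ofMul (xNu hc₁ g hg W))

theorem fInt_rel (χ : MulChar (ZMod q) L) (ω : SL(2, ℤ) → L)
    (hω : ∀ g ∈ Gam1 (q * m) c₁, ω g = 1)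
    {φ : Additive (Gam1 (q * m) (q * c₁)) →+ L}
    (hφ : IsEig (q * m) (q * c₁) (step_hcK1 hc₁)
      (fun g => χ ((g 0 0 : ℤ) : ZMod q) ^ 2 * ω g) φ)
    (g : SL(2, ℤ)) (hg : g ∈ Gamma (q * m * q)) (U U' W W' e : ℤ)
    (he : U - U' * (1 + m * U * (W - W')) = q * e) :
    fInt hq hc₁ φ g hg U W
      = χ (((1 + m * U * (W - W') : ℤ)) : ZMod q) ^ 2 * fInt hq hc₁ φ g hg U' W' := by
  have hδ := deltaSL_dvd q m U U' W W' e he
  have h1 := hφ (deltaSL q m U U' W W' e he) hδ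
  have h2 := congrArg (fun ψ : Additive (Gam1 (q * m) (q * c₁)) →+ L =>
    ψ (Additive.ofMul (Subgroup.inclusion (step_hle1 q m c₁)
      (conjEnd (inc_injective _) ⟨alphaGL q U', alphaGL_mem_Nrm hq.ne_zero (dvd_mul_right q c₁)
        (step_hcq hc₁) U'⟩ (xNu hc₁ g hg W'))))) h1
  simp only [AddMonoidHom.smul_apply, Dop_apply, tw_apply] at h2
  rw [hω _ (deltaSL_mem hc₁ U U' W W' e he), mul_one] at h2
  have h00 : (deltaSL q m U U' W W' e he) 0 0 = 1 + m * U * (W - W') := rfl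
  rw [h00] at h2
  unfold fInt
  rw [Aop_apply, Aop_apply, tw_apply, tw_apply, resK_apply, resK_apply, smul_eq_mul] at *
  rw [← h2]
  congr 2
  apply inc_injective
  rw [e_conjEnd]
  simp only [inc_apply, Subgroup.coe_inclusion]
  have e1 := e_conjEnd (inc_injective (Gam1 (q * m * q) (q * c₁)))
    ⟨alphaGL q U, alphaGL_mem_Nrm hq.ne_zero (dvd_mul_right q c₁) (step_hcq hc₁) U⟩
    (xNu hc₁ g hg W)
  have e2 := e_conjEnd (inc_injective (Gam1 (q * m * q) (q * c₁)))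
    ⟨alphaGL q U', alphaGL_mem_Nrm hq.ne_zero (dvd_mul_right q c₁) (step_hcq hc₁) U'⟩
    (xNu hc₁ g hg W')
  simp only [inc_apply] at e1 e2
  rw [e1, e2]
  have hM := alpha_nu_eq m hq.ne_zero U U' W W' e he
  simp only [xNu, map_mul, map_inv]
  have hM' : alphaGL q U = mapGL ℝ (deltaSL q m U U' W W' e he) * alphaGL q U'
      * mapGL ℝ (nuSL (q * m * W')) * (mapGL ℝ (nuSL (q * m * W)))⁻¹ := by
    rw [← hM]; group
  rw [hM']
  group

end Step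

section Reps

variable {q m : ℕ}

theorem nuSL_mem_Gamma0 (N : ℕ) (y : ℤ) (h : (N : ℤ) ∣ y) : nuSL y ∈ Gamma0 N :=
  mem_Gamma0_of_dvd (by simpa [nuSL] using h)

/-- The representatives `ν(q m v)⁻¹`, `v mod q`, of `Γ₀(q m) / Γ₀(q m q)`. -/
def repAlpha (q m : ℕ) (v : ZMod q) : Gamma0 (q * m) :=
  ⟨(nuSL (q * m * (v.val : ℤ)))⁻¹, Subgroup.inv_mem _ (nuSL_mem_Gamma0 _ _ (by
    push_cast; exact Dvd.intro _ rfl))⟩

theorem isReps_repAlpha (hq : q.Prime) (hqm : ¬ q ∣ m) :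
    IsReps (inclG (q * m) q) (repAlpha q m) := by
  haveI : NeZero q := ⟨hq.ne_zero⟩
  have hm0 : (m : ℤ) ≠ 0 := by
    intro h
    have : m = 0 := by exact_mod_cast h
    exact hqm (this ▸ dvd_zero q)
  have hq0 : (q : ℤ) ≠ 0 := by exact_mod_cast hq.ne_zero
  constructor
  · rintro i j ⟨x, hx⟩
    have h1 : ((repAlpha q m i)⁻¹ * repAlpha q m j : Gamma0 (q * m)).1 ∈ Gamma0 (q * m * q) := by
      rw [← hx]
      exact x.2
    have h2 := dvd_of_mem_Gamma0 h1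
    have h3 : ((repAlpha q m i)⁻¹ * repAlpha q m j : Gamma0 (q * m)).1 1 0
        = (q : ℤ) * m * ((i.val : ℤ) - j.val) := by
      show (((nuSL (q * m * (i.val : ℤ)))⁻¹)⁻¹ * (nuSL (q * m * (j.val : ℤ)))⁻¹) 1 0 = _
      rw [inv_inv, sl_mul_10, sl_inv_00, sl_inv_10]
      simp [nuSL]
      ring
    rw [h3] at h2
    push_cast at h2
    have h4 : (q : ℤ) ∣ (i.val : ℤ) - j.val := by
      obtain ⟨k, hk⟩ := h2
      refine ⟨k, ?_⟩
      have : (q : ℤ) * m * ((i.val : ℤ) - j.val) = (q : ℤ) * m * (q * k) := by rw [hk]; ring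
      exact mul_left_cancel₀ (mul_ne_zero hq0 hm0) this
    have h5 := (ZMod.intCast_zmod_eq_zero_iff_dvd _ _).mpr h4
    push_cast at h5
    rw [ZMod.natCast_zmod_val, ZMod.natCast_zmod_val] at h5
    exact sub_eq_zero.mp h5
  · rintro ⟨g, hg⟩
    obtain ⟨C, hC⟩ := dvd_of_mem_Gamma0 hg
    have hdet := sl_det g
    have hunit : ((g 0 0 : ℤ) : ZMod q) * ((g 1 1 : ℤ) : ZMod q) = 1 := by
      have : ((g 0 0 * g 1 1 - g 0 1 * g 1 0 : ℤ) : ZMod q) = 1 := by rw [hdet]; simp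
      rw [hC] at this
      push_cast at this
      simpa using this
    refine ⟨-(C : ZMod q) * ((g 1 1 : ℤ) : ZMod q), ?_⟩
    set v : ZMod q := -(C : ZMod q) * ((g 1 1 : ℤ) : ZMod q) with hv
    have hmem : (nuSL (q * m * (v.val : ℤ)) * g) ∈ Gamma0 (q * m * q) := by
      apply mem_Gamma0_of_dvd
      rw [sl_mul_10]
      simp only [nuSL, mkSL_10, mkSL_11, one_mul]
      rw [hC]
      have h6 : (q : ℤ) ∣ (v.val : ℤ) * g 0 0 + C := by
        rw [← ZMod.intCast_zmod_eq_zero_iff_dvd]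
        push_cast
        rw [ZMod.natCast_zmod_val, hv]
        have : -(C : ZMod q) * ((g 1 1 : ℤ) : ZMod q) * ((g 0 0 : ℤ) : ZMod q) + (C : ZMod q)
            = (C : ZMod q) * (1 - ((g 0 0 : ℤ) : ZMod q) * ((g 1 1 : ℤ) : ZMod q)) := by ring
        rw [this, hunit, sub_self, mul_zero]
      obtain ⟨k, hk⟩ := h6
      refine ⟨k, ?_⟩
      push_cast
      linear_combination ((q : ℤ) * m) * hk
    refine ⟨⟨_, hmem⟩, ?_⟩
    apply Subtype.ext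
    show nuSL (q * m * (v.val : ℤ)) * g = ((nuSL (q * m * (v.val : ℤ)))⁻¹)⁻¹ * g
    rw [inv_inv]

end Reps

section AlphaMain

variable {q m : ℕ} {L : Type*} [Field L] [CharZero L]
variable (hq : q.Prime) (hqm : ¬ q ∣ m)

omit [CharZero L] in
include hqm in
/-- The value of `S φ` at `ν_W g ν_W⁻¹`, `g ∈ Γ(q m q)`. -/
theorem stepMap_apply_xNu (χ : MulChar (ZMod q) L) (hχ : χ ≠ 1) (ω : SL(2, ℤ) → L)
    (hω : ∀ g ∈ Gam1 (q * m * q) 1, ω g = 1)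
    {φ : Additive (Gam1 (q * m) (q * 1)) →+ L}
    (hφ : IsEig (q * m) (q * 1) (step_hcK1 (one_dvd m))
      (fun g => χ ((g 0 0 : ℤ) : ZMod q) ^ 2 * ω g) φ)
    (g : SL(2, ℤ)) (hg : g ∈ Gamma (q * m * q)) (W : ℤ) :
    haveI : Fact q.Prime := ⟨hq⟩
    stepMap hq (one_dvd m) χ φ
        (Additive.ofMul (Subgroup.inclusion (step_hle2 q m 1) (xNu (one_dvd m) g hg W)))
      = stepIdx q m 1 • ∑ u : ZMod q, χ⁻¹ u * fInt hq (one_dvd m) φ g hg (u.val : ℤ) W := by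
  haveI : Fact q.Prime := ⟨hq⟩
  have h1 := resK_stepMap hq hqm (one_dvd m) χ ω hω hφ
  have h2 := congrArg (fun ψ : Additive (Gam1 (q * m * q) (q * 1)) →+ L =>
    ψ (Additive.ofMul (xNu (one_dvd m) g hg W))) h1
  simp only [resK_apply, AddMonoidHom.smul_apply] at h2
  rw [h2]
  congr 1
  unfold stepW
  rw [tqOp_ne hq (one_dvd m) hχ, twOp_apply, AddMonoidHom.finsetSum_apply]
  refine Finset.sum_congr rfl fun u _ => ?_
  rw [AddMonoidHom.smul_apply, smul_eq_mul]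
  rfl

include hqm in
/-- **PVG-B1, the transfer along the inclusion**: `cor_α (S φ) = 0` for `χ ≠ 1`. -/
theorem cor1_stepMap (χ : MulChar (ZMod q) L) (hχ : χ ≠ 1) (ω : SL(2, ℤ) → L)
    (hω : ∀ g ∈ Gam1 (q * m) 1, ω g = 1)
    {φ : Additive (Gam1 (q * m) (q * 1)) →+ L}
    (hφ : IsEig (q * m) (q * 1) (step_hcK1 (one_dvd m))
      (fun g => χ ((g 0 0 : ℤ) : ZMod q) ^ 2 * ω g) φ) :
    cor1 (q * m) q L (resK (Gamma0_le_Gam1_one (q * m * q)) (stepMap hq (one_dvd m) χ φ)) = 0 := by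
  haveI : Fact q.Prime := ⟨hq⟩
  haveI := step_neZero hq hqm
  have hω₂ : ∀ g ∈ Gam1 (q * m * q) 1, ω g = 1 := fun g hg =>
    hω g (Gam1_mono (dvd_mul_right _ _) dvd_rfl hg)
  have hle : Gamma (q * m * q) ≤ Gamma0 (q * m) :=
    (Gamma_le_Gamma0' (q * m * q)).trans (gamma0_mul_le (q * m) q)
  have hz : resK hle (0 : Additive (Gamma0 (q * m)) →+ L) = 0 := AddMonoidHom.zero_comp _
  apply resK_inj hle (le_refl _)
  rw [hz]
  refine AddMonoidHom.ext fun x => ?_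
  obtain ⟨⟨g, hg⟩, rfl⟩ : ∃ g' : Gamma (q * m * q), Additive.ofMul g' = x :=
    ⟨Additive.toMul x, rfl⟩
  rw [resK_apply, AddMonoidHom.zero_apply]
  unfold cor1
  have hmemK : ∀ v : ZMod q, nuSL (q * m * (v.val : ℤ)) * g * (nuSL (q * m * (v.val : ℤ)))⁻¹
      ∈ Gamma0 (q * m * q) := fun v =>
    Gamma_le_Gamma0' (q * m * q) ((Gamma_normal (q * m * q)).conj_mem g hg _)
  rw [corAlong_eq_sum (inclG (q * m) q) (Subgroup.inclusion_injective _) (repAlpha q m)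
    (isReps_repAlpha hq hqm) _ _ id (fun v => ⟨_, hmemK v⟩) (fun v => by
      apply Subtype.ext
      show g * (nuSL (q * m * (v.val : ℤ)))⁻¹ = (nuSL (q * m * (v.val : ℤ)))⁻¹ *
        (nuSL (q * m * (v.val : ℤ)) * g * (nuSL (q * m * (v.val : ℤ)))⁻¹)
      group)]
  have hterm : ∀ v : ZMod q,
      (resK (Gamma0_le_Gam1_one (q * m * q)) (stepMap hq (one_dvd m) χ φ))
        (Additive.ofMul (⟨_, hmemK v⟩ : Gamma0 (q * m * q)))
      = stepIdx q m 1 • ∑ u : ZMod q, χ⁻¹ u * fInt hq (one_dvd m) φ g hg (u.val : ℤ) (v.val : ℤ) := by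
    intro v
    rw [← stepMap_apply_xNu hq hqm χ hχ ω hω₂ hφ g hg (v.val : ℤ)]
    rfl
  rw [Finset.sum_congr rfl (fun v _ => hterm v), ← Finset.smul_sum, Finset.sum_comm]
  have hm : ((m : ℕ) : ZMod q) ≠ 0 := by
    intro h
    exact hqm ((ZMod.natCast_eq_zero_iff m q).mp h)
  rw [sum_alpha_eq_zero χ hχ (m : ZMod q) hm
    (fun u w => fInt hq (one_dvd m) φ g hg (u.val : ℤ) (w.val : ℤ)) ?_, smul_zero]
  intro u u' w w' hu huu'
  have hdvd : (q : ℤ) ∣ (u.val : ℤ) - (u'.val : ℤ) *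
      (1 + m * (u.val : ℤ) * ((w.val : ℤ) - (w'.val : ℤ))) := by
    rw [← ZMod.intCast_zmod_eq_zero_iff_dvd]
    push_cast
    simp only [ZMod.natCast_zmod_val]
    rw [sub_eq_zero]
    exact huu'
  obtain ⟨e, he⟩ := hdvd
  rw [fInt_rel hq (one_dvd m) χ ω hω hφ g hg _ _ _ _ e he]
  congr 2
  push_cast
  simp only [ZMod.natCast_zmod_val]

end AlphaMain

end Fermat.Agent.L.Pivot.Geom.H4
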