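import Fermat.Agent.L.Pivot.Geom.H4_B1Alpha
import Fermat.Agent.S41.H19_RelMat

/-!
# PIVOT / PV-GEOM, leaf PVG-B1 (helper4): the twisted class is killed by the transfer along
conjugation by `diag(q, 1)`

* `hE n` : the element `E_n⁻¹ g E_n`, `E_n = [[q, n], [0, 1]]`, for `g ∈ Γ(q m q)`;
  `conjG_hE` : `conjG (hE n) = τ_n⁻¹ g τ_n`;  `alpha_hE` : `α_U (hE B) = hE (B - U) α_U`;
* `isReps_repBeta` : the `τ_b`, `b mod q`, represent `Γ₀(q m) / conjG (Γ₀(q m q))`;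
* `cor2_stepMap` : `S41.cor2 (S φ) = 0` for `χ ≠ 1`  (`U_q` kills twists: `∑_u χ⁻¹(u) = 0`).
-/

set_option autoImplicit false

namespace Fermat.Agent.L.Pivot.Geom.H4

open CongruenceSubgroup Matrix.SpecialLinearGroup ModularForm Finset
open scoped MatrixGroups
open Fermat.Agent.NEB.EIG.H39 Fermat.Agent.S41 Fermat.Agent.Betti

section Entries

theorem Gamma_entries {N : ℕ} {g : SL(2, ℤ)} (hg : g ∈ Gamma N) :
    (N : ℤ) ∣ g 0 0 - 1 ∧ (N : ℤ) ∣ g 0 1 ∧ (N : ℤ) ∣ g 1 0 ∧ (N : ℤ) ∣ g 1 1 - 1 := by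
  rw [Gamma_mem] at hg
  obtain ⟨h00, h01, h10, h11⟩ := hg
  refine ⟨?_, (ZMod.intCast_zmod_eq_zero_iff_dvd _ _).mp h01,
    (ZMod.intCast_zmod_eq_zero_iff_dvd _ _).mp h10, ?_⟩
  · rw [← ZMod.intCast_zmod_eq_zero_iff_dvd]
    push_cast
    rw [h00, sub_self]
  · rw [← ZMod.intCast_zmod_eq_zero_iff_dvd]
    push_cast
    rw [h11, sub_self]

end Entries

section HE

variable (q : ℕ) (g : SL(2, ℤ)) (b' e' c' : ℤ)
  (hb : g 0 1 = q * b') (he : g 0 0 - g 1 1 = q * e') (hc : g 1 0 = q * c')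

/-- The element `E_n⁻¹ g E_n`, `E_n = [[q, n], [0, 1]]`, for `g ∈ Γ(q ·)`. -/
def hE (n : ℤ) : SL(2, ℤ) :=
  mkSL (g 0 0 - n * g 1 0) (b' + n * e' - n ^ 2 * c') (q * g 1 0) (g 1 1 + n * g 1 0)
    (by linear_combination sl_det g + g 1 0 * hb + n * g 1 0 * he - n ^ 2 * g 1 0 * hc)

theorem hE_mem {m : ℕ} (hg : g ∈ Gamma (q * m * q)) (n : ℤ) :
    hE q g b' e' c' hb he hc n ∈ Gam1 (q * m * q) (q * 1) := by
  obtain ⟨h00, -, h10, -⟩ := Gamma_entries hg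
  have hq1 : ((q * 1 : ℕ) : ℤ) ∣ ((q * m * q : ℕ) : ℤ) :=
    Int.natCast_dvd_natCast.mpr ⟨m * q, by ring⟩
  refine ⟨?_, ?_, ?_⟩
  · show ((q * m * q : ℕ) : ℤ) ∣ (q : ℤ) * g 1 0
    exact Dvd.dvd.mul_left h10 _
  · show ((q * 1 : ℕ) : ℤ) ∣ (q : ℤ) * g 1 0
    exact Dvd.dvd.mul_left (hq1.trans h10) _
  · show ((q * 1 : ℕ) : ℤ) ∣ g 0 0 - n * g 1 0 - 1
    have : g 0 0 - n * g 1 0 - 1 = (g 0 0 - 1) - n * g 1 0 := by ring
    rw [this]
    exact dvd_sub (hq1.trans h00) (Dvd.dvd.mul_left (hq1.trans h10) _)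

theorem hE_mem_Gamma0 {m : ℕ} (hg : g ∈ Gamma (q * m * q)) (n : ℤ) :
    hE q g b' e' c' hb he hc n ∈ Gamma0 (q * m * q) :=
  Gam1_le_Gamma0 _ _ (hE_mem q g b' e' c' hb he hc hg n)

theorem tau_conj_mem {m : ℕ} (hg : g ∈ Gamma (q * m * q)) (n : ℤ) :
    (tauSL n)⁻¹ * g * tauSL n ∈ Gamma0 (q * m) := by
  have h1 : (tauSL n)⁻¹ * g * ((tauSL n)⁻¹)⁻¹ ∈ Gamma (q * m * q) :=
    (Gamma_normal (q * m * q)).conj_mem g hg _
  rw [inv_inv] at h1
  exact (gamma0_mul_le (q * m) q) (Gamma_le_Gamma0' (q * m * q) h1)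

/-- (E2) `conjG (E_n⁻¹ g E_n) = τ_n⁻¹ g τ_n`. -/
theorem conjG_hE {m : ℕ} (hq0 : q ≠ 0) (hg : g ∈ Gamma (q * m * q)) (n : ℤ) :
    conjG (q * m) q ⟨hE q g b' e' c' hb he hc n, hE_mem_Gamma0 q g b' e' c' hb he hc hg n⟩
      = ⟨(tauSL n)⁻¹ * g * tauSL n, tau_conj_mem q g hg n⟩ := by
  have hq' : (q : ℤ) ≠ 0 := by exact_mod_cast hq0
  apply Subtype.ext
  apply sl_ext
  · show (conjMat q _) 0 0 = _
    rw [sl_mul_00, sl_mul_00, sl_mul_01, sl_inv_00, sl_inv_01]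
    simp [conjMat, hE, tauSL]
    ring
  · show (conjMat q _) 0 1 = _
    rw [sl_mul_01, sl_mul_00, sl_mul_01, sl_inv_00, sl_inv_01]
    simp [conjMat, hE, tauSL]
    linear_combination (-1 : ℤ) * hb - n * he + n ^ 2 * hc
  · show (conjMat q _) 1 0 = _
    rw [sl_mul_10, sl_mul_10, sl_mul_11, sl_inv_10, sl_inv_11]
    simp [conjMat, hE, tauSL, Int.mul_ediv_cancel_left _ hq']
  · show (conjMat q _) 1 1 = _
    rw [sl_mul_11, sl_mul_10, sl_mul_11, sl_inv_10, sl_inv_11]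
    simp [conjMat, hE, tauSL]
    ring

/-- (E3) `α_U (E_B⁻¹ g E_B) = (E_{B-U}⁻¹ g E_{B-U}) α_U`. -/
theorem alpha_hE (hq0 : q ≠ 0) (U B : ℤ) :
    alphaGL q U * mapGL ℝ (hE q g b' e' c' hb he hc B)
      = mapGL ℝ (hE q g b' e' c' hb he hc (B - U)) * alphaGL q U := by
  have hq' : (q : ℝ) ≠ 0 := by exact_mod_cast hq0
  have hb' : ((g 0 1 : ℤ) : ℝ) = q * b' := by exact_mod_cast hb
  have he' : ((g 0 0 : ℤ) : ℝ) - (g 1 1 : ℤ) = q * e' := by exact_mod_cast he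
  have hc' : ((g 1 0 : ℤ) : ℝ) = q * c' := by exact_mod_cast hc
  apply Units.ext
  ext i j
  fin_cases i <;> fin_cases j
  · simp [hE, Matrix.mul_apply, Fin.sum_univ_two]
    field_simp
    ring
  · simp [hE, Matrix.mul_apply, Fin.sum_univ_two]
    field_simp
    linear_combination (-(U : ℝ)) * he' + ((2 * B * U - U ^ 2 : ℝ)) * hc'
  · simp [hE, Matrix.mul_apply, Fin.sum_univ_two]
  · simp [hE, Matrix.mul_apply, Fin.sum_univ_two]
    field_simp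
    ring

end HE

section RepsBeta

variable {q m : ℕ}

theorem tauSL_mem_Gamma0 (N : ℕ) (k : ℤ) : tauSL k ∈ Gamma0 N :=
  mem_Gamma0_of_dvd (by simp [tauSL])

/-- The representatives `τ_b`, `b mod q`, of `Γ₀(q m) / conjG (Γ₀(q m q))`. -/
def repBeta (q m : ℕ) (b : ZMod q) : Gamma0 (q * m) :=
  ⟨tauSL (b.val : ℤ), tauSL_mem_Gamma0 _ _⟩

theorem isReps_repBeta (hq : q.Prime) :
    H19.IsReps (conjG (q * m) q) (repBeta q m) := by
  haveI : NeZero q := ⟨hq.ne_zero⟩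
  have hq0 : (q : ℤ) ≠ 0 := by exact_mod_cast hq.ne_zero
  constructor
  · rintro i j ⟨x, hx⟩
    have h1 := congrArg (fun y : Gamma0 (q * m) => (y : SL(2, ℤ)) 0 1) hx
    have h2 : ((conjG (q * m) q x : Gamma0 (q * m)) : SL(2, ℤ)) 0 1
        = (q : ℤ) * (x : SL(2, ℤ)) 0 1 := by
      show (conjMat q _) 0 1 = _
      simp [conjMat]
    have h3 : (((repBeta q m i)⁻¹ * repBeta q m j : Gamma0 (q * m)) : SL(2, ℤ)) 0 1
        = (j.val : ℤ) - i.val := by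
      show ((tauSL (i.val : ℤ))⁻¹ * tauSL (j.val : ℤ)) 0 1 = _
      rw [sl_mul_01, sl_inv_00, sl_inv_01]
      simp only [tauSL, mkSL_11, mkSL_01, one_mul]
      ring
    simp only [h2, h3] at h1
    have h4 : (q : ℤ) ∣ (j.val : ℤ) - i.val := ⟨_, h1.symm⟩
    have h5 := (ZMod.intCast_zmod_eq_zero_iff_dvd _ _).mpr h4
    push_cast at h5
    rw [ZMod.natCast_zmod_val, ZMod.natCast_zmod_val] at h5
    exact (sub_eq_zero.mp h5).symm
  · rintro ⟨g, hg⟩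
    obtain ⟨C, hC⟩ := dvd_of_mem_Gamma0 hg
    have hdet := sl_det g
    have hunit : ((g 0 0 : ℤ) : ZMod q) * ((g 1 1 : ℤ) : ZMod q) = 1 := by
      have : ((g 0 0 * g 1 1 - g 0 1 * g 1 0 : ℤ) : ZMod q) = 1 := by rw [hdet]; simp
      rw [hC] at this
      push_cast at this
      simpa using this
    set i : ZMod q := ((g 0 1 : ℤ) : ZMod q) * ((g 0 0 : ℤ) : ZMod q) with hi
    refine ⟨i, ?_⟩
    obtain ⟨h', hh'⟩ := H19.exists_conjG_eq hq.ne_zero ((repBeta q m i)⁻¹ * ⟨g, hg⟩) (by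
      show (q : ℤ) ∣ ((tauSL (i.val : ℤ))⁻¹ * g) 0 1
      rw [sl_mul_01, sl_inv_00, sl_inv_01]
      simp only [tauSL, mkSL_11, mkSL_01, one_mul]
      rw [← ZMod.intCast_zmod_eq_zero_iff_dvd]
      push_cast
      rw [ZMod.natCast_zmod_val, hi]
      have : ((g 0 1 : ℤ) : ZMod q) + -(((g 0 1 : ℤ) : ZMod q) * ((g 0 0 : ℤ) : ZMod q))
            * ((g 1 1 : ℤ) : ZMod q)
          = ((g 0 1 : ℤ) : ZMod q) * (1 - ((g 0 0 : ℤ) : ZMod q) * ((g 1 1 : ℤ) : ZMod q)) := by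
        ring
      rw [this, hunit, sub_self, mul_zero])
    exact ⟨h', hh'⟩

end RepsBeta

section BetaMain

variable {q m : ℕ} {L : Type*} [Field L]
variable (hq : q.Prime) (hqm : ¬ q ∣ m)

include hqm in
/-- The value of `S φ` at an element of `Γ' = Gam1 (q m q) q`. -/
theorem stepMap_apply_Gp (χ : MulChar (ZMod q) L) (hχ : χ ≠ 1) (ω : SL(2, ℤ) → L)
    (hω : ∀ g ∈ Gam1 (q * m * q) 1, ω g = 1)
    {φ : Additive (Gam1 (q * m) (q * 1)) →+ L}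
    (hφ : IsEig (q * m) (q * 1) (step_hcK1 (one_dvd m))
      (fun g => χ ((g 0 0 : ℤ) : ZMod q) ^ 2 * ω g) φ)
    (x : Gam1 (q * m * q) (q * 1)) :
    haveI : Fact q.Prime := ⟨hq⟩
    stepMap hq (one_dvd m) χ φ (Additive.ofMul (Subgroup.inclusion (step_hle2 q m 1) x))
      = stepIdx q m 1 • ∑ u : ZMod q, χ⁻¹ u *
          Bop hq.ne_zero (dvd_mul_right q 1) (step_hcq (one_dvd m)) u
            (resK (step_hle1 q m 1) φ) (Additive.ofMul x) := by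
  haveI : Fact q.Prime := ⟨hq⟩
  have h1 := resK_stepMap hq hqm (one_dvd m) χ ω hω hφ
  have h2 := congrArg (fun ψ : Additive (Gam1 (q * m * q) (q * 1)) →+ L =>
    ψ (Additive.ofMul x)) h1
  simp only [resK_apply, AddMonoidHom.smul_apply] at h2
  rw [h2]
  congr 1
  unfold stepW
  rw [tqOp_ne hq (one_dvd m) hχ, twOp_apply, AddMonoidHom.finsetSum_apply]
  refine Finset.sum_congr rfl fun u _ => ?_
  rw [AddMonoidHom.smul_apply, smul_eq_mul]

/-- `A_U ψ (E_B⁻¹ g E_B) = ψ (E_{B-U}⁻¹ g E_{B-U})`. -/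
theorem Aop_apply_hE (g : SL(2, ℤ)) (hg : g ∈ Gamma (q * m * q)) (b' e' c' : ℤ)
    (hb : g 0 1 = q * b') (he : g 0 0 - g 1 1 = q * e') (hc : g 1 0 = q * c')
    (ψ : Additive (Gam1 (q * m * q) (q * 1)) →+ L) (U B : ℤ) :
    Aop hq.ne_zero (dvd_mul_right q 1) (step_hcq (one_dvd m)) U ψ
        (Additive.ofMul ⟨hE q g b' e' c' hb he hc B, hE_mem q g b' e' c' hb he hc hg B⟩)
      = ψ (Additive.ofMul
          ⟨hE q g b' e' c' hb he hc (B - U), hE_mem q g b' e' c' hb he hc hg (B - U)⟩) := by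
  rw [Aop_apply, tw_apply]
  congr 2
  apply inc_injective
  rw [e_conjEnd]
  simp only [inc_apply]
  have h := alpha_hE q g b' e' c' hb he hc hq.ne_zero U B
  rw [h]
  group

include hqm in
/-- **PVG-B1, the transfer along conjugation by `diag(q, 1)`**: `cor_β (S φ) = 0` for `χ ≠ 1`. -/
theorem cor2_stepMap [CharZero L] (χ : MulChar (ZMod q) L) (hχ : χ ≠ 1) (ω : SL(2, ℤ) → L)
    (hω : ∀ g ∈ Gam1 (q * m * q) 1, ω g = 1)
    {φ : Additive (Gam1 (q * m) (q * 1)) →+ L}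
    (hφ : IsEig (q * m) (q * 1) (step_hcK1 (one_dvd m))
      (fun g => χ ((g 0 0 : ℤ) : ZMod q) ^ 2 * ω g) φ) :
    cor2 (q * m) q L (resK (Gamma0_le_Gam1_one (q * m * q)) (stepMap hq (one_dvd m) χ φ)) = 0 := by
  haveI : Fact q.Prime := ⟨hq⟩
  haveI := step_neZero hq hqm
  have hle : Gamma (q * m * q) ≤ Gamma0 (q * m) :=
    (Gamma_le_Gamma0' (q * m * q)).trans (gamma0_mul_le (q * m) q)
  have hz : resK hle (0 : Additive (Gamma0 (q * m)) →+ L) = 0 := AddMonoidHom.zero_comp _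
  apply resK_inj hle (le_refl _)
  rw [hz]
  refine AddMonoidHom.ext fun x => ?_
  obtain ⟨⟨g, hg⟩, rfl⟩ : ∃ g' : Gamma (q * m * q), Additive.ofMul g' = x :=
    ⟨Additive.toMul x, rfl⟩
  rw [resK_apply, AddMonoidHom.zero_apply]
  obtain ⟨h00, h01, h10, h11⟩ := Gamma_entries hg
  have hqN : (q : ℤ) ∣ ((q * m * q : ℕ) : ℤ) := Int.natCast_dvd_natCast.mpr (dvd_mul_left _ _)
  obtain ⟨b', hb⟩ := hqN.trans h01
  obtain ⟨c', hc⟩ := hqN.trans h10
  obtain ⟨e', he⟩ : (q : ℤ) ∣ g 0 0 - g 1 1 := by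
    have : g 0 0 - g 1 1 = (g 0 0 - 1) - (g 1 1 - 1) := by ring
    rw [this]
    exact dvd_sub (hqN.trans h00) (hqN.trans h11)
  unfold cor2
  rw [H19.corAlong_eq_sum (conjG (q * m) q) (H19.conjG_injective (q * m) q hq.ne_zero)
    (repBeta q m) (isReps_repBeta hq) _ _ id
    (fun b => ⟨hE q g b' e' c' hb he hc (b.val : ℤ),
      hE_mem_Gamma0 q g b' e' c' hb he hc hg (b.val : ℤ)⟩) (fun b => by
      rw [conjG_hE q g b' e' c' hb he hc hq.ne_zero hg]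
      apply Subtype.ext
      show g * tauSL (b.val : ℤ) = tauSL (b.val : ℤ) *
        ((tauSL (b.val : ℤ))⁻¹ * g * tauSL (b.val : ℤ))
      group)]
  set ψ := resK (step_hle1 q m 1) φ with hψ
  set F : ZMod q → L := fun z =>
    Bop hq.ne_zero (dvd_mul_right q 1) (step_hcq (one_dvd m)) (-z) ψ
      (Additive.ofMul ⟨hE q g b' e' c' hb he hc 0, hE_mem q g b' e' c' hb he hc hg 0⟩) with hF
  have hterm : ∀ b : ZMod q,
      (resK (Gamma0_le_Gam1_one (q * m * q)) (stepMap hq (one_dvd m) χ φ))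
        (Additive.ofMul (⟨hE q g b' e' c' hb he hc (b.val : ℤ),
          hE_mem_Gamma0 q g b' e' c' hb he hc hg (b.val : ℤ)⟩ : Gamma0 (q * m * q)))
      = stepIdx q m 1 • ∑ u : ZMod q, χ⁻¹ u * F (b - u) := by
    intro b
    have h1 := stepMap_apply_Gp hq hqm χ hχ ω hω hφ
      ⟨hE q g b' e' c' hb he hc (b.val : ℤ), hE_mem q g b' e' c' hb he hc hg (b.val : ℤ)⟩
    have h2 : (resK (Gamma0_le_Gam1_one (q * m * q)) (stepMap hq (one_dvd m) χ φ))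
        (Additive.ofMul (⟨hE q g b' e' c' hb he hc (b.val : ℤ),
          hE_mem_Gamma0 q g b' e' c' hb he hc hg (b.val : ℤ)⟩ : Gamma0 (q * m * q)))
        = stepMap hq (one_dvd m) χ φ (Additive.ofMul (Subgroup.inclusion (step_hle2 q m 1)
          ⟨hE q g b' e' c' hb he hc (b.val : ℤ),
            hE_mem q g b' e' c' hb he hc hg (b.val : ℤ)⟩)) := rfl
    rw [h2, h1]
    congr 1
    refine Finset.sum_congr rfl fun u _ => ?_
    congr 1
    rw [hF]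
    simp only
    have e1 : Bop hq.ne_zero (dvd_mul_right q 1) (step_hcq (one_dvd m)) u ψ
        = Aop hq.ne_zero (dvd_mul_right q 1) (step_hcq (one_dvd m)) (u.val : ℤ) ψ := rfl
    have e2 : Bop hq.ne_zero (dvd_mul_right q 1) (step_hcq (one_dvd m)) (-(b - u)) ψ
        = Aop hq.ne_zero (dvd_mul_right q 1) (step_hcq (one_dvd m))
            ((u.val : ℤ) - (b.val : ℤ)) ψ := by
      have : (-(b - u) : ZMod q) = (((u.val : ℤ) - (b.val : ℤ) : ℤ) : ZMod q) := by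
        push_cast
        rw [ZMod.natCast_zmod_val, ZMod.natCast_zmod_val]
        ring
      rw [this, Bop_intCast]
    rw [e1, e2, Aop_apply_hE hq g hg b' e' c' hb he hc ψ,
      Aop_apply_hE hq g hg b' e' c' hb he hc ψ]
    have e3 : (b.val : ℤ) - (u.val : ℤ) = 0 - ((u.val : ℤ) - (b.val : ℤ)) := by ring
    simp only [e3]
  rw [Finset.sum_congr rfl (fun b _ => hterm b), ← Finset.smul_sum,
    sum_beta_eq_zero χ hχ F, smul_zero]

end BetaMain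

end Fermat.Agent.L.Pivot.Geom.H4
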