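import Fermat.Agent.L.Pivot.Geom.H4_EigPartCore
import Fermat.Agent.NEB.EIG.H39_OPLattice

/-!
# PIVOT / PV-GEOM, leaf P-EIGPART (helper4), part 2: the `L`-level statement

Setting of `NEB.EIG.H39.stmt_OP` for the list `qsP ++ qsQ` (pivot primes, Taylor–Wiles primes),
`c = cP cQ`, `N' = N c²`: the Hecke algebra of level `N'` acts on `V` through `eta`,
`eta (T_ℓ) = TV ℓ * dia ⟨ℓ⟩ ^ j`.

`eigPart_V` : if `rest : 𝕋(N') → 𝕋(N'')`, `N'' = N cP cQ²`, maps `T_ℓ` to `T_ℓ`, then the kernel of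
`rest` kills the vectors which are fixed by the diamond operators `d ≡ 1 mod cQ` (the diamond
operators at the pivot primes).  More precisely (`eigPart_V_factor`) there is a ring homomorphism
`eta₁ : 𝕋(N'') → End V₁` on the invariants `V₁` with `eta t v = eta₁ (rest t) v`.

Proof: `μ₁ = cor ∘ μ` (`H4_EigPartCore.lean`) and `stmt_OP` at `(N cP, qsQ)`; `hecke_induction`.
Complete proofs, standard axioms only.
-/

set_option autoImplicit false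

namespace Fermat.Agent.L.Pivot.Geom.H4

open CongruenceSubgroup Matrix.SpecialLinearGroup ModularForm Finset
open scoped MatrixGroups
open Fermat.Agent.NEB.EIG.H39 Fermat.Agent.Betti ModularCurve.Period

section Aux

variable {L : Type*} [Field L] {V : Type*} [AddCommGroup V] [Module L V] {c cQ : ℕ}

theorem coe_diaR_pow (hcQc : cQ ∣ c) (dia : (ZMod c)ˣ →* Module.End L V) (d : (ZMod c)ˣ)
    (n : ℕ) (v : ↥(pivInv hcQc dia)) :
    (((diaR hcQc dia d ^ n) v : ↥(pivInv hcQc dia)) : V) = (dia d ^ n) v := by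
  rw [← map_pow, ← map_pow, coe_diaR]

theorem unitsMap_unitOf (hcQc : cQ ∣ c) {ℓ : ℕ} (hcop : Nat.Coprime ℓ c) :
    ZMod.unitsMap hcQc (unitOf c ℓ) = unitOf cQ ℓ := by
  have hcopQ : Nat.Coprime ℓ cQ := Nat.Coprime.coprime_dvd_right hcQc hcop
  apply Units.ext
  rw [ZMod.unitsMap_def, Units.coe_map, unitOf_coe hcop, unitOf_coe hcopQ, MonoidHom.coe_coe,
    map_natCast]

theorem not_dvd_of_nodup {qsP qsQ : List ℕ} (hnd : (qsP ++ qsQ).Nodup)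
    (hpr : ∀ q ∈ qsP ++ qsQ, q.Prime) {q : ℕ} (hq : q ∈ qsQ) : ¬ q ∣ qsP.prod := by
  intro h
  have hqp : q.Prime := hpr q (List.mem_append_right _ hq)
  obtain ⟨a, ha, hqa⟩ := (Prime.dvd_prod_iff (Nat.Prime.prime hqp)).mp h
  have hap : a.Prime := hpr a (List.mem_append_left _ ha)
  have hqa' : q = a := (Nat.prime_dvd_prime_iff_eq hqp hap).mp hqa
  exact (List.nodup_append.mp hnd).2.2 a ha q hq hqa'.symm

end Aux

section Main

variable {L : Type} [Field L] [CharZero L] {V : Type*} [AddCommGroup V] [Module L V]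

/-- **P-EIGPART, `L`-level, factorisation form.**  On the invariants `V₁` of the pivot diamonds
the action of the Hecke algebra of level `N' = N c²` factors through `rest` and an action `eta₁` of
the Hecke algebra of level `N'' = N cP cQ²`. -/
theorem eigPart_V_factor (N : ℕ) (hN : N ≠ 0) (qsP qsQ : List ℕ) (hnd : (qsP ++ qsQ).Nodup)
    (hpr : ∀ q ∈ qsP ++ qsQ, q.Prime) (hqN : ∀ q ∈ qsP ++ qsQ, ¬ q ∣ N)
    (c cP cQ N' N'' : ℕ) (hcP : cP = qsP.prod) (hcQ : cQ = qsQ.prod) (hc : c = cP * cQ)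
    (hN' : N' = N * c * c) (hN'' : N'' = N * cP * cQ * cQ) [NeZero N'] [NeZero N'']
    (S : Set ℕ) (hS : ∀ q : ℕ, q.Prime → q ∣ N' → q ∈ S)
    [HasEnoughRootsOfUnity L (Monoid.exponent (ZMod cQ)ˣ)]
    (μ : V →ₗ[L] (Additive (Gam1 (N * c) c) →+ L)) (hμ : Function.Injective μ)
    (hμpar : ∀ v, IsParabolicHom (Gam1 (N * c) c) (μ v))
    (TV : ℕ → Module.End L V)
    (hTV : ∀ (ℓ : ℕ) (hℓ : ℓ.Prime) (hℓM : ¬ ℓ ∣ N * c) (v : V),
      μ (TV ℓ v) = TD (N * c) c (dvd_mul_left _ _) hℓ hℓM (μ v))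
    (dia : (ZMod c)ˣ →* Module.End L V)
    (hdia : ∀ (g : SL(2, ℤ)) (hg : ((N * c : ℕ) : ℤ) ∣ g 1 0) (d : (ZMod c)ˣ),
      (d : ZMod c) = ((g 0 0 : ℤ) : ZMod c) →
      ∀ v, μ (dia d v) = Dop (dvd_mul_left _ _) g hg (μ v))
    (hcomm : ∀ ℓ d, Commute (TV ℓ) (dia d))
    (j : ℕ) (hdn : ∀ d, dia d ^ (2 * j + 1) = 1)
    (eta : CuspForm.heckeAlgebra N' 2 S →+* Module.End L V)
    (heta : ∀ (ℓ : ℕ) (hℓ : ℓ.Prime) (hℓN : ¬ ℓ ∣ N') (hℓS : ℓ ∉ S),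
        eta (CuspForm.heckeAlgebra.T hℓ hℓN hℓS) = TV ℓ * dia (unitOf c ℓ) ^ j)
    (rest : CuspForm.heckeAlgebra N' 2 S →+* CuspForm.heckeAlgebra N'' 2 S)
    (hrest : ∀ (ℓ : ℕ) (hℓ : ℓ.Prime) (hℓN' : ¬ ℓ ∣ N') (hℓS : ℓ ∉ S) (hℓN'' : ¬ ℓ ∣ N''),
      rest (CuspForm.heckeAlgebra.T hℓ hℓN' hℓS) = CuspForm.heckeAlgebra.T hℓ hℓN'' hℓS)
    (hcQc : cQ ∣ c) :
    ∃ eta₁ : CuspForm.heckeAlgebra N'' 2 S →+* Module.End L ↥(pivInv hcQc dia),
      ∀ (t : CuspForm.heckeAlgebra N' 2 S) (v : ↥(pivInv hcQc dia)),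
        eta t (v : V) = ((eta₁ (rest t) v : ↥(pivInv hcQc dia)) : V) := by
  classical
  subst hcQ
  have hprQ : ∀ q ∈ qsQ, q.Prime := fun q hq => hpr q (List.mem_append_right _ hq)
  have hprP : ∀ q ∈ qsP, q.Prime := fun q hq => hpr q (List.mem_append_left _ hq)
  have hndQ : qsQ.Nodup := (List.nodup_append.mp hnd).2.1
  have hcQ0 : qsQ.prod ≠ 0 := prod_primes_ne_zero hprQ
  have hcP0 : cP ≠ 0 := by
    rw [hcP]
    exact prod_primes_ne_zero hprP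
  have hc0 : c ≠ 0 := by
    rw [hc]
    exact Nat.mul_ne_zero hcP0 hcQ0
  haveI : NeZero c := ⟨hc0⟩
  haveI : NeZero (N * c) := ⟨Nat.mul_ne_zero hN hc0⟩
  have hMM : N * cP * qsQ.prod ∣ N * c := by rw [hc, mul_assoc]
  have hM'M : N * c ∣ N * cP * qsQ.prod := by rw [hc, mul_assoc]
  have hcM : c ∣ N * c := dvd_mul_left _ _
  have hcQ' : qsQ.prod ∣ N * cP * qsQ.prod := dvd_mul_left _ _
  have hN''N' : N'' ∣ N' := by
    rw [hN', hN'', hc]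
    exact ⟨cP, by ring⟩
  have hMN' : N * c ∣ N' := by
    rw [hN']
    exact dvd_mul_right _ _
  have hS'' : ∀ q : ℕ, q.Prime → q ∣ N'' → q ∈ S := fun q hq h => hS q hq (h.trans hN''N')
  have hqN₀ : ∀ q ∈ qsQ, ¬ q ∣ N * cP := by
    intro q hq h
    have hqp := hprQ q hq
    rcases (Nat.Prime.dvd_mul hqp).mp h with h1 | h1
    · exact hqN q (List.mem_append_right _ hq) h1
    · rw [hcP] at h1
      exact not_dvd_of_nodup hnd hpr hq h1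
  -- the operators on the invariants
  let TV₁ : ℕ → Module.End L ↥(pivInv hcQc dia) := fun ℓ =>
    (TV ℓ).restrict (fun _ hv => pivInv_of_comm hcQc dia (TV ℓ) (hcomm ℓ) hv)
  have hcomm₁ : ∀ ℓ d₁, Commute (TV₁ ℓ) (dia1 hcQc dia d₁) := by
    intro ℓ d₁
    obtain ⟨d, rfl⟩ := ZMod.unitsMap_surjective hcQc d₁
    rw [dia1_unitsMap]
    apply LinearMap.ext
    intro v
    apply Subtype.ext
    rw [Module.End.mul_apply, Module.End.mul_apply, LinearMap.coe_restrict_apply, coe_diaR,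
      coe_diaR, LinearMap.coe_restrict_apply]
    have := congrArg (fun F : Module.End L V => F (v : V)) (hcomm ℓ d).eq
    simp only [Module.End.mul_apply] at this
    exact this
  obtain ⟨eta₁, heta₁⟩ := stmt_OP (L := L) (V := ↥(pivInv hcQc dia)) (N * cP)
    (Nat.mul_ne_zero hN hcP0) qsQ hndQ hprQ hqN₀ qsQ.prod N'' rfl hN'' S hS''
    (mu1 hMM hcQc μ dia) (mu1_inj hMM hM'M hcM hcQc μ hμ dia hdia)
    (mu1_par hMM hM'M hcM hcQc μ hμpar dia hdia) TV₁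
    (fun ℓ hℓ hℓM' v => mu1_TV hMM hM'M hcM hcQ' hcQc μ dia hdia (TV ℓ) (hcomm ℓ) hℓ
      (fun h => hℓM' (h.trans hM'M)) hℓM' (fun w => hTV ℓ hℓ _ w) v)
    (dia1 hcQc dia)
    (fun g hg d hd v => mu1_dia1 hMM hM'M hcM hcQ' hcQc μ dia hdia g hg d hd v)
    hcomm₁ j (dia1_pow hcQc dia _ hdn)
  refine ⟨eta₁, ?_⟩
  refine hecke_induction hS (fun ℓ hℓ hℓN hℓS v => ?_) (fun n v => ?_)
    (fun x y hx hy v => ?_) (fun x y hx hy v => ?_)
  · have hℓN'' : ¬ ℓ ∣ N'' := fun h => hℓN (h.trans hN''N')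
    have hℓM : ¬ ℓ ∣ N * c := fun h => hℓN (h.trans hMN')
    have hℓc : ¬ ℓ ∣ c := fun h => hℓM (h.trans (dvd_mul_left _ _))
    have hcop : Nat.Coprime ℓ c := (Nat.Prime.coprime_iff_not_dvd hℓ).mpr hℓc
    rw [heta ℓ hℓ hℓN hℓS, hrest ℓ hℓ hℓN hℓS hℓN'', heta₁ ℓ hℓ hℓN'' hℓS,
      Module.End.mul_apply, Module.End.mul_apply, ← unitsMap_unitOf hcQc hcop, dia1_unitsMap,
      LinearMap.coe_restrict_apply, coe_diaR_pow]
  · rw [map_intCast, map_intCast, map_intCast, Module.End.intCast_apply,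
      Module.End.intCast_apply]
    rfl
  · rw [map_add, map_add, map_add, LinearMap.add_apply, LinearMap.add_apply, hx v, hy v]
    rfl
  · rw [map_mul, map_mul, map_mul, Module.End.mul_apply, Module.End.mul_apply, hy v, hx]

/-- **P-EIGPART, `L`-level.**  The kernel of `rest : 𝕋(N c²) → 𝕋(N cP cQ²)` kills the vectors
which are invariant under the diamond operators at the pivot primes. -/
theorem eigPart_V (N : ℕ) (hN : N ≠ 0) (qsP qsQ : List ℕ) (hnd : (qsP ++ qsQ).Nodup)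
    (hpr : ∀ q ∈ qsP ++ qsQ, q.Prime) (hqN : ∀ q ∈ qsP ++ qsQ, ¬ q ∣ N)
    (c cP cQ N' N'' : ℕ) (hcP : cP = qsP.prod) (hcQ : cQ = qsQ.prod) (hc : c = cP * cQ)
    (hN' : N' = N * c * c) (hN'' : N'' = N * cP * cQ * cQ) [NeZero N'] [NeZero N'']
    (S : Set ℕ) (hS : ∀ q : ℕ, q.Prime → q ∣ N' → q ∈ S)
    [HasEnoughRootsOfUnity L (Monoid.exponent (ZMod cQ)ˣ)]
    (μ : V →ₗ[L] (Additive (Gam1 (N * c) c) →+ L)) (hμ : Function.Injective μ)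
    (hμpar : ∀ v, IsParabolicHom (Gam1 (N * c) c) (μ v))
    (TV : ℕ → Module.End L V)
    (hTV : ∀ (ℓ : ℕ) (hℓ : ℓ.Prime) (hℓM : ¬ ℓ ∣ N * c) (v : V),
      μ (TV ℓ v) = TD (N * c) c (dvd_mul_left _ _) hℓ hℓM (μ v))
    (dia : (ZMod c)ˣ →* Module.End L V)
    (hdia : ∀ (g : SL(2, ℤ)) (hg : ((N * c : ℕ) : ℤ) ∣ g 1 0) (d : (ZMod c)ˣ),
      (d : ZMod c) = ((g 0 0 : ℤ) : ZMod c) →
      ∀ v, μ (dia d v) = Dop (dvd_mul_left _ _) g hg (μ v))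
    (hcomm : ∀ ℓ d, Commute (TV ℓ) (dia d))
    (j : ℕ) (hdn : ∀ d, dia d ^ (2 * j + 1) = 1)
    (eta : CuspForm.heckeAlgebra N' 2 S →+* Module.End L V)
    (heta : ∀ (ℓ : ℕ) (hℓ : ℓ.Prime) (hℓN : ¬ ℓ ∣ N') (hℓS : ℓ ∉ S),
        eta (CuspForm.heckeAlgebra.T hℓ hℓN hℓS) = TV ℓ * dia (unitOf c ℓ) ^ j)
    (rest : CuspForm.heckeAlgebra N' 2 S →+* CuspForm.heckeAlgebra N'' 2 S)
    (hrest : ∀ (ℓ : ℕ) (hℓ : ℓ.Prime) (hℓN' : ¬ ℓ ∣ N') (hℓS : ℓ ∉ S) (hℓN'' : ¬ ℓ ∣ N''),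
      rest (CuspForm.heckeAlgebra.T hℓ hℓN' hℓS) = CuspForm.heckeAlgebra.T hℓ hℓN'' hℓS)
    (hcQc : cQ ∣ c) (t : CuspForm.heckeAlgebra N' 2 S) (ht : rest t = 0)
    (v : V) (hv : ∀ d : (ZMod c)ˣ, ZMod.unitsMap hcQc d = 1 → dia d v = v) :
    eta t v = 0 := by
  obtain ⟨eta₁, h⟩ := eigPart_V_factor N hN qsP qsQ hnd hpr hqN c cP cQ N' N'' hcP hcQ hc hN' hN''
    S hS μ hμ hμpar TV hTV dia hdia hcomm j hdn eta heta rest hrest hcQc
  have := h t ⟨v, hv⟩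
  rw [ht, map_zero] at this
  exact this

end Main

end Fermat.Agent.L.Pivot.Geom.H4
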