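import Fermat.Agent.NEB.EIG.H39_OP

/-!
# PIVOT / PV-GEOM, leaf P-EIGPART (helper4), part 1: the invariants of the pivot diamonds

`V` an `L`-vector space with an injective map `μ : V → Hom(Γ₀(M) ∩ Γ₁(c), L)` equivariant for the
Hecke operators `TV ℓ` and the diamond operators `dia : (ℤ/c)ˣ → End V`; `cQ ∣ c`.

* `pivInv`  : the vectors fixed by the diamonds `d ≡ 1 mod cQ` (`V₁`);
* `dia1`    : the action of `(ℤ/cQ)ˣ` on `V₁`;
* `mu1`     : `μ₁ = cor ∘ μ : V₁ → Hom(Γ₀(M') ∩ Γ₁(cQ), L)` (`M' = M` as numbers), with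
  `res (μ₁ v) = index • μ v` (`resK_mu1`), injective (`mu1_inj`), parabolic (`mu1_par`),
  equivariant for `TV ℓ` (`mu1_TV`) and for `dia1` (`mu1_dia1`).

Complete proofs, standard axioms only.
-/

set_option autoImplicit false

namespace Fermat.Agent.L.Pivot.Geom.H4

open CongruenceSubgroup Matrix.SpecialLinearGroup ModularForm Finset
open scoped MatrixGroups
open Fermat.Agent.NEB.EIG.H39 Fermat.Agent.Betti ModularCurve.Period

section PivInv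

variable {L : Type*} [Field L] {V : Type*} [AddCommGroup V] [Module L V] {c cQ : ℕ}

/-- The vectors fixed by the diamond operators `d ≡ 1 mod cQ`. -/
def pivInv (hcQc : cQ ∣ c) (dia : (ZMod c)ˣ →* Module.End L V) : Submodule L V where
  carrier := {v | ∀ d : (ZMod c)ˣ, ZMod.unitsMap hcQc d = 1 → dia d v = v}
  add_mem' := fun {a b} ha hb d hd => by rw [map_add, ha d hd, hb d hd]
  zero_mem' := fun d _ => map_zero _
  smul_mem' := fun r v hv d hd => by rw [map_smul, hv d hd]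

theorem mem_pivInv {hcQc : cQ ∣ c} {dia : (ZMod c)ˣ →* Module.End L V} {v : V} :
    v ∈ pivInv hcQc dia ↔ ∀ d : (ZMod c)ˣ, ZMod.unitsMap hcQc d = 1 → dia d v = v := Iff.rfl

theorem pivInv_of_comm (hcQc : cQ ∣ c) (dia : (ZMod c)ˣ →* Module.End L V)
    (f : Module.End L V) (hf : ∀ d, Commute f (dia d)) {v : V} (hv : v ∈ pivInv hcQc dia) :
    f v ∈ pivInv hcQc dia := by
  intro d hd
  have h1 : dia d (f v) = f (dia d v) := by
    have := congrArg (fun F : Module.End L V => F v) (hf d).eq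
    simp only [Module.End.mul_apply] at this
    exact this.symm
  rw [h1, hv d hd]

theorem pivInv_dia (hcQc : cQ ∣ c) (dia : (ZMod c)ˣ →* Module.End L V) (d : (ZMod c)ˣ)
    {v : V} (hv : v ∈ pivInv hcQc dia) : dia d v ∈ pivInv hcQc dia :=
  pivInv_of_comm hcQc dia (dia d) (fun d' => (Commute.all d d').map dia) hv

/-- The diamond operators restricted to the invariants. -/
def diaR (hcQc : cQ ∣ c) (dia : (ZMod c)ˣ →* Module.End L V) :
    (ZMod c)ˣ →* Module.End L ↥(pivInv hcQc dia) where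
  toFun d := (dia d).restrict (fun _ hv => pivInv_dia hcQc dia d hv)
  map_one' := by
    apply LinearMap.ext
    intro v
    apply Subtype.ext
    rw [LinearMap.coe_restrict_apply, map_one]
    rfl
  map_mul' d d' := by
    apply LinearMap.ext
    intro v
    apply Subtype.ext
    rw [LinearMap.coe_restrict_apply, map_mul, Module.End.mul_apply, Module.End.mul_apply,
      LinearMap.coe_restrict_apply, LinearMap.coe_restrict_apply]

theorem coe_diaR (hcQc : cQ ∣ c) (dia : (ZMod c)ˣ →* Module.End L V) (d : (ZMod c)ˣ)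
    (v : ↥(pivInv hcQc dia)) : ((diaR hcQc dia d v : ↥(pivInv hcQc dia)) : V) = dia d v :=
  rfl

theorem diaR_eq_one (hcQc : cQ ∣ c) (dia : (ZMod c)ˣ →* Module.End L V) {d : (ZMod c)ˣ}
    (hd : ZMod.unitsMap hcQc d = 1) : diaR hcQc dia d = 1 := by
  apply LinearMap.ext
  intro v
  apply Subtype.ext
  rw [coe_diaR, Module.End.one_apply]
  exact v.2 d hd

theorem diaR_congr (hcQc : cQ ∣ c) (dia : (ZMod c)ˣ →* Module.End L V) {d d' : (ZMod c)ˣ}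
    (h : ZMod.unitsMap hcQc d = ZMod.unitsMap hcQc d') : diaR hcQc dia d = diaR hcQc dia d' := by
  have h1 : ZMod.unitsMap hcQc (d'⁻¹ * d) = 1 := by
    rw [map_mul, map_inv, h, inv_mul_cancel]
  have h2 : d = d' * (d'⁻¹ * d) := by group
  rw [h2, map_mul, diaR_eq_one hcQc dia h1, mul_one]

/-- The action of `(ℤ/cQ)ˣ` on the invariants. -/
noncomputable def dia1 [NeZero c] (hcQc : cQ ∣ c) (dia : (ZMod c)ˣ →* Module.End L V) :
    (ZMod cQ)ˣ →* Module.End L ↥(pivInv hcQc dia) where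
  toFun d₁ := diaR hcQc dia (Function.surjInv (ZMod.unitsMap_surjective hcQc) d₁)
  map_one' := diaR_eq_one hcQc dia (Function.surjInv_eq _ 1)
  map_mul' a b := by
    rw [← map_mul]
    apply diaR_congr
    rw [map_mul, Function.surjInv_eq (ZMod.unitsMap_surjective hcQc),
      Function.surjInv_eq (ZMod.unitsMap_surjective hcQc),
      Function.surjInv_eq (ZMod.unitsMap_surjective hcQc)]

theorem dia1_unitsMap [NeZero c] (hcQc : cQ ∣ c) (dia : (ZMod c)ˣ →* Module.End L V)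
    (d : (ZMod c)ˣ) : dia1 hcQc dia (ZMod.unitsMap hcQc d) = diaR hcQc dia d :=
  diaR_congr hcQc dia (Function.surjInv_eq _ _)

theorem dia1_pow [NeZero c] (hcQc : cQ ∣ c) (dia : (ZMod c)ˣ →* Module.End L V) (n : ℕ)
    (hdn : ∀ d, dia d ^ n = 1) (d₁ : (ZMod cQ)ˣ) : dia1 hcQc dia d₁ ^ n = 1 := by
  obtain ⟨d, rfl⟩ := ZMod.unitsMap_surjective hcQc d₁
  rw [dia1_unitsMap, ← map_pow]
  apply LinearMap.ext
  intro v
  apply Subtype.ext
  rw [coe_diaR, map_pow, hdn d]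
  rfl

end PivInv

section Cor

variable {L : Type*} [Field L] [CharZero L] {V : Type*} [AddCommGroup V] [Module L V]
  {M M' c cQ : ℕ}

/-- The index of `Γ₀(M) ∩ Γ₁(c)` in `Γ₀(M') ∩ Γ₁(cQ)`. -/
noncomputable def pvIdx (hMM : M' ∣ M) (hcQc : cQ ∣ c) : ℕ :=
  (Subgroup.inclusion (Gam1_mono (M := M') (M' := M) hMM hcQc)).range.index

theorem pvIdx_ne_zero [NeZero M] (hMM : M' ∣ M) (hc : c ∣ M) (hcQc : cQ ∣ c) :
    pvIdx hMM hcQc ≠ 0 := by
  haveI := finiteIndex_inclusion (Gam1_mono (M := M') (M' := M) hMM hcQc)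
    (Gamma_le_Gam1 (N := M) (dvd_refl M) hc)
  exact Subgroup.FiniteIndex.index_ne_zero

/-- `μ₁ = cor ∘ μ` on the invariants. -/
noncomputable def mu1 (hMM : M' ∣ M) (hcQc : cQ ∣ c)
    (μ : V →ₗ[L] (Additive (Gam1 M c) →+ L)) (dia : (ZMod c)ˣ →* Module.End L V) :
    ↥(pivInv hcQc dia) →ₗ[L] (Additive (Gam1 M' cQ) →+ L) :=
  (corLin (Gam1_mono (M := M') (M' := M) hMM hcQc)).comp (μ.comp (pivInv hcQc dia).subtype)

theorem mu1_apply (hMM : M' ∣ M) (hcQc : cQ ∣ c)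
    (μ : V →ₗ[L] (Additive (Gam1 M c) →+ L)) (dia : (ZMod c)ˣ →* Module.End L V)
    (v : ↥(pivInv hcQc dia)) :
    mu1 hMM hcQc μ dia v = corLin (Gam1_mono (M := M') (M' := M) hMM hcQc) (μ (v : V)) := rfl

omit [CharZero L] in
/-- The diamond operator of `g ∈ Γ₀(M)`, `a_g ≡ 1 mod cQ`, fixes `μ v` for invariant `v`. -/
theorem Dop_mu_of_inv (hc : c ∣ M) (hcQc : cQ ∣ c)
    (μ : V →ₗ[L] (Additive (Gam1 M c) →+ L)) (dia : (ZMod c)ˣ →* Module.End L V)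
    (hdia : ∀ (g : SL(2, ℤ)) (hg : (M : ℤ) ∣ g 1 0) (d : (ZMod c)ˣ),
      (d : ZMod c) = ((g 0 0 : ℤ) : ZMod c) → ∀ v, μ (dia d v) = Dop hc g hg (μ v))
    (g : SL(2, ℤ)) (hg : (M : ℤ) ∣ g 1 0) (hg1 : (cQ : ℤ) ∣ g 0 0 - 1)
    {v : V} (hv : v ∈ pivInv hcQc dia) : Dop hc g hg (μ v) = μ v := by
  have hgc : ((c : ℕ) : ℤ) ∣ g 1 0 := (Int.natCast_dvd_natCast.mpr hc).trans hg
  have hu : IsUnit (((g 0 0 : ℤ) : ZMod c)) := IsUnit.of_mul_eq_one _ (entry_mul_eq_one hgc)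
  have h1 := hdia g hg hu.unit rfl v
  have h2 : ZMod.unitsMap hcQc hu.unit = 1 := by
    apply Units.ext
    rw [ZMod.unitsMap_def, Units.coe_map, IsUnit.unit_spec, MonoidHom.coe_coe, map_intCast,
      Units.val_one]
    have h3 : (((g 0 0 - 1 : ℤ) : ℤ) : ZMod cQ) = 0 :=
      (ZMod.intCast_zmod_eq_zero_iff_dvd _ _).mpr hg1
    rw [Int.cast_sub, Int.cast_one, sub_eq_zero] at h3
    exact h3
  rw [← h1, hv _ h2]

/-- `res (μ₁ v) = index • μ v`. -/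
theorem resK_mu1 [NeZero M] (hMM : M' ∣ M) (hM'M : M ∣ M') (hc : c ∣ M) (hcQc : cQ ∣ c)
    (μ : V →ₗ[L] (Additive (Gam1 M c) →+ L)) (dia : (ZMod c)ˣ →* Module.End L V)
    (hdia : ∀ (g : SL(2, ℤ)) (hg : (M : ℤ) ∣ g 1 0) (d : (ZMod c)ˣ),
      (d : ZMod c) = ((g 0 0 : ℤ) : ZMod c) → ∀ v, μ (dia d v) = Dop hc g hg (μ v))
    (v : ↥(pivInv hcQc dia)) :
    resK (Gam1_mono (M := M') (M' := M) hMM hcQc) (mu1 hMM hcQc μ dia v)
      = pvIdx hMM hcQc • μ (v : V) := by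
  rw [mu1_apply, corLin_apply]
  have hgM : ∀ g ∈ Gam1 M' cQ, (M : ℤ) ∣ (g : SL(2, ℤ)) 1 0 := fun g hg =>
    (Int.natCast_dvd_natCast.mpr hM'M).trans hg.1
  refine resK_corAlong (Gam1_mono (M := M') (M' := M) hMM hcQc)
    (Gamma_le_Gam1 (N := M) (dvd_refl M) hc) ?_ _ ?_
  · intro g hg h hh
    have := gam0_conj_mem hc (dvd_inv10 (hgM g hg)) hh
    rwa [inv_inv] at this
  · intro g hg h hh
    have hginv : g⁻¹ ∈ Gam1 M' cQ := Subgroup.inv_mem _ hg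
    have h1 := Dop_mu_of_inv hc hcQc μ dia hdia g⁻¹ (hgM _ hginv) hginv.2.2 v.2
    have h2 : Dop hc g⁻¹ (hgM _ hginv) (μ (v : V)) (Additive.ofMul h)
        = μ (v : V) (Additive.ofMul h) := by rw [h1]
    rw [Dop_inv_apply_apply hc g _ _ h hh] at h2
    exact h2

theorem mu1_inj [NeZero M] (hMM : M' ∣ M) (hM'M : M ∣ M') (hc : c ∣ M) (hcQc : cQ ∣ c)
    (μ : V →ₗ[L] (Additive (Gam1 M c) →+ L)) (hμ : Function.Injective μ)
    (dia : (ZMod c)ˣ →* Module.End L V)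
    (hdia : ∀ (g : SL(2, ℤ)) (hg : (M : ℤ) ∣ g 1 0) (d : (ZMod c)ˣ),
      (d : ZMod c) = ((g 0 0 : ℤ) : ZMod c) → ∀ v, μ (dia d v) = Dop hc g hg (μ v)) :
    Function.Injective (mu1 hMM hcQc μ dia) := by
  rw [← LinearMap.ker_eq_bot, LinearMap.ker_eq_bot']
  intro v hv
  have h1 := resK_mu1 hMM hM'M hc hcQc μ dia hdia v
  rw [hv] at h1
  have h2 : resK (Gam1_mono (M := M') (M' := M) hMM hcQc)
      (0 : Additive (Gam1 M' cQ) →+ L) = 0 := AddMonoidHom.zero_comp _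
  rw [h2] at h1
  have h3 : μ (v : V) = 0 := by
    have h4 : (pvIdx hMM hcQc : L) • μ (v : V) = 0 := by
      rw [Nat.cast_smul_eq_nsmul]
      exact h1.symm
    rcases smul_eq_zero.mp h4 with h5 | h5
    · exact absurd (Nat.cast_eq_zero.mp h5) (pvIdx_ne_zero hMM hc hcQc)
    · exact h5
  apply Subtype.ext
  apply hμ
  rw [h3]
  exact (map_zero μ).symm

theorem mu1_par [NeZero M] (hMM : M' ∣ M) (hM'M : M ∣ M') (hc : c ∣ M) (hcQc : cQ ∣ c)
    (μ : V →ₗ[L] (Additive (Gam1 M c) →+ L))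
    (hμpar : ∀ v, IsParabolicHom (Gam1 M c) (μ v))
    (dia : (ZMod c)ˣ →* Module.End L V)
    (hdia : ∀ (g : SL(2, ℤ)) (hg : (M : ℤ) ∣ g 1 0) (d : (ZMod c)ˣ),
      (d : ZMod c) = ((g 0 0 : ℤ) : ZMod c) → ∀ v, μ (dia d v) = Dop hc g hg (μ v))
    (v : ↥(pivInv hcQc dia)) :
    IsParabolicHom (Gam1 M' cQ) (mu1 hMM hcQc μ dia v) := by
  refine isPar_of_resK (Gam1_mono (M := M') (M' := M) hMM hcQc)
    (Gamma_le_Gam1 (N := M) (dvd_refl M) hc) (fun n a hn ha => ?_) ?_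
  · rw [nsmul_eq_mul] at ha
    rcases mul_eq_zero.mp ha with h' | h'
    · exact absurd (Nat.cast_eq_zero.mp h') hn
    · exact h'
  rw [resK_mu1 hMM hM'M hc hcQc μ dia hdia v]
  exact isPar_smul _ (hμpar _)

/-- `μ₁` intertwines the Hecke operators. -/
theorem mu1_TV [NeZero M] (hMM : M' ∣ M) (hM'M : M ∣ M') (hc : c ∣ M) (hcQ' : cQ ∣ M')
    (hcQc : cQ ∣ c)
    (μ : V →ₗ[L] (Additive (Gam1 M c) →+ L)) (dia : (ZMod c)ˣ →* Module.End L V)
    (hdia : ∀ (g : SL(2, ℤ)) (hg : (M : ℤ) ∣ g 1 0) (d : (ZMod c)ˣ),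
      (d : ZMod c) = ((g 0 0 : ℤ) : ZMod c) → ∀ v, μ (dia d v) = Dop hc g hg (μ v))
    (T : Module.End L V) (hT : ∀ d, Commute T (dia d))
    {ℓ : ℕ} (hℓ : ℓ.Prime) (hℓM : ¬ ℓ ∣ M) (hℓM' : ¬ ℓ ∣ M')
    (hTμ : ∀ v, μ (T v) = TD M c hc hℓ hℓM (μ v))
    (v : ↥(pivInv hcQc dia)) :
    mu1 hMM hcQc μ dia (T.restrict (fun _ hv => pivInv_of_comm hcQc dia T hT hv) v)
      = TD M' cQ hcQ' hℓ hℓM' (mu1 hMM hcQc μ dia v) := by
  apply resK_inj (Gam1_mono (M := M') (M' := M) hMM hcQc)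
    (Gamma_le_Gam1 (N := M) (dvd_refl M) hc)
  have e1 := resK_TD (L := L) hcQ' hc hMM hcQc hℓ hℓM' hℓM (mu1 hMM hcQc μ dia v)
  rw [e1, resK_mu1 hMM hM'M hc hcQc μ dia hdia, resK_mu1 hMM hM'M hc hcQc μ dia hdia,
    map_nsmul, LinearMap.coe_restrict_apply, hTμ]

/-- `μ₁` intertwines the diamond operators. -/
theorem mu1_dia1 [NeZero M] [NeZero c] (hMM : M' ∣ M) (hM'M : M ∣ M') (hc : c ∣ M)
    (hcQ' : cQ ∣ M') (hcQc : cQ ∣ c)
    (μ : V →ₗ[L] (Additive (Gam1 M c) →+ L)) (dia : (ZMod c)ˣ →* Module.End L V)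
    (hdia : ∀ (g : SL(2, ℤ)) (hg : (M : ℤ) ∣ g 1 0) (d : (ZMod c)ˣ),
      (d : ZMod c) = ((g 0 0 : ℤ) : ZMod c) → ∀ v, μ (dia d v) = Dop hc g hg (μ v))
    (g : SL(2, ℤ)) (hg' : (M' : ℤ) ∣ g 1 0) (d₁ : (ZMod cQ)ˣ)
    (hd : (d₁ : ZMod cQ) = ((g 0 0 : ℤ) : ZMod cQ)) (v : ↥(pivInv hcQc dia)) :
    mu1 hMM hcQc μ dia (dia1 hcQc dia d₁ v) = Dop hcQ' g hg' (mu1 hMM hcQc μ dia v) := by
  have hg : (M : ℤ) ∣ g 1 0 := (Int.natCast_dvd_natCast.mpr hM'M).trans hg'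
  have hgc : ((c : ℕ) : ℤ) ∣ g 1 0 := (Int.natCast_dvd_natCast.mpr hc).trans hg
  have hu : IsUnit (((g 0 0 : ℤ) : ZMod c)) := IsUnit.of_mul_eq_one _ (entry_mul_eq_one hgc)
  have h2 : ZMod.unitsMap hcQc hu.unit = d₁ := by
    apply Units.ext
    rw [ZMod.unitsMap_def, Units.coe_map, IsUnit.unit_spec, MonoidHom.coe_coe, map_intCast, hd]
  apply resK_inj (Gam1_mono (M := M') (M' := M) hMM hcQc)
    (Gamma_le_Gam1 (N := M) (dvd_refl M) hc)
  rw [resK_Dop hcQ' hc (Gam1_mono (M := M') (M' := M) hMM hcQc) g hg' hg,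
    resK_mu1 hMM hM'M hc hcQc μ dia hdia, resK_mu1 hMM hM'M hc hcQc μ dia hdia, map_nsmul,
    ← h2, dia1_unitsMap, coe_diaR, hdia g hg hu.unit rfl]

end Cor

end Fermat.Agent.L.Pivot.Geom.H4
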