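import Fermat.Agent.L.Pivot.Geom.H4_EigPart
import Fermat.Agent.NEB.EIG.H39_EigA3

/-!
# PIVOT / PV-GEOM, leaf P-EIGPART (helper4), part 3: the `ℤ`-level statement on `A = J_H[p^∞]`

Setting of `NEB.EIG.H39.stmt_EIG_A` for the list `qsP ++ qsQ` (pivot primes, Taylor–Wiles primes),
`c = cP cQ`, `N' = N c²`, and ANY ring homomorphism `eta : 𝕋(N') → End_ℤ A` with
`eta (T_ℓ) = TA ℓ * diaA ⟨ℓ⟩ ^ j`; `rest : 𝕋(N') → 𝕋(N'')`, `N'' = N cP cQ²`, with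
`rest (T_ℓ) = T_ℓ` (`= H4.restPV`).

`stmt_EigPart` : `rest t = 0 → eta t * e = 0` for every endomorphism `e` of `A` with values in the
invariants of the pivot diamonds (`diaA d * e = e` for `d ≡ 1 mod cQ`), e.g. `e = ∑_{d ≡ 1 (cQ)} ⟨d⟩`
(the norm of `Δ_Σ`).  So the kernel of `rest` kills the RANGE of the norm of the pivot diamonds.

(For the invariants themselves the statement is not formal: an invariant element of `A` need not
lift to an invariant element of the Tate module.)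

Proof: `T_p A ↪ V = Vsp` (`gen`), `eigPart_V` on `V`, `End A ↪ End (T_p A)`.
Complete proofs, standard axioms only.
-/

set_option autoImplicit false

namespace Fermat.Agent.L.Pivot.Geom.H4

open CongruenceSubgroup Matrix.SpecialLinearGroup ModularForm Finset
open scoped MatrixGroups
open Fermat.Agent.NEB.EIG.H39 Fermat.Agent.Betti ModularCurve.Period
open Fermat.Agent.S59.Lim

section Aux

/-- Two actions of the Hecke algebra which correspond on the generators `T_ℓ` under an additive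
map `g` correspond everywhere. -/
theorem hecke_corr_h4 {N : ℕ} [NeZero N] {S : Set ℕ} (hS : ∀ q : ℕ, q.Prime → q ∣ N → q ∈ S)
    {L : Type*} [Field L] {V : Type*} [AddCommGroup V] [Module L V]
    {W : Type*} [AddCommGroup W]
    (etaV : CuspForm.heckeAlgebra N 2 S →+* Module.End L V)
    (etaW : CuspForm.heckeAlgebra N 2 S →+* Module.End ℤ W) (g : W →+ V)
    (h : ∀ (ℓ : ℕ) (hℓ : ℓ.Prime) (hℓN : ¬ ℓ ∣ N) (hℓS : ℓ ∉ S) (ξ : W),
      etaV (CuspForm.heckeAlgebra.T hℓ hℓN hℓS) (g ξ)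
        = g (etaW (CuspForm.heckeAlgebra.T hℓ hℓN hℓS) ξ)) :
    ∀ (x : CuspForm.heckeAlgebra N 2 S) (ξ : W), etaV x (g ξ) = g (etaW x ξ) := by
  refine hecke_induction hS (fun ℓ hℓ hℓN hℓS ξ => h ℓ hℓ hℓN hℓS ξ) (fun n ξ => ?_)
    (fun x y hx hy ξ => ?_) (fun x y hx hy ξ => ?_)
  · rw [map_intCast, map_intCast, Module.End.intCast_apply, Module.End.intCast_apply, map_zsmul]
  · rw [map_add, map_add, LinearMap.add_apply, LinearMap.add_apply, hx ξ, hy ξ, map_add]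
  · rw [map_mul, map_mul, Module.End.mul_apply, Module.End.mul_apply, hy ξ, hx]

end Aux

/-- **P-EIGPART** (`ℤ`-level).  The kernel of `rest : 𝕋(N c²) → 𝕋(N cP cQ²)` kills the range of
every endomorphism of `A` with values in the invariants of the diamond operators at the pivot
primes. -/
theorem stmt_EigPart (p : ℕ) [Fact p.Prime] (N : ℕ) (hN : N ≠ 0) (qsP qsQ : List ℕ)
    (hnd : (qsP ++ qsQ).Nodup)
    (hpr : ∀ q ∈ qsP ++ qsQ, q.Prime) (hqN : ∀ q ∈ qsP ++ qsQ, ¬ q ∣ N)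
    (c cP cQ N' N'' : ℕ) (hcP : cP = qsP.prod) (hcQ : cQ = qsQ.prod) (hc : c = cP * cQ)
    (hN' : N' = N * c * c) (hN'' : N'' = N * cP * cQ * cQ) [NeZero N'] [NeZero N'']
    (S : Set ℕ) (hS : ∀ q : ℕ, q.Prime → q ∣ N' → q ∈ S)
    (A : Type) [AddCommGroup A] (hdiv : ∀ x : A, ∃ y : A, p • y = x)
    (htors : ∀ x : A, ∃ k : ℕ, p ^ k • x = 0)
    (ms : MonoSys p (N * c) c A)
    (TA : ℕ → Module.End ℤ A)
    (hTA : ∀ (ℓ : ℕ) (hℓ : ℓ.Prime) (hℓM : ¬ ℓ ∣ N * c) (k : ℕ) (x : A), p ^ k • x = 0 →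
      ms.m k (TA ℓ x) = TDg (N * c) c (dvd_mul_left _ _) hℓ hℓM (ms.m k x))
    (diaA : (ZMod c)ˣ →* Module.End ℤ A)
    (hdiaA : ∀ (g : SL(2, ℤ)) (hg : ((N * c : ℕ) : ℤ) ∣ g 1 0) (d : (ZMod c)ˣ),
      (d : ZMod c) = ((g 0 0 : ℤ) : ZMod c) → ∀ (k : ℕ) (x : A), p ^ k • x = 0 →
      ms.m k (diaA d x) = Dg (dvd_mul_left _ _) g hg (ms.m k x))
    (hcomm : ∀ (ℓ : ℕ), ℓ.Prime → ¬ ℓ ∣ N * c → ∀ d, Commute (TA ℓ) (diaA d))
    (j : ℕ) (hdn : ∀ d, diaA d ^ (2 * j + 1) = 1)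
    (eta : CuspForm.heckeAlgebra N' 2 S →+* Module.End ℤ A)
    (heta : ∀ (ℓ : ℕ) (hℓ : ℓ.Prime) (hℓN : ¬ ℓ ∣ N') (hℓS : ℓ ∉ S),
        eta (CuspForm.heckeAlgebra.T hℓ hℓN hℓS) = TA ℓ * diaA (unitOf c ℓ) ^ j)
    (rest : CuspForm.heckeAlgebra N' 2 S →+* CuspForm.heckeAlgebra N'' 2 S)
    (hrest : ∀ (ℓ : ℕ) (hℓ : ℓ.Prime) (hℓN' : ¬ ℓ ∣ N') (hℓS : ℓ ∉ S) (hℓN'' : ¬ ℓ ∣ N''),
      rest (CuspForm.heckeAlgebra.T hℓ hℓN' hℓS) = CuspForm.heckeAlgebra.T hℓ hℓN'' hℓS)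
    (hcQc : cQ ∣ c) (t : CuspForm.heckeAlgebra N' 2 S) (ht : rest t = 0)
    (e : Module.End ℤ A)
    (he : ∀ d : (ZMod c)ˣ, ZMod.unitsMap hcQc d = 1 → diaA d * e = e) :
    eta t * e = 0 := by
  classical
  have hprQ : ∀ q ∈ qsQ, q.Prime := fun q hq => hpr q (List.mem_append_right _ hq)
  have hprP : ∀ q ∈ qsP, q.Prime := fun q hq => hpr q (List.mem_append_left _ hq)
  have hcQ0 : cQ ≠ 0 := by
    rw [hcQ]
    exact prod_primes_ne_zero hprQ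
  have hcP0 : cP ≠ 0 := by
    rw [hcP]
    exact prod_primes_ne_zero hprP
  have hc0 : c ≠ 0 := by
    rw [hc]
    exact Nat.mul_ne_zero hcP0 hcQ0
  have hcqs : c = (qsP ++ qsQ).prod := by
    rw [List.prod_append, ← hcP, ← hcQ, hc]
  have hM : N * c ≠ 0 := mul_ne_zero hN hc0
  have : NeZero c := ⟨hc0⟩
  have hcM : c ∣ N * c := dvd_mul_left _ _
  have hdiv' : ∀ w : A, ∃ v : A, (p : ℤ) • v = w := fun w => by
    obtain ⟨v, hv⟩ := hdiv w
    exact ⟨v, by rw [natCast_zsmul, hv]⟩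
  have htors' : ∀ w : A, ∃ k : ℕ, (p : ℤ) ^ k • w = 0 := fun w => by
    obtain ⟨k, hk⟩ := htors w
    exact ⟨k, by rw [← Nat.cast_pow, natCast_zsmul, hk]⟩
  -- the field
  let ι : ℤ_[p] →+* AlgebraicClosure ℚ_[p] :=
    (algebraMap ℚ_[p] (AlgebraicClosure ℚ_[p])).comp PadicInt.Coe.ringHom
  have hι : Function.Injective ι :=
    (algebraMap ℚ_[p] (AlgebraicClosure ℚ_[p])).injective.comp Subtype.coe_injective
  have := hasEnough_of_algClosed (AlgebraicClosure ℚ_[p]) c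
  have : NeZero cQ := ⟨hcQ0⟩
  have := hasEnough_of_algClosed (AlgebraicClosure ℚ_[p]) cQ
  have hcommV : ∀ ℓ d, Commute (TVop ι ms hcM TA hTA ℓ) (diaV ι ms hcM hM diaA hdiaA d) := by
    intro ℓ d
    by_cases h : ℓ.Prime ∧ ¬ ℓ ∣ N * c
    · show TVop ι ms hcM TA hTA ℓ * diaV ι ms hcM hM diaA hdiaA d
        = diaV ι ms hcM hM diaA hdiaA d * TVop ι ms hcM TA hTA ℓ
      apply Vsp_ext ι ms
      intro ξ
      rw [Module.End.mul_apply, Module.End.mul_apply, diaV_gen,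
        TVop_gen ι ms hcM TA hTA h.1 h.2, TVop_gen ι ms hcM TA hTA h.1 h.2, diaV_gen,
        ← Module.End.mul_apply, ← Module.End.mul_apply, ← map_mul, ← map_mul,
        (hcomm ℓ h.1 h.2 d).eq]
    · rw [TVop, dif_neg h]
      exact Commute.zero_left _
  have hdnV : ∀ d, diaV ι ms hcM hM diaA hdiaA d ^ (2 * j + 1) = 1 := by
    intro d
    apply Vsp_ext ι ms
    intro ξ
    rw [diaV_pow_gen, hdn d, map_one, Module.End.one_apply, Module.End.one_apply]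
  -- EIG-OP on the span
  obtain ⟨etaV, hetaV⟩ := stmt_OP (L := AlgebraicClosure ℚ_[p]) (V := ↥(Vsp ι ms))
    N hN (qsP ++ qsQ) hnd hpr hqN c N' hcqs hN' S hS
    (Vsp ι ms).subtype (Submodule.injective_subtype _) (Vsp_par ι ms)
    (TVop ι ms hcM TA hTA) (fun ℓ hℓ hℓM v => coe_TVop ι ms hcM TA hTA hℓ hℓM v)
    (diaV ι ms hcM hM diaA hdiaA)
    (fun g hg d hd v => coe_diaV ι ms hcM hM diaA hdiaA g hg d hd v)
    hcommV j hdnV
  -- `etaV` and `eta` correspond under `gen`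
  have hcorr : ∀ (x : CuspForm.heckeAlgebra N' 2 S) (ξ : Ta p A),
      etaV x (gen ι ms ξ) = gen ι ms (H2.mapEnd (p : ℤ) A (eta x) ξ) := by
    refine hecke_corr_h4 (L := AlgebraicClosure ℚ_[p]) (V := ↥(Vsp ι ms)) (W := Ta p A) hS etaV
      ((H2.mapEnd (p : ℤ) A).toRingHom.comp eta)
      (gen ι ms).toAddMonoidHom (fun ℓ hℓ hℓN hℓS ξ => ?_)
    show etaV (CuspForm.heckeAlgebra.T hℓ hℓN hℓS) (gen ι ms ξ)
      = gen ι ms (H2.mapEnd (p : ℤ) A (eta (CuspForm.heckeAlgebra.T hℓ hℓN hℓS)) ξ)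
    have hℓM : ¬ ℓ ∣ N * c := fun h => hℓN (by rw [hN']; exact Dvd.dvd.mul_right h c)
    rw [hetaV ℓ hℓ hℓN hℓS, heta ℓ hℓ hℓN hℓS, Module.End.mul_apply,
      diaV_pow_gen, TVop_gen ι ms hcM TA hTA hℓ hℓM, map_mul, Module.End.mul_apply]
  -- the values of `e` are invariant
  have hinv : ∀ ξ : Ta p A, ∀ d : (ZMod c)ˣ, ZMod.unitsMap hcQc d = 1 →
      diaV ι ms hcM hM diaA hdiaA d (gen ι ms (H2.mapEnd (p : ℤ) A e ξ))
        = gen ι ms (H2.mapEnd (p : ℤ) A e ξ) := by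
    intro ξ d hd
    rw [diaV_gen, ← Module.End.mul_apply, ← map_mul, he d hd]
  have hkill : ∀ ξ : Ta p A, etaV t (gen ι ms (H2.mapEnd (p : ℤ) A e ξ)) = 0 := fun ξ =>
    eigPart_V (L := AlgebraicClosure ℚ_[p]) (V := ↥(Vsp ι ms)) N hN qsP qsQ hnd hpr hqN
      c cP cQ N' N'' hcP hcQ hc hN' hN'' S hS
      (Vsp ι ms).subtype (Submodule.injective_subtype _) (Vsp_par ι ms)
      (TVop ι ms hcM TA hTA) (fun ℓ hℓ hℓM v => coe_TVop ι ms hcM TA hTA hℓ hℓM v)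
      (diaV ι ms hcM hM diaA hdiaA)
      (fun g hg d hd v => coe_diaV ι ms hcM hM diaA hdiaA g hg d hd v)
      hcommV j hdnV etaV hetaV rest hrest hcQc t ht _ (hinv ξ)
  apply H2.mapEnd_injective hdiv' htors'
  rw [map_zero]
  apply LinearMap.ext
  intro ξ
  rw [map_mul, Module.End.mul_apply, LinearMap.zero_apply]
  apply gen_injective ι ms hι
  rw [← hcorr, hkill ξ, map_zero]

end Fermat.Agent.L.Pivot.Geom.H4
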