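import Fermat.Agent.L.Pivot.Geom.H4_B1
import Fermat.Agent.NEB.EIG.H39_OP

/-!
# PIVOT / PV-GEOM, leaf PVG-NEWOP (helper4): the `q`-new intertwiner on an eigenspace

`exists_Theta_new` : the variant of `NEB.EIG.H39.exists_Theta` (same input: `μ`, `TV`, `dia`, `j`,
`ψ`) built with the `q`-new twisting map `H4.stmt_TWnew` instead of `H39.stmt_TW`.  For a pivot
prime `q ∈ qs` at which `ψ` is non-trivial (there is `a ≡ 1` modulo the other primes of `qs` with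
`ψ a ≠ 1`) and `N₁` with `N₁ q = N c²`, the intertwiner
`Θ : V → Hom(Γ₀(N₁ q), L)` has the three properties of `exists_Theta` on the `ψ`-eigenspace of the
diamond operators and in addition its values there are **`q`-new**: they are killed by the two
transfers `S41.cor1`, `S41.cor2 : Hom(Γ₀(N₁ q), L) → Hom(Γ₀(N₁), L)`.

Complete proofs, standard axioms only.
-/

set_option autoImplicit false

namespace Fermat.Agent.L.Pivot.Geom.H4

open CongruenceSubgroup Matrix.SpecialLinearGroup ModularForm Finset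
open scoped MatrixGroups
open Fermat.Agent.NEB.EIG.H39 Fermat.Agent.S41 Fermat.Agent.Betti ModularCurve.Period

section NewOp

variable {L : Type} [Field L] [CharZero L] {V : Type*} [AddCommGroup V] [Module L V]

omit [CharZero L] in
/-- The component at `q` of a character which is non-trivial at `q` is non-trivial. -/
theorem chi_ne_one_of_psi (qs : List ℕ) (ψ : MulChar (ZMod qs.prod) L)
    (χ : (q : ℕ) → MulChar (ZMod q) L)
    (hχ1 : ∀ a : ℤ, IsUnit ((a : ℤ) : ZMod qs.prod) →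
      ψ ((a : ℤ) : ZMod qs.prod) = (qs.map fun q => χ q ((a : ℤ) : ZMod q)).prod)
    (q : ℕ) (hq : q ∈ qs)
    (hψq : ∃ a : ℤ, IsUnit ((a : ℤ) : ZMod qs.prod) ∧
      (∀ q' ∈ qs, q' ≠ q → ((a : ℤ) : ZMod q') = 1) ∧ ψ ((a : ℤ) : ZMod qs.prod) ≠ 1) :
    χ q ≠ 1 := by
  obtain ⟨a, hu, ha1, hψa⟩ := hψq
  intro h
  apply hψa
  rw [hχ1 a hu]
  apply List.prod_eq_one
  intro x hx
  obtain ⟨q', hq', rfl⟩ := List.mem_map.mp hx
  by_cases hqq : q' = q
  · subst hqq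
    rw [h]
    have huq : IsUnit (((a : ℤ) : ZMod q')) := by
      have hdvd : q' ∣ qs.prod := List.dvd_prod hq
      have := hu.map (ZMod.castHom hdvd (ZMod q'))
      simpa using this
    exact MulChar.one_apply huq
  · rw [ha1 q' hq' hqq, map_one]

omit [CharZero L] in
/-- If `χ ^ (2 j + 1)` is trivial on units and `χ ≠ 1` then `χ ^ (j + 1) ≠ 1`. -/
theorem chi_pow_ne_one {q : ℕ} (χ : MulChar (ZMod q) L) (j : ℕ)
    (hχn : ∀ x : (ZMod q)ˣ, χ (x : ZMod q) ^ (2 * j + 1) = 1) (hχ : χ ≠ 1) :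
    χ ^ (j + 1) ≠ 1 := by
  intro h
  apply hχ
  rw [MulChar.eq_one_iff]
  intro x
  have h1 : (χ ^ (j + 1)) (x : ZMod q) = 1 := by
    rw [h]
    exact MulChar.one_apply x.isUnit
  rw [MulChar.pow_apply' _ (Nat.succ_ne_zero j)] at h1
  have h2 : χ (x : ZMod q) ^ ((j + 1) * 2) = 1 := by rw [pow_mul, h1, one_pow]
  have e : (j + 1) * 2 = (2 * j + 1) + 1 := by ring
  rw [e, pow_succ, hχn x, one_mul] at h2
  exact h2

omit [CharZero L] in
theorem cor1_zero_h4 (N q : ℕ) : cor1 N q L (0 : Additive (Gamma0 (N * q)) →+ L) = 0 := by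
  have h := H19.corAlong_sub (A := L) (inclG N q) 0 0
  rw [sub_zero, sub_self] at h
  exact h

omit [CharZero L] in
theorem cor2_zero_h4 (N q : ℕ) : cor2 N q L (0 : Additive (Gamma0 (N * q)) →+ L) = 0 := by
  have h := H19.corAlong_sub (A := L) (conjG N q) 0 0
  rw [sub_zero, sub_self] at h
  exact h

/-- **PVG-NEWOP.**  The `q`-new intertwiner on the `ψ`-eigenspace: the statement of
`NEB.EIG.H39.exists_Theta` at the level `N₁ q = N c²`, for a prime `q ∈ qs` at which `ψ` is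
non-trivial, with the additional conclusion that the values of `Θ` on the `ψ`-eigenspace are killed
by the transfers `S41.cor1`, `S41.cor2` to level `N₁`. -/
theorem exists_Theta_new (N : ℕ) (hN : N ≠ 0) (qs : List ℕ) (hnd : qs.Nodup)
    (hpr : ∀ q ∈ qs, q.Prime) (hqN : ∀ q ∈ qs, ¬ q ∣ N)
    (μ : V →ₗ[L] (Additive (Gam1 (N * qs.prod) qs.prod) →+ L)) (hμ : Function.Injective μ)
    (hμpar : ∀ v, IsParabolicHom (Gam1 (N * qs.prod) qs.prod) (μ v))
    (TV : ℕ → Module.End L V)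
    (hTV : ∀ (ℓ : ℕ) (hℓ : ℓ.Prime) (hℓM : ¬ ℓ ∣ N * qs.prod) (v : V),
      μ (TV ℓ v) = TD (N * qs.prod) qs.prod (dvd_mul_left _ _) hℓ hℓM (μ v))
    (dia : (ZMod qs.prod)ˣ →* Module.End L V)
    (hdia : ∀ (g : SL(2, ℤ)) (hg : ((N * qs.prod : ℕ) : ℤ) ∣ g 1 0) (d : (ZMod qs.prod)ˣ),
      (d : ZMod qs.prod) = ((g 0 0 : ℤ) : ZMod qs.prod) →
      ∀ v, μ (dia d v) = Dop (dvd_mul_left _ _) g hg (μ v))
    (j : ℕ) (hdn : ∀ d, dia d ^ (2 * j + 1) = 1) (ψ : MulChar (ZMod qs.prod) L)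
    (q : ℕ) (hq : q ∈ qs)
    (hψq : ∃ a : ℤ, IsUnit ((a : ℤ) : ZMod qs.prod) ∧
      (∀ q' ∈ qs, q' ≠ q → ((a : ℤ) : ZMod q') = 1) ∧ ψ ((a : ℤ) : ZMod qs.prod) ≠ 1)
    (N₁ : ℕ) (hN₁ : N₁ * q = N * qs.prod * qs.prod) :
    ∃ Θ : V →ₗ[L] (Additive (Gamma0 (N₁ * q)) →+ L),
      (∀ v ∈ eigSp dia ψ, IsParabolicHom (Gamma0 (N₁ * q)) (Θ v)) ∧
      (∀ v ∈ eigSp dia ψ, Θ v = 0 → v = 0) ∧
      (∀ (ℓ : ℕ) (hℓ : ℓ.Prime) (hℓN : ¬ ℓ ∣ N₁ * q), ∀ v ∈ eigSp dia ψ,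
        Θ (tOp TV dia j ℓ v) = TB (N₁ * q) L hℓ hℓN (Θ v)) ∧
      (∀ v ∈ eigSp dia ψ, cor1 N₁ q L (Θ v) = 0 ∧ cor2 N₁ q L (Θ v) = 0) := by
  by_cases hbot : eigSp dia ψ = ⊥
  · refine ⟨0, fun v _ => ?_, fun v hv _ => ?_, fun ℓ hℓ hℓN v _ => ?_, fun v _ => ?_⟩
    · intro γ _
      rfl
    · rw [hbot] at hv
      exact (Submodule.mem_bot L).mp hv
    · rw [LinearMap.zero_apply, LinearMap.zero_apply, map_zero]
    · rw [LinearMap.zero_apply]
      exact ⟨cor1_zero_h4 N₁ q, cor2_zero_h4 N₁ q⟩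
  · obtain ⟨v₀, hv₀, hv0⟩ := Submodule.exists_mem_ne_zero_of_ne_bot hbot
    have hψn : ∀ d : (ZMod qs.prod)ˣ, ψ (d : ZMod qs.prod) ^ (2 * j + 1) = 1 :=
      psi_pow_eq_one hv₀ hv0 hdn
    obtain ⟨χ, hχ1, hχ2⟩ := char_dec qs hnd hpr qs.prod rfl ψ
    have hχn : ∀ q ∈ qs, ∀ x : (ZMod q)ˣ, χ q (x : ZMod q) ^ (2 * j + 1) = 1 := by
      intro q hq x
      obtain ⟨y, hy⟩ := hχ2 q hq x
      rw [hy]
      exact hψn y
    have hχ'' : ∀ q ∈ qs, (χ q ^ (j + 1) = 1) ∨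
        ∃ T : ℤ, ¬ (q : ℤ) ∣ T ∧ (χ q ^ (j + 1)) ((T : ℤ) : ZMod q) ^ 2 ≠ 1 := by
      intro q hq
      by_cases h : χ q = 1
      · left
        rw [h, one_pow]
      · right
        obtain ⟨x, hx⟩ := MulChar.ne_one_iff.mp h
        have hqp := hpr q hq
        haveI : Fact q.Prime := ⟨hqp⟩
        refine ⟨(((x : ZMod q).val : ℕ) : ℤ), ?_, ?_⟩
        · intro hdvd
          have h0 : (((((x : ZMod q).val : ℕ) : ℤ) : ℤ) : ZMod q) = 0 :=
            (ZMod.intCast_zmod_eq_zero_iff_dvd _ _).mpr hdvd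
          rw [Int.cast_natCast, ZMod.natCast_zmod_val] at h0
          exact x.ne_zero h0
        · rw [Int.cast_natCast, ZMod.natCast_zmod_val,
            MulChar.pow_apply' _ (Nat.succ_ne_zero j), ← pow_mul]
          have e : (j + 1) * 2 = (2 * j + 1) + 1 := by ring
          rw [e, pow_succ, hχn q hq x, one_mul]
          exact hx
    have hχq : χ q ^ (j + 1) ≠ 1 :=
      chi_pow_ne_one (χ q) j (hχn q hq) (chi_ne_one_of_psi qs ψ χ hχ1 q hq hψq)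
    obtain ⟨Tw, hTw⟩ := stmt_TWnew N hN qs hnd hpr hqN (fun q => χ q ^ (j + 1)) hχ'' q hq hχq
      N₁ hN₁
    have hEig : ∀ v ∈ eigSp dia ψ, IsEig (N * qs.prod) qs.prod (dvd_mul_left _ _)
        (Om (fun q => χ q ^ (j + 1)) qs) (μ v) := by
      intro v hv g hg
      have hgc : ((qs.prod : ℕ) : ℤ) ∣ g 1 0 :=
        (Int.natCast_dvd_natCast.mpr (dvd_mul_left qs.prod N)).trans hg
      have hu : IsUnit (((g 0 0 : ℤ) : ZMod qs.prod)) :=
        IsUnit.of_mul_eq_one _ (entry_mul_eq_one hgc)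
      have h1 := hdia g hg hu.unit rfl v
      rw [hv hu.unit, map_smul] at h1
      rw [← h1, Om_pow_eq qs ψ χ hχ1 j hχn g hgc]
      rfl
    refine ⟨Tw.comp μ, fun v hv => ?_, fun v hv h0 => ?_, fun ℓ hℓ hℓN v hv => ?_,
      fun v hv => ?_⟩
    · exact (hTw (μ v) (hEig v hv)).2.2.1 (hμpar v)
    · have := (hTw (μ v) (hEig v hv)).1 h0
      exact hμ (by rw [this, map_zero])
    · have hℓM : ¬ ℓ ∣ N * qs.prod := fun h =>
        hℓN (hN₁ ▸ h.trans (dvd_mul_right _ _))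
      have hℓc : ¬ ℓ ∣ qs.prod := fun h => hℓM (h.trans (dvd_mul_left _ _))
      have hcop : Nat.Coprime ℓ qs.prod := (Nat.Prime.coprime_iff_not_dvd hℓ).mpr hℓc
      have hunit : IsUnit ((ℓ : ℕ) : ZMod qs.prod) := by
        rw [← unitOf_coe hcop]
        exact Units.isUnit _
      rw [tOp_apply_of_mem TV dia j ℓ hv, LinearMap.comp_apply, LinearMap.comp_apply, map_smul,
        map_smul, hTV ℓ hℓ hℓM v, (hTw (μ v) (hEig v hv)).2.1 ℓ hℓ hℓM hℓN,
        chiProd_pow_eq qs ψ χ hχ1 j ℓ hunit, unitOf_coe hcop]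
      congr 1
      have h2 := hψn (unitOf qs.prod ℓ)
      rw [unitOf_coe hcop] at h2
      have e : 2 * j + 1 = j + (j + 1) := by ring
      rw [e, pow_add] at h2
      exact (inv_eq_of_mul_eq_one_left h2).symm
    · exact (hTw (μ v) (hEig v hv)).2.2.2

end NewOp

end Fermat.Agent.L.Pivot.Geom.H4
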