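import Fermat.Agent.GTor.H81_T2b
import Fermat.Agent.S41.H77_CorComp

/-!
# PIVOT, PV-GEOM part II, leaf PVG-N2 (helper50): coordinates of parabolic homomorphisms with
coefficients in a commutative ring

`b` a universal parabolic basis of `Hom_par(Γ₀(N), ℤ)` (`Betti.IsParBasis`), `R` a commutative
ring.

* `coordR b R a` : the homomorphism `γ ↦ ∑ i, a i * b i γ`; for `R = ZMod m` this is
  `GTor.H81.coordFun b m a` (`coordR_zmod`);
* `TB_coordR` : the Betti Hecke operator in coordinates;
* `corAlong_coordR` : a transfer in coordinates (in particular `S41.cor1`, `S41.cor2`);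
* `exists_coordR`, `coordR_eq_zero` : existence and uniqueness of the coordinates over a torsion
  free ring.
-/

set_option autoImplicit false
set_option linter.unusedSectionVars false
set_option linter.style.haveILetI false

noncomputable section

namespace Fermat.Agent.L.Pivot.Geom.H50

open ModularCurve Fermat.Agent.GTor Fermat.Agent.Betti Fermat.Agent.GTor.H81 Fermat.Agent.S41
  Fermat.Agent.S41.H19 Fermat.Agent.S41.H77
open CongruenceSubgroup
open scoped MatrixGroups

section CoordR

variable {N : ℕ} {r : ℕ} (b : Fin r → (Additive (Gamma0 N) →+ ℤ)) (R : Type*) [CommRing R]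

/-- `z ↦ a * z`, `ℤ → R`. -/
def scalHom (a : R) : ℤ →+ R := (AddMonoidHom.mulLeft a).comp (Int.castAddHom R)

@[simp] theorem scalHom_apply (a : R) (z : ℤ) : scalHom R a z = a * (z : R) := rfl

/-- the homomorphism with coordinates `a` in the basis `b`, with coefficients in `R`. -/
def coordR (a : Fin r → R) : Additive (Gamma0 N) →+ R := ∑ j, (scalHom R (a j)).comp (b j)

theorem coordR_apply (a : Fin r → R) (γ : Additive (Gamma0 N)) :
    coordR b R a γ = ∑ i, a i * ((b i γ : ℤ) : R) := by
  unfold coordR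
  rw [AddMonoidHom.finsetSum_apply]
  rfl

theorem coordR_zmod (m : ℕ) (a : Fin r → ZMod m) : coordR b (ZMod m) a = coordFun b m a := by
  refine AddMonoidHom.ext fun γ => ?_
  rw [coordR_apply, coordFun_apply]

theorem coordR_zero : coordR b R (0 : Fin r → R) = 0 := by
  refine AddMonoidHom.ext fun γ => ?_
  rw [coordR_apply]
  simp

theorem coordR_smul (c : R) (a : Fin r → R) : coordR b R (c • a) = c • coordR b R a := by
  refine AddMonoidHom.ext fun γ => ?_
  rw [AddMonoidHom.smul_apply, coordR_apply, coordR_apply, Finset.smul_sum]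
  refine Finset.sum_congr rfl fun i _ => ?_
  rw [Pi.smul_apply, smul_eq_mul, smul_eq_mul, mul_assoc]

theorem coordR_sub (a a' : Fin r → R) :
    coordR b R (a - a') = coordR b R a - coordR b R a' := by
  refine AddMonoidHom.ext fun γ => ?_
  rw [AddMonoidHom.sub_apply, coordR_apply, coordR_apply, coordR_apply,
    ← Finset.sum_sub_distrib]
  refine Finset.sum_congr rfl fun i _ => ?_
  rw [Pi.sub_apply, sub_mul]

/-- the coordinates of an integral combination. -/
theorem scalHom_comp_sum {r' : ℕ} (b' : Fin r' → (Additive (Gamma0 N) →+ ℤ)) (c : R)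
    (z : Fin r' → ℤ) (γ : Additive (Gamma0 N)) :
    (scalHom R c).comp (∑ i, z i • b' i) γ = ∑ i, (c * (z i : R)) * ((b' i γ : ℤ) : R) := by
  rw [AddMonoidHom.comp_apply, AddMonoidHom.finsetSum_apply, scalHom_apply, Int.cast_sum,
    Finset.mul_sum]
  refine Finset.sum_congr rfl fun i _ => ?_
  have e : (z i • b' i) γ = z i * b' i γ := rfl
  rw [e, Int.cast_mul, mul_assoc]

variable {b}

/-- **the Betti Hecke operator in coordinates.** -/
theorem TB_coordR {ℓ : ℕ} (hℓ : ℓ.Prime) (hℓN : ¬ ℓ ∣ N) (Mat : Matrix (Fin r) (Fin r) ℤ)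
    (hMat : ∀ j, TB N ℤ hℓ hℓN (b j) = ∑ i, Mat i j • b i) (a : Fin r → R) :
    TB N R hℓ hℓN (coordR b R a) =
      coordR b R ((Mat.map (Int.cast : ℤ → R)).mulVec a) := by
  unfold coordR
  rw [map_sum]
  refine AddMonoidHom.ext fun γ => ?_
  rw [AddMonoidHom.finsetSum_apply]
  have h2 : ∀ j, TB N R hℓ hℓN ((scalHom R (a j)).comp (b j)) γ =
      ∑ i, (a j * (Mat i j : R)) * ((b i γ : ℤ) : R) := by
    intro j
    have hc : TB N R hℓ hℓN ((scalHom R (a j)).comp (b j)) =
        (scalHom R (a j)).comp (TB N ℤ hℓ hℓN (b j)) := by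
      haveI : Fact ℓ.Prime := ⟨hℓ⟩
      exact (isHeckeFamily_T N hℓN).heckeOp_comp (incl_injective N) (scalHom R (a j)) (b j)
    rw [hc, hMat j]
    exact scalHom_comp_sum R b (a j) (fun i => Mat i j) γ
  simp only [h2]
  rw [Finset.sum_comm, AddMonoidHom.finsetSum_apply]
  refine Finset.sum_congr rfl fun i _ => ?_
  rw [AddMonoidHom.comp_apply, scalHom_apply, Matrix.mulVec, dotProduct, Finset.sum_mul]
  refine Finset.sum_congr rfl fun j _ => ?_
  rw [Matrix.map_apply]
  ring

end CoordR

/-! ## transfers -/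

section Cor

variable {H G : Type*} [Group H] [Group G] {A : Type*} [AddCommGroup A]

theorem corAlong_zero_h50 (ι : H →* G) : corAlong A ι (0 : Additive H →+ A) = 0 := by
  have := corAlong_add (A := A) ι 0 0
  rw [add_zero] at this
  exact left_eq_add.mp this

theorem corAlong_sum_h50 {J : Type*} (ι : H →* G) (s : Finset J) (φ : J → (Additive H →+ A)) :
    corAlong A ι (∑ j ∈ s, φ j) = ∑ j ∈ s, corAlong A ι (φ j) := by
  classical
  induction s using Finset.induction_on with
  | empty => simp [corAlong_zero_h50]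
  | insert j s hj ih =>
    rw [Finset.sum_insert hj, Finset.sum_insert hj, corAlong_add, ih]

end Cor

section CorCoord

variable {N N' : ℕ} {r r' : ℕ} {b : Fin r → (Additive (Gamma0 N') →+ ℤ)}
  {b' : Fin r' → (Additive (Gamma0 N) →+ ℤ)} (R : Type*) [CommRing R]

/-- **a transfer in coordinates.** -/
theorem corAlong_coordR (ι : Gamma0 N' →* Gamma0 N) (Amat : Matrix (Fin r') (Fin r) ℤ)
    (h : ∀ j, corAlong ℤ ι (b j) = ∑ i, Amat i j • b' i) (a : Fin r → R) :
    corAlong R ι (coordR b R a) = coordR b' R ((Amat.map (Int.cast : ℤ → R)).mulVec a) := by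
  unfold coordR
  rw [corAlong_sum_h50]
  refine AddMonoidHom.ext fun γ => ?_
  rw [AddMonoidHom.finsetSum_apply]
  have h2 : ∀ j, corAlong R ι ((scalHom R (a j)).comp (b j)) γ =
      ∑ i, (a j * (Amat i j : R)) * ((b' i γ : ℤ) : R) := by
    intro j
    rw [corAlong_map, h j]
    exact scalHom_comp_sum R b' (a j) (fun i => Amat i j) γ
  simp only [h2]
  rw [Finset.sum_comm, AddMonoidHom.finsetSum_apply]
  refine Finset.sum_congr rfl fun i _ => ?_
  rw [AddMonoidHom.comp_apply, scalHom_apply, Matrix.mulVec, dotProduct, Finset.sum_mul]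
  refine Finset.sum_congr rfl fun j _ => ?_
  rw [Matrix.map_apply]
  ring

end CorCoord

/-! ## existence and uniqueness over a torsion free ring -/

section Unique

variable {N : ℕ} {r : ℕ} {b : Fin r → (Additive (Gamma0 N) →+ ℤ)} {R : Type} [CommRing R]
  [IsAddTorsionFree R]

theorem coordR_apply' (a : Fin r → R) (γ : Additive (Gamma0 N)) :
    coordR b R a γ = ∑ i, b i γ • a i := by
  rw [coordR_apply]
  refine Finset.sum_congr rfl fun i _ => ?_
  rw [zsmul_eq_mul, mul_comm]

theorem exists_coordR (hb : IsParBasis N b) (Φ : Additive (Gamma0 N) →+ R)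
    (hΦ : Period.IsParabolicHom (Gamma0 N) Φ) : ∃ v : Fin r → R, Φ = coordR b R v := by
  obtain ⟨v, hv, -⟩ := hb.2 R Φ hΦ
  exact ⟨v, AddMonoidHom.ext fun γ => by rw [hv γ, coordR_apply']⟩

theorem coordR_isParabolic (hb : IsParBasis N b) (a : Fin r → R) :
    Period.IsParabolicHom (Gamma0 N) (coordR b R a) := by
  intro γ hγ
  rw [coordR_apply]
  refine Finset.sum_eq_zero fun i _ => ?_
  rw [hb.1 i γ hγ, Int.cast_zero, mul_zero]

theorem coordR_eq_zero (hb : IsParBasis N b) {a : Fin r → R} (h : coordR b R a = 0) : a = 0 := by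
  obtain ⟨v, -, huniq⟩ := hb.2 R (0 : Additive (Gamma0 N) →+ R) (fun _ _ => rfl)
  have h1 : a = v := huniq a fun γ => by
    rw [← coordR_apply', h]
  have h2 : (0 : Fin r → R) = v := huniq 0 fun γ => by
    rw [← coordR_apply', coordR_zero]
  rw [h1, ← h2]

theorem coordR_injective (hb : IsParBasis N b) {a a' : Fin r → R}
    (h : coordR b R a = coordR b R a') : a = a' := by
  have h1 : coordR b R (a - a') = 0 := by rw [coordR_sub, h, sub_self]
  exact sub_eq_zero.1 (coordR_eq_zero hb h1)

end Unique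

end Fermat.Agent.L.Pivot.Geom.H50
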