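import Mathlib

/-!
# PIVOT, PV-GEOM part II, leaf PVG-N2 (helper50): descent of a linear system from `L` to `𝒪`

Pure algebra.  `𝒪` a principal ideal domain, `L` a field containing `𝒪`.  A family of linear
equations with coefficients in `𝒪` (row vectors `a ∈ R`) which has only the trivial solution in
`𝒪 ^ r` has only the trivial solution in `L ^ r`.

* `descend_zero` : the statement.
-/

set_option autoImplicit false
set_option linter.style.haveILetI false

namespace Fermat.Agent.L.Pivot.Geom.H50

theorem descend_zero {𝒪 L : Type*} [CommRing 𝒪] [IsDomain 𝒪] [IsPrincipalIdealRing 𝒪]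
    [Field L] [Algebra 𝒪 L] (hinj : Function.Injective (algebraMap 𝒪 L)) {r : ℕ}
    (R : Set (Fin r → 𝒪))
    (h : ∀ u : Fin r → 𝒪, (∀ a ∈ R, ∑ k, a k * u k = 0) → u = 0)
    (v : Fin r → L) (hv : ∀ a ∈ R, ∑ k, algebraMap 𝒪 L (a k) * v k = 0) : v = 0 := by
  classical
  haveI : Module.IsTorsionFree 𝒪 L := by
    haveI : FaithfulSMul 𝒪 L := (faithfulSMul_iff_algebraMap_injective 𝒪 L).2 hinj
    infer_instance
  -- the span of the coordinates
  let N : Submodule 𝒪 L := Submodule.span 𝒪 (Set.range v)
  haveI : Module.Finite 𝒪 N := Module.Finite.span_of_finite 𝒪 (Set.finite_range v)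
  haveI : Module.IsTorsionFree 𝒪 N := inferInstance
  haveI : Module.Free 𝒪 N := Module.free_of_finite_type_torsion_free'
  let b := Module.Free.chooseBasis 𝒪 N
  have hvN : ∀ k, v k ∈ N := fun k => Submodule.subset_span ⟨k, rfl⟩
  let vN : Fin r → N := fun k => ⟨v k, hvN k⟩
  -- every coordinate of every `v k` vanishes
  have hcoord : ∀ j, (fun k => b.coord j (vN k)) = 0 := by
    intro j
    apply h
    intro a ha
    have h1 : ∑ k, a k • vN k = 0 := by
      apply Subtype.ext
      rw [Submodule.coe_sum]
      simp only [Submodule.coe_smul, ZeroMemClass.coe_zero]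
      have := hv a ha
      simpa [Algebra.smul_def] using this
    have h2 := congrArg (b.coord j) h1
    rw [map_sum, map_zero] at h2
    simpa [smul_eq_mul] using h2
  funext k
  have hz : vN k = 0 := by
    apply b.ext_elem
    intro j
    have := congrFun (hcoord j) k
    simpa using this
  exact congrArg Subtype.val hz

end Fermat.Agent.L.Pivot.Geom.H50
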