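import Mathlib

/-!
# PIVOT, PV-GEOM part II, leaf PVG-N2 (helper50): a common fixed vector  (N4)

Pure algebra.  A group `G` acts linearly on a finite dimensional vector space `V`; `W ≠ 0` is a
stable subspace on which every `g ∈ G` satisfies `(g - 1)² = 0`.  Then `W` contains a nonzero
vector fixed by `G` (no tame generator is needed: the `N_g = g - 1` anticommute on `W`, so
`ker N_g ∩ W` is stable).

* `unip_inv_apply`     : `g⁻¹ w = 2 w - g w` on `W`;
* `unip_anticomm`      : `N_g N_h w + N_h N_g w = 0` on `W`;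
* `exists_fixed_of_unip` : the common fixed vector.
-/

set_option autoImplicit false

namespace Fermat.Agent.L.Pivot.Geom.H50

section FixVec

variable {L V G : Type*} [Field L] [AddCommGroup V] [Module L V] [Group G]
  (ρ : G →* Module.End L V)

theorem rho_inv_apply_h50 (g : G) (x : V) : ρ g⁻¹ (ρ g x) = x := by
  have h : ρ g⁻¹ * ρ g = 1 := by rw [← map_mul, inv_mul_cancel, map_one]
  have h2 := congrArg (fun f : Module.End L V => f x) h
  exact h2

/-- on a stable subspace where `(g - 1)² = 0`, the inverse of `g` is `2 - g`. -/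
theorem unip_inv_apply (W : Submodule L V)
    (hunip : ∀ g : G, ∀ w ∈ W, ρ g (ρ g w) - ρ g w - ρ g w + w = 0)
    (g : G) {w : V} (hw : w ∈ W) : ρ g⁻¹ w = w + w - ρ g w := by
  have h1 : ρ g (w + w - ρ g w) = w := by
    have := hunip g w hw
    rw [map_sub, map_add]
    have e : ρ g w + ρ g w - ρ g (ρ g w) = w - (ρ g (ρ g w) - ρ g w - ρ g w + w) := by abel
    rw [e, this, sub_zero]
  have h2 := rho_inv_apply_h50 ρ g (w + w - ρ g w)
  rw [h1] at h2
  exact h2

/-- the nilpotent parts anticommute. -/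
theorem unip_anticomm (W : Submodule L V) (hstab : ∀ g : G, ∀ w ∈ W, ρ g w ∈ W)
    (hunip : ∀ g : G, ∀ w ∈ W, ρ g (ρ g w) - ρ g w - ρ g w + w = 0)
    (g h : G) {w : V} (hw : w ∈ W) :
    ρ g (ρ h w) + ρ h (ρ g w) = ρ g w + ρ g w + (ρ h w + ρ h w) - (w + w) := by
  -- `(g h)⁻¹ = h⁻¹ g⁻¹`
  have h1 : ρ (g * h)⁻¹ w = w + w - ρ (g * h) w := unip_inv_apply ρ W hunip (g * h) hw
  have h2 : ρ (g * h)⁻¹ w = ρ h⁻¹ (ρ g⁻¹ w) := by
    rw [mul_inv_rev, map_mul]
    rfl
  have h3 : ρ g⁻¹ w = w + w - ρ g w := unip_inv_apply ρ W hunip g hw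
  have hgw : ρ g w ∈ W := hstab g w hw
  have h4 : ρ h⁻¹ w = w + w - ρ h w := unip_inv_apply ρ W hunip h hw
  have h5 : ρ h⁻¹ (ρ g w) = ρ g w + ρ g w - ρ h (ρ g w) := unip_inv_apply ρ W hunip h hgw
  have h6 : ρ (g * h) w = ρ g (ρ h w) := by
    rw [map_mul]
    rfl
  rw [h2, h3, map_sub, map_add, h4, h5, h6] at h1
  -- `h1 : (2w - hw) + (2w - hw) - (2gw - hgw) = 2w - ghw`
  have e : ρ g (ρ h w) + ρ h (ρ g w)
      = (w + w - ρ h w + (w + w - ρ h w) - (ρ g w + ρ g w - ρ h (ρ g w)))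
        - (w + w - ρ g (ρ h w)) + (ρ g w + ρ g w + (ρ h w + ρ h w) - (w + w)) := by abel
  rw [e, h1, sub_self, zero_add]

/-- **(N4)**: a common nonzero fixed vector. -/
theorem exists_fixed_of_unip [FiniteDimensional L V] (W : Submodule L V) (hW : W ≠ ⊥)
    (hstab : ∀ g : G, ∀ w ∈ W, ρ g w ∈ W)
    (hunip : ∀ g : G, ∀ w ∈ W, ρ g (ρ g w) - ρ g w - ρ g w + w = 0) :
    ∃ v ∈ W, v ≠ 0 ∧ ∀ g : G, ρ g v = v := by
  classical
  -- strong induction on the dimension
  suffices H : ∀ n : ℕ, ∀ W : Submodule L V, Module.finrank L W = n → W ≠ ⊥ →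
      (∀ g : G, ∀ w ∈ W, ρ g w ∈ W) →
      (∀ g : G, ∀ w ∈ W, ρ g (ρ g w) - ρ g w - ρ g w + w = 0) →
      ∃ v ∈ W, v ≠ 0 ∧ ∀ g : G, ρ g v = v from H _ W rfl hW hstab hunip
  intro n
  induction n using Nat.strong_induction_on with
  | _ n ih =>
    intro W hn hW hstab hunip
    by_cases hall : ∀ g : G, ∀ w ∈ W, ρ g w = w
    · obtain ⟨v, hv, hv0⟩ := Submodule.exists_mem_ne_zero_of_ne_bot hW
      exact ⟨v, hv, hv0, fun g => hall g v hv⟩
    · push Not at hall
      obtain ⟨g₀, w₀, hw₀, hne⟩ := hall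
      -- the kernel of `g₀ - 1` in `W`
      let W' : Submodule L V := W ⊓ LinearMap.ker (ρ g₀ - 1)
      have hW'le : W' ≤ W := inf_le_left
      have hmem : ∀ x, x ∈ W' ↔ x ∈ W ∧ ρ g₀ x = x := by
        intro x
        show x ∈ W ⊓ LinearMap.ker (ρ g₀ - 1) ↔ _
        rw [Submodule.mem_inf, LinearMap.mem_ker, LinearMap.sub_apply, Module.End.one_apply,
          sub_eq_zero]
      have hlt : W' < W := by
        refine lt_of_le_of_ne hW'le fun h => hne ?_
        have : w₀ ∈ W' := h ▸ hw₀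
        exact ((hmem w₀).1 this).2
      have hfr : Module.finrank L W' < n := by
        rw [← hn]
        exact Submodule.finrank_lt_finrank_of_lt hlt
      -- `u = (g₀ - 1) w₀` is a nonzero element of `W'`
      have hu : ρ g₀ w₀ - w₀ ∈ W' := by
        rw [hmem]
        refine ⟨W.sub_mem (hstab g₀ w₀ hw₀) hw₀, ?_⟩
        have := hunip g₀ w₀ hw₀
        rw [map_sub]
        have e : ρ g₀ (ρ g₀ w₀) - ρ g₀ w₀
            = (ρ g₀ (ρ g₀ w₀) - ρ g₀ w₀ - ρ g₀ w₀ + w₀) + (ρ g₀ w₀ - w₀) := by abel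
        rw [e, this, zero_add]
      have hW' : W' ≠ ⊥ := by
        intro h
        rw [h, Submodule.mem_bot, sub_eq_zero] at hu
        exact hne hu
      -- stability
      have hstab' : ∀ g : G, ∀ w ∈ W', ρ g w ∈ W' := by
        intro g w hw
        obtain ⟨hwW, hfix⟩ := (hmem w).1 hw
        rw [hmem]
        refine ⟨hstab g w hwW, ?_⟩
        have h1 := unip_anticomm ρ W hstab hunip g₀ g hwW
        rw [hfix] at h1
        -- `g₀ g w + g w = 2 w + 2 g w - 2 w`
        have e : ρ g₀ (ρ g w) = (ρ g₀ (ρ g w) + ρ g w) - ρ g w := by abel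
        rw [e, h1]
        abel
      obtain ⟨v, hv, hv0, hfix⟩ := ih _ hfr W' rfl hW' hstab'
        (fun g w hw => hunip g w (hW'le hw))
      exact ⟨v, hW'le hv, hv0, hfix⟩

end FixVec

end Fermat.Agent.L.Pivot.Geom.H50
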