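import Fermat.Agent.GTor.H81_StNU
import Fermat.Agent.S36.H44_Push

/-!
# PIVOT, PV-GEOM part II, leaf PVG-N2 (helper50): the Tate-module form of (NU) on the `q`-new part

Level `M q`, `q ∥ M`; `C : TateCoords (M * q) p S` the coordinatised Tate system of `J₀(M q)`
(helper81), `L : TateLimit C 𝒪 hp` its limit over a complete local domain `𝒪` with `p ≠ 0`.

* `PushCoords C` : coordinates for the two degeneracy push-forwards
  `α_*, β_* : J₀(M q) → J₀(M)`: INTEGER matrices `Aα, Aβ` (the Betti transfers in the bases of the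
  coordinates; output of PVG-B2) such that a `p ^ k`-torsion point whose coordinate vector is
  killed by `Aα` (`Aβ`) modulo `p ^ k` is killed by `α_*` (`β_*`).
* `rho_NU_new` : (NU) at level `k`, in coordinates.
* `limit_NU_new` : **(N2)**: from the torsion-level statement (NU) for the inertia group of `A`
  (`S35.H89.Stmt_TorsNU`), a vector `v ∈ 𝒪 ^ r` which is fixed by the inertia group of `A` and
  killed by `Aα` and `Aβ` (a `q`-new vector of the Tate module) is `0`.
* `n2_of_torsNU` : the form with `Stmt_TorsNU M q p` as hypothesis.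
-/

set_option autoImplicit false
set_option linter.unusedSectionVars false

noncomputable section

namespace Fermat.Agent.L.Pivot.Geom.H50

open AlgebraicCurve ModularCurve Fermat.Agent.GTor Fermat.Agent.GTor.H58T1
open Fermat.Agent.Betti.H76 Fermat.Agent.S35.H89 Fermat.Agent.GTor.H81
open Fermat.Agent.S36.H44

section Defs

variable {M q p : ℕ} [NeZero M] [NeZero q] {S : Set ℕ}

/-- **Coordinates for the two degeneracy push-forwards** `α_*, β_* : J₀(M q) → J₀(M)` with
respect to a coordinatised Tate system of `J₀(M q)`: integer matrices whose kernels modulo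
`p ^ k` consist of coordinate vectors of points killed by `α_*`, resp. `β_*`. -/
structure PushCoords (C : TateCoords (M * q) p S) where
  /-- the rank at the level `M` -/
  r' : ℕ
  /-- the matrix of `α_*` -/
  Aα : Matrix (Fin r') (Fin C.r) ℤ
  /-- the matrix of `β_*` -/
  Aβ : Matrix (Fin r') (Fin C.r) ℤ
  hα : ∀ (k : ℕ) (x : Jtor (M * q) (p ^ k)),
    (Aα.map (Int.cast : ℤ → ZMod (p ^ k))).mulVec (C.θ k x) = 0 →
      alphaPush M q (x : JZero (M * q)) = 0
  hβ : ∀ (k : ℕ) (x : Jtor (M * q) (p ^ k)),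
    (Aβ.map (Int.cast : ℤ → ZMod (p ^ k))).mulVec (C.θ k x) = 0 →
      betaPush M q (x : JZero (M * q)) = 0

end Defs

section Level

variable {M q p : ℕ} [NeZero M] [NeZero q] [Fact p.Prime] {S : Set ℕ}
  {C : TateCoords (M * q) p S}

/-- **(NU) at level `k`**, in coordinates, on the kernel of the two push-forwards. -/
theorem rho_NU_new (PC : PushCoords C) {c : ℕ} {A : ValuationSubring (AlgebraicClosure ℚ)}
    (h : ∀ x : JZero (M * q), (∃ n : ℕ, p ^ n • x = 0) → IsQNew M q x →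
      (∀ σ ∈ A.inertiaSubgroupIn ℚ, σ • x = x) → p ^ c • x = 0)
    (k : ℕ) (v : Fin C.r → ZMod (p ^ k))
    (hv : ∀ σ : A.inertiaSubgroupIn ℚ, (C.ρ k (σ : GQ) - 1).mulVec v = 0)
    (hα : (PC.Aα.map (Int.cast : ℤ → ZMod (p ^ k))).mulVec v = 0)
    (hβ : (PC.Aβ.map (Int.cast : ℤ → ZMod (p ^ k))).mulVec v = 0) :
    ((p ^ c : ℕ) : Matrix (Fin C.r) (Fin C.r) (ZMod (p ^ k))).mulVec v = 0 := by
  obtain ⟨x, rfl⟩ := (C.θ k).surjective v
  -- `x` is fixed by inertia
  have hfix : ∀ σ ∈ A.inertiaSubgroupIn ℚ, σ • (x : JZero (M * q)) = (x : JZero (M * q)) := by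
    intro σ hσ
    have h1 := hv ⟨σ, hσ⟩
    have h2 : C.mat k (TateCoords.galEnd k σ - 1) = C.ρ k σ - 1 := by
      rw [map_sub, map_one, C.mat_gal]
    rw [← h2, C.mat_mulVec] at h1
    have h3 : (TateCoords.galEnd k σ - 1 : AddMonoid.End (Jtor (M * q) (p ^ k))) x = 0 :=
      (C.θ k).injective (h1.trans (map_zero _).symm)
    have h4 := congrArg (fun y : Jtor (M * q) (p ^ k) => (y : JZero (M * q))) h3
    have h5 : σ • (x : JZero (M * q)) - (x : JZero (M * q)) = 0 := h4
    exact sub_eq_zero.1 h5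
  have key := h (x : JZero (M * q)) (pow_nsmul_coe' k x)
    (isQNew_of_push M q _ (PC.hα k x hα) (PC.hβ k x hβ)) hfix
  have h0 : ((p ^ c : ℕ) : AddMonoid.End (Jtor (M * q) (p ^ k))) x = 0 := by
    apply Subtype.ext
    have e : ((((p ^ c : ℕ) : AddMonoid.End (Jtor (M * q) (p ^ k))) x :
        Jtor (M * q) (p ^ k)) : JZero (M * q)) = p ^ c • (x : JZero (M * q)) := by
      rw [AddMonoid.End.natCast_apply]
      rfl
    rw [e, key]
    rfl
  have hn : C.mat k ((p ^ c : ℕ) : AddMonoid.End (Jtor (M * q) (p ^ k))) =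
      ((p ^ c : ℕ) : Matrix (Fin C.r) (Fin C.r) (ZMod (p ^ k))) := map_natCast (C.mat k) _
  rw [← hn, C.mat_mulVec, h0, map_zero]

end Level

section Limit

variable {M q p : ℕ} [NeZero M] [NeZero q] [Fact p.Prime] {S : Set ℕ}
  {C : TateCoords (M * q) p S}
variable {𝒪 : Type} [CommRing 𝒪] [IsLocalRing 𝒪]
  [IsAdicComplete (IsLocalRing.maximalIdeal 𝒪) 𝒪]
  {hp : (p : 𝒪) ∈ IsLocalRing.maximalIdeal 𝒪} (L : TateLimit C 𝒪 hp)

/-- the square matrix all of whose rows are the row `i` of a rectangular matrix. -/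
def rowMat {R : Type} {m n : ℕ} (X : Matrix (Fin m) (Fin n) R) (i : Fin m) :
    Matrix (Fin n) (Fin n) R :=
  Matrix.of fun _ b => X i b

theorem rowMat_mulVec {R : Type} [CommRing R] {m n : ℕ} (X : Matrix (Fin m) (Fin n) R)
    (i : Fin m) (v : Fin n → R) (a : Fin n) : (rowMat X i).mulVec v a = X.mulVec v i := rfl

theorem rowMat_map {R R' : Type} {m n : ℕ} (X : Matrix (Fin m) (Fin n) R) (i : Fin m)
    (f : R → R') : (rowMat X i).map f = rowMat (X.map f) i := rfl

/-- **(N2), integral form**: a vector of the Tate module which is fixed by the inertia group of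
`A` and killed by the two push-forwards is `0`. -/
theorem limit_NU_new [IsDomain 𝒪] (hp0 : (p : 𝒪) ≠ 0) (PC : PushCoords C) {c : ℕ}
    {A : ValuationSubring (AlgebraicClosure ℚ)}
    (h : ∀ x : JZero (M * q), (∃ n : ℕ, p ^ n • x = 0) → IsQNew M q x →
      (∀ σ ∈ A.inertiaSubgroupIn ℚ, σ • x = x) → p ^ c • x = 0)
    (v : Fin C.r → 𝒪)
    (hv : ∀ σ ∈ A.inertiaSubgroupIn ℚ, (L.ρL σ).mulVec v = v)
    (hα : (PC.Aα.map (Int.cast : ℤ → 𝒪)).mulVec v = 0)
    (hβ : (PC.Aβ.map (Int.cast : ℤ → 𝒪)).mulVec v = 0) : v = 0 := by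
  have hpp : p.Prime := Fact.out
  have hu₀ : ∀ σ ∈ A.inertiaSubgroupIn ℚ, (L.ρL σ - 1).mulVec v = 0 := by
    intro σ hσ
    rw [Matrix.sub_mulVec, Matrix.one_mulVec, hv σ hσ, sub_self]
  have hkey : ((p ^ c : ℕ) : Matrix (Fin C.r) (Fin C.r) 𝒪).mulVec v = 0 := by
    funext i
    apply eq_of_forall_piK (IsLocalRing.maximalIdeal 𝒪)
    intro k
    have : NeZero (p ^ k) := ⟨pow_ne_zero k hpp.ne_zero⟩
    have hk := mulVec_eq_zero_of_family (p ^ k)
      (fun j : ↥(A.inertiaSubgroupIn ℚ) ⊕ (Fin PC.r' ⊕ Fin PC.r') =>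
        Sum.elim (fun σ : ↥(A.inertiaSubgroupIn ℚ) => C.ρ k (σ : GQ) - 1)
          (Sum.elim (fun a => rowMat (PC.Aα.map (Int.cast : ℤ → ZMod (p ^ k))) a)
            (fun a => rowMat (PC.Aβ.map (Int.cast : ℤ → ZMod (p ^ k))) a)) j)
      ((p ^ c : ℕ) : Matrix (Fin C.r) (Fin C.r) (ZMod (p ^ k)))
      (fun w hw => by
        refine rho_NU_new PC h k w (fun σ => hw (Sum.inl σ)) ?_ ?_
        · funext a
          have h1 := congrFun (hw (Sum.inr (Sum.inl a))) i
          exact h1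
        · funext a
          have h1 := congrFun (hw (Sum.inr (Sum.inr a))) i
          exact h1)
      (cK (IsLocalRing.maximalIdeal 𝒪) p hp k)
      ((piK (IsLocalRing.maximalIdeal 𝒪) k) ∘ v) ?_
    · have e : ((p ^ c : ℕ) : Matrix (Fin C.r) (Fin C.r) (ZMod (p ^ k))).map
            (cK (IsLocalRing.maximalIdeal 𝒪) p hp k) =
          ((p ^ c : ℕ) : Matrix (Fin C.r) (Fin C.r) 𝒪).map
            (piK (IsLocalRing.maximalIdeal 𝒪) k) :=
        ((compat_natCast (hp := hp) (p ^ c)) k).symm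
      rw [e] at hk
      have h1 := congrFun hk i
      rw [← RingHom.map_mulVec] at h1
      rw [h1]
      simp
    · rintro (σ | a | a)
      · have e : (C.ρ k (σ : GQ) - 1).map (cK (IsLocalRing.maximalIdeal 𝒪) p hp k) =
            (L.ρL (σ : GQ) - 1).map (piK (IsLocalRing.maximalIdeal 𝒪) k) :=
          (((L.spec (σ : GQ)).sub compat_one) k).symm
        show ((C.ρ k (σ : GQ) - 1).map (cK (IsLocalRing.maximalIdeal 𝒪) p hp k)).mulVec _ = 0
        rw [e]
        funext i
        rw [← RingHom.map_mulVec, hu₀ σ σ.2]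
        simp
      · show ((rowMat (PC.Aα.map (Int.cast : ℤ → ZMod (p ^ k))) a).map
          (cK (IsLocalRing.maximalIdeal 𝒪) p hp k)).mulVec _ = 0
        have e : (rowMat (PC.Aα.map (Int.cast : ℤ → ZMod (p ^ k))) a).map
            (cK (IsLocalRing.maximalIdeal 𝒪) p hp k) =
            (rowMat (PC.Aα.map (Int.cast : ℤ → 𝒪)) a).map
              (piK (IsLocalRing.maximalIdeal 𝒪) k) := by
          ext x y
          simp [rowMat]
        rw [e]
        funext j
        rw [← RingHom.map_mulVec, rowMat_mulVec, hα]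
        simp
      · show ((rowMat (PC.Aβ.map (Int.cast : ℤ → ZMod (p ^ k))) a).map
          (cK (IsLocalRing.maximalIdeal 𝒪) p hp k)).mulVec _ = 0
        have e : (rowMat (PC.Aβ.map (Int.cast : ℤ → ZMod (p ^ k))) a).map
            (cK (IsLocalRing.maximalIdeal 𝒪) p hp k) =
            (rowMat (PC.Aβ.map (Int.cast : ℤ → 𝒪)) a).map
              (piK (IsLocalRing.maximalIdeal 𝒪) k) := by
          ext x y
          simp [rowMat]
        rw [e]
        funext j
        rw [← RingHom.map_mulVec, rowMat_mulVec, hβ]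
        simp
  have hpc : ((p ^ c : ℕ) : 𝒪) ≠ 0 := by
    rw [Nat.cast_pow]
    exact pow_ne_zero c hp0
  funext i
  have h4 := congrFun hkey i
  rw [Matrix.natCast_mulVec] at h4
  simp only [Pi.smul_apply, smul_eq_mul, Pi.zero_apply] at h4
  exact (mul_eq_zero.1 h4).resolve_left hpc

end Limit

/-- **PVG-N2**: the Tate-module form of (NU) on the `q`-new part, from `S35.H89.Stmt_TorsNU`:
there is a valuation ring `A` over `q` such that, for every coordinatised Tate system of
`J₀(M q)` with coordinates for the push-forwards and every limit over a complete local domain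
`𝒪`, no nonzero vector killed by the two push-forwards is fixed by the inertia group of `A`. -/
theorem n2_of_torsNU {M q p : ℕ} [NeZero M] [NeZero q] [Fact p.Prime]
    (hNU : Stmt_TorsNU M q p) (hq : q.Prime) (hqM : q ∣ M) (hq2 : ¬ q ^ 2 ∣ M) (hqp : q ≠ p) :
    ∃ A : ValuationSubring (AlgebraicClosure ℚ), A.LiesOverPrime q ∧
      ∀ {S : Set ℕ} (C : TateCoords (M * q) p S) (PC : PushCoords C)
        (𝒪 : Type) [CommRing 𝒪] [IsLocalRing 𝒪] [IsAdicComplete (IsLocalRing.maximalIdeal 𝒪) 𝒪]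
        [IsDomain 𝒪] (hp : (p : 𝒪) ∈ IsLocalRing.maximalIdeal 𝒪), (p : 𝒪) ≠ 0 →
        ∀ (L : TateLimit C 𝒪 hp) (v : Fin C.r → 𝒪),
          (∀ σ ∈ A.inertiaSubgroupIn ℚ, (L.ρL σ).mulVec v = v) →
          (PC.Aα.map (Int.cast : ℤ → 𝒪)).mulVec v = 0 →
          (PC.Aβ.map (Int.cast : ℤ → 𝒪)).mulVec v = 0 → v = 0 := by
  obtain ⟨A, hA, c, hc⟩ := hNU hq hqM hq2 Fact.out hqp
  exact ⟨A, hA, fun C PC 𝒪 _ _ _ _ hp hp0 L v hv hα hβ =>
    limit_NU_new L hp0 PC hc v hv hα hβ⟩

end Fermat.Agent.L.Pivot.Geom.H50
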