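import Fermat.Agent.L.Pivot.Geom.H50_PushGal
import Fermat.Agent.GTor.H81_TateLimit

/-!
# PIVOT, PV-GEOM part II, leaf PVG-N2 (helper50): the push-forwards intertwine the Galois matrices

`C`, `C'` coordinatised Tate systems of `J₀(M q)`, `J₀(M)`; `X` an integer matrix representing a
Galois equivariant homomorphism `f : J₀(M q) → J₀(M)` in the coordinates (e.g. `α_*`, `β_*`).

* `intertwine_level` : `X ρ_k(σ) = ρ'_k(σ) X` modulo `p ^ k`;
* `intertwine_limit` : `X ρ(σ) = ρ'(σ) X` over `𝒪`.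
-/

set_option autoImplicit false
set_option linter.unusedSectionVars false

open IsLocalRing

noncomputable section

namespace Fermat.Agent.L.Pivot.Geom.H50

open AlgebraicCurve ModularCurve Fermat.Agent.GTor Fermat.Agent.GTor.H58T1
  Fermat.Agent.GTor.H81

section Level

variable {N N' p : ℕ} [NeZero N] [NeZero N'] {S : Set ℕ}
  {C : TateCoords N' p S} {C' : TateCoords N p S}

/-- the image of a torsion point under an additive map is a torsion point. -/
def pushTor (f : JZero N' →+ JZero N) (k : ℕ) (x : Jtor N' (p ^ k)) : Jtor N (p ^ k) :=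
  ⟨f (x : JZero N'), by
    show p ^ k • f (x : JZero N') = 0
    rw [← map_nsmul]
    have h : p ^ k • (x : JZero N') = 0 := x.2
    rw [h, map_zero]⟩

@[simp] theorem coe_pushTor (f : JZero N' →+ JZero N) (k : ℕ) (x : Jtor N' (p ^ k)) :
    ((pushTor f k x : Jtor N (p ^ k)) : JZero N) = f (x : JZero N') := rfl

/-- **the intertwining relation modulo `p ^ k`.** -/
theorem intertwine_level (f : JZero N' →+ JZero N)
    (hf : ∀ (σ : GQ) (x : JZero N'), f (σ • x) = σ • f x)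
    (X : Matrix (Fin C'.r) (Fin C.r) ℤ)
    (hX : ∀ (k : ℕ) (x : Jtor N' (p ^ k)) (y : Jtor N (p ^ k)),
      (y : JZero N) = f (x : JZero N') →
        C'.θ k y = (X.map (Int.cast : ℤ → ZMod (p ^ k))).mulVec (C.θ k x))
    (σ : GQ) (k : ℕ) :
    X.map (Int.cast : ℤ → ZMod (p ^ k)) * C.ρ k σ
      = C'.ρ k σ * X.map (Int.cast : ℤ → ZMod (p ^ k)) := by
  apply Matrix.mulVec_injective
  funext u
  obtain ⟨x, rfl⟩ := (C.θ k).surjective u
  rw [← Matrix.mulVec_mulVec, ← Matrix.mulVec_mulVec, ← C.gal k σ x,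
    ← hX k x (pushTor f k x) rfl, ← C'.gal k σ (pushTor f k x)]
  refine (hX k _ _ ?_).symm
  show σ • f (x : JZero N') = f (σ • (x : JZero N'))
  rw [hf]

end Level

section Limit

variable {N N' p : ℕ} [NeZero N] [NeZero N'] [Fact p.Prime] {S : Set ℕ}
  {C : TateCoords N' p S} {C' : TateCoords N p S}
variable {𝒪 : Type} [CommRing 𝒪] [IsLocalRing 𝒪]
  [IsAdicComplete (maximalIdeal 𝒪) 𝒪]
  {hp : (p : 𝒪) ∈ maximalIdeal 𝒪} (Lm : TateLimit C 𝒪 hp) (Lm' : TateLimit C' 𝒪 hp)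

theorem map_intCast_piK {m n : ℕ} (X : Matrix (Fin m) (Fin n) ℤ) (k : ℕ) :
    (X.map (Int.cast : ℤ → 𝒪)).map (piK (maximalIdeal 𝒪) k)
      = (X.map (Int.cast : ℤ → ZMod (p ^ k))).map (cK (maximalIdeal 𝒪) p hp k) := by
  ext i j
  simp only [Matrix.map_apply, map_intCast]

/-- **the intertwining relation in the limit.** -/
theorem intertwine_limit (X : Matrix (Fin C'.r) (Fin C.r) ℤ)
    (h : ∀ (σ : GQ) (k : ℕ), X.map (Int.cast : ℤ → ZMod (p ^ k)) * C.ρ k σ
      = C'.ρ k σ * X.map (Int.cast : ℤ → ZMod (p ^ k)))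
    (σ : GQ) :
    X.map (Int.cast : ℤ → 𝒪) * Lm.ρL σ = Lm'.ρL σ * X.map (Int.cast : ℤ → 𝒪) := by
  ext i j
  apply eq_of_forall_piK (maximalIdeal 𝒪)
  intro k
  have h1 : (X.map (Int.cast : ℤ → 𝒪) * Lm.ρL σ).map (piK (maximalIdeal 𝒪) k)
      = (Lm'.ρL σ * X.map (Int.cast : ℤ → 𝒪)).map (piK (maximalIdeal 𝒪) k) := by
    have e1 : (Lm.ρL σ).map (piK (maximalIdeal 𝒪) k)
        = (C.ρ k σ).map (cK (maximalIdeal 𝒪) p hp k) := Lm.spec σ k
    have e2 : (Lm'.ρL σ).map (piK (maximalIdeal 𝒪) k)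
        = (C'.ρ k σ).map (cK (maximalIdeal 𝒪) p hp k) := Lm'.spec σ k
    rw [Matrix.map_mul, Matrix.map_mul, e1, e2, map_intCast_piK (hp := hp),
      ← Matrix.map_mul, ← Matrix.map_mul, h σ k]
  have h2 := congrFun (congrFun h1 i) j
  simpa only [Matrix.map_apply] using h2

end Limit

end Fermat.Agent.L.Pivot.Geom.H50
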