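import Fermat.Agent.L.Pivot.Geom.H50_UnipTransfer
import Fermat.Agent.GTor.H81_Clauses
import Fermat.Agent.Lib.FrobDensity.Main
import Fermat.Agent.R.H89_FrobCyc

/-!
# PIVOT, PV-GEOM part II, leaf PVG-N2 (helper50): unipotent inertia on a common eigenspace  (N3)

`C`, `C'` coordinatised Tate systems of `J₀(M q)` and `J₀(M)`, `Lm`, `Lm'` their limits over a
complete Noetherian local ring `𝒪` (`p ∈ 𝔪`), `L` a field over `𝒪`.  `E ⊆ L ^ r` is a set of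
eigenvectors for the Hecke matrices of level `M q` with eigenvalues `a ℓ`, `w ≠ 0` an eigenvector
of level `M` with the same eigenvalues.  If `g` lies in an inertia group at `q ≠ p`, `E` is stable
under `g` and `(ρ'(g) - 1)² = 0` at level `M`, then `(ρ(g) - 1)² = 0` on `E`.

Inputs: the Eichler–Shimura relation at both levels (`Stmt_TorsES`), the Frobenius density theorem
(`Lib.FrobDensity.stmt_FD`), the action of Frobenius and inertia on roots of unity.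
-/

set_option autoImplicit false
set_option linter.unusedSectionVars false
set_option linter.unusedVariables false
set_option linter.style.haveILetI false

open IsLocalRing

noncomputable section

namespace Fermat.Agent.L.Pivot.Geom.H50

open AlgebraicCurve ModularCurve Fermat.Agent.GTor Fermat.Agent.GTor.H58T1
  Fermat.Agent.GTor.H81

local notation "Kb" => AlgebraicClosure ℚ

/-! ## roots of unity -/

/-- a power of a Frobenius at `ℓ` acts on the roots of unity of order prime to `ℓ` as the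
`ℓ ^ j`-th power. -/
theorem frob_pow_root {ℓ : ℕ} (hℓ : ℓ.Prime) (A : ValuationSubring Kb) (hA : A.LiesOverPrime ℓ)
    (φ : GQ) (hφ : A.IsFrobeniusAt φ ℓ) {n : ℕ} (hn : n.Coprime ℓ) (ζ : Kb) (hζ : ζ ^ n = 1)
    (j : ℕ) : (φ ^ j) ζ = ζ ^ (ℓ ^ j) := by
  induction j with
  | zero => simp
  | succ j ih =>
    have h1 : (φ ^ (j + 1)) ζ = φ ((φ ^ j) ζ) := by
      rw [pow_succ']
      rfl
    have h2 : (ζ ^ (ℓ ^ j)) ^ n = 1 := by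
      rw [← pow_mul, mul_comm, pow_mul, hζ, one_pow]
    rw [h1, ih, Fermat.Agent.R.H89.stmt_FrobCyc ℓ hℓ A hA φ hφ n hn _ h2, ← pow_mul, ← pow_succ]

/-- if a power of a Frobenius at `ℓ ≠ p` agrees on a primitive `p ^ n`-th root of unity with an
element of an inertia group at `q ≠ p`, then `ℓ ^ j ≡ 1` modulo `p ^ n`. -/
theorem frob_pow_modEq {p q ℓ : ℕ} (hp : p.Prime) (hq : q.Prime) (hℓ : ℓ.Prime) (hqp : q ≠ p)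
    (hℓp : ℓ ≠ p) (P : ValuationSubring Kb) (hP : P.LiesOverPrime q) (g : GQ)
    (hg : g ∈ P.inertiaSubgroupIn ℚ) (A : ValuationSubring Kb) (hA : A.LiesOverPrime ℓ)
    (φ : GQ) (hφ : A.IsFrobeniusAt φ ℓ) (n j : ℕ) (ζ : Kb) (hζ : IsPrimitiveRoot ζ (p ^ n))
    (hj : (φ ^ j) ζ = g ζ) : p ^ n ∣ ℓ ^ j - 1 := by
  have hcℓ : (p ^ n).Coprime ℓ :=
    Nat.Coprime.pow_left n ((Nat.coprime_primes hp hℓ).2 (Ne.symm hℓp))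
  have hcq : (p ^ n).Coprime q :=
    Nat.Coprime.pow_left n ((Nat.coprime_primes hp hq).2 (Ne.symm hqp))
  have h1 := frob_pow_root hℓ A hA φ hφ hcℓ ζ hζ.pow_eq_one j
  have h2 := Fermat.Agent.R.H89.inertia_fixes_rootsOfUnity q P hP g hg (p ^ n) hcq ζ
    hζ.pow_eq_one
  rw [hj, h2] at h1
  have hpos : 1 ≤ ℓ ^ j := Nat.one_le_pow _ _ hℓ.pos
  have hζ0 : ζ ≠ 0 := hζ.ne_zero (pow_ne_zero n hp.ne_zero)
  have h3 : ζ ^ (ℓ ^ j - 1) = 1 := by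
    have e : ζ ^ (ℓ ^ j) = ζ ^ (ℓ ^ j - 1) * ζ := by
      rw [← pow_succ, Nat.sub_add_cancel hpos]
    rw [e] at h1
    have h4 : ζ ^ (ℓ ^ j - 1) * ζ = 1 * ζ := by rw [one_mul]; exact h1.symm
    exact mul_right_cancel₀ hζ0 h4
  exact (hζ.pow_eq_one_iff_dvd _).1 h3

/-! ## the main statement -/

section Main

variable {M q p : ℕ} [NeZero M] [NeZero q] [Fact p.Prime] {S : Finset ℕ}
  {C : TateCoords (M * q) p (↑S : Set ℕ)} {C' : TateCoords M p (↑S : Set ℕ)}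
variable {𝒪 : Type} [CommRing 𝒪] [IsLocalRing 𝒪] [IsNoetherianRing 𝒪]
  [IsAdicComplete (maximalIdeal 𝒪) 𝒪]
  {hp : (p : 𝒪) ∈ maximalIdeal 𝒪} (Lm : TateLimit C 𝒪 hp) (Lm' : TateLimit C' 𝒪 hp)
variable {L : Type*} [Field L] [Algebra 𝒪 L]

/-- the relation `ρ(φ) + ℓ ρ(φ⁻¹) = T_ℓ` from Eichler–Shimura. -/
theorem es_sum {N : ℕ} [NeZero N] {C₀ : TateCoords N p (↑S : Set ℕ)} (L₀ : TateLimit C₀ 𝒪 hp)
    (hES : Stmt_TorsES N p) {ℓ : ℕ} (hℓ : ℓ.Prime) (hℓN : ¬ ℓ ∣ N) (hℓp : ℓ ≠ p)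
    (hℓS : ℓ ∉ (↑S : Set ℕ)) (A : ValuationSubring Kb) (hA : A.LiesOverPrime ℓ) (φ : GQ)
    (hφ : A.IsFrobeniusAt φ ℓ) :
    L₀.ρL φ + (ℓ : 𝒪) • L₀.ρL φ⁻¹ = Mc 𝒪 C₀.M (CuspForm.heckeAlgebra.T hℓ hℓN hℓS) := by
  have h := limit_ES L₀ hES hℓ hℓN hℓp hℓS A hA φ hφ
  have h1 : L₀.ρL φ * L₀.ρL φ⁻¹ = 1 := rep_mul_inv_h50 L₀.ρL φ
  have h2 := congrArg (fun X => X * L₀.ρL φ⁻¹) h
  simp only [add_mul, sub_mul, zero_mul, mul_assoc, h1, mul_one] at h2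
  have h3 : ((ℓ : ℕ) : Matrix (Fin C₀.r) (Fin C₀.r) 𝒪) * L₀.ρL φ⁻¹ = (ℓ : 𝒪) • L₀.ρL φ⁻¹ := by
    rw [← natCast_smul_one, Matrix.smul_mul, one_mul]
  rw [h3] at h2
  rw [← sub_eq_zero, ← h2]
  abel

/-- **(N3)**: unipotence of inertia at `q` on the common eigenspace. -/
theorem unip_of_es (hNS : ∀ l : ℕ, l.Prime → l ∣ M * q → l ∈ S)
    (hES : Stmt_TorsES (M * q) p) (hES' : Stmt_TorsES M p) (hq : q.Prime) (hqp : q ≠ p)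
    (P : ValuationSubring Kb) (hP : P.LiesOverPrime q) (a : ℕ → L)
    (E : Set (Fin C.r → L)) (w : Fin C'.r → L) (hw : w ≠ 0)
    (hEig : ∀ (ℓ : ℕ) (hℓ : ℓ.Prime) (hℓN : ¬ ℓ ∣ M * q) (hℓS : ℓ ∉ (↑S : Set ℕ)),
      ∀ v ∈ E, actL (Mc 𝒪 C.M (CuspForm.heckeAlgebra.T hℓ hℓN hℓS)) v = a ℓ • v)
    (hEig' : ∀ (ℓ : ℕ) (hℓ : ℓ.Prime) (hℓN : ¬ ℓ ∣ M) (hℓNq : ¬ ℓ ∣ M * q)
      (hℓS : ℓ ∉ (↑S : Set ℕ)),
      actL (Mc 𝒪 C'.M (CuspForm.heckeAlgebra.T hℓ hℓN hℓS)) w = a ℓ • w)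
    (g : GQ) (hg : g ∈ P.inertiaSubgroupIn ℚ)
    (hE : ∀ v ∈ E, actL (Lm.ρL g) v ∈ E)
    (hunip' : (Lm'.ρL g - 1) * (Lm'.ρL g - 1) = 0) :
    ∀ v ∈ E, actL (Lm.ρL g) (actL (Lm.ρL g) v) - actL (Lm.ρL g) v - actL (Lm.ρL g) v + v = 0 := by
  have hpp : p.Prime := Fact.out
  refine unip_transfer Lm.ρL Lm'.ρL hw g hE hunip' fun n => ?_
  -- the fields
  obtain ⟨K₁, hK₁, h₁⟩ := Lm.cont n
  obtain ⟨K₂, hK₂, h₂⟩ := Lm'.cont n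
  haveI : NeZero ((p ^ n : ℕ) : Kb) := ⟨by
    rw [Nat.cast_ne_zero]
    exact pow_ne_zero n hpp.ne_zero⟩
  obtain ⟨ζ, hζ⟩ := HasEnoughRootsOfUnity.exists_primitiveRoot Kb (p ^ n)
  let K₃ : IntermediateField ℚ Kb := IntermediateField.adjoin ℚ {ζ}
  have hζint : IsIntegral ℚ ζ := (AlgebraicClosure.isAlgebraic ℚ).isIntegral.isIntegral ζ
  have hK₃ : FiniteDimensional ℚ K₃ := IntermediateField.adjoin.finiteDimensional hζint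
  have := hK₁; have := hK₂
  have hK₁₂ : FiniteDimensional ℚ ↥(K₁ ⊔ K₂) := IntermediateField.finiteDimensional_sup K₁ K₂
  have hK : FiniteDimensional ℚ ↥(K₁ ⊔ K₂ ⊔ K₃) :=
    IntermediateField.finiteDimensional_sup (K₁ ⊔ K₂) K₃
  -- the Frobenius
  obtain ⟨ℓ, A, φ, j, hℓ, hℓS, hA, hφ, hj⟩ :=
    Fermat.Agent.Lib.FrobDensity.stmt_FD (insert p S) (K₁ ⊔ K₂ ⊔ K₃) hK g
  have hℓp : ℓ ≠ p := fun h => hℓS (by rw [h]; exact Finset.mem_insert_self p S)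
  have hℓS' : ℓ ∉ (↑S : Set ℕ) := fun h => hℓS (Finset.mem_insert_of_mem (Finset.mem_coe.1 h))
  have hℓNq : ¬ ℓ ∣ M * q := fun h => hℓS' (Finset.mem_coe.2 (hNS ℓ hℓ h))
  have hℓN : ¬ ℓ ∣ M := fun h => hℓNq (Dvd.dvd.mul_right h q)
  set t : GQ := g⁻¹ * φ ^ j with htdef
  have ht : ∀ x ∈ K₁ ⊔ K₂ ⊔ K₃, t x = x := by
    intro x hx
    rw [htdef, AlgEquiv.mul_apply, hj x hx]
    exact AlgEquiv.symm_apply_apply g x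
  have hgt : g * t = φ ^ j := by rw [htdef, mul_inv_cancel_left]
  have ht₁ : ∀ x ∈ K₁, t x = x := fun x hx =>
    ht x ((le_sup_left : K₁ ⊔ K₂ ≤ K₁ ⊔ K₂ ⊔ K₃) ((le_sup_left : K₁ ≤ K₁ ⊔ K₂) hx))
  have ht₂ : ∀ x ∈ K₂, t x = x := fun x hx =>
    ht x ((le_sup_left : K₁ ⊔ K₂ ≤ K₁ ⊔ K₂ ⊔ K₃) ((le_sup_right : K₂ ≤ K₁ ⊔ K₂) hx))
  have hζK : ζ ∈ K₁ ⊔ K₂ ⊔ K₃ :=
    (le_sup_right : K₃ ≤ K₁ ⊔ K₂ ⊔ K₃) (IntermediateField.mem_adjoin_simple_self ℚ ζ)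
  -- the cyclotomic congruence
  have hdvd : p ^ n ∣ ℓ ^ j - 1 :=
    frob_pow_modEq hpp hq hℓ hqp hℓp P hP g hg A hA φ hφ n j ζ hζ (hj ζ hζK)
  have hpos : 1 ≤ ℓ ^ j := Nat.one_le_pow _ _ hℓ.pos
  have hd : ((ℓ : 𝒪) ^ j) - 1 ∈ maximalIdeal 𝒪 ^ n := by
    obtain ⟨k, hk⟩ := hdvd
    have e : ((ℓ : 𝒪) ^ j) - 1 = ((ℓ ^ j - 1 : ℕ) : 𝒪) := by
      rw [Nat.cast_sub hpos, Nat.cast_pow, Nat.cast_one]
    rw [e, hk, Nat.cast_mul, Nat.cast_pow]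
    exact Ideal.mul_mem_right _ _ (Ideal.pow_mem_pow hp n)
  refine ⟨t, (ℓ : 𝒪) ^ j, fun i k => h₁ t ht₁ i k, fun i k => h₂ t ht₂ i k, hd, ?_⟩
  -- membership
  rw [hgt]
  have hsum := es_sum Lm hES hℓ hℓNq hℓp hℓS' A hA φ hφ
  have hsum' := es_sum Lm' hES' hℓ hℓN hℓp hℓS' A hA φ hφ
  have hT : (Lm.ρL φ + (ℓ : 𝒪) • Lm.ρL φ⁻¹, Lm'.ρL φ + (ℓ : 𝒪) • Lm'.ρL φ⁻¹)
      ∈ scalSub E w := by
    rw [hsum, hsum']
    exact ⟨a ℓ, fun v hv => hEig ℓ hℓ hℓNq hℓS' v hv, hEig' ℓ hℓ hℓN hℓNq hℓS'⟩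
  have hl := lucas_mem (E := E) (w := w) (A := Lm.ρL φ) (B := (ℓ : 𝒪) • Lm.ρL φ⁻¹)
    (A' := Lm'.ρL φ) (B' := (ℓ : 𝒪) • Lm'.ρL φ⁻¹) (ℓ : 𝒪)
    (by rw [Matrix.mul_smul, rep_mul_inv_h50]) (by rw [Matrix.smul_mul, rep_inv_mul_h50])
    (by rw [Matrix.mul_smul, rep_mul_inv_h50]) (by rw [Matrix.smul_mul, rep_inv_mul_h50]) hT j
  have e1 : Lm.ρL (φ ^ j) + (ℓ : 𝒪) ^ j • Lm.ρL (φ ^ j)⁻¹
      = Lm.ρL φ ^ j + ((ℓ : 𝒪) • Lm.ρL φ⁻¹) ^ j := by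
    rw [map_pow, ← inv_pow, map_pow, smul_pow]
  have e2 : Lm'.ρL (φ ^ j) + (ℓ : 𝒪) ^ j • Lm'.ρL (φ ^ j)⁻¹
      = Lm'.ρL φ ^ j + ((ℓ : 𝒪) • Lm'.ρL φ⁻¹) ^ j := by
    rw [map_pow, ← inv_pow, map_pow, smul_pow]
  rw [e1, e2]
  exact hl

end Main

end Fermat.Agent.L.Pivot.Geom.H50
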