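import Fermat.Agent.L.Pivot.Geom.H50_N2
import Fermat.Agent.L.Pivot.Geom.H50_UnipNew
import Fermat.Agent.L.Pivot.Geom.H50_FixVec
import Fermat.Agent.L.Pivot.Geom.H50_Descend
import Fermat.Agent.L.Pivot.Geom.H50_PushLim
import Fermat.Agent.R.H33_TatePiece
import Fermat.Agent.BAD.Defs

/-!
# PIVOT, PV-GEOM part II, leaf PVG-N2 (helper50): the core in coordinates

`C`, `C'` coordinatised Tate systems of `J₀(M q)`, `J₀(M)` (`q ∥ M`, `q ≠ p`), `Aα`, `Aβ` the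
integer matrices of the two degeneracy push-forwards in the coordinates, `𝒪` a complete discrete
valuation ring with `0 ≠ p ∈ 𝔪`, `L` a field containing `𝒪`, `a : ℕ → L`.

* `newSub`  : the subspace `E_new ⊆ L ^ r` of the vectors `u` with `T_ℓ u = a ℓ u` for all good
  `ℓ`, `Aα u = 0 = Aβ u`; it is stable under the Galois group (`newSub_stable`);
* `newJ0_core` : **NOT BOTH** `E_new ≠ 0` and an eigenvector `w ≠ 0` with the same eigenvalues at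
  the level `M`.  Inputs: (NU) on the `q`-new torsion of `J₀(M q)` (`S35.H89.Stmt_TorsNU`), (UNIP)
  at the level `M` (`BAD.Stmt_TorsUnip`), Eichler–Shimura at both levels, Frobenius density.
-/

set_option autoImplicit false
set_option linter.unusedSectionVars false
set_option linter.unusedVariables false
set_option linter.style.haveILetI false

open IsLocalRing

noncomputable section

namespace Fermat.Agent.L.Pivot.Geom.H50

open AlgebraicCurve ModularCurve Fermat.Agent.GTor Fermat.Agent.GTor.H58T1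
  Fermat.Agent.GTor.H81 Fermat.Agent.S36.H44 Fermat.Agent.S35.H89

local notation "Kb" => AlgebraicClosure ℚ

section Aux

variable {𝒪 L : Type*} [CommRing 𝒪] [Field L] [Algebra 𝒪 L]

theorem map_intCast_algebraMap {m n : ℕ} (X : Matrix (Fin m) (Fin n) ℤ) :
    (X.map (Int.cast : ℤ → 𝒪)).map (algebraMap 𝒪 L) = X.map (Int.cast : ℤ → L) := by
  ext i j
  simp only [Matrix.map_apply, map_intCast]

theorem actL_intCast {r : ℕ} (X : Matrix (Fin r) (Fin r) ℤ) (u : Fin r → L) :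
    actL (X.map (Int.cast : ℤ → 𝒪)) u = (X.map (Int.cast : ℤ → L)).mulVec u := by
  unfold actL
  rw [map_intCast_algebraMap]

end Aux

section NewSub

variable {N p : ℕ} [NeZero N] {S : Set ℕ} (C : TateCoords N p S) {r' : ℕ}
  (Aα Aβ : Matrix (Fin r') (Fin C.r) ℤ) {L : Type*} [Field L] (a : ℕ → L)

/-- the new eigenspace in coordinates. -/
def newSub : Submodule L (Fin C.r → L) where
  carrier := {u | (∀ (ℓ : ℕ) (hℓ : ℓ.Prime) (hℓN : ¬ ℓ ∣ N) (hℓS : ℓ ∉ S),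
      ((C.M (CuspForm.heckeAlgebra.T hℓ hℓN hℓS)).map (Int.cast : ℤ → L)).mulVec u = a ℓ • u) ∧
    (Aα.map (Int.cast : ℤ → L)).mulVec u = 0 ∧ (Aβ.map (Int.cast : ℤ → L)).mulVec u = 0}
  zero_mem' := ⟨fun ℓ hℓ hℓN hℓS => by rw [Matrix.mulVec_zero, smul_zero],
    Matrix.mulVec_zero _, Matrix.mulVec_zero _⟩
  add_mem' := by
    rintro u u' ⟨h1, h2, h3⟩ ⟨h1', h2', h3'⟩
    refine ⟨fun ℓ hℓ hℓN hℓS => ?_, ?_, ?_⟩
    · rw [Matrix.mulVec_add, h1, h1', smul_add]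
    · rw [Matrix.mulVec_add, h2, h2', add_zero]
    · rw [Matrix.mulVec_add, h3, h3', add_zero]
  smul_mem' := by
    rintro c u ⟨h1, h2, h3⟩
    refine ⟨fun ℓ hℓ hℓN hℓS => ?_, ?_, ?_⟩
    · rw [Matrix.mulVec_smul, h1, smul_comm]
    · rw [Matrix.mulVec_smul, h2, smul_zero]
    · rw [Matrix.mulVec_smul, h3, smul_zero]

theorem mem_newSub {u : Fin C.r → L} : u ∈ newSub C Aα Aβ a ↔
    (∀ (ℓ : ℕ) (hℓ : ℓ.Prime) (hℓN : ¬ ℓ ∣ N) (hℓS : ℓ ∉ S),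
      ((C.M (CuspForm.heckeAlgebra.T hℓ hℓN hℓS)).map (Int.cast : ℤ → L)).mulVec u = a ℓ • u) ∧
    (Aα.map (Int.cast : ℤ → L)).mulVec u = 0 ∧ (Aβ.map (Int.cast : ℤ → L)).mulVec u = 0 :=
  Iff.rfl

end NewSub

section Stable

variable {N N' p : ℕ} [NeZero N] [NeZero N'] [Fact p.Prime] {S : Set ℕ}
  {C : TateCoords N' p S} {C' : TateCoords N p S}
variable {𝒪 : Type} [CommRing 𝒪] [IsLocalRing 𝒪]
  [IsAdicComplete (maximalIdeal 𝒪) 𝒪]
  {hp : (p : 𝒪) ∈ maximalIdeal 𝒪} (Lm : TateLimit C 𝒪 hp) (Lm' : TateLimit C' 𝒪 hp)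
variable {L : Type*} [Field L] [Algebra 𝒪 L] (a : ℕ → L)

/-- a matrix intertwined with the Galois matrices: its kernel over `L` is stable. -/
theorem ker_stable (X : Matrix (Fin C'.r) (Fin C.r) ℤ) (σ : GQ)
    (h : X.map (Int.cast : ℤ → 𝒪) * Lm.ρL σ = Lm'.ρL σ * X.map (Int.cast : ℤ → 𝒪))
    {u : Fin C.r → L} (hu : (X.map (Int.cast : ℤ → L)).mulVec u = 0) :
    (X.map (Int.cast : ℤ → L)).mulVec (actL (Lm.ρL σ) u) = 0 := by
  unfold actL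
  rw [← map_intCast_algebraMap (𝒪 := 𝒪) X, Matrix.mulVec_mulVec, ← Matrix.map_mul, h,
    Matrix.map_mul, ← Matrix.mulVec_mulVec, map_intCast_algebraMap, hu, Matrix.mulVec_zero]

/-- **the new eigenspace is stable under the Galois group.** -/
theorem newSub_stable (Aα Aβ : Matrix (Fin C'.r) (Fin C.r) ℤ) (σ : GQ)
    (hα : Aα.map (Int.cast : ℤ → 𝒪) * Lm.ρL σ = Lm'.ρL σ * Aα.map (Int.cast : ℤ → 𝒪))
    (hβ : Aβ.map (Int.cast : ℤ → 𝒪) * Lm.ρL σ = Lm'.ρL σ * Aβ.map (Int.cast : ℤ → 𝒪))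
    {u : Fin C.r → L} (hu : u ∈ newSub C Aα Aβ a) :
    actL (Lm.ρL σ) u ∈ newSub C Aα Aβ a := by
  obtain ⟨h1, h2, h3⟩ := hu
  refine ⟨fun ℓ hℓ hℓN hℓS => ?_, ker_stable Lm Lm' Aα σ hα h2, ker_stable Lm Lm' Aβ σ hβ h3⟩
  have hc := Lm.comm σ (CuspForm.heckeAlgebra.T hℓ hℓN hℓS)
  rw [← actL_intCast (𝒪 := 𝒪), ← actL_mul]
  have e : Mc 𝒪 C.M (CuspForm.heckeAlgebra.T hℓ hℓN hℓS)
      = (C.M (CuspForm.heckeAlgebra.T hℓ hℓN hℓS)).map (Int.cast : ℤ → 𝒪) := rfl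
  rw [← e, ← hc, actL_mul, e, actL_intCast, h1, actL_vec_smul]

end Stable

/-! ## the representation over `L` -/

section RepL

variable {𝒪 L : Type*} [CommRing 𝒪] [Field L] [Algebra 𝒪 L] {r : ℕ} {G : Type*} [Group G]

/-- a matrix representation over `𝒪` as a representation on `L ^ r`. -/
def repEnd (ρ : G →* Matrix (Fin r) (Fin r) 𝒪) : G →* Module.End L (Fin r → L) where
  toFun g := Matrix.toLin' ((ρ g).map (algebraMap 𝒪 L))
  map_one' := by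
    rw [map_one, Matrix.map_one (algebraMap 𝒪 L) (map_zero _) (map_one _), Matrix.toLin'_one]
    rfl
  map_mul' g h := by
    rw [map_mul, Matrix.map_mul, Matrix.toLin'_mul]
    rfl

theorem repEnd_apply (ρ : G →* Matrix (Fin r) (Fin r) 𝒪) (g : G) (u : Fin r → L) :
    repEnd (L := L) ρ g u = actL (ρ g) u := by
  show Matrix.toLin' ((ρ g).map (algebraMap 𝒪 L)) u = _
  rw [Matrix.toLin'_apply]
  rfl

end RepL

/-! ## the core -/

section Core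

variable {M q p : ℕ} [NeZero M] [NeZero q] [Fact p.Prime] {S : Finset ℕ}
  {C : TateCoords (M * q) p (↑S : Set ℕ)} {C' : TateCoords M p (↑S : Set ℕ)}

/-- **PVG-N2 in coordinates.** -/
theorem newJ0_core (hNS : ∀ l : ℕ, l.Prime → l ∣ M * q → l ∈ S)
    (hq : q.Prime) (hqM : q ∣ M) (hq2 : ¬ q ^ 2 ∣ M) (hqp : q ≠ p)
    (hNU : Stmt_TorsNU M q p) (hU : Fermat.Agent.BAD.Stmt_TorsUnip M p)
    (Aα Aβ : Matrix (Fin C'.r) (Fin C.r) ℤ)
    (hpα : ∀ (k : ℕ) (x : Jtor (M * q) (p ^ k)) (y : Jtor M (p ^ k)),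
      (y : JZero M) = alphaPush M q (x : JZero (M * q)) →
        C'.θ k y = (Aα.map (Int.cast : ℤ → ZMod (p ^ k))).mulVec (C.θ k x))
    (hpβ : ∀ (k : ℕ) (x : Jtor (M * q) (p ^ k)) (y : Jtor M (p ^ k)),
      (y : JZero M) = betaPush M q (x : JZero (M * q)) →
        C'.θ k y = (Aβ.map (Int.cast : ℤ → ZMod (p ^ k))).mulVec (C.θ k x))
    (hkα : ∀ (k : ℕ) (x : Jtor (M * q) (p ^ k)),
      (Aα.map (Int.cast : ℤ → ZMod (p ^ k))).mulVec (C.θ k x) = 0 →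
        alphaPush M q (x : JZero (M * q)) = 0)
    (hkβ : ∀ (k : ℕ) (x : Jtor (M * q) (p ^ k)),
      (Aβ.map (Int.cast : ℤ → ZMod (p ^ k))).mulVec (C.θ k x) = 0 →
        betaPush M q (x : JZero (M * q)) = 0)
    {𝒪 : Type} [CommRing 𝒪] [IsDomain 𝒪] [IsDiscreteValuationRing 𝒪]
    [IsAdicComplete (maximalIdeal 𝒪) 𝒪] (hp : (p : 𝒪) ∈ maximalIdeal 𝒪) (hp0 : (p : 𝒪) ≠ 0)
    {L : Type} [Field L] [Algebra 𝒪 L] (hinj : Function.Injective (algebraMap 𝒪 L))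
    (a : ℕ → L) (hE : newSub C Aα Aβ a ≠ ⊥)
    (w : Fin C'.r → L) (hw : w ≠ 0)
    (hweig : ∀ (ℓ : ℕ) (hℓ : ℓ.Prime) (hℓN : ¬ ℓ ∣ M) (hℓNq : ¬ ℓ ∣ M * q)
      (hℓS : ℓ ∉ (↑S : Set ℕ)),
      ((C'.M (CuspForm.heckeAlgebra.T hℓ hℓN hℓS)).map (Int.cast : ℤ → L)).mulVec w = a ℓ • w) :
    False := by
  have hpp : p.Prime := Fact.out
  obtain ⟨A, hA, c, hc⟩ := hNU hq hqM hq2 hpp hqp
  obtain ⟨Lm⟩ := exists_tateLimit C 𝒪 hp
  obtain ⟨Lm'⟩ := exists_tateLimit C' 𝒪 hp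
  have hES : Stmt_TorsES (M * q) p := torsES_of_red hpp (Fermat.Agent.R.H33.allRed (M * q) p)
  have hES' : Stmt_TorsES M p := torsES_of_red hpp (Fermat.Agent.R.H33.allRed M p)
  -- the intertwining relations
  have hiα : ∀ σ : GQ, Aα.map (Int.cast : ℤ → 𝒪) * Lm.ρL σ
      = Lm'.ρL σ * Aα.map (Int.cast : ℤ → 𝒪) := fun σ =>
    intertwine_limit Lm Lm' Aα (fun σ k => intertwine_level (alphaPush M q)
      (fun σ x => alphaPush_smul M q σ x) Aα hpα σ k) σ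
  have hiβ : ∀ σ : GQ, Aβ.map (Int.cast : ℤ → 𝒪) * Lm.ρL σ
      = Lm'.ρL σ * Aβ.map (Int.cast : ℤ → 𝒪) := fun σ =>
    intertwine_limit Lm Lm' Aβ (fun σ k => intertwine_level (betaPush M q)
      (fun σ x => betaPush_smul M q σ x) Aβ hpβ σ k) σ
  -- stability
  have hstab : ∀ σ : GQ, ∀ u ∈ newSub C Aα Aβ a, actL (Lm.ρL σ) u ∈ newSub C Aα Aβ a :=
    fun σ u hu => newSub_stable Lm Lm' a Aα Aβ σ (hiα σ) (hiβ σ) hu
  -- unipotence on the new eigenspace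
  have hunip : ∀ g ∈ A.inertiaSubgroupIn ℚ, ∀ u ∈ newSub C Aα Aβ a,
      actL (Lm.ρL g) (actL (Lm.ρL g) u) - actL (Lm.ρL g) u - actL (Lm.ρL g) u + u = 0 := by
    intro g hg
    refine unip_of_es Lm Lm' hNS hES hES' hq hqp A hA a
      (↑(newSub C Aα Aβ a) : Set (Fin C.r → L)) w hw ?_ ?_ g hg (fun v hv => hstab g v hv) ?_
    · intro ℓ hℓ hℓN hℓS v hv
      have e : Mc 𝒪 C.M (CuspForm.heckeAlgebra.T hℓ hℓN hℓS)
          = (C.M (CuspForm.heckeAlgebra.T hℓ hℓN hℓS)).map (Int.cast : ℤ → 𝒪) := rfl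
      rw [e, actL_intCast]
      exact hv.1 ℓ hℓ hℓN hℓS
    · intro ℓ hℓ hℓN hℓNq hℓS
      have e : Mc 𝒪 C'.M (CuspForm.heckeAlgebra.T hℓ hℓN hℓS)
          = (C'.M (CuspForm.heckeAlgebra.T hℓ hℓN hℓS)).map (Int.cast : ℤ → 𝒪) := rfl
      rw [e, actL_intCast]
      exact hweig ℓ hℓ hℓN hℓNq hℓS
    · exact limit_unip Lm' (fun x hx => hU q hq hqM hq2 hqp A hA g hg g hg x hx)
  -- the common fixed vector
  let ρE : ↥(A.inertiaSubgroupIn ℚ) →* Module.End L (Fin C.r → L) :=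
    (repEnd (L := L) Lm.ρL).comp (A.inertiaSubgroupIn ℚ).subtype
  have hρE : ∀ (g : ↥(A.inertiaSubgroupIn ℚ)) (u : Fin C.r → L),
      ρE g u = actL (Lm.ρL (g : GQ)) u := fun g u => repEnd_apply Lm.ρL (g : GQ) u
  obtain ⟨v₀, hv₀, hv₀0, hfix⟩ := exists_fixed_of_unip ρE (newSub C Aα Aβ a) hE
    (fun g u hu => by rw [hρE]; exact hstab (g : GQ) u hu)
    (fun g u hu => by rw [hρE, hρE]; exact hunip (g : GQ) g.2 u hu)
  -- descent to `𝒪`
  apply hv₀0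
  let PC : PushCoords C := ⟨C'.r, Aα, Aβ, hkα, hkβ⟩
  let R : Set (Fin C.r → 𝒪) := {z |
    (∃ g ∈ A.inertiaSubgroupIn ℚ, ∃ i, z = fun k => (Lm.ρL g - 1) i k) ∨
    (∃ i, z = fun k => (Aα.map (Int.cast : ℤ → 𝒪)) i k) ∨
    (∃ i, z = fun k => (Aβ.map (Int.cast : ℤ → 𝒪)) i k)}
  refine descend_zero hinj R ?_ v₀ ?_
  · intro u hu
    refine limit_NU_new Lm hp0 PC hc u ?_ ?_ ?_
    · intro σ hσ
      have h1 : (Lm.ρL σ - 1).mulVec u = 0 := by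
        funext i
        exact hu _ (Or.inl ⟨σ, hσ, i, rfl⟩)
      rw [Matrix.sub_mulVec, Matrix.one_mulVec, sub_eq_zero] at h1
      exact h1
    · funext i
      exact hu _ (Or.inr (Or.inl ⟨i, rfl⟩))
    · funext i
      exact hu _ (Or.inr (Or.inr ⟨i, rfl⟩))
  · rintro z (⟨g, hg, i, rfl⟩ | ⟨i, rfl⟩ | ⟨i, rfl⟩)
    · have h1 : actL (Lm.ρL g - 1) v₀ = 0 := by
        rw [actL_sub, actL_one, ← hρE ⟨g, hg⟩, hfix, sub_self]
      exact congrFun h1 i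
    · have h1 := congrFun hv₀.2.1 i
      rw [← map_intCast_algebraMap (𝒪 := 𝒪)] at h1
      exact h1
    · have h1 := congrFun hv₀.2.2 i
      rw [← map_intCast_algebraMap (𝒪 := 𝒪)] at h1
      exact h1

end Core

end Fermat.Agent.L.Pivot.Geom.H50
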