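import Fermat.Agent.L.Pivot.Geom.H81_PushSpec
import Fermat.Agent.L.Pivot.Geom.H24_B2Asm

/-!
# PIVOT, PV-GEOM part II: the coordinates of the push-forwards, `α` half plugged in  (helper81)

* `stmt_B2Alpha : Stmt_B2Alpha M q` (helper24's `torChar_alphaPush`);
* `exists_pushSpec_of_beta` : `exists_pushSpec` with `Stmt_B2Beta M q` as the only hypothesis.
-/

set_option autoImplicit false

noncomputable section

namespace Fermat.Agent.L.Pivot.Geom.H81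

open AlgebraicCurve ModularCurve CongruenceSubgroup Fermat.Agent.GTor Fermat.Agent.Betti
open Fermat.Agent.GTor.H81 Fermat.Agent.S41 Fermat.Agent.S36.H44
open scoped MatrixGroups

/-- **(B-2) for `α`** (helper24). -/
theorem stmt_B2Alpha (M q : ℕ) [NeZero M] [NeZero q] : Stmt_B2Alpha M q :=
  fun n _ ι x φ h => Fermat.Agent.L.Pivot.Geom.H24.torChar_alphaPush M q n ι x φ h

/-- **The coordinates of the degeneracy push-forwards**, from (B-2) for `β` alone. -/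
theorem exists_pushSpec_of_beta (M q p : ℕ) [NeZero M] [NeZero q] (S : Set ℕ) (hp : p.Prime)
    (hNS : ∀ ℓ : ℕ, ℓ.Prime → ℓ ∣ M * q → ℓ ∈ S) (ι : AlgebraicClosure ℚ →+* ℂ)
    (hBβ : Stmt_B2Beta M q) :
    ∃ (C : TateCoords (M * q) p S) (C' : TateCoords M p S)
      (b : Fin C.r → (Additive (Gamma0 (M * q)) →+ ℤ))
      (b' : Fin C'.r → (Additive (Gamma0 M) →+ ℤ))
      (Aα Aβ : Matrix (Fin C'.r) (Fin C.r) ℤ),
      IsParBasis (M * q) b ∧ IsParBasis M b' ∧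
      (∀ (k : ℕ) (x : Jtor (M * q) (p ^ k)),
        TorChar (M * q) (p ^ k) ι (x : JZero (M * q)) (coordFun b (p ^ k) (C.θ k x))) ∧
      (∀ (k : ℕ) (y : Jtor M (p ^ k)),
        TorChar M (p ^ k) ι (y : JZero M) (coordFun b' (p ^ k) (C'.θ k y))) ∧
      (∀ (ℓ : ℕ) (hℓ : ℓ.Prime) (hℓN : ¬ ℓ ∣ M * q) (hℓS : ℓ ∉ S) (j : Fin C.r),
        TB (M * q) ℤ hℓ hℓN (b j) = ∑ i, C.M (CuspForm.heckeAlgebra.T hℓ hℓN hℓS) i j • b i) ∧
      (∀ (ℓ : ℕ) (hℓ : ℓ.Prime) (hℓN : ¬ ℓ ∣ M) (hℓS : ℓ ∉ S) (j : Fin C'.r),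
        TB M ℤ hℓ hℓN (b' j) = ∑ i, C'.M (CuspForm.heckeAlgebra.T hℓ hℓN hℓS) i j • b' i) ∧
      (∀ j, cor1 M q ℤ (b j) = ∑ i, Aα i j • b' i) ∧
      (∀ j, cor2 M q ℤ (b j) = ∑ i, Aβ i j • b' i) ∧
      (∀ (k : ℕ) (x : Jtor (M * q) (p ^ k)) (y : Jtor M (p ^ k)),
        (y : JZero M) = alphaPush M q (x : JZero (M * q)) →
          C'.θ k y = (Aα.map (Int.cast : ℤ → ZMod (p ^ k))).mulVec (C.θ k x)) ∧
      (∀ (k : ℕ) (x : Jtor (M * q) (p ^ k)) (y : Jtor M (p ^ k)),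
        (y : JZero M) = betaPush M q (x : JZero (M * q)) →
          C'.θ k y = (Aβ.map (Int.cast : ℤ → ZMod (p ^ k))).mulVec (C.θ k x)) ∧
      (∀ (k : ℕ) (x : Jtor (M * q) (p ^ k)),
        (Aα.map (Int.cast : ℤ → ZMod (p ^ k))).mulVec (C.θ k x) = 0 →
          alphaPush M q (x : JZero (M * q)) = 0) ∧
      (∀ (k : ℕ) (x : Jtor (M * q) (p ^ k)),
        (Aβ.map (Int.cast : ℤ → ZMod (p ^ k))).mulVec (C.θ k x) = 0 →
          betaPush M q (x : JZero (M * q)) = 0) :=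
  exists_pushSpec M q p S hp hNS ι (stmt_B2Alpha M q) hBβ

end Fermat.Agent.L.Pivot.Geom.H81
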