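import Fermat.Agent.L.Pivot.Geom.H50_NewJ0Defs
import Fermat.Agent.L.Pivot.Geom.H50_NewCore
import Fermat.Agent.L.Pivot.Geom.H50_CoordR
import Fermat.Agent.L.Pivot.Geom.H81_PushSpecA

/-!
# PIVOT, PV-GEOM part II, leaf PVG-N2 (helper50): `Stmt_NewJ0`

* `newJ0_of : S35.H89.Stmt_TorsNU M q p → BAD.Stmt_TorsUnip M p → Geom.H81.Stmt_B2Beta M q →
  Stmt_NewJ0 M q p`.

Proof.  Coordinatised Tate systems `C`, `C'` of `J₀(M q)`, `J₀(M)` in parabolic bases `b`, `b'`,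
with the integer matrices `Aα`, `Aβ` of `cor1`, `cor2` (helper81's `exists_pushSpec_of_beta`).
The coordinates `v` of `Φ` lie in the new eigenspace `E_new = newSub C Aα Aβ a ≠ 0`, the
coordinates `w ≠ 0` of `Φ'` are an eigenvector at the level `M`; `newJ0_core` concludes.
-/

set_option autoImplicit false
set_option linter.unusedSectionVars false
set_option linter.unusedVariables false
set_option linter.style.haveILetI false

open IsLocalRing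

noncomputable section

namespace Fermat.Agent.L.Pivot.Geom.H50

open AlgebraicCurve ModularCurve CongruenceSubgroup Fermat.Agent.GTor Fermat.Agent.GTor.H81
  Fermat.Agent.Betti Fermat.Agent.S41 Fermat.Agent.S36.H44 Fermat.Agent.S35.H89

local notation "Kb" => AlgebraicClosure ℚ

/-- a local domain with `0 ≠ p ∈ 𝔪` has characteristic zero. -/
theorem charZero_of_mem_maximalIdeal {𝒪 : Type*} [CommRing 𝒪] [IsDomain 𝒪] [IsLocalRing 𝒪]
    {p : ℕ} (hp : p.Prime) (hpm : (p : 𝒪) ∈ maximalIdeal 𝒪) (hp0 : (p : 𝒪) ≠ 0) :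
    CharZero 𝒪 := by
  obtain ⟨c, hc⟩ := CharP.exists 𝒪
  rcases CharP.char_is_prime_or_zero 𝒪 c with hcp | hc0
  · exfalso
    by_cases hcpe : c = p
    · subst hcpe
      exact hp0 (CharP.cast_eq_zero 𝒪 c)
    · have hco : Nat.Coprime p c := (Nat.coprime_primes hp hcp).2 (Ne.symm hcpe)
      have hI : IsCoprime (p : ℤ) (c : ℤ) := Nat.isCoprime_iff_coprime.2 hco
      obtain ⟨u, v, huv⟩ := hI
      have h1 := congrArg (Int.cast : ℤ → 𝒪) huv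
      push_cast at h1
      rw [CharP.cast_eq_zero 𝒪 c, mul_zero, add_zero] at h1
      have hu : IsUnit (p : 𝒪) := IsUnit.of_mul_eq_one _ (by rw [mul_comm]; exact h1)
      exact (mem_maximalIdeal _).1 hpm hu
  · subst hc0
    exact CharP.charP_to_charZero 𝒪

/-- **PVG-N2**: `Stmt_NewJ0` from (NU), (UNIP) at the level `M` and (B-2) for `β`. -/
theorem newJ0_of {M q p : ℕ} [NeZero M] [NeZero q] (hNU : Stmt_TorsNU M q p)
    (hU : Fermat.Agent.BAD.Stmt_TorsUnip M p)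
    (hBβ : Fermat.Agent.L.Pivot.Geom.H81.Stmt_B2Beta M q) : Stmt_NewJ0 M q p := by
  intro hq hqM hq2 hp hqp S 𝒪 _ _ _ _ hp𝒪 hp0 L _ _ hinj a Φ hΦ0 hΦpar hΦeig hΦ1 hΦ2
    Φ' hΦ'0 hΦ'par hΦ'eig
  haveI : Fact p.Prime := ⟨hp⟩
  haveI : CharZero 𝒪 := charZero_of_mem_maximalIdeal hp hp𝒪 hp0
  haveI : CharZero L := charZero_of_injective_algebraMap hinj
  -- the set of primes
  let S₂ : Finset ℕ := insert p (S ∪ (M * q).primeFactors)
  have hMq0 : M * q ≠ 0 := Nat.mul_ne_zero (NeZero.ne M) (NeZero.ne q)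
  have hNS : ∀ l : ℕ, l.Prime → l ∣ M * q → l ∈ S₂ := fun l hl hd =>
    Finset.mem_insert_of_mem (Finset.mem_union_right _ (Nat.mem_primeFactors.2 ⟨hl, hd, hMq0⟩))
  have hS₂S : ∀ l : ℕ, l ∉ (↑S₂ : Set ℕ) → l ∉ S := fun l hl h =>
    hl (Finset.mem_coe.2 (Finset.mem_insert_of_mem (Finset.mem_union_left _ h)))
  have hS₂p : ∀ l : ℕ, l ∉ (↑S₂ : Set ℕ) → l ≠ p := fun l hl h =>
    hl (Finset.mem_coe.2 (by rw [h]; exact Finset.mem_insert_self p _))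
  have halg : Algebra.IsAlgebraic ℚ Kb := AlgebraicClosure.isAlgebraic ℚ
  obtain ⟨ι⟩ : Nonempty (Kb →+* ℂ) := ⟨((IsAlgClosed.lift : Kb →ₐ[ℚ] ℂ) : Kb →+* ℂ)⟩
  obtain ⟨C, C', b, b', Aα, Aβ, hb, hb', -, -, hT, hT', hα, hβ, hpα, hpβ, hkα, hkβ⟩ :=
    Fermat.Agent.L.Pivot.Geom.H81.exists_pushSpec_of_beta M q p (↑S₂ : Set ℕ) hp
      (fun l hl h => Finset.mem_coe.2 (hNS l hl h)) ι hBβ
  -- the coordinates
  obtain ⟨v, hv⟩ := exists_coordR hb Φ hΦpar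
  obtain ⟨w, hw⟩ := exists_coordR hb' Φ' hΦ'par
  have hv0 : v ≠ 0 := by
    rintro rfl
    exact hΦ0 (by rw [hv, coordR_zero])
  have hw0 : w ≠ 0 := by
    rintro rfl
    exact hΦ'0 (by rw [hw, coordR_zero])
  have hveig : ∀ (ℓ : ℕ) (hℓ : ℓ.Prime) (hℓN : ¬ ℓ ∣ M * q) (hℓS : ℓ ∉ (↑S₂ : Set ℕ)),
      ((C.M (CuspForm.heckeAlgebra.T hℓ hℓN hℓS)).map (Int.cast : ℤ → L)).mulVec v = a ℓ • v := by
    intro ℓ hℓ hℓN hℓS
    have h1 := hΦeig ℓ hℓ hℓN (hS₂S ℓ hℓS) (hS₂p ℓ hℓS)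
    rw [hv, TB_coordR L hℓ hℓN _ (hT ℓ hℓ hℓN hℓS), ← coordR_smul] at h1
    exact coordR_injective hb h1
  have hweig : ∀ (ℓ : ℕ) (hℓ : ℓ.Prime) (hℓN : ¬ ℓ ∣ M) (hℓNq : ¬ ℓ ∣ M * q)
      (hℓS : ℓ ∉ (↑S₂ : Set ℕ)),
      ((C'.M (CuspForm.heckeAlgebra.T hℓ hℓN hℓS)).map (Int.cast : ℤ → L)).mulVec w = a ℓ • w := by
    intro ℓ hℓ hℓN hℓNq hℓS
    have h1 := hΦ'eig ℓ hℓ hℓN hℓNq (hS₂S ℓ hℓS) (hS₂p ℓ hℓS)
    rw [hw, TB_coordR L hℓ hℓN _ (hT' ℓ hℓ hℓN hℓS), ← coordR_smul] at h1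
    exact coordR_injective hb' h1
  have hvα : (Aα.map (Int.cast : ℤ → L)).mulVec v = 0 := by
    have h1 : corAlong L (inclG M q) (coordR b L v) = 0 := by rw [← hv]; exact hΦ1
    rw [corAlong_coordR L (inclG M q) Aα hα] at h1
    exact coordR_eq_zero hb' h1
  have hvβ : (Aβ.map (Int.cast : ℤ → L)).mulVec v = 0 := by
    have h1 : corAlong L (conjG M q) (coordR b L v) = 0 := by rw [← hv]; exact hΦ2
    rw [corAlong_coordR L (conjG M q) Aβ hβ] at h1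
    exact coordR_eq_zero hb' h1
  refine newJ0_core hNS hq hqM hq2 hqp hNU hU Aα Aβ hpα hpβ hkα hkβ hp𝒪 hp0 hinj a ?_ w hw0 hweig
  intro h
  have hmem : v ∈ newSub C Aα Aβ a := ⟨hveig, hvα, hvβ⟩
  rw [h, Submodule.mem_bot] at hmem
  exact hv0 hmem

end Fermat.Agent.L.Pivot.Geom.H50
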