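import Fermat.Agent.Betti.Defs
import Fermat.Agent.S41.Defs

/-!
# PIVOT, PV-GEOM part II, leaf PVG-N2 (helper50): the statement `Stmt_NewJ0`

Level `M q`, `q ∥ M`, `q ≠ p`.  `𝒪` a complete discrete valuation ring with `0 ≠ p ∈ 𝔪`, `L` ANY
field containing `𝒪` (for instance `AlgebraicClosure (FractionRing 𝒪)`), `a : ℕ → L`, `S` a finite
set of primes.  **NOT BOTH**

* (i)  a parabolic `0 ≠ Φ : Γ₀(M q) → L` with `T_ℓ Φ = a ℓ • Φ` for the primes `ℓ ∤ M q`, `ℓ ∉ S`,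
  `ℓ ≠ p`, which is `q`-new: `cor1 Φ = 0 = cor2 Φ`;
* (ii) a parabolic `0 ≠ Φ' : Γ₀(M) → L` with `T_ℓ Φ' = a ℓ • Φ'` for the same primes.

Proof: `Fermat/Agent/L/Pivot/Geom/H50_NewJ0.lean` (`H50.newJ0_of`), from (NU)
(`S35.H89.Stmt_TorsNU M q p`), (UNIP) at the level `M` (`BAD.Stmt_TorsUnip M p`) and (B-2) for `β`
(`Geom.H81.Stmt_B2Beta M q`).
-/

set_option autoImplicit false

namespace Fermat.Agent.L.Pivot.Geom.H50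

open CongruenceSubgroup ModularCurve.Period Fermat.Agent.Betti Fermat.Agent.S41

/-- **PVG-N2**: a system of eigenvalues which occurs in the `q`-new part of the level `M q`
(`q ∥ M`) does not occur at the level `M`. -/
def Stmt_NewJ0 (M q p : ℕ) [NeZero M] [NeZero q] : Prop :=
  q.Prime → q ∣ M → ¬ q ^ 2 ∣ M → p.Prime → q ≠ p →
  ∀ (S : Finset ℕ)
    (𝒪 : Type) [CommRing 𝒪] [IsDomain 𝒪] [IsDiscreteValuationRing 𝒪]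
    [IsAdicComplete (IsLocalRing.maximalIdeal 𝒪) 𝒪],
    (p : 𝒪) ∈ IsLocalRing.maximalIdeal 𝒪 → (p : 𝒪) ≠ 0 →
  ∀ (L : Type) [Field L] [Algebra 𝒪 L], Function.Injective (algebraMap 𝒪 L) →
  ∀ (a : ℕ → L)
    (Φ : Additive (Gamma0 (M * q)) →+ L), Φ ≠ 0 → IsParabolicHom (Gamma0 (M * q)) Φ →
    (∀ (ℓ : ℕ) (hℓ : ℓ.Prime) (hℓN : ¬ ℓ ∣ M * q), ℓ ∉ S → ℓ ≠ p →
      TB (M * q) L hℓ hℓN Φ = a ℓ • Φ) →
    cor1 M q L Φ = 0 → cor2 M q L Φ = 0 →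
  ∀ (Φ' : Additive (Gamma0 M) →+ L), Φ' ≠ 0 → IsParabolicHom (Gamma0 M) Φ' →
    (∀ (ℓ : ℕ) (hℓ : ℓ.Prime) (hℓN : ¬ ℓ ∣ M), ¬ ℓ ∣ M * q → ℓ ∉ S → ℓ ≠ p →
      TB M L hℓ hℓN Φ' = a ℓ • Φ') →
    False

end Fermat.Agent.L.Pivot.Geom.H50
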