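import Fermat.Agent.L.Pivot.Geom.H50_NewJ0
import Fermat.Agent.L.Pivot.Geom.H24_B2
import Fermat.Agent.S34.H91_Chain3
import Fermat.Agent.BAD.H23_TotMod

/-!
# PIVOT, PV-GEOM part II, leaf PVG-N2 (helper50): `Stmt_NewJ0` with (B-2) and (UNIP) plugged in

* `stmt_B2Beta : q.Prime → q ∣ M → Geom.H81.Stmt_B2Beta M q` (helper24's `torChar_betaPush`);
* `stmt_TorsUnip_h50 : p.Prime → BAD.Stmt_TorsUnip N p` (the chain of S34, helper91/helper23/
  helper82);
* `newJ0_of_tors : S35.H89.Stmt_TorsNU M q p → BAD.Stmt_TorsUnip M p → Stmt_NewJ0 M q p`;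
* `newJ0_of_torsNU : S35.H89.Stmt_TorsNU M q p → Stmt_NewJ0 M q p`  — the ONLY remaining input is
  (NU) on the `q`-new torsion of `J₀(M q)` (item S36).
-/

set_option autoImplicit false

noncomputable section

namespace Fermat.Agent.L.Pivot.Geom.H50

/-- **(B-2) for `β`** (helper24). -/
theorem stmt_B2Beta (M q : ℕ) [NeZero M] [NeZero q] (hq : q.Prime) (hqM : q ∣ M) :
    Fermat.Agent.L.Pivot.Geom.H81.Stmt_B2Beta M q :=
  fun n _ ι x φ h => Fermat.Agent.L.Pivot.Geom.H24.torChar_betaPush M q n hq hqM ι x φ h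

/-- **PVG-N2**: `Stmt_NewJ0` from (NU) at the level `M q` and (UNIP) at the level `M`. -/
theorem newJ0_of_tors {M q p : ℕ} [NeZero M] [NeZero q]
    (hNU : Fermat.Agent.S35.H89.Stmt_TorsNU M q p)
    (hU : Fermat.Agent.BAD.Stmt_TorsUnip M p) : Stmt_NewJ0 M q p :=
  fun hq hqM => newJ0_of hNU hU (stmt_B2Beta M q hq hqM) hq hqM

/-- the law of total conservation for the modular datum (as in `Fermat/Agent/S34.lean`). -/
theorem stmt_TotMod_h50 : Fermat.Agent.BAD.H91.Stmt_TotMod :=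
  fun A q M a b hab hq _ _ hA hqM ht =>
    Fermat.Agent.BAD.H23.tot_mod A q M a b hab hq hA hqM ht
      (Fermat.Agent.BAD.H82.redField_eq_fullC q M a b hab hq A hA)

/-- **(UNIP)**, unconditional (the chain of S34). -/
theorem stmt_TorsUnip_h50 (N : ℕ) [NeZero N] (p : ℕ) (hp : p.Prime) :
    Fermat.Agent.BAD.Stmt_TorsUnip N p :=
  Fermat.Agent.BAD.H91.torsUnip_of_tame
    (fun M q _ hq hqM hq2 ht =>
      Fermat.Agent.BAD.H91.modSSD_tame_of stmt_TotMod_h50 M q hq hqM hq2 ht) N p hp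

/-- **PVG-N2**: `Stmt_NewJ0` from (NU) at the level `M q` alone. -/
theorem newJ0_of_torsNU {M q p : ℕ} [NeZero M] [NeZero q]
    (hNU : Fermat.Agent.S35.H89.Stmt_TorsNU M q p) : Stmt_NewJ0 M q p :=
  fun hq hqM hq2 hp =>
    newJ0_of_tors hNU (stmt_TorsUnip_h50 M p hp) hq hqM hq2 hp

end Fermat.Agent.L.Pivot.Geom.H50
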