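import Fermat.Agent.S36.H44_Push
import Fermat.Agent.GTor.H2_GalHecke

/-!
# PIVOT, PV-GEOM part II, leaf PVG-N2 (helper50): the degeneracy push-forwards are defined over `ℚ`

* `alphaPush_smul`, `betaPush_smul` : `α_* (σ • x) = σ • α_* x`, `β_* (σ • x) = σ • β_* x` for
  `σ ∈ G_ℚ`, `x ∈ J₀(M q)`.
-/

set_option autoImplicit false
set_option linter.unusedSectionVars false
set_option linter.style.haveILetI false

noncomputable section

namespace Fermat.Agent.L.Pivot.Geom.H50

open AlgebraicCurve AlgebraicCurve.SemilinearAut ModularCurve Fermat.Agent.S36.H44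
  Fermat.Agent.GTor.H2

local notation "Kb" => AlgebraicClosure ℚ

section Generic

variable {K F F' : Type*} [Field K] [Field F] [Field F'] [Algebra K F] [Algebra K F']
variable (g : SemilinearAut K F) (g' : SemilinearAut K F')
variable (φ : F →ₐ[K] F') (hφ : φ.toRingHom.IsIntegral)
variable (hfin : FiniteAlong K φ) (hN : NormFormulaAlong K φ hfin)

/-- the push-forward on `Pic⁰` is equivariant. -/
theorem pic0Push_smul (h : IntertwinesAlong (φ : F →+* F') g g') (x : Pic0 K F') :
    pic0Push φ hφ hfin hN (g' • x) = g • pic0Push φ hφ hfin hN x := by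
  obtain ⟨D, rfl⟩ := Pic0.mk_surjective x
  rw [pic0_smul_mk, pic0Push_mk, pic0Push_mk, pic0_smul_mk]
  refine congrArg Pic0.mk (Subtype.ext ?_)
  rw [coe_degZeroPush, coe_degZeroSMulHom, coe_degZeroSMulHom, coe_degZeroPush]
  exact pushforwardAlong_smul g g' φ hφ h D

end Generic

variable (M q : ℕ) [NeZero M] [NeZero q]

/-- **`α_*` commutes with the Galois action.** -/
theorem alphaPush_smul (σ : Kb ≃ₐ[ℚ] Kb) (x : JZero (M * q)) :
    alphaPush M q (σ • x) = σ • alphaPush M q x := by
  rw [galois_smul_pic0_def, galois_smul_pic0_def]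
  exact pic0Push_smul _ _ _ _ _ _ (intertwines_heckeAlphaBar M q σ) x

/-- **`β_*` commutes with the Galois action.** -/
theorem betaPush_smul (σ : Kb ≃ₐ[ℚ] Kb) (x : JZero (M * q)) :
    betaPush M q (σ • x) = σ • betaPush M q x := by
  rw [galois_smul_pic0_def, galois_smul_pic0_def]
  exact pic0Push_smul _ _ _ _ _ _ (intertwines_heckeBetaBar M q σ) x

end Fermat.Agent.L.Pivot.Geom.H50
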