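import Mathlib

/-!
# PIVOT, PV-GEOM part II, leaf PVG-N2 (helper50): transfer of unipotence  (N3, abstract)

Pure algebra.  `𝒪` a Noetherian local ring, `L` a field over `𝒪`; `ρ : G → M_r(𝒪)`,
`ρ' : G → M_r'(𝒪)` two matrix representations; `E ⊆ L ^ r` a set of vectors, `w ≠ 0` a vector of
`L ^ r'`.

* `scalSub E w` : the pairs `(X, X')` of matrices over `𝒪` acting on `E` and on `w` through a
  common scalar of `L`; an `𝒪`-submodule closed under products (`scalSub_mul`);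
* `mem_of_approx` : a submodule of a finite module over a Noetherian local ring is closed for the
  `𝔪`-adic topology (Krull);
* `lucas_mem` : if `(A + B, A' + B') ∈ scalSub`, `A B = B A = d`, `A' B' = B' A' = d`, then
  `(A ^ j + B ^ j, A' ^ j + B' ^ j) ∈ scalSub`;
* `unip_transfer` : if `g` is approximated by elements `h` with
  `(ρ h + d ρ h⁻¹, ρ' h + d ρ' h⁻¹) ∈ scalSub`, `d → 1`, and `(ρ' g - 1)² = 0`, then
  `(ρ g - 1)² = 0` on `E` (`E` stable under `ρ g`).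
-/

set_option autoImplicit false

open IsLocalRing

namespace Fermat.Agent.L.Pivot.Geom.H50

section Scal

variable {𝒪 L : Type*} [CommRing 𝒪] [Field L] [Algebra 𝒪 L] {r r' : ℕ}

/-- the action of a matrix over `𝒪` on `L ^ r`. -/
def actL (X : Matrix (Fin r) (Fin r) 𝒪) (v : Fin r → L) : Fin r → L :=
  (X.map (algebraMap 𝒪 L)).mulVec v

theorem actL_add (X Y : Matrix (Fin r) (Fin r) 𝒪) (v : Fin r → L) :
    actL (X + Y) v = actL X v + actL Y v := by
  unfold actL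
  rw [Matrix.map_add (algebraMap 𝒪 L) (fun a b => map_add _ a b), Matrix.add_mulVec]

theorem actL_sub (X Y : Matrix (Fin r) (Fin r) 𝒪) (v : Fin r → L) :
    actL (X - Y) v = actL X v - actL Y v := by
  unfold actL
  rw [Matrix.map_sub (algebraMap 𝒪 L) (fun a b => map_sub _ a b), Matrix.sub_mulVec]

theorem actL_mul (X Y : Matrix (Fin r) (Fin r) 𝒪) (v : Fin r → L) :
    actL (X * Y) v = actL X (actL Y v) := by
  unfold actL
  rw [Matrix.map_mul, Matrix.mulVec_mulVec]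

theorem actL_one (v : Fin r → L) : actL (1 : Matrix (Fin r) (Fin r) 𝒪) v = v := by
  unfold actL
  rw [Matrix.map_one (algebraMap 𝒪 L) (map_zero _) (map_one _), Matrix.one_mulVec]

theorem actL_zero (v : Fin r → L) : actL (0 : Matrix (Fin r) (Fin r) 𝒪) v = 0 := by
  unfold actL
  rw [Matrix.map_zero (algebraMap 𝒪 L) (map_zero _), Matrix.zero_mulVec]

theorem actL_smul (a : 𝒪) (X : Matrix (Fin r) (Fin r) 𝒪) (v : Fin r → L) :
    actL (a • X) v = algebraMap 𝒪 L a • actL X v := by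
  unfold actL
  have e : (a • X).map (algebraMap 𝒪 L) = algebraMap 𝒪 L a • X.map (algebraMap 𝒪 L) := by
    ext i j
    simp [Matrix.map_apply, Matrix.smul_apply]
  rw [e, Matrix.smul_mulVec]

theorem actL_vec_smul (X : Matrix (Fin r) (Fin r) 𝒪) (c : L) (v : Fin r → L) :
    actL X (c • v) = c • actL X v := by
  unfold actL
  rw [Matrix.mulVec_smul]

theorem actL_vec_add (X : Matrix (Fin r) (Fin r) 𝒪) (v v' : Fin r → L) :
    actL X (v + v') = actL X v + actL X v' := by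
  unfold actL
  rw [Matrix.mulVec_add]

theorem actL_vec_sub (X : Matrix (Fin r) (Fin r) 𝒪) (v v' : Fin r → L) :
    actL X (v - v') = actL X v - actL X v' := by
  unfold actL
  rw [Matrix.mulVec_sub]

theorem actL_vec_zero (X : Matrix (Fin r) (Fin r) 𝒪) : actL X (0 : Fin r → L) = 0 := by
  unfold actL
  rw [Matrix.mulVec_zero]

variable (E : Set (Fin r → L)) (w : Fin r' → L)

/-- The pairs of matrices acting on `E` and on `w` through a common scalar. -/
def scalSub : Submodule 𝒪 (Matrix (Fin r) (Fin r) 𝒪 × Matrix (Fin r') (Fin r') 𝒪) where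
  carrier := {x | ∃ c : L, (∀ v ∈ E, actL x.1 v = c • v) ∧ actL x.2 w = c • w}
  zero_mem' := ⟨0, fun v _ => by
    show actL (0 : Matrix (Fin r) (Fin r) 𝒪) v = _
    rw [actL_zero, zero_smul], by
    show actL (0 : Matrix (Fin r') (Fin r') 𝒪) w = _
    rw [actL_zero, zero_smul]⟩
  add_mem' := by
    rintro x y ⟨c, hc, hc'⟩ ⟨d, hd, hd'⟩
    refine ⟨c + d, fun v hv => ?_, ?_⟩
    · show actL (x.1 + y.1) v = _
      rw [actL_add, hc v hv, hd v hv, add_smul]
    · show actL (x.2 + y.2) w = _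
      rw [actL_add, hc', hd', add_smul]
  smul_mem' := by
    rintro a x ⟨c, hc, hc'⟩
    refine ⟨algebraMap 𝒪 L a * c, fun v hv => ?_, ?_⟩
    · show actL (a • x.1) v = _
      rw [actL_smul, hc v hv, smul_smul]
    · show actL (a • x.2) w = _
      rw [actL_smul, hc', smul_smul]

variable {E w}

theorem mem_scalSub {x : Matrix (Fin r) (Fin r) 𝒪 × Matrix (Fin r') (Fin r') 𝒪} :
    x ∈ scalSub E w ↔ ∃ c : L, (∀ v ∈ E, actL x.1 v = c • v) ∧ actL x.2 w = c • w := Iff.rfl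

theorem scalSub_mul {X Y : Matrix (Fin r) (Fin r) 𝒪} {X' Y' : Matrix (Fin r') (Fin r') 𝒪}
    (hX : (X, X') ∈ scalSub E w) (hY : (Y, Y') ∈ scalSub E w) :
    (X * Y, X' * Y') ∈ scalSub E w := by
  obtain ⟨c, hc, hc'⟩ := hX
  obtain ⟨d, hd, hd'⟩ := hY
  refine ⟨d * c, fun v hv => ?_, ?_⟩
  · show actL (X * Y) v = _
    have h1 : actL Y v = d • v := hd v hv
    have h2 : actL X v = c • v := hc v hv
    rw [actL_mul, h1, actL_vec_smul, h2, smul_smul]
  · show actL (X' * Y') w = _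
    have h1 : actL Y' w = d • w := hd'
    have h2 : actL X' w = c • w := hc'
    rw [actL_mul, h1, actL_vec_smul, h2, smul_smul]

theorem scalSub_one : ((1 : Matrix (Fin r) (Fin r) 𝒪), (1 : Matrix (Fin r') (Fin r') 𝒪))
    ∈ scalSub E w :=
  ⟨1, fun v _ => by
    show actL (1 : Matrix (Fin r) (Fin r) 𝒪) v = _
    rw [actL_one, one_smul], by
    show actL (1 : Matrix (Fin r') (Fin r') 𝒪) w = _
    rw [actL_one, one_smul]⟩

theorem scalSub_scalar (a : 𝒪) :
    (a • (1 : Matrix (Fin r) (Fin r) 𝒪), a • (1 : Matrix (Fin r') (Fin r') 𝒪))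
      ∈ scalSub E w := by
  have h := (scalSub E w).smul_mem a (scalSub_one (E := E) (w := w))
  exact h

end Scal

/-! ## Krull -/

section Krull

variable {𝒪 : Type*} [CommRing 𝒪] [IsLocalRing 𝒪] [IsNoetherianRing 𝒪]

/-- A submodule of a finite module over a Noetherian local ring is `𝔪`-adically closed. -/
theorem mem_of_approx {Λ : Type*} [AddCommGroup Λ] [Module 𝒪 Λ] [Module.Finite 𝒪 Λ]
    (U : Submodule 𝒪 Λ) (x : Λ)
    (h : ∀ n : ℕ, ∃ y ∈ U, x - y ∈ (maximalIdeal 𝒪 ^ n) • (⊤ : Submodule 𝒪 Λ)) : x ∈ U := by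
  have hsep : (⨅ i : ℕ, maximalIdeal 𝒪 ^ i • ⊤ : Submodule 𝒪 (Λ ⧸ U)) = ⊥ :=
    Ideal.iInf_pow_smul_eq_bot_of_isLocalRing (maximalIdeal 𝒪)
      (maximalIdeal.isMaximal 𝒪).ne_top
  have hx : U.mkQ x ∈ (⨅ i : ℕ, maximalIdeal 𝒪 ^ i • ⊤ : Submodule 𝒪 (Λ ⧸ U)) := by
    rw [Submodule.mem_iInf]
    intro n
    obtain ⟨y, hy, hxy⟩ := h n
    have hy0 : U.mkQ y = 0 := (Submodule.Quotient.mk_eq_zero U).2 hy
    have h1 : U.mkQ x = U.mkQ (x - y) := by
      rw [map_sub, hy0, sub_zero]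
    rw [h1]
    have h2 : Submodule.map U.mkQ ((maximalIdeal 𝒪 ^ n) • (⊤ : Submodule 𝒪 Λ)) ≤
        (maximalIdeal 𝒪 ^ n) • (⊤ : Submodule 𝒪 (Λ ⧸ U)) := by
      rw [Submodule.map_smul'']
      exact Submodule.smul_mono le_rfl le_top
    exact h2 (Submodule.mem_map_of_mem hxy)
  rw [hsep, Submodule.mem_bot] at hx
  exact (Submodule.Quotient.mk_eq_zero U).1 hx

end Krull

/-! ## small matrices -/

section Small

variable {𝒪 : Type*} [CommRing 𝒪] {m n : ℕ}

/-- all entries in the ideal `I`. -/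
def IsSmallMat (I : Ideal 𝒪) (X : Matrix (Fin m) (Fin n) 𝒪) : Prop := ∀ i j, X i j ∈ I

theorem IsSmallMat.add {I : Ideal 𝒪} {X Y : Matrix (Fin m) (Fin n) 𝒪} (hX : IsSmallMat I X)
    (hY : IsSmallMat I Y) : IsSmallMat I (X + Y) := fun i j => I.add_mem (hX i j) (hY i j)

theorem IsSmallMat.sub {I : Ideal 𝒪} {X Y : Matrix (Fin m) (Fin n) 𝒪} (hX : IsSmallMat I X)
    (hY : IsSmallMat I Y) : IsSmallMat I (X - Y) := fun i j => I.sub_mem (hX i j) (hY i j)

theorem IsSmallMat.neg {I : Ideal 𝒪} {X : Matrix (Fin m) (Fin n) 𝒪} (hX : IsSmallMat I X) :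
    IsSmallMat I (-X) := fun i j => I.neg_mem (hX i j)

theorem IsSmallMat.smul {I : Ideal 𝒪} {X : Matrix (Fin m) (Fin n) 𝒪} (hX : IsSmallMat I X)
    (a : 𝒪) : IsSmallMat I (a • X) := fun i j => I.mul_mem_left a (hX i j)

theorem IsSmallMat.smul_of_mem {I : Ideal 𝒪} (X : Matrix (Fin m) (Fin n) 𝒪) {a : 𝒪}
    (ha : a ∈ I) : IsSmallMat I (a • X) := fun i j => I.mul_mem_right (X i j) ha

theorem IsSmallMat.mul_left {I : Ideal 𝒪} {k : ℕ} {X : Matrix (Fin m) (Fin n) 𝒪}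
    (hX : IsSmallMat I X) (Y : Matrix (Fin k) (Fin m) 𝒪) : IsSmallMat I (Y * X) := fun i j => by
  rw [Matrix.mul_apply]
  exact Ideal.sum_mem _ fun a _ => I.mul_mem_left _ (hX a j)

theorem IsSmallMat.mul_right {I : Ideal 𝒪} {k : ℕ} {X : Matrix (Fin m) (Fin n) 𝒪}
    (hX : IsSmallMat I X) (Y : Matrix (Fin n) (Fin k) 𝒪) : IsSmallMat I (X * Y) := fun i j => by
  rw [Matrix.mul_apply]
  exact Ideal.sum_mem _ fun a _ => I.mul_mem_right _ (hX i a)

theorem IsSmallMat.mem_smul_top {I : Ideal 𝒪} {X : Matrix (Fin m) (Fin n) 𝒪}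
    (hX : IsSmallMat I X) : X ∈ I • (⊤ : Submodule 𝒪 (Matrix (Fin m) (Fin n) 𝒪)) := by
  rw [Matrix.matrix_eq_sum_single X]
  refine Submodule.sum_mem _ fun i _ => Submodule.sum_mem _ fun j _ => ?_
  have e : Matrix.single i j (X i j) = X i j • Matrix.single i j (1 : 𝒪) := by
    rw [Matrix.smul_single, smul_eq_mul, mul_one]
  rw [e]
  exact Submodule.smul_mem_smul (hX i j) Submodule.mem_top

theorem pair_mem_smul_top {I : Ideal 𝒪} {r r' : ℕ} {X : Matrix (Fin r) (Fin r) 𝒪}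
    {X' : Matrix (Fin r') (Fin r') 𝒪} (hX : IsSmallMat I X) (hX' : IsSmallMat I X') :
    (X, X') ∈ I • (⊤ : Submodule 𝒪 (Matrix (Fin r) (Fin r) 𝒪 × Matrix (Fin r') (Fin r') 𝒪)) := by
  have h1 : (X, (0 : Matrix (Fin r') (Fin r') 𝒪)) ∈
      I • (⊤ : Submodule 𝒪 (Matrix (Fin r) (Fin r) 𝒪 × Matrix (Fin r') (Fin r') 𝒪)) := by
    have hm : Submodule.map (LinearMap.inl 𝒪 (Matrix (Fin r) (Fin r) 𝒪)
        (Matrix (Fin r') (Fin r') 𝒪)) (I • ⊤) ≤ I • ⊤ := by
      rw [Submodule.map_smul'']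
      exact Submodule.smul_mono le_rfl le_top
    exact hm (Submodule.mem_map_of_mem hX.mem_smul_top)
  have h2 : ((0 : Matrix (Fin r) (Fin r) 𝒪), X') ∈
      I • (⊤ : Submodule 𝒪 (Matrix (Fin r) (Fin r) 𝒪 × Matrix (Fin r') (Fin r') 𝒪)) := by
    have hm : Submodule.map (LinearMap.inr 𝒪 (Matrix (Fin r) (Fin r) 𝒪)
        (Matrix (Fin r') (Fin r') 𝒪)) (I • ⊤) ≤ I • ⊤ := by
      rw [Submodule.map_smul'']
      exact Submodule.smul_mono le_rfl le_top
    exact hm (Submodule.mem_map_of_mem hX'.mem_smul_top)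
  have h3 := Submodule.add_mem _ h1 h2
  rw [Prod.mk_add_mk, add_zero, zero_add] at h3
  exact h3

end Small

end Fermat.Agent.L.Pivot.Geom.H50
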