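import Fermat.Agent.L.Pivot.Geom.H50_Scal

/-!
# PIVOT, PV-GEOM part II, leaf PVG-N2 (helper50): transfer of unipotence  (N3, abstract)

* `lucas_mem` : if `(A + B, A' + B') ∈ scalSub`, `A B = B A = d`, `A' B' = B' A' = d`, then
  `(A ^ j + B ^ j, A' ^ j + B' ^ j) ∈ scalSub`;
* `unip_transfer` : if `g` is approximated by elements `h = g t` with
  `(ρ h + d ρ h⁻¹, ρ' h + d ρ' h⁻¹) ∈ scalSub`, `d → 1`, and `(ρ' g - 1)² = 0`, then
  `(ρ g - 1)² = 0` on `E` (`E` stable under `ρ g`).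
-/

set_option autoImplicit false

open IsLocalRing

namespace Fermat.Agent.L.Pivot.Geom.H50

section Lucas

variable {𝒪 L : Type*} [CommRing 𝒪] [Field L] [Algebra 𝒪 L] {r r' : ℕ}
  {E : Set (Fin r → L)} {w : Fin r' → L}

theorem pow_add_pow_succ_succ {R : Type*} [Ring R] {A B : R} {D : R} (hAB : A * B = D)
    (hBA : B * A = D) (j : ℕ) :
    A ^ (j + 2) + B ^ (j + 2) = (A + B) * (A ^ (j + 1) + B ^ (j + 1)) - D * (A ^ j + B ^ j) := by
  have e1 : B * A ^ (j + 1) = D * A ^ j := by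
    rw [pow_succ', ← mul_assoc, hBA]
  have e2 : A * B ^ (j + 1) = D * B ^ j := by
    rw [pow_succ', ← mul_assoc, hAB]
  rw [add_mul, mul_add, mul_add, mul_add, e1, e2, ← pow_succ', ← pow_succ']
  abel

/-- the Lucas sequence of a pair stays in `scalSub`. -/
theorem lucas_mem {A B : Matrix (Fin r) (Fin r) 𝒪} {A' B' : Matrix (Fin r') (Fin r') 𝒪} (d : 𝒪)
    (hAB : A * B = d • 1) (hBA : B * A = d • 1) (hAB' : A' * B' = d • 1)
    (hBA' : B' * A' = d • 1) (hT : (A + B, A' + B') ∈ scalSub E w) (j : ℕ) :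
    (A ^ j + B ^ j, A' ^ j + B' ^ j) ∈ scalSub E w := by
  induction j using Nat.strong_induction_on with
  | _ j ih =>
    match j with
    | 0 =>
      have h := (scalSub (𝒪 := 𝒪) E w).add_mem (scalSub_one (E := E) (w := w))
        (scalSub_one (E := E) (w := w))
      rw [Prod.mk_add_mk] at h
      rw [pow_zero, pow_zero, pow_zero, pow_zero]
      exact h
    | 1 =>
      rw [pow_one, pow_one, pow_one, pow_one]
      exact hT
    | (j + 2) =>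
      have h1 := ih (j + 1) (by omega)
      have h0 := ih j (by omega)
      rw [pow_add_pow_succ_succ hAB hBA j, pow_add_pow_succ_succ hAB' hBA' j]
      have hm := scalSub_mul hT h1
      have hs := scalSub_mul (scalSub_scalar (E := E) (w := w) d) h0
      have := (scalSub (𝒪 := 𝒪) E w).sub_mem hm hs
      rw [Prod.mk_sub_mk] at this
      exact this

end Lucas

section Transfer

variable {𝒪 L : Type*} [CommRing 𝒪] [IsLocalRing 𝒪] [IsNoetherianRing 𝒪] [Field L]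
  [Algebra 𝒪 L] {r r' : ℕ} {G : Type*} [Group G]
  (ρ : G →* Matrix (Fin r) (Fin r) 𝒪) (ρ' : G →* Matrix (Fin r') (Fin r') 𝒪)

omit [IsLocalRing 𝒪] [IsNoetherianRing 𝒪] in
theorem rep_mul_inv_h50 {k : ℕ} (σ : G →* Matrix (Fin k) (Fin k) 𝒪) (g : G) :
    σ g * σ g⁻¹ = 1 := by
  rw [← map_mul, mul_inv_cancel, map_one]

omit [IsLocalRing 𝒪] [IsNoetherianRing 𝒪] in
theorem rep_inv_mul_h50 {k : ℕ} (σ : G →* Matrix (Fin k) (Fin k) 𝒪) (g : G) :
    σ g⁻¹ * σ g = 1 := by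
  rw [← map_mul, inv_mul_cancel, map_one]

omit [IsLocalRing 𝒪] [IsNoetherianRing 𝒪] in
/-- the difference `(σ g + σ g⁻¹) - (σ (g t) + d σ (g t)⁻¹)` is small when `σ t - 1` and
`d - 1` are. -/
theorem small_diff {k : ℕ} (σ : G →* Matrix (Fin k) (Fin k) 𝒪) (I : Ideal 𝒪) (g t : G) (d : 𝒪)
    (ht : IsSmallMat I (σ t - 1)) (hd : d - 1 ∈ I) :
    IsSmallMat I ((σ g + σ g⁻¹) - (σ (g * t) + d • σ (g * t)⁻¹)) := by
  have e : (σ g + σ g⁻¹) - (σ (g * t) + d • σ (g * t)⁻¹)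
      = -(σ g * (σ t - 1)) + σ t⁻¹ * (σ t - 1) * σ g⁻¹ - (d - 1) • σ (g * t)⁻¹ := by
    have h1 : σ (g * t) = σ g * σ t := map_mul σ g t
    have h2 : σ (g * t)⁻¹ = σ t⁻¹ * σ g⁻¹ := by rw [mul_inv_rev, map_mul]
    have h3 : σ t⁻¹ * (σ t - 1) = 1 - σ t⁻¹ := by
      rw [mul_sub, rep_inv_mul_h50, mul_one]
    rw [h3, h1, h2, sub_smul, one_smul, mul_sub, mul_one, sub_mul, one_mul]
    abel
  rw [e]
  exact (((ht.mul_left _).neg).add ((ht.mul_left _).mul_right _)).sub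
    (IsSmallMat.smul_of_mem _ hd)

/-- **(N3), abstract form**: transfer of unipotence from `ρ'` to `ρ` on `E`. -/
theorem unip_transfer {E : Set (Fin r → L)} {w : Fin r' → L} (hw : w ≠ 0) (g : G)
    (hE : ∀ v ∈ E, actL (ρ g) v ∈ E)
    (hunip' : (ρ' g - 1) * (ρ' g - 1) = 0)
    (happrox : ∀ n : ℕ, ∃ (t : G) (d : 𝒪), IsSmallMat (maximalIdeal 𝒪 ^ n) (ρ t - 1) ∧
      IsSmallMat (maximalIdeal 𝒪 ^ n) (ρ' t - 1) ∧ d - 1 ∈ maximalIdeal 𝒪 ^ n ∧
      (ρ (g * t) + d • ρ (g * t)⁻¹, ρ' (g * t) + d • ρ' (g * t)⁻¹) ∈ scalSub E w) :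
    ∀ v ∈ E, actL (ρ g) (actL (ρ g) v) - actL (ρ g) v - actL (ρ g) v + v = 0 := by
  -- Step 1: the limit is in `scalSub`
  have hx : (ρ g + ρ g⁻¹, ρ' g + ρ' g⁻¹) ∈ scalSub E w := by
    refine mem_of_approx (𝒪 := 𝒪)
      (Λ := Matrix (Fin r) (Fin r) 𝒪 × Matrix (Fin r') (Fin r') 𝒪) (scalSub (𝒪 := 𝒪) E w) _
      fun n => ?_
    obtain ⟨t, d, ht, ht', hd, hmem⟩ := happrox n
    refine ⟨_, hmem, ?_⟩
    rw [Prod.mk_sub_mk]
    exact pair_mem_smul_top (small_diff ρ _ g t d ht hd) (small_diff ρ' _ g t d ht' hd)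
  obtain ⟨c, hc, hc'⟩ := hx
  -- Step 2: `c = 2`
  have hinv' : ρ' g⁻¹ = 1 + 1 - ρ' g := by
    have h1 : ρ' g * (1 + 1 - ρ' g) = 1 := by
      have e : ρ' g * (1 + 1 - ρ' g) = 1 - (ρ' g - 1) * (ρ' g - 1) := by noncomm_ring
      rw [e, hunip', sub_zero]
    calc ρ' g⁻¹ = ρ' g⁻¹ * (ρ' g * (1 + 1 - ρ' g)) := by rw [h1, mul_one]
      _ = (ρ' g⁻¹ * ρ' g) * (1 + 1 - ρ' g) := by rw [mul_assoc]
      _ = 1 + 1 - ρ' g := by rw [rep_inv_mul_h50, one_mul]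
  have hc2 : c = 1 + 1 := by
    have h1 : actL (ρ' g + ρ' g⁻¹) w = c • w := hc'
    have e : ρ' g + ρ' g⁻¹ = 1 + 1 := by rw [hinv']; abel
    rw [e, actL_add, actL_one] at h1
    have h2 : ((1 : L) + 1 - c) • w = 0 := by
      rw [sub_smul, add_smul, one_smul, h1, sub_self]
    rcases smul_eq_zero.1 h2 with h3 | h3
    · exact (sub_eq_zero.1 h3).symm
    · exact absurd h3 hw
  -- Step 3: the relation on `E`
  intro v hv
  have h1 : actL (ρ g + ρ g⁻¹) (actL (ρ g) v) = c • actL (ρ g) v := hc _ (hE v hv)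
  rw [actL_add, ← actL_mul (ρ g⁻¹), rep_inv_mul_h50, actL_one, hc2, add_smul, one_smul] at h1
  have e : actL (ρ g) (actL (ρ g) v) - actL (ρ g) v - actL (ρ g) v + v
      = (actL (ρ g) (actL (ρ g) v) + v) - (actL (ρ g) v + actL (ρ g) v) := by abel
  rw [e, h1, sub_self]

end Transfer

end Fermat.Agent.L.Pivot.Geom.H50
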