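import Fermat.Agent.L.Pivot.Geom.H59_KerNmE
import Fermat.Agent.S59.Lim.H94_AsmGen

/-!
# PIVOT, package PV-GEOM, leaf PVG-A' (helper59): freeness of the Tate module over
`𝒪[Δ_Σ × Δ_Q]` and the projection `κ` (abstract modules)

`W` (level `Γ_H'`), `W1` (level `Γ_{H_Q}`, `Γ₀` at the pivot primes), `WM` (minimal level),
`c j` the diamond operators at the pivot primes (`c j ^ (p ^ e j) = 1`), `d i`, `d1 i` those at
the Taylor–Wiles primes.

* `exists_basis_torsion`  : the tower over `Δ_Q` on `W1[ϖ]` (first half of `exists_basis_tate`);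
* `κ_torsion_onto`        : `κ` maps `W[ϖ]` onto `W1[ϖ]`;
* `exists_basis_tate_pv`  : `T_ϖ W` is free over `𝒪[Δ_Σ × Δ_Q]` in the shape of `PVGeom.b_basis`;
* `map_κ_surjective`, `ker_map_κ` : `T_ϖ κ` is onto with kernel `∑ (c_j - 1) T_ϖ W`.
-/

set_option autoImplicit false
set_option linter.style.haveILetI false
set_option linter.unusedSectionVars false

noncomputable section

open IsLocalRing

namespace Fermat.Agent.L.Pivot.Geom.H59

open Fermat.Agent.S59.TWH Fermat.Agent.S59.Lim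

/-! ### Transport of `nmTotE` -/

section Transfer

variable {A A' : Type*} [CommRing A] [CommRing A'] {V V' : Type*} [AddCommGroup V] [Module A V]
  [AddCommGroup V'] [Module A' V'] (Φ : Module.End A V →+* Module.End A' V')

theorem map_nmTotE {r : ℕ} (m : Fin r → ℕ) (c : Fin r → Module.End A V) :
    Φ (nmTotE m c) = nmTotE m (fun j => Φ (c j)) := by
  rw [nmTotE, nmTotE, map_list_prod, List.map_ofFn]
  congr 1
  apply congrArg
  funext j
  exact map_nm Φ (m j) (c j)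

end Transfer

section Res

variable {𝒪 : Type*} [CommRing 𝒪] (ϖ : 𝒪) {W : Type*} [AddCommGroup W] [Module 𝒪 W]
  {W' : Type*} [AddCommGroup W'] [Module 𝒪 W']

theorem resT_nmTotE {r : ℕ} (m : Fin r → ℕ) (d : Fin r → Module.End 𝒪 W)
    (v : Submodule.torsionBy 𝒪 W ϖ) :
    ((nmTotE m (fun j => resT ϖ (d j)) v : Submodule.torsionBy 𝒪 W ϖ) : W)
      = nmTotE m d (v : W) := by
  rw [← map_nmTotE (resT ϖ) m d]
  rfl

theorem mapEnd_nmTotE {r : ℕ} (m : Fin r → ℕ) (d : Fin r → Module.End 𝒪 W) :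
    nmTotE m (fun j => H2.mapEnd ϖ W (d j)) = H2.mapEnd ϖ W (nmTotE m d) :=
  (map_nmTotE ((H2.mapEnd ϖ W : Module.End 𝒪 W →ₐ[𝒪] Module.End 𝒪 (H2.tate ϖ W)) :
    Module.End 𝒪 W →+* Module.End 𝒪 (H2.tate ϖ W)) m d).symm

/-- The restriction of a linear map to the `ϖ`-torsion, linear over `𝒪 ⧸ (ϖ)`. -/
def resL (f : W →ₗ[𝒪] W') :
    Submodule.torsionBy 𝒪 W ϖ →ₗ[𝒪 ⧸ Ideal.span {ϖ}] Submodule.torsionBy 𝒪 W' ϖ where
  toFun y := ⟨f (y : W), by
    rw [Submodule.mem_torsionBy_iff, ← map_smul, (Submodule.mem_torsionBy_iff _ _).mp y.2,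
      map_zero]⟩
  map_add' x y := Subtype.ext (map_add f _ _)
  map_smul' a x := by
    obtain ⟨a, rfl⟩ := Ideal.Quotient.mk_surjective a
    apply Subtype.ext
    show f (a • (x : W)) = a • f (x : W)
    rw [map_smul]

@[simp]
theorem coe_resL (f : W →ₗ[𝒪] W') (x : Submodule.torsionBy 𝒪 W ϖ) :
    ((resL ϖ f x : Submodule.torsionBy 𝒪 W' ϖ) : W') = f (x : W) := rfl

theorem resL_injective {f : W →ₗ[𝒪] W'} (hf : Function.Injective f) :
    Function.Injective (resL ϖ f) := by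
  intro x y hxy
  apply Subtype.ext
  apply hf
  exact congrArg Subtype.val hxy

end Res

/-! ### Reindexing a sum map -/

section Reindex

variable {A : Type*} [CommRing A] {V : Type*} [AddCommGroup V] [Module A V]

theorem bijective_sum_equiv {X Y : Type*} [Fintype X] [Fintype Y] (e : X ≃ Y) (F : Y → V)
    (h : Function.Bijective (fun f : Y → A => ∑ y, f y • F y)) :
    Function.Bijective (fun f : X → A => ∑ x, f x • F (e x)) := by
  have h1 : (fun f : X → A => ∑ x, f x • F (e x))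
      = (fun f : Y → A => ∑ y, f y • F y) ∘ (fun f : X → A => fun y => f (e.symm y)) := by
    funext f
    simp only [Function.comp_apply]
    refine Fintype.sum_equiv e _ _ fun x => ?_
    rw [Equiv.symm_apply_apply]
  rw [h1]
  refine h.comp ?_
  constructor
  · intro f g hfg
    funext x
    have := congrFun hfg (e x)
    simpa using this
  · intro g
    refine ⟨fun x => g (e x), ?_⟩
    funext y
    simp

end Reindex

/-! ### The towers -/

section Main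

variable {𝒪 : Type} [CommRing 𝒪] [IsDomain 𝒪] [IsDiscreteValuationRing 𝒪]
  [IsAdicComplete (maximalIdeal 𝒪) 𝒪] {ϖ : 𝒪}
  {W W1 WM : Type} [AddCommGroup W] [Module 𝒪 W] [AddCommGroup W1] [Module 𝒪 W1]
  [AddCommGroup WM] [Module 𝒪 WM]

omit [IsAdicComplete (maximalIdeal 𝒪) 𝒪] in
theorem torsion_pgroup (hϖ : Irreducible ϖ) {p : ℕ} (hp : (p : 𝒪) ∈ maximalIdeal 𝒪)
    (v : Submodule.torsionBy 𝒪 W ϖ) : ∃ m : ℕ, (p ^ m) • v = 0 := by
  refine ⟨1, ?_⟩
  apply Subtype.ext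
  rw [pow_one]
  show (p : ℕ) • (v : W) = 0
  rw [← Nat.cast_smul_eq_nsmul 𝒪]
  exact natCast_smul_eq_zero_of_torsion hϖ hp _ ((Submodule.mem_torsionBy_iff _ _).mp v.2)

omit [IsDomain 𝒪] [IsDiscreteValuationRing 𝒪] [IsAdicComplete (maximalIdeal 𝒪) 𝒪] in
/-- the layer-norm hypothesis on `W[ϖ]`, for the restricted operators. -/
theorem hstep_resT {r : ℕ} (m : Fin r → ℕ) (d : Fin r → Module.End 𝒪 W)
    (hstep : ∀ (j : Fin r) (v : W), ϖ • v = 0 → (∀ i, i ≤ j → d i v = v) →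
      ∃ w : W, ϖ • w = 0 ∧ (∀ i, i < j → d i w = w) ∧ H90.nm (m j) (d j) w = v)
    (j : Fin r) (v : Submodule.torsionBy 𝒪 W ϖ) (hv : ∀ i, i ≤ j → resT ϖ (d i) v = v) :
    ∃ w, (∀ i, i < j → resT ϖ (d i) w = w) ∧ H90.nm (m j) (resT ϖ (d j)) w = v := by
  obtain ⟨w, hw0, hw1, hw2⟩ := hstep j (v : W) ((Submodule.mem_torsionBy_iff _ _).mp v.2)
    (fun i hi => congrArg Subtype.val (hv i hi))
  refine ⟨⟨w, (Submodule.mem_torsionBy_iff _ _).mpr hw0⟩, fun i hi => Subtype.ext (hw1 i hi),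
    ?_⟩
  apply Subtype.ext
  rw [resT_nm]
  exact hw2

/-- **The tower over `Δ_Q` on `W1[ϖ]`** (first half of `Lim.exists_basis_tate`). -/
theorem exists_basis_torsion (hϖ : Irreducible ϖ) {p : ℕ} [Fact p.Prime]
    (hp : (p : 𝒪) ∈ maximalIdeal 𝒪) (n r : ℕ)
    (hW : IsDiv ϖ W1) (hWM : IsDiv ϖ WM)
    (d : Fin r → Module.End 𝒪 W1) (d_pow : ∀ j, d j ^ (p ^ n) = 1)
    (d_comm : ∀ i j, Commute (d i) (d j))
    (hstep : ∀ (j : Fin r) (v : W1), ϖ • v = 0 → (∀ i, i ≤ j → d i v = v) →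
      ∃ w : W1, ϖ • w = 0 ∧ (∀ i, i < j → d i w = w) ∧ H90.nm (p ^ n) (d j) w = v)
    (πup : WM →ₗ[𝒪] W1) (πup_inj : Function.Injective πup)
    (d_πup : ∀ (j : Fin r) (y : WM), d j (πup y) = πup y)
    (inv : ∀ v : W1, ϖ • v = 0 → (∀ j, d j v = v) → ∃ y : WM, πup y = v) :
    ∃ (rk : ℕ) (b₁ : Fin rk → Submodule.torsionBy 𝒪 W1 ϖ),
      LinearIndependent (𝒪 ⧸ Ideal.span {ϖ}) (H90.fam (p ^ n) (fun j => resT ϖ (d j)) b₁) ∧
      Submodule.span (𝒪 ⧸ Ideal.span {ϖ})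
        (Set.range (H90.fam (p ^ n) (fun j => resT ϖ (d j)) b₁)) = ⊤ := by
  classical
  haveI hmax : (Ideal.span {ϖ}).IsMaximal := PrincipalIdealRing.isMaximal_of_irreducible hϖ
  letI : Field (𝒪 ⧸ Ideal.span {ϖ}) := Ideal.Quotient.field _
  haveI := hW.fin
  haveI := hWM.fin
  set c : Fin r → Module.End (𝒪 ⧸ Ideal.span {ϖ}) (Submodule.torsionBy 𝒪 W1 ϖ) :=
    fun j => resT ϖ (d j) with hcdef
  have hcomm : ∀ i j, Commute (c i) (c j) := fun i j => (d_comm i j).map (resT ϖ)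
  have hc : ∀ j, c j ^ (p ^ n) = 1 := fun j => by
    rw [hcdef]
    show resT ϖ (d j) ^ (p ^ n) = 1
    rw [← map_pow, d_pow, map_one]
  have hV : ∀ v : Submodule.torsionBy 𝒪 W1 ϖ, ∃ m : ℕ, (p ^ m) • v = 0 :=
    fun v => torsion_pgroup hϖ hp v
  have hstep' : ∀ (j : Fin r) (v : Submodule.torsionBy 𝒪 W1 ϖ), (∀ i, i ≤ j → c i v = v) →
      ∃ w, (∀ i, i < j → c i w = w) ∧ H90.nm (p ^ n) (c j) w = v :=
    fun j v hv => hstep_resT (fun _ => p ^ n) d hstep j v hv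
  have hπk_inj : Function.Injective (resL ϖ πup) := resL_injective ϖ πup_inj
  haveI : Module.Finite (𝒪 ⧸ Ideal.span {ϖ}) (Submodule.torsionBy 𝒪 WM ϖ) :=
    Module.Finite.of_finite
  let B := Module.finBasis (𝒪 ⧸ Ideal.span {ϖ}) (Submodule.torsionBy 𝒪 WM ϖ)
  set e : Fin (Module.finrank (𝒪 ⧸ Ideal.span {ϖ}) (Submodule.torsionBy 𝒪 WM ϖ)) →
      Submodule.torsionBy 𝒪 W1 ϖ := fun i => resL ϖ πup (B i) with hedef
  have he_fix : ∀ i j, c j (e i) = e i := fun i j => Subtype.ext (d_πup j _)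
  have he_li : LinearIndependent (𝒪 ⧸ Ideal.span {ϖ}) e :=
    B.linearIndependent.map' (resL ϖ πup) (LinearMap.ker_eq_bot.mpr hπk_inj)
  have he_span : ∀ v, (∀ j, c j v = v) →
      v ∈ Submodule.span (𝒪 ⧸ Ideal.span {ϖ}) (Set.range e) := by
    intro v hv
    obtain ⟨y, hy⟩ := inv (v : W1) ((Submodule.mem_torsionBy_iff _ _).mp v.2)
      (fun j => congrArg Subtype.val (hv j))
    have hy0 : ϖ • y = 0 := by
      apply πup_inj
      rw [map_smul, hy, map_zero]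
      exact (Submodule.mem_torsionBy_iff _ _).mp v.2
    have hv' : v = resL ϖ πup ⟨y, (Submodule.mem_torsionBy_iff _ _).mpr hy0⟩ :=
      Subtype.ext hy.symm
    rw [hv']
    have h1 : (⟨y, (Submodule.mem_torsionBy_iff _ _).mpr hy0⟩ : Submodule.torsionBy 𝒪 WM ϖ)
        ∈ Submodule.span (𝒪 ⧸ Ideal.span {ϖ}) (Set.range B) := by
      rw [B.span_eq]
      exact Submodule.mem_top
    have h2 := Submodule.apply_mem_span_image_of_mem_span (resL ϖ πup) h1
    have h3 : ((resL ϖ πup) '' Set.range B) = Set.range e := by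
      rw [← Set.range_comp]
      rfl
    rw [h3] at h2
    exact h2
  obtain ⟨b₁, -, h1, h2, -⟩ := H90.tower_basis n r hV c hcomm hc hstep' e he_fix he_li he_span
  exact ⟨_, b₁, h1, h2⟩

omit [IsDomain 𝒪] [IsDiscreteValuationRing 𝒪] [IsAdicComplete (maximalIdeal 𝒪) 𝒪] in
/-- `κ` maps `W[ϖ]` onto `W1[ϖ]`. -/
theorem κ_torsion_onto {k : ℕ} (m : Fin k → ℕ)
    (c : Fin k → Module.End 𝒪 W) (c_comm : ∀ i j, Commute (c i) (c j))
    (hstep : ∀ (j : Fin k) (v : W), ϖ • v = 0 → (∀ i, i ≤ j → c i v = v) →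
      ∃ w : W, ϖ • w = 0 ∧ (∀ i, i < j → c i w = w) ∧ H90.nm (m j) (c j) w = v)
    (κ : W →ₗ[𝒪] W1) (κup : W1 →ₗ[𝒪] W) (κup_inj : Function.Injective κup)
    (κup_κ : ∀ x : W, κup (κ x) = nmTotE m c x)
    (c_κup : ∀ (j : Fin k) (y : W1), c j (κup y) = κup y)
    (y : W1) (hy : ϖ • y = 0) : ∃ w : W, ϖ • w = 0 ∧ κ w = y := by
  classical
  have hcomm : ∀ i j, Commute (resT ϖ (c i)) (resT ϖ (c j)) :=
    fun i j => (c_comm i j).map (resT ϖ)
  have hv0 : κup y ∈ Submodule.torsionBy 𝒪 W ϖ := by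
    rw [Submodule.mem_torsionBy_iff, ← map_smul, hy, map_zero]
  obtain ⟨w, hw⟩ := exists_nmTotE_eq k m (Submodule.torsionBy 𝒪 W ϖ)
    (fun j => resT ϖ (c j)) hcomm (hstep_resT m c hstep)
    ⟨κup y, hv0⟩ (fun j => Subtype.ext (c_κup j y))
  refine ⟨(w : W), (Submodule.mem_torsionBy_iff _ _).mp w.2, ?_⟩
  apply κup_inj
  rw [κup_κ]
  have := congrArg Subtype.val hw
  rw [resT_nmTotE] at this
  exact this

/-- `T_ϖ κ` is onto. -/
theorem map_κ_surjective (hϖ : Irreducible ϖ) {k : ℕ} (m : Fin k → ℕ)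
    (hW : IsDiv ϖ W) (hW1 : IsDiv ϖ W1)
    (c : Fin k → Module.End 𝒪 W) (c_comm : ∀ i j, Commute (c i) (c j))
    (hstep : ∀ (j : Fin k) (v : W), ϖ • v = 0 → (∀ i, i ≤ j → c i v = v) →
      ∃ w : W, ϖ • w = 0 ∧ (∀ i, i < j → c i w = w) ∧ H90.nm (m j) (c j) w = v)
    (κ : W →ₗ[𝒪] W1) (κup : W1 →ₗ[𝒪] W) (κup_inj : Function.Injective κup)
    (κup_κ : ∀ x : W, κup (κ x) = nmTotE m c x)
    (c_κup : ∀ (j : Fin k) (y : W1), c j (κup y) = κup y) :
    Function.Surjective (H2.map ϖ κ) := by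
  haveI : Module.Finite 𝒪 (H2.tate ϖ W1) := H2.finite_tate_dvr hϖ hW1.div hW1.fg_torsionBy
  exact H2.map_surjective (mem_maximalIdeal_of_irreducible hϖ) hW.div κ
    (fun y hy => κ_torsion_onto m c c_comm hstep κ κup κup_inj κup_κ c_κup y hy)

omit [IsDomain 𝒪] [IsDiscreteValuationRing 𝒪] [IsAdicComplete (maximalIdeal 𝒪) 𝒪] in
/-- The kernel of `T_ϖ κ` is the kernel of the total norm. -/
theorem ker_map_κ_eq_ker_nmTotE {k : ℕ} (m : Fin k → ℕ)
    (c : Fin k → Module.End 𝒪 W)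
    (κ : W →ₗ[𝒪] W1) (κup : W1 →ₗ[𝒪] W) (κup_inj : Function.Injective κup)
    (κup_κ : ∀ x : W, κup (κ x) = nmTotE m c x) :
    LinearMap.ker (H2.map ϖ κ)
      = LinearMap.ker (nmTotE m (fun j => H2.mapEnd ϖ W (c j))) := by
  ext x
  rw [LinearMap.mem_ker, LinearMap.mem_ker, mapEnd_nmTotE, H2.mapEnd_apply,
    H2.map_apply_eq_zero_iff, H2.map_apply_eq_zero_iff]
  refine forall_congr' fun k => ?_
  rw [← κup_κ]
  constructor
  · intro h
    rw [h, map_zero]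
  · intro h
    apply κup_inj
    rw [h, map_zero]

end Main

end Fermat.Agent.L.Pivot.Geom.H59
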