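import Fermat.Agent.S59.Asm.H41_Rest
import Fermat.Agent.NEB.EIG.H39_OPLattice

/-!
# PIVOT, PV-GEOM, leaf P-NEW, sub-lemma CHI-LOW (helper76, for helper81)

`N'' ∣ N'`, `S` a set of primes containing the primes dividing `N'`.  Then the restriction
`rest : 𝕋(N') → 𝕋(N'')` of the Hecke algebras away from `S` (helper41's `S59.Asm.H41.rest`) is
surjective (`restLow_surjective`), a character `χ'` of level `N''` which agrees with a character
`χ` of level `N'` on the `T_ℓ` satisfies `χ' ∘ rest = χ` (`chi_comp_restLow`), and therefore every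
character `χ''` of level `N'` with `ker χ'' = ker χ` descends to the level `N''`
(`exists_chiLow`).

Complete proofs, standard axioms only.
-/

set_option autoImplicit false

namespace Fermat.Agent.L.Pivot.Geom.H81

open Fermat.Agent.S59.Asm Fermat.Agent.NEB.EIG.H39

section

variable {N' N'' : ℕ} [NeZero N'] [NeZero N'']

/-- The restriction of the Hecke algebra away from `S` from the level `N'` to the level
`N'' ∣ N'`, when `S` contains the primes dividing `N'`. -/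
noncomputable def restLow (hd : N'' ∣ N') (S : Set ℕ)
    (hS : ∀ q : ℕ, q.Prime → q ∣ N' → q ∈ S) :
    CuspForm.heckeAlgebra N' 2 S →+* CuspForm.heckeAlgebra N'' 2 S :=
  H41.rest hd 2 (subset_refl S) (fun q hq hqN' _ => hS q hq hqN')

theorem restLow_T (hd : N'' ∣ N') (S : Set ℕ) (hS : ∀ q : ℕ, q.Prime → q ∣ N' → q ∈ S)
    {ℓ : ℕ} (hℓ : ℓ.Prime) (hℓN' : ¬ ℓ ∣ N') (hℓS : ℓ ∉ S) (hℓN : ¬ ℓ ∣ N'') :
    restLow hd S hS (CuspForm.heckeAlgebra.T hℓ hℓN' hℓS) =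
      CuspForm.heckeAlgebra.T hℓ hℓN hℓS :=
  H41.rest_T hd 2 (subset_refl S) (fun q hq hqN' _ => hS q hq hqN') hℓ hℓN' hℓS hℓN hℓS

/-- The restriction `𝕋(N') → 𝕋(N'')` is surjective. -/
theorem restLow_surjective (hd : N'' ∣ N') (S : Set ℕ)
    (hS : ∀ q : ℕ, q.Prime → q ∣ N' → q ∈ S) :
    Function.Surjective (restLow hd S hS) := by
  have hS'' : ∀ q : ℕ, q.Prime → q ∣ N'' → q ∈ S := fun q hq hqN => hS q hq (hqN.trans hd)
  refine hecke_induction hS'' (fun ℓ hℓ hℓN hℓS => ?_) (fun n => ?_) (fun x y hx hy => ?_)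
    (fun x y hx hy => ?_)
  · have hℓN' : ¬ ℓ ∣ N' := fun h => hℓS (hS ℓ hℓ h)
    exact ⟨CuspForm.heckeAlgebra.T hℓ hℓN' hℓS, restLow_T hd S hS hℓ hℓN' hℓS hℓN⟩
  · exact ⟨(n : CuspForm.heckeAlgebra N' 2 S), map_intCast _ n⟩
  · obtain ⟨s, rfl⟩ := hx
    obtain ⟨t, rfl⟩ := hy
    exact ⟨s + t, map_add _ s t⟩
  · obtain ⟨s, rfl⟩ := hx
    obtain ⟨t, rfl⟩ := hy
    exact ⟨s * t, map_mul _ s t⟩

/-- A character of level `N''` which agrees on the `T_ℓ` with a character `χ` of level `N'` is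
`χ` composed with the restriction. -/
theorem chi_comp_restLow (hd : N'' ∣ N') (S : Set ℕ) (hS : ∀ q : ℕ, q.Prime → q ∣ N' → q ∈ S)
    {E : Type*} [CommRing E]
    (χ : CuspForm.heckeAlgebra N' 2 S →+* E) (χ' : CuspForm.heckeAlgebra N'' 2 S →+* E)
    (hχ' : ∀ (ℓ : ℕ) (hℓ : ℓ.Prime) (hℓN' : ¬ ℓ ∣ N') (hℓS : ℓ ∉ S) (hℓN : ¬ ℓ ∣ N''),
      χ' (CuspForm.heckeAlgebra.T hℓ hℓN hℓS) = χ (CuspForm.heckeAlgebra.T hℓ hℓN' hℓS)) :
    ∀ x, χ' (restLow hd S hS x) = χ x := by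
  refine hecke_induction hS (fun ℓ hℓ hℓN' hℓS => ?_) (fun n => ?_) (fun x y hx hy => ?_)
    (fun x y hx hy => ?_)
  · have hℓN : ¬ ℓ ∣ N'' := fun h => hℓN' (h.trans hd)
    rw [restLow_T hd S hS hℓ hℓN' hℓS hℓN]
    exact hχ' ℓ hℓ hℓN' hℓS hℓN
  · rw [map_intCast, map_intCast, map_intCast]
  · rw [map_add, map_add, map_add, hx, hy]
  · rw [map_mul, map_mul, map_mul, hx, hy]

/-- **CHI-LOW**: if the character `χ` of level `N'` comes from the level `N'' ∣ N'` (through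
`χ'`), then so does every character `χ''` of level `N'` with the same kernel as `χ`. -/
theorem exists_chiLow (hd : N'' ∣ N') (S : Set ℕ)
    (hS : ∀ q : ℕ, q.Prime → q ∣ N' → q ∈ S)
    {E L : Type} [CommRing E] [CommRing L]
    (χ : CuspForm.heckeAlgebra N' 2 S →+* E) (χ' : CuspForm.heckeAlgebra N'' 2 S →+* E)
    (hχ' : ∀ (ℓ : ℕ) (hℓ : ℓ.Prime) (hℓN' : ¬ ℓ ∣ N') (hℓS : ℓ ∉ S) (hℓN : ¬ ℓ ∣ N''),
      χ' (CuspForm.heckeAlgebra.T hℓ hℓN hℓS) = χ (CuspForm.heckeAlgebra.T hℓ hℓN' hℓS))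
    (χ'' : CuspForm.heckeAlgebra N' 2 S →+* L) (hker : RingHom.ker χ'' = RingHom.ker χ) :
    ∃ χlow : CuspForm.heckeAlgebra N'' 2 S →+* L,
      ∀ (ℓ : ℕ) (hℓ : ℓ.Prime) (hℓN : ¬ ℓ ∣ N'') (hℓS : ℓ ∉ S) (hℓN' : ¬ ℓ ∣ N'),
        χlow (CuspForm.heckeAlgebra.T hℓ hℓN hℓS) =
          χ'' (CuspForm.heckeAlgebra.T hℓ hℓN' hℓS) := by
  have hle : RingHom.ker (restLow hd S hS) ≤ RingHom.ker χ'' := by
    intro x hx
    rw [hker, RingHom.mem_ker, ← chi_comp_restLow hd S hS χ χ' hχ' x,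
      (RingHom.mem_ker).1 hx, map_zero]
  refine ⟨RingHom.liftOfSurjective (restLow hd S hS) (restLow_surjective hd S hS) ⟨χ'', hle⟩,
    fun ℓ hℓ hℓN hℓS hℓN' => ?_⟩
  rw [← restLow_T hd S hS hℓ hℓN' hℓS hℓN]
  exact RingHom.liftOfRightInverse_comp_apply _ _ _ ⟨χ'', hle⟩ _

/-- The same with the conclusion `χlow ∘ rest = χ''`. -/
theorem exists_chiLow_comp (hd : N'' ∣ N') (S : Set ℕ)
    (hS : ∀ q : ℕ, q.Prime → q ∣ N' → q ∈ S)
    {E L : Type*} [CommRing E] [CommRing L]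
    (χ : CuspForm.heckeAlgebra N' 2 S →+* E) (χ' : CuspForm.heckeAlgebra N'' 2 S →+* E)
    (hχ' : ∀ (ℓ : ℕ) (hℓ : ℓ.Prime) (hℓN' : ¬ ℓ ∣ N') (hℓS : ℓ ∉ S) (hℓN : ¬ ℓ ∣ N''),
      χ' (CuspForm.heckeAlgebra.T hℓ hℓN hℓS) = χ (CuspForm.heckeAlgebra.T hℓ hℓN' hℓS))
    (χ'' : CuspForm.heckeAlgebra N' 2 S →+* L) (hker : RingHom.ker χ'' = RingHom.ker χ) :
    ∃ χlow : CuspForm.heckeAlgebra N'' 2 S →+* L,
      ∀ x, χlow (restLow hd S hS x) = χ'' x := by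
  have hle : RingHom.ker (restLow hd S hS) ≤ RingHom.ker χ'' := by
    intro x hx
    rw [hker, RingHom.mem_ker, ← chi_comp_restLow hd S hS χ χ' hχ' x,
      (RingHom.mem_ker).1 hx, map_zero]
  exact ⟨RingHom.liftOfSurjective (restLow hd S hS) (restLow_surjective hd S hS) ⟨χ'', hle⟩,
    fun x => RingHom.liftOfRightInverse_comp_apply _ _ _ ⟨χ'', hle⟩ x⟩

end

end Fermat.Agent.L.Pivot.Geom.H81
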