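import Fermat.Agent.L.Pivot.Geom.AsmPV
import Fermat.Agent.L.Pivot.Geom.H70_PvMix
import Fermat.Agent.NEB.Geom.H15_APIof
import Fermat.Agent.NEB.Geom.H14_PiPrelim

/-!
# PIVOT, PV-GEOM Part I, auxiliary lemmas for the assembly of P-PI (helper76)

PV clones of the auxiliary lemmas of helper15's `NEB/Geom/H15_APIof.lean`:

* `coe_nmTotE_thetaZ` : the total norm with mixed exponents of the restrictions `thetaZ θ (d j)`
  is the restriction of the total norm of the base changes;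
* `coe_nmTot_nmTotE_pv` : the same for `Nm_{Δ_Q} ∘ Nm_{Δ_Σ}` on `W'` (the right-hand side of the
  clause `πup ∘ π = …` of `Stmt_P_pi`);
* `dia_fix_allPv` : an element of `𝒪 ⊗ J_H'[p^∞]` fixed by the `⟨δP j⟩` and the `⟨δQ i⟩` is fixed
  by all the diamond operators (`(ℤ/c')ˣ = H' · ⟨δP j, δQ i⟩`, `⟨h⟩ = 1` for `h ∈ H'`);
* `dia_fix_all_W` : the same on `W'`, for `D.c j`, `D.d i` and `D.dia u`.
-/

set_option autoImplicit false
set_option linter.unusedSectionVars false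
set_option linter.unusedVariables false
set_option linter.style.haveILetI false
set_option synthInstance.maxHeartbeats 400000
set_option maxHeartbeats 1000000

noncomputable section

open ModularCurve AlgebraicCurve IsLocalRing TensorProduct Polynomial

namespace Fermat.Agent.L.Pivot.Geom.H76

open Fermat.Agent.NEB Fermat.Agent.NEB.JH Fermat.Agent.NEB.Geom Fermat.Agent.S59.Asm
  Fermat.Agent.S59.Lim Fermat.Agent.S59.Lim.H2 Fermat.Agent.L.Pivot.Geom

/-! ## The total norm with mixed exponents on the `θ`-part -/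

section GenTheta

variable {𝒪 : Type} [CommRing 𝒪] [IsLocalRing 𝒪] {𝕋 : Type} [CommRing 𝕋]
  {A : Type} [AddCommGroup A]

theorem coe_nmTotE_thetaZ (η : 𝕋 →+* Module.End ℤ A) (θ : 𝕋 →+* ResidueField 𝒪) :
    ∀ {r : ℕ} (m : Fin r → ℕ) (d : Fin r → Module.End ℤ A) (hd : ∀ j t, Commute (η t) (d j))
      (x : ↥(thetaPart η θ)),
      ((H59.nmTotE m (fun j => thetaZ θ (d j) (hd j)) x : ↥(thetaPart η θ)) : 𝒪 ⊗[ℤ] A)
        = H59.nmTotE m (fun j => (d j).baseChange 𝒪) x.1 := by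
  intro r
  induction r with
  | zero =>
    intro m d hd x
    rw [H59.nmTotE_zero, H59.nmTotE_zero]
    rfl
  | succ r ih =>
    intro m d hd x
    rw [H59.nmTotE_succ, H59.nmTotE_succ, Module.End.mul_apply, Module.End.mul_apply,
      Fermat.Agent.NEB.Geom.H94.coe_nm_thetaZ,
      ih (fun j => m j.succ) (fun j => d j.succ) (fun j => hd j.succ) x,
      Fermat.Agent.S59.TWH.H90.nm_apply]

end GenTheta

/-! ## `nmTotE` and base change -/

theorem nmTotE_baseChange (𝒪 : Type) [CommRing 𝒪] {A : Type} [AddCommGroup A] {r : ℕ}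
    (m : Fin r → ℕ) (d : Fin r → Module.End ℤ A) :
    (H59.nmTotE m d).baseChange 𝒪 = H59.nmTotE m (fun j => (d j).baseChange 𝒪) := by
  have key : ∀ f : Module.End ℤ A, f.baseChange 𝒪 = Module.End.baseChangeHom ℤ 𝒪 A f :=
    fun f => rfl
  rw [key]
  unfold H59.nmTotE
  rw [map_list_prod, List.map_ofFn]
  refine congrArg List.prod (congrArg List.ofFn (funext fun j => ?_))
  simp only [Function.comp_apply]
  unfold Fermat.Agent.S59.TWH.H90.nm
  rw [map_sum]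
  refine Finset.sum_congr rfl fun e _ => ?_
  rw [map_pow]
  rfl

/-! ## Elements fixed by the generators are fixed by all the diamond operators -/

section Dia

variable (𝒪 : Type) [CommRing 𝒪]
variable {N1 : ℕ} {S : Finset ℕ} {p : ℕ} {k : ℕ} {eP : Fin k → ℕ} {n : ℕ} {qP : Fin k → ℕ}
  {r : ℕ} {qv : Fin r → ℕ}

theorem dia_fix_allPv (hyp : PvHyp N1 S p eP n qP qv) [NeZero (N1 * twC qv)]
    (h2 : 2 ≤ pvC qP qv) (hc : pvC qP qv ∣ N1 * twC qv)
    {δP : Fin k → (ZMod (pvC qP qv))ˣ} {δQ : Fin r → (ZMod (pvC qP qv))ˣ}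
    (hδ : IsDeltaGenPv p eP n qP qv δP δQ)
    (v : 𝒪 ⊗[ℤ] AHpv N1 p eP n qP qv)
    (hvP : ∀ j, (diaZ (N1 * twC qv) (pvC qP qv) (pvH qP qv p eP n) h2 hc p
      (δP j)).baseChange 𝒪 v = v)
    (hvQ : ∀ i, (diaZ (N1 * twC qv) (pvC qP qv) (pvH qP qv p eP n) h2 hc p
      (δQ i)).baseChange 𝒪 v = v)
    (u : (ZMod (pvC qP qv))ˣ) :
    (diaZ (N1 * twC qv) (pvC qP qv) (pvH qP qv p eP n) h2 hc p u).baseChange 𝒪 v = v := by
  have hmix := H70.pv_mixHyp (qP := qP) (qv := qv) (p := p) (eP := eP) (n := n) hyp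
  haveI : ∀ j, Finite (ZMod (H70.pvQ qP qv j))ˣ := fun j =>
    Fermat.Agent.NEB.Geom.H29.finite_units_of_prime (hmix.prime j)
  haveI : ∀ j, IsCyclic (ZMod (H70.pvQ qP qv j))ˣ := fun j =>
    Fermat.Agent.NEB.Geom.H29.isCyclic_units_of_prime (hmix.prime j)
  obtain ⟨s, y, hy, hu⟩ := (H70.pv_isGenFamM hδ).exists_decomp
    (fun j => H70.mixHyp_dvd_card hmix j) u
  have hyH : y ∈ pvH qP qv p eP n := by
    rw [H70.pvH_eq_mixH]
    exact hy
  -- the stabiliser of `v`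
  let F : Submonoid (ZMod (pvC qP qv))ˣ :=
    { carrier := {w | (diaZ (N1 * twC qv) (pvC qP qv) (pvH qP qv p eP n) h2 hc p
        w).baseChange 𝒪 v = v}
      one_mem' := by
        show (diaZ (N1 * twC qv) (pvC qP qv) (pvH qP qv p eP n) h2 hc p
          1).baseChange 𝒪 v = v
        rw [map_one, baseChange_one_eq]
        rfl
      mul_mem' := by
        intro a b ha hb
        show (diaZ (N1 * twC qv) (pvC qP qv) (pvH qP qv p eP n) h2 hc p
          (a * b)).baseChange 𝒪 v = v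
        rw [map_mul, baseChange_mul_eq, Module.End.mul_apply]
        rw [show (diaZ (N1 * twC qv) (pvC qP qv) (pvH qP qv p eP n) h2 hc p
          b).baseChange 𝒪 v = v from hb]
        exact ha }
  have hgen : ∀ j : Fin (k + r), H70.pvDelta qP qv δP δQ j ∈ F := by
    intro j
    refine Fin.addCases (fun j => ?_) (fun i => ?_) j
    · rw [H70.pvDelta_left]
      exact hvP j
    · rw [H70.pvDelta_right]
      exact hvQ i
  have hF : u ∈ F := by
    rw [hu]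
    refine F.mul_mem ?_ (F.prod_mem fun j _ => F.pow_mem (hgen j) _)
    show (diaZ (N1 * twC qv) (pvC qP qv) (pvH qP qv p eP n) h2 hc p y).baseChange 𝒪 v = v
    rw [Fermat.Agent.NEB.Geom.H9.diaZ_eq_one_of_mem (N1 * twC qv) (pvC qP qv)
      (pvH qP qv p eP n) h2 hc p (u := y) hyH, baseChange_one_eq]
    rfl
  exact hF

end Dia

/-! ## On `W'` -/

section OnW

variable {𝒪 : Type} [CommRing 𝒪] [IsDomain 𝒪] [IsDiscreteValuationRing 𝒪]
  {ϖ : 𝒪} {p : ℕ} {N1 : ℕ} [NeZero N1] {S : Finset ℕ}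
  {θ : CuspForm.heckeAlgebra N1 2 (↑S : Set ℕ) →+* ResidueField 𝒪}
  {ρbar : ResidualGaloisRep (ResidueField 𝒪)} {k : ℕ} {eP : Fin k → ℕ} {n : ℕ}
  {qP : Fin k → ℕ} {r : ℕ} {qv : Fin r → ℕ}
  [NeZero (N1 * twC qv)] [NeZero (pvC qP qv)] [NeZero (twLevel N1 qv)]
  [NeZero (pvLevel N1 qP qv)]
  (D : PvSetup 𝒪 ϖ p N1 S θ ρbar eP n qP qv)

/-- An element of `W'` fixed by the `c j` and the `d i` is fixed by every diamond operator. -/
theorem dia_fix_all_W (v : D.WD.W) (hc : ∀ j, D.c j v = v) (hd : ∀ i, D.d i v = v)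
    (u : (ZMod (pvC qP qv))ˣ) : D.dia u v = v :=
  Subtype.ext (dia_fix_allPv 𝒪 D.hPV D.h2 D.hc D.hδ (D.val v)
    (fun j => congrArg Subtype.val (hc j)) (fun i => congrArg Subtype.val (hd i)) u)

/-- The underlying element of `Nm_{Δ_Q} (Nm_{Δ_Σ} x)`. -/
theorem coe_nmTot_nmTotE_pv (x : D.WD.W) :
    D.val (Fermat.Agent.S59.TWH.H90.nmTot (p ^ n) D.d
      (H59.nmTotE (fun j => p ^ eP j) D.c x))
      = Fermat.Agent.S59.TWH.H90.nmTot (p ^ n)
          (fun i => (diaZ (N1 * twC qv) (pvC qP qv) (pvH qP qv p eP n) D.h2 D.hc p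
            (D.δQ i)).baseChange 𝒪)
          (H59.nmTotE (fun j => p ^ eP j)
            (fun j => (diaZ (N1 * twC qv) (pvC qP qv) (pvH qP qv p eP n) D.h2 D.hc p
              (D.δP j)).baseChange 𝒪) (D.val x)) := by
  have h1 := Fermat.Agent.NEB.Geom.H15.coe_nmTot_thetaZ
    (etaPv N1 S p eP n qP qv D.h2 D.hc D.hcomm) (thetaPv N1 S qP qv θ D.α) (p ^ n)
    (fun i => diaZ (N1 * twC qv) (pvC qP qv) (pvH qP qv p eP n) D.h2 D.hc p (D.δQ i))
    (fun i t => D.comm_dia (D.δQ i) t) (H59.nmTotE (fun j => p ^ eP j) D.c x)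
  have h2 := coe_nmTotE_thetaZ
    (etaPv N1 S p eP n qP qv D.h2 D.hc D.hcomm) (thetaPv N1 S qP qv θ D.α)
    (fun j => p ^ eP j)
    (fun j => diaZ (N1 * twC qv) (pvC qP qv) (pvH qP qv p eP n) D.h2 D.hc p (D.δP j))
    (fun j t => D.comm_dia (D.δP j) t) x
  exact h1.trans (congrArg _ h2)

/-- **(b)** in the shape of `H18.p_pi_of` (`hfix`). -/
theorem pv_dia_fix_all (v : 𝒪 ⊗[ℤ] AHpv N1 p eP n qP qv)
    (hvP : ∀ j, (diaZ (N1 * twC qv) (pvC qP qv) (pvH qP qv p eP n) D.h2 D.hc p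
      (D.δP j)).baseChange 𝒪 v = v)
    (hvQ : ∀ i, (diaZ (N1 * twC qv) (pvC qP qv) (pvH qP qv p eP n) D.h2 D.hc p
      (D.δQ i)).baseChange 𝒪 v = v)
    (u : (ZMod (pvC qP qv))ˣ) :
    (diaZ (N1 * twC qv) (pvC qP qv) (pvH qP qv p eP n) D.h2 D.hc p u).baseChange 𝒪 v = v :=
  dia_fix_allPv 𝒪 D.hPV D.h2 D.hc D.hδ v hvP hvQ u

/-- **(c)** in the shape of `H18.p_pi_of` (`hcoe`). -/
theorem pv_coe_norm (x : D.WD.W) :
    D.val (Fermat.Agent.S59.TWH.H90.nmTot (p ^ n) D.d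
      (H59.nmTotE (fun j => p ^ eP j) D.c x))
      = (Fermat.Agent.S59.TWH.H90.nmTot (p ^ n)
          (fun i => diaZ (N1 * twC qv) (pvC qP qv) (pvH qP qv p eP n) D.h2 D.hc p (D.δQ i)) *
        H59.nmTotE (fun j => p ^ eP j)
          (fun j => diaZ (N1 * twC qv) (pvC qP qv) (pvH qP qv p eP n) D.h2 D.hc p
            (D.δP j))).baseChange 𝒪 (D.val x) := by
  rw [coe_nmTot_nmTotE_pv, baseChange_mul_eq, Module.End.mul_apply,
    Fermat.Agent.NEB.Geom.H14.nmTot_baseChange, nmTotE_baseChange]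

end OnW

end Fermat.Agent.L.Pivot.Geom.H76
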