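import Fermat.Agent.L.Pivot.Geom.H18_PPi
import Fermat.Agent.L.Pivot.Geom.H76_PiAux
import Fermat.Agent.L.Pivot.Geom.H76_PFrobNil

/-!
# PIVOT, PV-GEOM Part I: the leaves P-PI and P-FROBNIL, unconditionally (helper76)

* `stmt_P_PI : Stmt_P_PI` from helper18's wiring `H18.p_pi_of` (which uses helper29's
  `H29.p_upinj`, `H29.p_upinv`, helper14's `exists_omega_pv`, helper19's `stmt_Z_COMMpv`) and the
  two auxiliary statements `H76.pv_dia_fix_all`, `H76.pv_coe_norm`;
* `stmt_P_FROBNIL : Stmt_P_FROBNIL`.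
-/

set_option autoImplicit false
set_option linter.unusedSectionVars false
set_option linter.unusedVariables false
set_option linter.style.haveILetI false
set_option synthInstance.maxHeartbeats 400000
set_option maxHeartbeats 1600000

noncomputable section

open ModularCurve AlgebraicCurve IsLocalRing TensorProduct Polynomial

namespace Fermat.Agent.L.Pivot.Geom.H76

open Fermat.Agent.NEB Fermat.Agent.NEB.JH Fermat.Agent.NEB.Geom Fermat.Agent.S59.Asm
  Fermat.Agent.S59.Lim Fermat.Agent.S59.Lim.H2 Fermat.Agent.L.Pivot.Geom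

/-- **Leaf P-PI**, unconditionally. -/
theorem stmt_P_PI : Stmt_P_PI := by
  intro 𝒪 _ _ _ _ _ _ ϖ p _ N1 _ S Smin θ ρbar k Pv eP hstd Dm n r qv _ _ _ _ D
  exact Fermat.Agent.L.Pivot.Geom.H18.p_pi_of hstd.hϖ hstd.hyp.hp𝒪 Dm D
    (fun v => pv_dia_fix_all D v) (pv_coe_norm D)

/-- **Leaf P-FROBNIL**, unconditionally. -/
theorem stmt_P_FROBNIL : Stmt_P_FROBNIL := stmt_P_FROBNIL_of stmt_P_PI

end Fermat.Agent.L.Pivot.Geom.H76
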