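import Fermat.Agent.L.Pivot.Geom.H3_LinCore

/-!
# PIVOT, PV-GEOM, leaf PVG-NEW-ASM (helper81), part 1: pure algebra

* `exists_eigen_of_ker_le`: a commutative ring `P` acting on a finite-dimensional space `V` over an
  algebraically closed field `L` through `ρ`, with `P ⧸ ker ρ` integral over `ℤ`, and a ring
  homomorphism `π : P → D` to a domain of characteristic `0` with `ker ρ ≤ ker π`: there are
  `χ : P → L` with `ker χ = ker π` and a simultaneous eigenvector of `ρ` with eigenvalues `χ`.
* `isIntegral_quot_mvPolynomial`: for `P = ℤ[X_i]`, `P ⧸ ker ρ` is integral over `ℤ` as soon as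
  the `ρ (X_i)` are integral over `ℤ`.
* `exists_factor_of_ker_le`: a ring homomorphism whose kernel contains the kernel of a surjective
  ring homomorphism factors through it.
-/

set_option autoImplicit false

open Polynomial

namespace Fermat.Agent.L.Pivot.Geom.H81

section EigenKer

variable {L : Type*} [Field L] {V : Type*} [AddCommGroup V] [Module L V]
  {P : Type*} [CommRing P]

/-- Integrality in the quotient by the kernel from integrality of the operator. -/
theorem isIntegral_mk_of_isIntegral (ρ : P →+* Module.End L V) (f : P)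
    (h : IsIntegral ℤ (ρ f)) : IsIntegral ℤ (Ideal.Quotient.mk (RingHom.ker ρ) f) := by
  obtain ⟨g, hm, hg⟩ := h
  refine ⟨g, hm, ?_⟩
  have hinj : Function.Injective (RingHom.kerLift ρ) := RingHom.kerLift_injective ρ
  apply hinj
  rw [map_zero, ← hg]
  have h1 : (RingHom.kerLift ρ) (Ideal.Quotient.mk (RingHom.ker ρ) f) = ρ f :=
    RingHom.kerLift_mk ρ f
  rw [← h1, ← Polynomial.aeval_def, ← Polynomial.aeval_def]
  exact (Polynomial.aeval_algHom_apply (RingHom.kerLift ρ).toIntAlgHom _ g).symm

/-- For a polynomial ring over `ℤ`: the quotient by the kernel of an action is integral over `ℤ`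
as soon as the generators act through integral operators. -/
theorem isIntegral_quot_mvPolynomial {σ : Type*} (ρ : MvPolynomial σ ℤ →+* Module.End L V)
    (h : ∀ i, IsIntegral ℤ (ρ (MvPolynomial.X i))) :
    Algebra.IsIntegral ℤ (MvPolynomial σ ℤ ⧸ RingHom.ker ρ) := by
  refine ⟨fun x => ?_⟩
  obtain ⟨f, rfl⟩ := Ideal.Quotient.mk_surjective x
  induction f using MvPolynomial.induction_on with
  | C a =>
    have : (Ideal.Quotient.mk (RingHom.ker ρ)) (MvPolynomial.C a)
        = algebraMap ℤ (MvPolynomial σ ℤ ⧸ RingHom.ker ρ) a := by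
      rw [eq_intCast (algebraMap ℤ (MvPolynomial σ ℤ ⧸ RingHom.ker ρ)) a,
        show (MvPolynomial.C a : MvPolynomial σ ℤ) = ((a : ℤ) : MvPolynomial σ ℤ) from
          eq_intCast (MvPolynomial.C : ℤ →+* MvPolynomial σ ℤ) a, map_intCast]
    rw [this]
    exact isIntegral_algebraMap
  | add f g hf hg =>
    rw [map_add]
    exact hf.add hg
  | mul_X f i hf =>
    rw [map_mul]
    exact hf.mul (isIntegral_mk_of_isIntegral ρ _ (h i))

/-- **Eigen-characters from kernels.**  `P` commutative acting on the finite-dimensional `V` over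
the algebraically closed field `L`, `P ⧸ ker ρ` integral over `ℤ`; `π : P → D` a ring homomorphism
to a domain of characteristic `0` with `ker ρ ≤ ker π`.  Then there are a character `χ : P → L`
with the SAME kernel as `π` and a simultaneous eigenvector with eigenvalues `χ`. -/
theorem exists_eigen_of_ker_le [IsAlgClosed L] [FiniteDimensional L V]
    (ρ : P →+* Module.End L V) [Algebra.IsIntegral ℤ (P ⧸ RingHom.ker ρ)]
    {D : Type*} [CommRing D] [IsDomain D] [CharZero D] (π : P →+* D)
    (hle : RingHom.ker ρ ≤ RingHom.ker π) :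
    ∃ χ : P →+* L, RingHom.ker χ = RingHom.ker π ∧ ∃ v : V, v ≠ 0 ∧ ∀ t, ρ t v = χ t • v := by
  let ρ' : P ⧸ RingHom.ker ρ →+* Module.End L V := RingHom.kerLift ρ
  let π' : P ⧸ RingHom.ker ρ →+* D :=
    Ideal.Quotient.lift (RingHom.ker ρ) π (fun a ha => hle ha)
  have hker : RingHom.ker ρ' = ⊥ :=
    (RingHom.injective_iff_ker_eq_bot ρ').mp (RingHom.kerLift_injective ρ)
  have : (RingHom.ker π').IsPrime := RingHom.ker_isPrime π'
  have hint' : @Algebra.IsIntegral ℤ (P ⧸ RingHom.ker ρ) _ _ (Ring.toIntAlgebra _) :=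
    ‹Algebra.IsIntegral ℤ (P ⧸ RingHom.ker ρ)›
  have hmin : RingHom.ker π' ∈ (RingHom.ker ρ').minimalPrimes := by
    apply @H3.mem_minimalPrimes_of_integral _ _ hint'
    · rw [hker]
      exact bot_le
    · intro n hn
      rw [RingHom.mem_ker, map_intCast] at hn
      exact_mod_cast hn
  obtain ⟨χ, hχ, v, hv0, hv⟩ := H3.exists_eigen_of_minimalPrime ρ' _ hmin
  refine ⟨χ.comp (Ideal.Quotient.mk _), ?_, v, hv0, fun t => ?_⟩
  · ext t
    rw [RingHom.mem_ker, RingHom.comp_apply, ← RingHom.mem_ker, hχ, RingHom.mem_ker,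
      RingHom.mem_ker]
    rfl
  · exact hv (Ideal.Quotient.mk _ t)

end EigenKer

section Factor

/-- A ring homomorphism whose kernel contains the kernel of a surjective ring homomorphism factors
through it. -/
theorem exists_factor_of_ker_le {R T B : Type*} [CommRing R] [CommRing T] [CommRing B]
    (π : R →+* T) (hπ : Function.Surjective π) (g : R →+* B)
    (h : RingHom.ker π ≤ RingHom.ker g) : ∃ g' : T →+* B, ∀ x, g' (π x) = g x :=
  ⟨RingHom.liftOfSurjective π hπ ⟨g, h⟩, fun x => RingHom.liftOfRightInverse_comp_apply _ _ _ _ x⟩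

end Factor

end Fermat.Agent.L.Pivot.Geom.H81
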