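import Fermat.Agent.L.Pivot.Geom.H81_NewAsmGen
import Fermat.Agent.L.Pivot.Geom.H4_NewOp
import Fermat.Agent.L.Pivot.Geom.H50_NewJ0Defs
import Fermat.Agent.Betti.EigenFinal

/-!
# PIVOT, PV-GEOM, leaf PVG-NEW-ASM (helper81), part 4: the Betti side

`false_of_eigen_new`: `V ↪ Hom_par(Γ₀(N c) ∩ Γ₁(c), L)` with the operators `TV ℓ`, `dia d`
(setting of `NEB.EIG.H39.stmt_OP` / `H4.exists_Theta_new`).  A nonzero vector
`w ∈ (⟨δ⟩ - 1) V` (`δ ≡ 1` modulo the primes of `c` other than `q`) which is an eigenvector of the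
twisted Hecke operators `tOp ℓ` with eigenvalues `a ℓ`, together with a character of the Hecke
algebra of level `N c² / q` with the same eigenvalues, contradicts `Stmt_NewJ0 (N c² / q) q p`.
-/

set_option autoImplicit false

open IsLocalRing

namespace Fermat.Agent.L.Pivot.Geom.H81

open CongruenceSubgroup Matrix.SpecialLinearGroup ModularForm Finset
open scoped MatrixGroups
open Fermat.Agent.NEB.EIG.H39 Fermat.Agent.S41 Fermat.Agent.Betti ModularCurve.Period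

section EigComp

variable {c : ℕ} {L : Type} [Field L] {V : Type} [AddCommGroup V] [Module L V]
  [NeZero c] [CharZero L] [HasEnoughRootsOfUnity L (Monoid.exponent (ZMod c)ˣ)]

/-- An operator commuting with the diamond operators commutes with the projectors. -/
theorem eigComp_comm (dia : (ZMod c)ˣ →* Module.End L V) (ψ : MulChar (ZMod c) L)
    (X : Module.End L V) (hX : ∀ d, Commute X (dia d)) (v : V) :
    X (eigComp dia ψ v) = eigComp dia ψ (X v) := by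
  unfold eigComp
  rw [map_smul, map_sum]
  congr 1
  refine Finset.sum_congr rfl fun d _ => ?_
  rw [map_smul]
  congr 1
  have := congrArg (fun F : Module.End L V => F v) (hX d).eq
  simpa only [Module.End.mul_apply] using this

theorem eigComp_smul (dia : (ZMod c)ˣ →* Module.End L V) (ψ : MulChar (ZMod c) L)
    (a : L) (v : V) : eigComp dia ψ (a • v) = a • eigComp dia ψ v := by
  have h := eigComp_comm dia ψ (a • (1 : Module.End L V))
    (fun d => (Commute.one_left (dia d)).smul_left a) v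
  rw [LinearMap.smul_apply, Module.End.one_apply, LinearMap.smul_apply,
    Module.End.one_apply] at h
  exact h.symm

end EigComp

set_option maxHeartbeats 1000000 in
/-- **The Betti side of PVG-NEW-ASM.** -/
theorem false_of_eigen_new
    {𝒪 : Type} [CommRing 𝒪] [IsDomain 𝒪] [IsDiscreteValuationRing 𝒪]
    [IsAdicComplete (maximalIdeal 𝒪) 𝒪]
    (p : ℕ) (hp : p.Prime) (hp𝒪 : (p : 𝒪) ∈ maximalIdeal 𝒪) (hp0 : (p : 𝒪) ≠ 0)
    {L : Type} [Field L] [CharZero L] [IsAlgClosed L] [Algebra 𝒪 L]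
    (hL : Function.Injective (algebraMap 𝒪 L))
    {V : Type} [AddCommGroup V] [Module L V]
    (N : ℕ) (hN : N ≠ 0) (qs : List ℕ) (hnd : qs.Nodup)
    (hpr : ∀ q ∈ qs, q.Prime) (hqN : ∀ q ∈ qs, ¬ q ∣ N) (S : Finset ℕ)
    (μ : V →ₗ[L] (Additive (Gam1 (N * qs.prod) qs.prod) →+ L)) (hμ : Function.Injective μ)
    (hμpar : ∀ v, IsParabolicHom (Gam1 (N * qs.prod) qs.prod) (μ v))
    (TV : ℕ → Module.End L V)
    (hTV : ∀ (ℓ : ℕ) (hℓ : ℓ.Prime) (hℓM : ¬ ℓ ∣ N * qs.prod) (v : V),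
      μ (TV ℓ v) = TD (N * qs.prod) qs.prod (dvd_mul_left _ _) hℓ hℓM (μ v))
    (dia : (ZMod qs.prod)ˣ →* Module.End L V)
    (hdia : ∀ (g : SL(2, ℤ)) (hg : ((N * qs.prod : ℕ) : ℤ) ∣ g 1 0) (d : (ZMod qs.prod)ˣ),
      (d : ZMod qs.prod) = ((g 0 0 : ℤ) : ZMod qs.prod) →
      ∀ v, μ (dia d v) = Dop (dvd_mul_left _ _) g hg (μ v))
    (hcommV : ∀ ℓ d, Commute (TV ℓ) (dia d))
    (j : ℕ) (hdn : ∀ d, dia d ^ (2 * j + 1) = 1)
    (q : ℕ) (hq : q ∈ qs) (hqp : q ≠ p)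
    [NeZero (N * qs.prod * qs.prod / q)] [NeZero q]
    (hN2 : H50.Stmt_NewJ0 (N * qs.prod * qs.prod / q) q p)
    (δ : (ZMod qs.prod)ˣ)
    (hδ : ∀ q' ∈ qs, q' ≠ q → ∀ hd : q' ∣ qs.prod, ZMod.unitsMap hd δ = 1)
    (a : ℕ → L) (w : V) (hw0 : w ≠ 0)
    (hwδ : w ∈ LinearMap.range (dia δ - (1 : Module.End L V)))
    (hwT : ∀ ℓ : ℕ, ℓ.Prime → ¬ ℓ ∣ N * qs.prod * qs.prod → ℓ ∉ S →
      tOp TV dia j ℓ w = a ℓ • w)
    (χlow : CuspForm.heckeAlgebra (N * qs.prod * qs.prod / q) 2 (↑S : Set ℕ) →+* L)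
    (hχlow : ∀ (ℓ : ℕ) (hℓ : ℓ.Prime) (hℓN : ¬ ℓ ∣ N * qs.prod * qs.prod / q)
      (hℓS : ℓ ∉ (↑S : Set ℕ)), ¬ ℓ ∣ N * qs.prod * qs.prod →
      χlow (CuspForm.heckeAlgebra.T hℓ hℓN hℓS) = a ℓ) : False := by
  classical
  haveI : NeZero qs.prod := ⟨prod_primes_ne_zero hpr⟩
  haveI := hasEnough_of_algClosed L qs.prod
  obtain ⟨hlev, hqM, hq2M⟩ := level_div_facts N qs hnd hpr hqN hq
  -- a nonzero component of `w`
  obtain ⟨ψ', hψ'⟩ : ∃ ψ' : DirichletCharacter L qs.prod, eigComp dia ψ' w ≠ 0 := by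
    by_contra h
    push Not at h
    apply hw0
    rw [← sum_eigComp dia w]
    exact Finset.sum_eq_zero (fun ψ _ => h ψ)
  have hw'mem : eigComp dia ψ' w ∈ eigSp dia ψ' := eigComp_mem dia ψ' w
  have hdd : ∀ d d', Commute (dia d) (dia d') := fun d d' => (Commute.all d d').map dia
  have htd : ∀ ℓ d, Commute (tOp TV dia j ℓ) (dia d) := fun ℓ d =>
    (hcommV ℓ d).mul_left ((hdd _ d).pow_left j)
  have hw'T : ∀ ℓ : ℕ, ℓ.Prime → ¬ ℓ ∣ N * qs.prod * qs.prod → ℓ ∉ S →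
      tOp TV dia j ℓ (eigComp dia ψ' w) = a ℓ • eigComp dia ψ' w := by
    intro ℓ h1 h2 h3
    rw [eigComp_comm dia ψ' _ (htd ℓ) w, hwT ℓ h1 h2 h3, eigComp_smul]
  -- `ψ'` is non-trivial at `δ`
  have hψδ : ψ' ((δ : (ZMod qs.prod)ˣ) : ZMod qs.prod) ≠ 1 := by
    intro h1
    apply hψ'
    obtain ⟨u, hu⟩ := hwδ
    have h2 := eigComp_comm dia ψ' (dia δ - (1 : Module.End L V))
      (fun d => (hdd δ d).sub_left (Commute.one_left _)) u
    rw [hu] at h2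
    rw [← h2, LinearMap.sub_apply, Module.End.one_apply, eigComp_mem dia ψ' u δ, h1, one_smul,
      sub_self]
  have hψq : ∃ a : ℤ, IsUnit ((a : ℤ) : ZMod qs.prod) ∧
      (∀ q' ∈ qs, q' ≠ q → ((a : ℤ) : ZMod q') = 1) ∧ ψ' ((a : ℤ) : ZMod qs.prod) ≠ 1 := by
    have e1 : ((((δ : ZMod qs.prod).val : ℕ) : ℤ) : ZMod qs.prod) = (δ : ZMod qs.prod) := by
      rw [Int.cast_natCast, ZMod.natCast_zmod_val]
    refine ⟨(((δ : ZMod qs.prod).val : ℕ) : ℤ), ?_, ?_, ?_⟩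
    · rw [e1]
      exact δ.isUnit
    · intro q' hq' hne
      have hd : q' ∣ qs.prod := List.dvd_prod hq'
      have h1 := congrArg (fun u : (ZMod q')ˣ => (u : ZMod q')) (hδ q' hq' hne hd)
      simp only [ZMod.unitsMap_def, Units.coe_map, Units.val_one, MonoidHom.coe_coe,
        ZMod.castHom_apply] at h1
      rw [Int.cast_natCast, ZMod.natCast_val]
      exact h1
    · rw [e1]
      exact hψδ
  -- the `q`-new intertwiner
  obtain ⟨Θ, hΘpar, hΘinj, hΘT, hΘnew⟩ := H4.exists_Theta_new N hN qs hnd hpr hqN μ hμ hμpar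
    TV hTV dia hdia j hdn ψ' q hq hψq (N * qs.prod * qs.prod / q) hlev
  -- the class at the lower level
  obtain ⟨Φ', hΦ'0, hΦ'par, hΦ'T, -⟩ :=
    Fermat.Agent.Betti.stmt_eigen (N * qs.prod * qs.prod / q) (↑S : Set ℕ) L χlow
  refine hN2 (hpr q hq) hqM hq2M hp hqp S 𝒪 hp𝒪 hp0 L hL a (Θ (eigComp dia ψ' w)) ?_
    (hΘpar _ hw'mem) ?_ (hΘnew _ hw'mem).1 (hΘnew _ hw'mem).2 Φ' hΦ'0 hΦ'par ?_
  · intro h
    exact hψ' (hΘinj _ hw'mem h)
  · intro ℓ hℓ hℓN hℓS _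
    rw [← hΘT ℓ hℓ hℓN _ hw'mem, hw'T ℓ hℓ (by rw [← hlev]; exact hℓN) hℓS, map_smul]
  · intro ℓ hℓ hℓN hℓN' hℓS _
    have hℓS' : ℓ ∉ (↑S : Set ℕ) := fun h => hℓS (Finset.mem_coe.mp h)
    rw [hΦ'T ℓ hℓ hℓN hℓS', hχlow ℓ hℓ hℓN hℓS' (by rw [← hlev]; exact hℓN')]

end Fermat.Agent.L.Pivot.Geom.H81
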