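import Fermat.Agent.L.Pivot.Geom.H81_NewAsmGen
import Fermat.Agent.S22

/-!
# PIVOT, PV-GEOM, leaf PVG-NEW-ASM (helper81), part 3: the algebraic core

`exists_eigen_new`: the ANNIHILATOR argument.  `V` a finite-dimensional `L`-vector space containing
(through `gn`) a lattice `T₀` (in the application the Tate module of the divisible part of
`J_H[p^∞]`); `W` an `𝒪`-module (in the application `W = thetaPart η θ`).  A commutative ring `𝕋⁺`
acts on `T₀` (`ρT`) and on `W` (`ρW`), and every element which kills `T₀` kills `W` (`hker`).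
The Hecke algebra `𝕋(N')` acts on `V` (`etaV`) and on `W` (`etaW`), the generators `T_ℓ` through
`z ℓ : 𝕋⁺`; the pivot diamond operators `cV i`, `cW i` through `zc i : 𝕋⁺`.  If `χ` kills
the annihilator of `Tate_ϖ W / typeSub c ψ` (`ψ i ≠ 1`), then there are a character
`χ'' : 𝕋(N') → L` with `ker χ'' = ker χ` and an eigenvector `0 ≠ w ∈ (cV i₀ - 1) V` of `etaV`
with eigenvalues `χ''`.
-/

set_option autoImplicit false

open IsLocalRing TensorProduct

namespace Fermat.Agent.L.Pivot.Geom.H81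

open Fermat.Agent.NEB.EIG.H39 Fermat.Agent.S59.Lim Fermat.Agent.L.Pivot

set_option maxHeartbeats 1000000 in
/-- **The annihilator argument.** -/
theorem exists_eigen_new
    {𝒪 : Type} [CommRing 𝒪] [IsDomain 𝒪] [IsDiscreteValuationRing 𝒪]
    [IsAdicComplete (maximalIdeal 𝒪) 𝒪] [CharZero 𝒪]
    (ϖ : 𝒪) (hϖ : Irreducible ϖ) (p : ℕ) (hp : 0 < p)
    {L : Type} [Field L] [IsAlgClosed L] [Algebra 𝒪 L]
    (hL : Function.Injective (algebraMap 𝒪 L))
    {V : Type} [AddCommGroup V] [Module L V] [FiniteDimensional L V]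
    (N' : ℕ) [NeZero N'] (S : Finset ℕ)
    (hS : ∀ q : ℕ, q.Prime → q ∣ N' → q ∈ (↑S : Set ℕ))
    {T₀ : Type} [AddCommGroup T₀]
    (gn : T₀ →ₗ[ℤ] V) (hgn : Function.Injective gn)
    {𝕋 : Type} [CommRing 𝕋] (ρT : 𝕋 →+* Module.End ℤ T₀)
    {W : Type} [AddCommGroup W] [Module 𝒪 W] (hW : IsDiv ϖ W)
    (ρW : 𝕋 →+* Module.End 𝒪 W) (hker : ∀ s, ρT s = 0 → ρW s = 0)
    (z : ℕ → 𝕋) {k : ℕ} (zc : Fin k → 𝕋)
    (etaV : CuspForm.heckeAlgebra N' 2 (↑S : Set ℕ) →+* Module.End L V)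
    (hetaV : ∀ (ℓ : ℕ) (hℓ : ℓ.Prime) (hℓN : ¬ ℓ ∣ N') (hℓS : ℓ ∉ (↑S : Set ℕ)) (ξ : T₀),
      etaV (CuspForm.heckeAlgebra.T hℓ hℓN hℓS) (gn ξ) = gn (ρT (z ℓ) ξ))
    (cV : Fin k → Module.End L V)
    (hcV : ∀ i ξ, cV i (gn ξ) = gn (ρT (zc i) ξ))
    (hcVeta : ∀ i t, Commute (etaV t) (cV i))
    (etaW : CuspForm.heckeAlgebra N' 2 (↑S : Set ℕ) →+* Module.End 𝒪 W)
    (hetaW : ∀ (ℓ : ℕ) (hℓ : ℓ.Prime) (hℓN : ¬ ℓ ∣ N') (hℓS : ℓ ∉ (↑S : Set ℕ)),
      etaW (CuspForm.heckeAlgebra.T hℓ hℓN hℓS) = ρW (z ℓ))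
    (cW : Fin k → Module.End 𝒪 W)
    (hcW : ∀ i, cW i = ρW (zc i))
    (eP : Fin k → ℕ) (hcWpow : ∀ i, cW i ^ (p ^ eP i) = 1)
    (ψ : Fin k → 𝒪) (hψ : ∀ i, ψ i ^ (p ^ eP i) = 1 ∧ ψ i ≠ 1)
    (D : Type) [CommRing D] [IsDomain D] [CharZero D]
    (χ : CuspForm.heckeAlgebra N' 2 (↑S : Set ℕ) →+* D)
    (hχ : ∀ t, (∀ v : H2.tate ϖ W, H2.mapEnd ϖ W (etaW t) v ∈
          typeSub (fun i => H2.mapEnd ϖ W (cW i)) ψ) → χ t = 0)
    (i₀ : Fin k) :
    ∃ (χ'' : CuspForm.heckeAlgebra N' 2 (↑S : Set ℕ) →+* L) (w : V),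
      RingHom.ker χ'' = RingHom.ker χ ∧ w ≠ 0 ∧
      w ∈ LinearMap.range (cV i₀ - (1 : Module.End L V)) ∧
      ∀ t, etaV t w = χ'' t • w := by
  classical
  -- (1) the actions are compatible on the whole Hecke algebra
  have hall : ∀ t : CuspForm.heckeAlgebra N' 2 (↑S : Set ℕ), ∃ s : 𝕋,
      etaW t = ρW s ∧ ∀ ξ, etaV t (gn ξ) = gn (ρT s ξ) := by
    refine hecke_induction hS
      (fun ℓ hℓ hℓN hℓS => ⟨z ℓ, hetaW ℓ hℓ hℓN hℓS, hetaV ℓ hℓ hℓN hℓS⟩)
      (fun n => ⟨(n : 𝕋), ?_, fun ξ => ?_⟩) (fun x y hx hy => ?_) (fun x y hx hy => ?_)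
    · rw [map_intCast, map_intCast]
    · rw [map_intCast, map_intCast, Module.End.intCast_apply, Module.End.intCast_apply,
        map_zsmul]
    · obtain ⟨s, hs1, hs2⟩ := hx
      obtain ⟨s', hs1', hs2'⟩ := hy
      refine ⟨s + s', ?_, fun ξ => ?_⟩
      · rw [map_add, map_add, hs1, hs1']
      · rw [map_add, map_add, LinearMap.add_apply, LinearMap.add_apply, map_add, hs2, hs2']
    · obtain ⟨s, hs1, hs2⟩ := hx
      obtain ⟨s', hs1', hs2'⟩ := hy
      refine ⟨s * s', ?_, fun ξ => ?_⟩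
      · rw [map_mul, map_mul, hs1, hs1']
      · rw [map_mul, map_mul, Module.End.mul_apply, Module.End.mul_apply, hs2', hs2]
  -- (2) LIN on the Tate module of `W`
  have hfg : (Submodule.torsionBy 𝒪 W ϖ).FG := by
    haveI := hW.fin
    haveI : Module.Finite 𝒪 (Submodule.torsionBy 𝒪 W ϖ) := Module.Finite.of_finite
    exact Module.Finite.iff_fg.mp inferInstance
  haveI : Module.Finite 𝒪 (H2.tate ϖ W) := H2.finite_tate_dvr hϖ hW.div hfg
  haveI : Module.Free 𝒪 (H2.tate ϖ W) := H2.free_tate hϖ hW.div hfg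
  haveI : Module.Finite ℤ (CuspForm.heckeAlgebra N' 2 (↑S : Set ℕ)) :=
    Fermat.Agent.S22.result N' 2 (↑S : Set ℕ)
  let ηF : CuspForm.heckeAlgebra N' 2 (↑S : Set ℕ) →+* Module.End 𝒪 (H2.tate ϖ W) :=
    ((H2.mapEnd ϖ W : Module.End 𝒪 W →ₐ[𝒪] _) : Module.End 𝒪 W →+* _).comp etaW
  have hcF : ∀ i, H2.mapEnd ϖ W (cW i) ^ (p ^ eP i) = 1 := fun i => by
    rw [← map_pow, hcWpow i, map_one]
  have hccF : ∀ i i', Commute (H2.mapEnd ϖ W (cW i)) (H2.mapEnd ϖ W (cW i')) := fun i i' => by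
    rw [hcW i, hcW i']
    exact ((Commute.all (zc i) (zc i')).map ρW).map (H2.mapEnd ϖ W)
  have hηcF : ∀ t i, Commute (ηF t) (H2.mapEnd ϖ W (cW i)) := fun t i => by
    obtain ⟨s, hs1, -⟩ := hall t
    show Commute (H2.mapEnd ϖ W (etaW t)) (H2.mapEnd ϖ W (cW i))
    rw [hs1, hcW i]
    exact ((Commute.all s (zc i)).map ρW).map (H2.mapEnd ϖ W)
  have hχF : ∀ t, (∀ v : ↥(H2.tate ϖ W), ηF t v ∈
      typeSub (fun i => H2.mapEnd ϖ W (cW i)) ψ) → χ t = 0 := hχ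
  obtain ⟨χ', hker', v, hv0, hvη, hvc⟩ :=
    lin_typeSub_nosat (𝒪 := 𝒪) (F := ↥(H2.tate ϖ W)) (L := L) hL
      (fun i => H2.mapEnd ϖ W (cW i))
      (fun i => p ^ eP i) (fun i => pow_pos hp _) hcF hccF
      ψ (fun i => (hψ i).1) ηF hηcF χ hχF
  -- (3) the subspace `(cV i₀ - 1) V`
  have hstab : ∀ t, ∀ x ∈ LinearMap.range (cV i₀ - (1 : Module.End L V)),
      etaV t x ∈ LinearMap.range (cV i₀ - (1 : Module.End L V)) := by
    rintro t _ ⟨y, rfl⟩
    refine ⟨etaV t y, ?_⟩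
    have h1 : etaV t (cV i₀ y) = cV i₀ (etaV t y) := by
      have := congrArg (fun f : Module.End L V => f y) (hcVeta i₀ t).eq
      simpa only [Module.End.mul_apply] using this
    rw [LinearMap.sub_apply, LinearMap.sub_apply, Module.End.one_apply, Module.End.one_apply,
      map_sub, h1]
  let ρ₀ : CuspForm.heckeAlgebra N' 2 (↑S : Set ℕ) →+*
      Module.End L ↥(LinearMap.range (cV i₀ - (1 : Module.End L V))) :=
    H3.restrictRingHom etaV _ hstab
  have hρ₀ : ∀ t (x : ↥(LinearMap.range (cV i₀ - (1 : Module.End L V)))),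
      ((ρ₀ t x : ↥(LinearMap.range (cV i₀ - (1 : Module.End L V)))) : V) = etaV t (x : V) :=
    fun t x => rfl
  have hker : RingHom.ker ρ₀ ≤ RingHom.ker χ := by
    intro t ht
    rw [RingHom.mem_ker] at ht
    rw [← hker', RingHom.mem_ker]
    obtain ⟨s, hs1, hs2⟩ := hall t
    have h1 : ∀ ξ, gn (ρT (s * (zc i₀ - 1)) ξ) = 0 := by
      intro ξ
      have h2 := hρ₀ t ⟨(cV i₀ - (1 : Module.End L V)) (gn ξ), ⟨_, rfl⟩⟩
      rw [ht] at h2
      simp only [LinearMap.zero_apply, Submodule.coe_zero] at h2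
      rw [LinearMap.sub_apply, Module.End.one_apply, hcV i₀ ξ, ← map_sub, hs2] at h2
      rw [map_mul, Module.End.mul_apply, map_sub, map_one,
        LinearMap.sub_apply, Module.End.one_apply]
      exact h2.symm
    have h2 : ρT (s * (zc i₀ - 1)) = 0 := by
      refine LinearMap.ext fun ξ => ?_
      apply hgn
      rw [h1 ξ, LinearMap.zero_apply, map_zero]
    have h3 : ∀ x : W, etaW t (cW i₀ x - x) = 0 := by
      intro x
      have e1 : ρW (s * (zc i₀ - 1)) x = etaW t (cW i₀ x - x) := by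
        rw [map_mul, Module.End.mul_apply, map_sub, map_one, LinearMap.sub_apply,
          Module.End.one_apply, ← hs1, ← hcW i₀]
      rw [← e1, hker _ h2, LinearMap.zero_apply]
    have h4 : ∀ y : H2.tate ϖ W, ηF t (H2.mapEnd ϖ W (cW i₀) y - y) = 0 := by
      intro y
      apply H2.tate_ext
      intro m
      show H2.ev ϖ W m (H2.mapEnd ϖ W (etaW t) (H2.mapEnd ϖ W (cW i₀) y - y)) = _
      rw [H2.ev_mapEnd, map_sub, H2.ev_mapEnd, h3, map_zero]
    have h5 : (ηF t).baseChange L (((H2.mapEnd ϖ W (cW i₀)).baseChange L) v - v) = 0 := by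
      have h6 : ∀ u : L ⊗[𝒪] ↥(H2.tate ϖ W),
          (ηF t).baseChange L (((H2.mapEnd ϖ W (cW i₀)).baseChange L) u - u) = 0 := by
        intro u
        induction u using TensorProduct.induction_on with
        | zero => simp
        | tmul l y =>
          rw [LinearMap.baseChange_tmul, ← TensorProduct.tmul_sub, LinearMap.baseChange_tmul,
            h4, TensorProduct.tmul_zero]
        | add u u' hu hu' =>
          rw [map_add, add_sub_add_comm, map_add, hu, hu', add_zero]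
      exact h6 v
    rw [hvc i₀, map_sub, map_smul, hvη t] at h5
    have h5a : (algebraMap 𝒪 L (ψ i₀) * χ' t) • v = χ' t • v := by
      rw [mul_smul]
      exact sub_eq_zero.mp h5
    have h5b : algebraMap 𝒪 L (ψ i₀) * χ' t = χ' t := smul_left_injective L hv0 h5a
    have h6 : (algebraMap 𝒪 L (ψ i₀) - 1) * χ' t = 0 := by
      rw [sub_mul, one_mul, h5b, sub_self]
    rcases mul_eq_zero.mp h6 with h7 | h7
    · exfalso
      apply (hψ i₀).2
      apply hL
      rw [map_one]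
      exact sub_eq_zero.mp h7
    · exact h7
  -- (4) the eigenvector
  have : (RingHom.ker χ).IsPrime := RingHom.ker_isPrime χ
  have hmin : RingHom.ker χ ∈ (RingHom.ker ρ₀).minimalPrimes := by
    refine H3.mem_minimalPrimes_of_integral _ _ hker ?_
    intro m hm
    rw [RingHom.mem_ker, map_intCast] at hm
    exact_mod_cast hm
  have hfinV : FiniteDimensional L ↥(LinearMap.range (cV i₀ - (1 : Module.End L V))) :=
    FiniteDimensional.finiteDimensional_submodule _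
  obtain ⟨χ'', hχ'', w, hw0, hw⟩ := H3.exists_eigen_of_minimalPrime ρ₀ (RingHom.ker χ) hmin
  refine ⟨χ'', (w : V), hχ'', ?_, w.2, fun t => ?_⟩
  · intro h
    exact hw0 (Subtype.ext h)
  · rw [← hρ₀, hw t]
    rfl

end Fermat.Agent.L.Pivot.Geom.H81
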