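import Fermat.Agent.L.Pivot.Geom.H81_NewAsmAlg
import Fermat.Agent.L.Pivot.Geom.H3_Lin
import Fermat.Agent.NEB.EIG.H39_EigA3
import Fermat.Agent.Betti.H77_CountK
import Fermat.Agent.S59.Lim.H2_Theta

/-!
# PIVOT, PV-GEOM, leaf PVG-NEW-ASM (helper81), part 2: generic lemmas

* `polyEndH81` : the ring homomorphism `ℤ[X_i] → E` of a commuting family;
* `eigen_of_gens` : an eigenvector of the generators is an eigenvector of the polynomial ring;
* `finiteDimensional_Vsp` : `Vsp ι ms ⊆ Hom(Γ, L)` is finite-dimensional;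
* `polyEnd_gen`, `eta_eq_zero_of_rhoV` : the ANNIHILATOR TRANSFER `ker ρ_V ≤ ker ρ_A`
  (`ρ_V` on the span of the characters of `T_p A`, `ρ_A` on `A`);
* `thetaEta_eq_zero_of` ;
* `padic_hom_injective` : ring homomorphisms `ℤ_[p] → R` (`R` a domain of characteristic `0`)
  are injective;
* `lin_typeSub_nosat` : helper3's PVG-LIN WITHOUT the saturation hypothesis;
* `exists_prod_eq_mul`, `not_sq_dvd_div`: arithmetic of `N c²`, `c` a product of distinct primes.
-/

set_option autoImplicit false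

open IsLocalRing TensorProduct

namespace Fermat.Agent.L.Pivot.Geom.H81

open CongruenceSubgroup Matrix.SpecialLinearGroup
open scoped MatrixGroups
open Fermat.Agent.NEB.EIG.H39 Fermat.Agent.Betti
open Fermat.Agent.S59.Lim Fermat.Agent.L.Pivot

/-! ### Polynomial rings acting through commuting operators -/

section Poly

/-- The ring homomorphism from a polynomial ring to a (non-commutative) ring `E` given by a
commuting family. -/
noncomputable def polyEndH81 {σ : Type} {E : Type} [Ring E] (f : σ → E)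
    (hf : ∀ i j, Commute (f i) (f j)) : MvPolynomial σ ℤ →+* E :=
  letI : CommRing ↥(Algebra.adjoin ℤ (Set.range f)) :=
    { (inferInstance : Ring ↥(Algebra.adjoin ℤ (Set.range f))) with
      mul_comm := by
        haveI := Algebra.isMulCommutative_adjoin ℤ (s := Set.range f) (by
          rintro _ ⟨i, rfl⟩ _ ⟨j, rfl⟩
          exact (hf i j).eq)
        exact fun a b => mul_comm' a b }
  (Algebra.adjoin ℤ (Set.range f)).val.toRingHom.comp
    (MvPolynomial.aeval (R := ℤ) (S₁ := ↥(Algebra.adjoin ℤ (Set.range f)))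
      (fun i => (⟨f i, Algebra.subset_adjoin ⟨i, rfl⟩⟩ :
        ↥(Algebra.adjoin ℤ (Set.range f))))).toRingHom

theorem polyEndH81_X {σ : Type} {E : Type} [Ring E] (f : σ → E)
    (hf : ∀ i j, Commute (f i) (f j)) (i : σ) :
    polyEndH81 f hf (MvPolynomial.X i) = f i := by
  unfold polyEndH81
  simp

/-- An eigenvector of the generators is an eigenvector of the whole polynomial ring. -/
theorem eigen_of_gens {σ : Type} {L : Type} [Field L] {E : Type*} [AddCommGroup E] [Module L E]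
    (ρ : MvPolynomial σ ℤ →+* Module.End L E) (lam : σ → L) (v : E)
    (h : ∀ i, ρ (MvPolynomial.X i) v = lam i • v) (f : MvPolynomial σ ℤ) :
    ρ f v = (MvPolynomial.eval₂Hom (Int.castRingHom L) lam f) • v := by
  induction f using MvPolynomial.induction_on with
  | C a =>
    rw [show (MvPolynomial.C a : MvPolynomial σ ℤ) = ((a : ℤ) : MvPolynomial σ ℤ) from
      eq_intCast (MvPolynomial.C : ℤ →+* MvPolynomial σ ℤ) a, map_intCast, map_intCast,
      Module.End.intCast_apply, Int.cast_smul_eq_zsmul]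
  | add f g hf hg => rw [map_add, map_add, LinearMap.add_apply, hf, hg, add_smul]
  | mul_X f i hf =>
    rw [map_mul, map_mul, Module.End.mul_apply, h i, map_smul, hf, smul_smul, mul_comm]
    congr 2
    simp

end Poly

/-! ### Finite-dimensionality -/

section FinDim

theorem Gamma_le_Gam1_h81 (M c : ℕ) : Gamma (M * c) ≤ Gam1 M c := by
  intro γ hγ
  rw [Gamma_mem] at hγ
  obtain ⟨h00, -, h10, -⟩ := hγ
  have h1 : ((M * c : ℕ) : ℤ) ∣ γ 1 0 := (ZMod.intCast_zmod_eq_zero_iff_dvd _ _).mp h10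
  have h2 : ((M * c : ℕ) : ℤ) ∣ γ 0 0 - 1 := by
    apply (ZMod.intCast_zmod_eq_zero_iff_dvd _ _).mp
    push_cast
    rw [h00, sub_self]
  have hM : (M : ℤ) ∣ ((M * c : ℕ) : ℤ) := by
    rw [Nat.cast_mul]
    exact dvd_mul_right _ _
  have hc : (c : ℤ) ∣ ((M * c : ℕ) : ℤ) := by
    rw [Nat.cast_mul]
    exact dvd_mul_left _ _
  exact ⟨hM.trans h1, hc.trans h1, hc.trans h2⟩

theorem finite_quot_Gam1_h81 (M c : ℕ) (hM : M ≠ 0) (hc : c ≠ 0) :
    Finite (SL(2, ℤ) ⧸ Gam1 M c) := by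
  haveI : NeZero (M * c) := ⟨mul_ne_zero hM hc⟩
  haveI : (Gam1 M c).FiniteIndex := Subgroup.finiteIndex_of_le (Gamma_le_Gam1_h81 M c)
  exact Subgroup.finite_quotient_of_finiteIndex

theorem finiteDimensional_hom_Gam1 (M c : ℕ) (hM : M ≠ 0) (hc : c ≠ 0) (L : Type) [Field L] :
    FiniteDimensional L (Additive (Gam1 M c) →+ L) := by
  haveI := finite_quot_Gam1_h81 M c hM hc
  exact Fermat.Agent.Betti.H77.finite_homK L (Gam1 M c) SpecialLinearGroup.SL2Z_generators

theorem finiteDimensional_Vsp {p : ℕ} [Fact p.Prime] {M c : ℕ} {A : Type} [AddCommGroup A]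
    {L : Type} [Field L] (ι : ℤ_[p] →+* L) (ms : MonoSys p M c A) (hM : M ≠ 0) (hc : c ≠ 0) :
    FiniteDimensional L ↥(Vsp ι ms) := by
  haveI := finiteDimensional_hom_Gam1 M c hM hc L
  exact FiniteDimensional.finiteDimensional_submodule _

end FinDim

/-! ### The annihilator transfer -/

section Ann

variable {T₀ : Type} [AddCommGroup T₀] {L : Type} [Field L] {V : Type} [AddCommGroup V]
  [Module L V] (gn : T₀ →ₗ[ℤ] V)
  {𝕋 : Type} [CommRing 𝕋] (e : 𝕋 →+* Module.End ℤ T₀) {σ : Type} (g : σ → 𝕋)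
  (ρV : MvPolynomial σ ℤ →+* Module.End L V)

/-- If the generators of the polynomial ring act compatibly on `V` and on `T₀`, so does the whole
ring. -/
theorem polyEnd_gen
    (h : ∀ i ξ, ρV (MvPolynomial.X i) (gn ξ) = gn (e (g i) ξ))
    (f : MvPolynomial σ ℤ) (ξ : T₀) :
    ρV f (gn ξ) = gn (e (MvPolynomial.eval₂Hom (Int.castRingHom 𝕋) g f) ξ) := by
  induction f using MvPolynomial.induction_on generalizing ξ with
  | C a =>
    have e0 : (MvPolynomial.C a : MvPolynomial σ ℤ) = ((a : ℤ) : MvPolynomial σ ℤ) :=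
      eq_intCast (MvPolynomial.C : ℤ →+* MvPolynomial σ ℤ) a
    have e1 : ρV ((a : ℤ) : MvPolynomial σ ℤ) = ((a : ℤ) : Module.End L V) :=
      map_intCast ρV a
    have e2 : e (MvPolynomial.eval₂Hom (Int.castRingHom 𝕋) g ((a : ℤ) : MvPolynomial σ ℤ))
        = ((a : ℤ) : Module.End ℤ T₀) := by
      rw [map_intCast, map_intCast]
    rw [e0, e1, e2, Module.End.intCast_apply, Module.End.intCast_apply, map_zsmul]
  | add f f' hf hf' =>
    rw [map_add, map_add, map_add, LinearMap.add_apply, LinearMap.add_apply, map_add,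
      hf, hf']
  | mul_X f i hf =>
    rw [map_mul, map_mul, map_mul, Module.End.mul_apply, Module.End.mul_apply, h i ξ,
      hf]
    congr 3
    simp

/-- **Annihilator transfer**: an element of the polynomial ring which kills `V` kills `T₀`. -/
theorem eq_zero_of_rhoV (hgn : Function.Injective gn)
    (h : ∀ i ξ, ρV (MvPolynomial.X i) (gn ξ) = gn (e (g i) ξ))
    (f : MvPolynomial σ ℤ) (h0 : ρV f = 0) :
    e (MvPolynomial.eval₂Hom (Int.castRingHom 𝕋) g f) = 0 := by
  refine LinearMap.ext fun ξ => ?_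
  apply hgn
  rw [← polyEnd_gen gn e g ρV h f ξ, h0, LinearMap.zero_apply, LinearMap.zero_apply, map_zero]

end Ann

section Theta

variable {𝒪 : Type} [CommRing 𝒪] [IsLocalRing 𝒪] {𝕋 : Type} [CommRing 𝕋]
  {A : Type} [AddCommGroup A] (η : 𝕋 →+* Module.End ℤ A) (θ : 𝕋 →+* ResidueField 𝒪)

theorem thetaEta_eq_zero_of (t : 𝕋) (h : η t = 0) : H2.thetaEta η θ t = 0 := by
  refine LinearMap.ext fun x => Subtype.ext ?_
  rw [H2.thetaEta_apply, h, LinearMap.baseChange_zero]
  rfl

end Theta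

/-! ### Ring homomorphisms from `ℤ_[p]` -/

section Padic

theorem padic_hom_injective {p : ℕ} [Fact p.Prime] {R : Type*} [CommRing R] [IsDomain R]
    [CharZero R] (f : ℤ_[p] →+* R) : Function.Injective f := by
  rw [injective_iff_map_eq_zero]
  intro x hx
  by_contra hx0
  have h1 := PadicInt.unitCoeff_spec hx0
  rw [h1, map_mul, map_pow, map_natCast] at hx
  have hp : ((p : ℕ) : R) ≠ 0 := Nat.cast_ne_zero.mpr (Fact.out : p.Prime).ne_zero
  have hu : IsUnit (f ((PadicInt.unitCoeff hx0 : ℤ_[p]ˣ) : ℤ_[p])) :=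
    (PadicInt.unitCoeff hx0).isUnit.map f
  rcases mul_eq_zero.mp hx with h | h
  · exact hu.ne_zero h
  · exact pow_ne_zero _ hp h

end Padic

/-! ### PVG-LIN without saturation -/

section Lin

variable {𝒪 : Type} [CommRing 𝒪] {F : Type} [AddCommGroup F] [Module 𝒪 F]

/-- **PVG-LIN without the saturation hypothesis** (variant of helper3's `H3.lin_tensor`): if `t`
kills the `ψ`-eigenvectors then `N t` maps `F` into `typeSub c ψ` for some `N ≠ 0` in `ℕ`, so
`N χ(t) = 0` and `χ(t) = 0` because `D` has characteristic `0`. -/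
theorem lin_typeSub_nosat [IsDomain 𝒪] [CharZero 𝒪] {L : Type*} [Field L] [Algebra 𝒪 L]
    [IsAlgClosed L] (hL : Function.Injective (algebraMap 𝒪 L)) [Module.Finite 𝒪 F]
    [Module.Free 𝒪 F] {k : ℕ} (c : Fin k → Module.End 𝒪 F) (n : Fin k → ℕ) (hn : ∀ j, 0 < n j)
    (hc : ∀ j, c j ^ n j = 1) (hcc : ∀ i j, Commute (c i) (c j))
    (ψ : Fin k → 𝒪) (hψ : ∀ j, ψ j ^ n j = 1)
    {𝕋 : Type*} [CommRing 𝕋] [Algebra.IsIntegral ℤ 𝕋] (η : 𝕋 →+* Module.End 𝒪 F)
    (hηc : ∀ t j, Commute (η t) (c j))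
    {D : Type*} [CommRing D] [IsDomain D] [CharZero D] (χ : 𝕋 →+* D)
    (hχ : ∀ t, (∀ v, η t v ∈ typeSub c ψ) → χ t = 0) :
    ∃ χ' : 𝕋 →+* L, RingHom.ker χ' = RingHom.ker χ ∧ ∃ v : L ⊗[𝒪] F, v ≠ 0 ∧
      (∀ t, (η t).baseChange L v = χ' t • v) ∧
      (∀ j, (c j).baseChange L v = algebraMap 𝒪 L (ψ j) • v) := by
  classical
  -- the eigenspace
  obtain ⟨V, hV⟩ : ∃ V : Submodule L (L ⊗[𝒪] F),
      ∀ v, v ∈ V ↔ ∀ j, (c j).baseChange L v = algebraMap 𝒪 L (ψ j) • v := by
    refine ⟨⨅ j, LinearMap.ker ((c j).baseChange L -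
      algebraMap 𝒪 L (ψ j) • (1 : Module.End L (L ⊗[𝒪] F))), fun v => ?_⟩
    simp only [Submodule.mem_iInf, LinearMap.mem_ker, LinearMap.sub_apply,
      LinearMap.smul_apply, Module.End.one_apply, sub_eq_zero]
  have hcomm : ∀ t j v, (c j).baseChange L ((η t).baseChange L v) =
      (η t).baseChange L ((c j).baseChange L v) := by
    intro t j v
    have h1 := congrArg (fun f : Module.End 𝒪 F => f.baseChange L) (hηc t j).eq
    simp only [LinearMap.baseChange_mul] at h1
    have h2 := congrArg (fun f : Module.End L (L ⊗[𝒪] F) => f v) h1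
    simp only [Module.End.mul_apply] at h2
    exact h2.symm
  have hstab : ∀ t, ∀ v ∈ V, (η t).baseChange L v ∈ V := by
    intro t v hv
    rw [hV] at hv ⊢
    intro j
    rw [hcomm, hv j, map_smul]
  obtain ⟨ρV, hρV⟩ : ∃ ρV : 𝕋 →+* Module.End L V,
      ∀ t (v : V), ((ρV t v : V) : L ⊗[𝒪] F) = (η t).baseChange L (v : L ⊗[𝒪] F) :=
    ⟨H3.restrictRingHom (((Module.End.baseChangeHom 𝒪 L F :
      Module.End 𝒪 F →ₐ[𝒪] Module.End L (L ⊗[𝒪] F)) :
      Module.End 𝒪 F →+* Module.End L (L ⊗[𝒪] F)).comp η) V hstab, fun t v => rfl⟩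
  -- the kernel
  have hker : RingHom.ker ρV ≤ RingHom.ker χ := by
    intro t ht
    rw [RingHom.mem_ker] at ht ⊢
    obtain ⟨N, P, hN, hPc, hPe, hPr⟩ := H3.exists_proj c n hn hc hcc ψ hψ Finset.univ
    have hkill : ∀ m : F, (∀ j, c j m = ψ j • m) → η t m = 0 := by
      intro m hm
      apply H3.tmul_one_injective (L := L) hL
      have hmV : (1 : L) ⊗ₜ[𝒪] m ∈ V := by
        rw [hV]
        intro j
        rw [LinearMap.baseChange_tmul, hm j, TensorProduct.tmul_smul, algebraMap_smul]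
      have h1 := hρV t ⟨_, hmV⟩
      rw [ht] at h1
      simp only [LinearMap.zero_apply, Submodule.coe_zero, LinearMap.baseChange_tmul] at h1
      exact h1.symm
    have h4 : (⨆ j ∈ (Finset.univ : Finset (Fin k)),
        LinearMap.range (c j - ψ j • (1 : Module.End 𝒪 F))) = typeSub c ψ := by
      simp [typeSub]
    have h5 : χ ((N : 𝕋) * t) = 0 := by
      apply hχ
      intro v
      have h1 : η t (P v) = 0 := hkill (P v) (fun j => hPe j (Finset.mem_univ j) v)
      have h2 : P (η t v) = 0 := by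
        have := congrArg (fun f : Module.End 𝒪 F => f v) (hPc (η t) (hηc t)).eq
        simp only [Module.End.mul_apply] at this
        rw [← this, h1]
      have h3 := hPr (η t v)
      rw [h2, sub_zero, h4] at h3
      have h6 : η ((N : 𝕋) * t) v = (N : 𝒪) • η t v := by
        rw [map_mul, map_natCast, Module.End.mul_apply, Module.End.natCast_apply,
          Nat.cast_smul_eq_nsmul]
      rw [h6]
      exact h3
    rw [map_mul, map_natCast] at h5
    rcases mul_eq_zero.mp h5 with h | h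
    · exact absurd (Nat.cast_eq_zero.mp h) hN.ne'
    · exact h
  have : (RingHom.ker χ).IsPrime := RingHom.ker_isPrime χ
  have hmin : RingHom.ker χ ∈ (RingHom.ker ρV).minimalPrimes := by
    refine H3.mem_minimalPrimes_of_integral _ _ hker ?_
    intro m hm
    rw [RingHom.mem_ker, map_intCast] at hm
    exact_mod_cast hm
  have hfinE : Module.Finite L (L ⊗[𝒪] F) := Module.Finite.base_change 𝒪 L F
  have hfinV : FiniteDimensional L V := FiniteDimensional.finiteDimensional_submodule V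
  have key := @H3.exists_eigen_of_minimalPrime L _ _ V _ _ hfinV 𝕋 _ ρV (RingHom.ker χ) hmin
  obtain ⟨χ', hχ', v, hv0, hv⟩ := key
  refine ⟨χ', hχ', (v : L ⊗[𝒪] F), ?_, ?_, ?_⟩
  · intro h
    exact hv0 (Subtype.ext h)
  · intro t
    rw [← hρV, hv t]
    rfl
  · exact (hV _).mp v.2

end Lin

/-! ### Arithmetic of `N c²` -/

section Arith

/-- A prime of a list of distinct primes divides the product exactly once. -/
theorem exists_prod_eq_mul (qs : List ℕ) (hnd : qs.Nodup) (hpr : ∀ q ∈ qs, q.Prime)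
    {q : ℕ} (hq : q ∈ qs) : ∃ c₁ : ℕ, qs.prod = q * c₁ ∧ ¬ q ∣ c₁ := by
  refine ⟨(qs.erase q).prod, (List.prod_erase hq).symm, fun hd => ?_⟩
  obtain ⟨a, ha, hqa⟩ := ((hpr q hq).prime.dvd_prod_iff).mp hd
  have ha' : a ∈ qs := List.mem_of_mem_erase ha
  have hqa' : q = a := (Nat.prime_dvd_prime_iff_eq (hpr q hq) (hpr a ha')).mp hqa
  rw [← hqa'] at ha
  exact (hnd.mem_erase_iff.mp ha).1 rfl

/-- `q ∥ N c² / q` for a prime `q` of `c`, `q ∤ N`. -/
theorem level_div_facts (N : ℕ) (qs : List ℕ) (hnd : qs.Nodup) (hpr : ∀ q ∈ qs, q.Prime)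
    (hqN : ∀ q ∈ qs, ¬ q ∣ N) {q : ℕ} (hq : q ∈ qs) :
    N * qs.prod * qs.prod / q * q = N * qs.prod * qs.prod ∧
    q ∣ N * qs.prod * qs.prod / q ∧ ¬ q ^ 2 ∣ N * qs.prod * qs.prod / q := by
  obtain ⟨c₁, hc₁, hqc₁⟩ := exists_prod_eq_mul qs hnd hpr hq
  have hqp := hpr q hq
  have hq0 : 0 < q := hqp.pos
  have e1 : N * qs.prod * qs.prod = (N * c₁ * c₁ * q) * q := by rw [hc₁]; ring
  have e2 : N * qs.prod * qs.prod / q = N * c₁ * c₁ * q := by
    rw [e1]
    exact Nat.mul_div_cancel _ hq0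
  refine ⟨?_, ?_, ?_⟩
  · rw [e2, ← e1]
  · rw [e2]
    exact dvd_mul_left _ _
  · rw [e2, pow_two]
    intro hd
    have h1 : q ∣ N * c₁ * c₁ := (Nat.mul_dvd_mul_iff_right hq0).mp hd
    rcases (hqp.dvd_mul).mp h1 with h2 | h2
    · rcases (hqp.dvd_mul).mp h2 with h3 | h3
      · exact hqN q hq h3
      · exact hqc₁ h3
    · exact hqc₁ h2

end Arith

end Fermat.Agent.L.Pivot.Geom.H81
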