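import Fermat.Agent.L.Pivot.Geom.H81_NewAsmCore
import Fermat.Agent.L.Pivot.Geom.H81_NewAsmBetti
import Fermat.Agent.L.Pivot.Geom.H25_ChiLow

/-!
# PIVOT, PV-GEOM, leaf PVG-NEW-ASM (helper81), part 5: the assembly on an abstract span `V`

* `new_V` : the statement of the field `new` of `PVBase` for an abstract module `W` and an
  abstract span `V ↪ Hom_par(Γ₀(N c) ∩ Γ₁(c), L)` containing a lattice `T₀` on which the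
  polynomial Hecke ring `𝕋⁺` acts compatibly.
-/

set_option autoImplicit false

open IsLocalRing TensorProduct

namespace Fermat.Agent.L.Pivot.Geom.H81

open CongruenceSubgroup Matrix.SpecialLinearGroup ModularForm Finset
open scoped MatrixGroups
open Fermat.Agent.NEB.EIG.H39 Fermat.Agent.Betti ModularCurve.Period
open Fermat.Agent.S59.Lim Fermat.Agent.L.Pivot

set_option maxHeartbeats 1000000 in
/-- **PVG-NEW-ASM on an abstract span.** -/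
theorem new_V (p : ℕ) [Fact p.Prime] (N : ℕ) (hN : N ≠ 0) (qs : List ℕ) (hnd : qs.Nodup)
    (hpr : ∀ q ∈ qs, q.Prime) (hqN : ∀ q ∈ qs, ¬ q ∣ N)
    (c N' M : ℕ) (hc : c = qs.prod) (hM : M = N * c) (hcM : c ∣ M) (hN' : N' = N * c * c)
    [NeZero N'] (S : Finset ℕ)
    (hS : ∀ q : ℕ, q.Prime → q ∣ N' → q ∈ (↑S : Set ℕ))
    {𝒪 : Type} [CommRing 𝒪] [IsDomain 𝒪] [IsDiscreteValuationRing 𝒪]
    [IsAdicComplete (maximalIdeal 𝒪) 𝒪] [CharZero 𝒪]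
    (ϖ : 𝒪) (hϖ : Irreducible ϖ) (hp𝒪 : (p : 𝒪) ∈ maximalIdeal 𝒪)
    {L : Type} [Field L] [CharZero L] [IsAlgClosed L] [Algebra 𝒪 L]
    (hL : Function.Injective (algebraMap 𝒪 L))
    {V : Type} [AddCommGroup V] [Module L V] [FiniteDimensional L V]
    (μ : V →ₗ[L] (Additive (Gam1 M c) →+ L)) (hμ : Function.Injective μ)
    (hμpar : ∀ v, IsParabolicHom (Gam1 M c) (μ v))
    (TV : ℕ → Module.End L V)
    (hTV : ∀ (ℓ : ℕ) (hℓ : ℓ.Prime) (hℓM : ¬ ℓ ∣ M) (v : V),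
      μ (TV ℓ v) = TD M c hcM hℓ hℓM (μ v))
    (dia : (ZMod c)ˣ →* Module.End L V)
    (hdia : ∀ (g : SL(2, ℤ)) (hg : ((M : ℕ) : ℤ) ∣ g 1 0) (d : (ZMod c)ˣ),
      (d : ZMod c) = ((g 0 0 : ℤ) : ZMod c) →
      ∀ v, μ (dia d v) = Dop hcM g hg (μ v))
    (hcommV : ∀ ℓ d, Commute (TV ℓ) (dia d))
    (j : ℕ) (hdn : ∀ d, dia d ^ (2 * j + 1) = 1)
    {T₀ : Type} [AddCommGroup T₀] (gn : T₀ →ₗ[ℤ] V) (hgn : Function.Injective gn)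
    {𝕋 : Type} [CommRing 𝕋] (ρT : 𝕋 →+* Module.End ℤ T₀)
    {W : Type} [AddCommGroup W] [Module 𝒪 W] (hW : IsDiv ϖ W)
    (ρW : 𝕋 →+* Module.End 𝒪 W) (hker : ∀ s, ρT s = 0 → ρW s = 0)
    (z : ℕ → 𝕋)
    (hzV : ∀ (ℓ : ℕ), ℓ.Prime → ¬ ℓ ∣ N' → ℓ ∉ (↑S : Set ℕ) → ∀ ξ : T₀,
      tOp TV dia j ℓ (gn ξ) = gn (ρT (z ℓ) ξ))
    (etaW : CuspForm.heckeAlgebra N' 2 (↑S : Set ℕ) →+* Module.End 𝒪 W)
    (hetaW : ∀ (ℓ : ℕ) (hℓ : ℓ.Prime) (hℓN : ¬ ℓ ∣ N') (hℓS : ℓ ∉ (↑S : Set ℕ)),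
      etaW (CuspForm.heckeAlgebra.T hℓ hℓN hℓS) = ρW (z ℓ))
    {k : ℕ} (qP : Fin k → ℕ) (hqP : ∀ i, qP i ∈ qs) (hqPp : ∀ i, qP i ≠ p)
    (δ : Fin k → (ZMod c)ˣ)
    (hδ : ∀ i, ∀ q' ∈ qs, q' ≠ qP i → ∀ hd : q' ∣ c, ZMod.unitsMap hd (δ i) = 1)
    (zc : Fin k → 𝕋) (hzcV : ∀ i (ξ : T₀), dia (δ i) (gn ξ) = gn (ρT (zc i) ξ))
    (cW : Fin k → Module.End 𝒪 W) (hcW : ∀ i, cW i = ρW (zc i))
    (eP : Fin k → ℕ) (hcWpow : ∀ i, cW i ^ (p ^ eP i) = 1)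
    (hN2 : ∀ (i : Fin k) [NeZero (N' / qP i)] [NeZero (qP i)],
      H50.Stmt_NewJ0 (N' / qP i) (qP i) p) :
    ∀ (ψ : Fin k → 𝒪), (∀ i, ψ i ^ (p ^ eP i) = 1 ∧ ψ i ≠ 1) →
    ∀ (E : Type) [CommRing E] [IsDomain E] [CharZero E]
      (χ : CuspForm.heckeAlgebra N' 2 (↑S : Set ℕ) →+* E),
      (∀ t, (∀ v : H2.tate ϖ W, H2.mapEnd ϖ W (etaW t) v ∈
          typeSub (fun i => H2.mapEnd ϖ W (cW i)) ψ) → χ t = 0) →
      ∀ (i : Fin k) [NeZero (N' / qP i)]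
        (χ' : CuspForm.heckeAlgebra (N' / qP i) 2 (↑S : Set ℕ) →+* E),
        ¬ ∀ (ℓ : ℕ) (hℓ : ℓ.Prime) (hℓN' : ¬ ℓ ∣ N') (hℓS : ℓ ∉ (↑S : Set ℕ))
          (hℓN : ¬ ℓ ∣ N' / qP i),
          χ' (CuspForm.heckeAlgebra.T hℓ hℓN hℓS) = χ (CuspForm.heckeAlgebra.T hℓ hℓN' hℓS) := by
  classical
  intro ψ hψ E _ _ _ χ hχ i₀ _ χ' hχ'
  subst hM
  subst hc
  subst hN'
  have hp : p.Prime := Fact.out
  have hp0 : (p : 𝒪) ≠ 0 := Nat.cast_ne_zero.mpr hp.ne_zero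
  haveI : NeZero qs.prod := ⟨prod_primes_ne_zero hpr⟩
  haveI := hasEnough_of_algClosed L qs.prod
  obtain ⟨etaV, hetaV⟩ := stmt_OP (L := L) (V := V) N hN qs hnd hpr hqN qs.prod
    (N * qs.prod * qs.prod) rfl rfl (↑S : Set ℕ) hS μ hμ hμpar TV hTV dia hdia hcommV j hdn
  have hdd : ∀ d d', Commute (dia d) (dia d') := fun d d' => (Commute.all d d').map dia
  have hcVeta : ∀ i t, Commute (etaV t) (dia (δ i)) := by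
    intro i
    refine hecke_induction hS (fun ℓ hℓ hℓN hℓS => ?_) (fun n => ?_) (fun x y hx hy => ?_)
      (fun x y hx hy => ?_)
    · rw [hetaV ℓ hℓ hℓN hℓS]
      exact (hcommV ℓ (δ i)).mul_left ((hdd _ (δ i)).pow_left j)
    · rw [map_intCast]
      exact Int.cast_commute n _
    · rw [map_add]
      exact hx.add_left hy
    · rw [map_mul]
      exact hx.mul_left hy
  obtain ⟨χ'', w, hker', hw0, hwδ, hwT⟩ := exists_eigen_new ϖ hϖ p hp.pos hL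
    (N * qs.prod * qs.prod) S hS gn hgn ρT hW ρW hker z zc etaV
    (fun ℓ hℓ hℓN hℓS ξ => by
      rw [hetaV ℓ hℓ hℓN hℓS]
      exact hzV ℓ hℓ hℓN hℓS ξ)
    (fun i => dia (δ i)) hzcV hcVeta etaW hetaW cW hcW eP hcWpow ψ hψ E χ hχ i₀
  obtain ⟨hlev, hqM, hq2M⟩ := level_div_facts N qs hnd hpr hqN (hqP i₀)
  obtain ⟨χlow, hχlow⟩ := H25.exists_chiLow (N' := N * qs.prod * qs.prod)
    (N'' := N * qs.prod * qs.prod / qP i₀) ⟨qP i₀, hlev.symm⟩ (↑S : Set ℕ) hS χ χ' hχ' χ'' hker'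
  haveI : NeZero (qP i₀) := ⟨(hpr _ (hqP i₀)).ne_zero⟩
  exact false_of_eigen_new p hp hp𝒪 hp0 hL N hN qs hnd hpr hqN S μ hμ hμpar TV hTV dia hdia
    hcommV j hdn (qP i₀) (hqP i₀) (hqPp i₀) (hN2 i₀) (δ i₀) (hδ i₀)
    (fun ℓ => if h : ℓ.Prime ∧ ¬ ℓ ∣ N * qs.prod * qs.prod ∧ ℓ ∉ (↑S : Set ℕ) then
      χ'' (CuspForm.heckeAlgebra.T h.1 h.2.1 h.2.2) else 0)
    w hw0 hwδ
    (fun ℓ h1 h2 h3 => by
      rw [dif_pos ⟨h1, h2, h3⟩, ← hwT, hetaV]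
      rfl)
    χlow
    (fun ℓ hℓ hℓN hℓS hℓN' => by
      rw [dif_pos ⟨hℓ, hℓN', hℓS⟩]
      exact hχlow ℓ hℓ hℓN hℓS hℓN')

end Fermat.Agent.L.Pivot.Geom.H81
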