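import Fermat.Agent.GTor.H81_TateCoordsSpec
import Fermat.Agent.S36.H44_Push
import Fermat.Agent.S41.H19_Transfer
import Fermat.Agent.S41.H77_CorComp
import Fermat.Agent.S59.NonMin.Geom.H94_RelPar

/-!
# PIVOT, PV-GEOM part II: the coordinates of the degeneracy push-forwards  (helper81)

Input (leaf PVG-B2, helper24), as hypotheses:

* `Stmt_B2Alpha M q` : if `φ` is the Betti character of `x ∈ J₀(M q)[n]` then `cor1 φ` (transfer
  along the inclusion `Γ₀(M q) ≤ Γ₀(M)`) is the Betti character of `α_* x`;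
* `Stmt_B2Beta M q` : the same for `β_*` and `cor2` (transfer along conjugation by `diag(q, 1)`).

Output:

* `exists_pushMatrices` : integer matrices `Aα`, `Aβ` of `cor1`, `cor2` in parabolic bases
  `b` (level `M q`), `b'` (level `M`);
* `cor1_coordFun`, `cor2_coordFun` : `cor (coordFun b n v) = coordFun b' n (A v)`;
* `theta_alphaPush`, `theta_betaPush` : for coordinates `θ`, `θ'` characterised by `TorChar`:
  `θ' (α_* x) = Aα (θ x)`;
* `exists_pushSpec` : the package for the consumer (helper50, `PushCoords`): coordinatised Tate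
  systems `C` (level `M q`), `C'` (level `M`) with the SAME embedding `ι`, bases, matrices and all
  compatibilities, without casts.
-/

set_option autoImplicit false
set_option linter.unusedSectionVars false
set_option maxHeartbeats 1000000

noncomputable section

namespace Fermat.Agent.L.Pivot.Geom.H81

open AlgebraicCurve ModularCurve CongruenceSubgroup Fermat.Agent.GTor Fermat.Agent.Betti
open Fermat.Agent.GTor.H81 Fermat.Agent.S41 Fermat.Agent.S41.H19 Fermat.Agent.S36.H44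
open ModularCurve.Period
open scoped MatrixGroups

/-! ## The hypotheses (PVG-B2) -/

/-- **(B-2) for `α`.** -/
def Stmt_B2Alpha (M q : ℕ) [NeZero M] [NeZero q] : Prop :=
  ∀ (n : ℕ), n ≠ 0 → ∀ (ι : AlgebraicClosure ℚ →+* ℂ) (x : JZero (M * q))
    (φ : Additive (Gamma0 (M * q)) →+ ZMod n),
    TorChar (M * q) n ι x φ → TorChar M n ι (alphaPush M q x) (cor1 M q (ZMod n) φ)

/-- **(B-2) for `β`.** -/
def Stmt_B2Beta (M q : ℕ) [NeZero M] [NeZero q] : Prop :=
  ∀ (n : ℕ), n ≠ 0 → ∀ (ι : AlgebraicClosure ℚ →+* ℂ) (x : JZero (M * q))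
    (φ : Additive (Gamma0 (M * q)) →+ ZMod n),
    TorChar (M * q) n ι x φ → TorChar M n ι (betaPush M q x) (cor2 M q (ZMod n) φ)

/-! ## Transfers of parabolic homomorphisms -/

section Cor

variable {H G : Type*} [Group H] [Group G] {A : Type*} [AddCommGroup A]

theorem corAlong_zero_h81 (f : H →* G) : corAlong A f (0 : Additive H →+ A) = 0 := by
  have := corAlong_add (A := A) f 0 0
  rw [add_zero] at this
  exact left_eq_add.mp this

theorem corAlong_sum_h81 (f : H →* G) {I : Type*} (s : Finset I) (φ : I → Additive H →+ A) :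
    corAlong A f (∑ i ∈ s, φ i) = ∑ i ∈ s, corAlong A f (φ i) := by
  classical
  induction s using Finset.induction_on with
  | empty => simp [corAlong_zero_h81]
  | insert a s ha ih => rw [Finset.sum_insert ha, Finset.sum_insert ha, corAlong_add, ih]

end Cor

section Par

variable (M q : ℕ)

theorem isParabolicHom_cor1 {A : Type*} [AddCommGroup A]
    {ψ : Additive (Gamma0 (M * q)) →+ A} (hψ : IsParabolicHom (Gamma0 (M * q)) ψ) :
    IsParabolicHom (Gamma0 M) (cor1 M q A ψ) :=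
  Fermat.Agent.S59.NonMin.Geom.H94.corAlong_par (inclG M q) (fun _ => rfl) hψ

theorem isParabolicHom_cor2 {A : Type*} [AddCommGroup A]
    {ψ : Additive (Gamma0 (M * q)) →+ A} (hψ : IsParabolicHom (Gamma0 (M * q)) ψ) :
    IsParabolicHom (Gamma0 M) (cor2 M q A ψ) :=
  Fermat.Agent.S59.NonMin.Geom.H94.corAlong_par (conjG M q)
    (fun _ => Fermat.Agent.S59.NonMin.Geom.H94.trace_conjMat' q _) hψ

end Par

/-! ## The matrices -/

section Mat

variable {N N' : ℕ} {r r' : ℕ} {b : Fin r → (Additive (Gamma0 N) →+ ℤ)}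
  {b' : Fin r' → (Additive (Gamma0 N') →+ ℤ)}

/-- `coordFun` as a sum. -/
theorem coordFun_eq_sum (n : ℕ) (v : Fin r → ZMod n) :
    coordFun b n v = ∑ i, v i • (Int.castAddHom (ZMod n)).comp (b i) := by
  refine AddMonoidHom.ext fun γ => ?_
  rw [coordFun_apply, AddMonoidHom.finsetSum_apply]
  rfl

/-- The matrix of an additive operator between the lattices of parabolic homomorphisms. -/
theorem exists_matrix_of_par (hb' : IsParBasis N' b')
    (T : (Additive (Gamma0 N) →+ ℤ) → (Additive (Gamma0 N') →+ ℤ))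
    (hT : ∀ j, IsParabolicHom (Gamma0 N') (T (b j))) :
    ∃ X : Matrix (Fin r') (Fin r) ℤ, ∀ j, T (b j) = ∑ i, X i j • b' i := by
  choose a ha _ using fun j => hb'.2 ℤ (T (b j)) (hT j)
  refine ⟨Matrix.of fun i j => a j i, fun j => ?_⟩
  refine AddMonoidHom.ext fun γ => ?_
  rw [ha j γ, AddMonoidHom.finsetSum_apply]
  refine Finset.sum_congr rfl fun i _ => ?_
  rw [AddMonoidHom.smul_apply, Matrix.of_apply, smul_eq_mul, smul_eq_mul, mul_comm]

/-- An operator which is additive, commutes with the scalars and with the change of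
coefficients acts on coordinates by its integer matrix. -/
theorem op_coordFun {G G' : Type*} [Group G] [Group G'] (f : G →* G')
    {c : Fin r → (Additive G →+ ℤ)} {c' : Fin r' → (Additive G' →+ ℤ)}
    (X : Matrix (Fin r') (Fin r) ℤ)
    (hX : ∀ j, corAlong ℤ f (c j) = ∑ i, X i j • c' i) (n : ℕ) (v : Fin r → ZMod n) :
    corAlong (ZMod n) f (∑ i, v i • (Int.castAddHom (ZMod n)).comp (c i))
      = ∑ k, ((X.map (Int.cast : ℤ → ZMod n)).mulVec v) k •
          (Int.castAddHom (ZMod n)).comp (c' k) := by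
  rw [corAlong_sum_h81]
  have h1 : ∀ i, corAlong (ZMod n) f (v i • (Int.castAddHom (ZMod n)).comp (c i))
      = v i • ∑ k, (X k i : ZMod n) • (Int.castAddHom (ZMod n)).comp (c' k) := by
    intro i
    rw [corAlong_smul, Fermat.Agent.S41.H77.corAlong_map, hX i]
    congr 1
    refine AddMonoidHom.ext fun γ => ?_
    simp only [AddMonoidHom.comp_apply, AddMonoidHom.finsetSum_apply, AddMonoidHom.smul_apply,
      map_sum, smul_eq_mul, Int.coe_castAddHom, Int.cast_mul]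
  rw [Finset.sum_congr rfl fun i _ => h1 i]
  simp only [Finset.smul_sum, smul_smul]
  rw [Finset.sum_comm]
  refine Finset.sum_congr rfl fun k _ => ?_
  rw [← Finset.sum_smul]
  congr 1
  rw [Matrix.mulVec, dotProduct]
  refine Finset.sum_congr rfl fun i _ => ?_
  rw [Matrix.map_apply, mul_comm]

end Mat

section Push

variable (M q : ℕ) [NeZero M] [NeZero q] {r r' : ℕ}
  {b : Fin r → (Additive (Gamma0 (M * q)) →+ ℤ)} {b' : Fin r' → (Additive (Gamma0 M) →+ ℤ)}

/-- **The integer matrices of the two transfers** in parabolic bases. -/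
theorem exists_pushMatrices (hb : IsParBasis (M * q) b) (hb' : IsParBasis M b') :
    ∃ Aα Aβ : Matrix (Fin r') (Fin r) ℤ,
      (∀ j, cor1 M q ℤ (b j) = ∑ i, Aα i j • b' i) ∧
      (∀ j, cor2 M q ℤ (b j) = ∑ i, Aβ i j • b' i) := by
  obtain ⟨Aα, hα⟩ := exists_matrix_of_par hb' (cor1 M q ℤ)
    (fun j => isParabolicHom_cor1 M q (hb.1 j))
  obtain ⟨Aβ, hβ⟩ := exists_matrix_of_par hb' (cor2 M q ℤ)
    (fun j => isParabolicHom_cor2 M q (hb.1 j))
  exact ⟨Aα, Aβ, hα, hβ⟩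

theorem cor1_coordFun {Aα : Matrix (Fin r') (Fin r) ℤ}
    (hα : ∀ j, cor1 M q ℤ (b j) = ∑ i, Aα i j • b' i) (n : ℕ) (v : Fin r → ZMod n) :
    cor1 M q (ZMod n) (coordFun b n v)
      = coordFun b' n ((Aα.map (Int.cast : ℤ → ZMod n)).mulVec v) := by
  rw [coordFun_eq_sum, coordFun_eq_sum]
  exact op_coordFun (inclG M q) Aα hα n v

theorem cor2_coordFun {Aβ : Matrix (Fin r') (Fin r) ℤ}
    (hβ : ∀ j, cor2 M q ℤ (b j) = ∑ i, Aβ i j • b' i) (n : ℕ) (v : Fin r → ZMod n) :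
    cor2 M q (ZMod n) (coordFun b n v)
      = coordFun b' n ((Aβ.map (Int.cast : ℤ → ZMod n)).mulVec v) := by
  rw [coordFun_eq_sum, coordFun_eq_sum]
  exact op_coordFun (conjG M q) Aβ hβ n v

variable {M q}

/-- **`α_*` in coordinates.** -/
theorem theta_alphaPush (hB : Stmt_B2Alpha M q) (hb' : IsParBasis M b')
    {Aα : Matrix (Fin r') (Fin r) ℤ} (hα : ∀ j, cor1 M q ℤ (b j) = ∑ i, Aα i j • b' i)
    {n : ℕ} (hn : n ≠ 0) (ι : AlgebraicClosure ℚ →+* ℂ)
    {x : JZero (M * q)} {v : Fin r → ZMod n} (hx : TorChar (M * q) n ι x (coordFun b n v))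
    {y : JZero M} {w : Fin r' → ZMod n} (hy : TorChar M n ι y (coordFun b' n w))
    (hxy : y = alphaPush M q x) :
    w = (Aα.map (Int.cast : ℤ → ZMod n)).mulVec v := by
  have h1 := hB n hn ι x _ hx
  rw [cor1_coordFun M q hα, ← hxy] at h1
  have h2 := torChar_unique hn hy h1
  have h3 : coordFun b' n (w - (Aα.map (Int.cast : ℤ → ZMod n)).mulVec v) = 0 := by
    have e : w = (w - (Aα.map (Int.cast : ℤ → ZMod n)).mulVec v)
        + (Aα.map (Int.cast : ℤ → ZMod n)).mulVec v := by abel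
    have h4 := h2
    rw [e, coordFun_add] at h4
    exact add_eq_right.mp h4
  have h5 := coordFun_injective n hb' hn _ h3
  exact sub_eq_zero.mp h5

/-- **`β_*` in coordinates.** -/
theorem theta_betaPush (hB : Stmt_B2Beta M q) (hb' : IsParBasis M b')
    {Aβ : Matrix (Fin r') (Fin r) ℤ} (hβ : ∀ j, cor2 M q ℤ (b j) = ∑ i, Aβ i j • b' i)
    {n : ℕ} (hn : n ≠ 0) (ι : AlgebraicClosure ℚ →+* ℂ)
    {x : JZero (M * q)} {v : Fin r → ZMod n} (hx : TorChar (M * q) n ι x (coordFun b n v))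
    {y : JZero M} {w : Fin r' → ZMod n} (hy : TorChar M n ι y (coordFun b' n w))
    (hxy : y = betaPush M q x) :
    w = (Aβ.map (Int.cast : ℤ → ZMod n)).mulVec v := by
  have h1 := hB n hn ι x _ hx
  rw [cor2_coordFun M q hβ, ← hxy] at h1
  have h2 := torChar_unique hn hy h1
  have h3 : coordFun b' n (w - (Aβ.map (Int.cast : ℤ → ZMod n)).mulVec v) = 0 := by
    have e : w = (w - (Aβ.map (Int.cast : ℤ → ZMod n)).mulVec v)
        + (Aβ.map (Int.cast : ℤ → ZMod n)).mulVec v := by abel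
    have h4 := h2
    rw [e, coordFun_add] at h4
    exact add_eq_right.mp h4
  have h5 := coordFun_injective n hb' hn _ h3
  exact sub_eq_zero.mp h5

/-- **`α_* x = 0` from the coordinates.** -/
theorem alphaPush_eq_zero_of_coords (hB : Stmt_B2Alpha M q)
    {Aα : Matrix (Fin r') (Fin r) ℤ} (hα : ∀ j, cor1 M q ℤ (b j) = ∑ i, Aα i j • b' i)
    {n : ℕ} (hn : n ≠ 0) (ι : AlgebraicClosure ℚ →+* ℂ)
    {x : JZero (M * q)} {v : Fin r → ZMod n} (hx : TorChar (M * q) n ι x (coordFun b n v))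
    (hv : (Aα.map (Int.cast : ℤ → ZMod n)).mulVec v = 0) : alphaPush M q x = 0 := by
  have h1 := hB n hn ι x _ hx
  rw [cor1_coordFun M q hα, hv, coordFun_zero] at h1
  exact eq_zero_of_torChar_zero hn h1

/-- **`β_* x = 0` from the coordinates.** -/
theorem betaPush_eq_zero_of_coords (hB : Stmt_B2Beta M q)
    {Aβ : Matrix (Fin r') (Fin r) ℤ} (hβ : ∀ j, cor2 M q ℤ (b j) = ∑ i, Aβ i j • b' i)
    {n : ℕ} (hn : n ≠ 0) (ι : AlgebraicClosure ℚ →+* ℂ)
    {x : JZero (M * q)} {v : Fin r → ZMod n} (hx : TorChar (M * q) n ι x (coordFun b n v))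
    (hv : (Aβ.map (Int.cast : ℤ → ZMod n)).mulVec v = 0) : betaPush M q x = 0 := by
  have h1 := hB n hn ι x _ hx
  rw [cor2_coordFun M q hβ, hv, coordFun_zero] at h1
  exact eq_zero_of_torChar_zero hn h1

end Push

/-! ## The package -/

/-- **The coordinates of the degeneracy push-forwards**: coordinatised Tate systems at the
levels `M q` and `M` (same embedding `ι`), parabolic bases, the integer matrices of the Hecke
operators and of the two transfers, and all compatibilities. -/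
theorem exists_pushSpec (M q p : ℕ) [NeZero M] [NeZero q] (S : Set ℕ) (hp : p.Prime)
    (hNS : ∀ ℓ : ℕ, ℓ.Prime → ℓ ∣ M * q → ℓ ∈ S) (ι : AlgebraicClosure ℚ →+* ℂ)
    (hBα : Stmt_B2Alpha M q) (hBβ : Stmt_B2Beta M q) :
    ∃ (C : TateCoords (M * q) p S) (C' : TateCoords M p S)
      (b : Fin C.r → (Additive (Gamma0 (M * q)) →+ ℤ))
      (b' : Fin C'.r → (Additive (Gamma0 M) →+ ℤ))
      (Aα Aβ : Matrix (Fin C'.r) (Fin C.r) ℤ),
      IsParBasis (M * q) b ∧ IsParBasis M b' ∧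
      (∀ (k : ℕ) (x : Jtor (M * q) (p ^ k)),
        TorChar (M * q) (p ^ k) ι (x : JZero (M * q)) (coordFun b (p ^ k) (C.θ k x))) ∧
      (∀ (k : ℕ) (y : Jtor M (p ^ k)),
        TorChar M (p ^ k) ι (y : JZero M) (coordFun b' (p ^ k) (C'.θ k y))) ∧
      (∀ (ℓ : ℕ) (hℓ : ℓ.Prime) (hℓN : ¬ ℓ ∣ M * q) (hℓS : ℓ ∉ S) (j : Fin C.r),
        TB (M * q) ℤ hℓ hℓN (b j) = ∑ i, C.M (CuspForm.heckeAlgebra.T hℓ hℓN hℓS) i j • b i) ∧
      (∀ (ℓ : ℕ) (hℓ : ℓ.Prime) (hℓN : ¬ ℓ ∣ M) (hℓS : ℓ ∉ S) (j : Fin C'.r),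
        TB M ℤ hℓ hℓN (b' j) = ∑ i, C'.M (CuspForm.heckeAlgebra.T hℓ hℓN hℓS) i j • b' i) ∧
      (∀ j, cor1 M q ℤ (b j) = ∑ i, Aα i j • b' i) ∧
      (∀ j, cor2 M q ℤ (b j) = ∑ i, Aβ i j • b' i) ∧
      (∀ (k : ℕ) (x : Jtor (M * q) (p ^ k)) (y : Jtor M (p ^ k)),
        (y : JZero M) = alphaPush M q (x : JZero (M * q)) →
          C'.θ k y = (Aα.map (Int.cast : ℤ → ZMod (p ^ k))).mulVec (C.θ k x)) ∧
      (∀ (k : ℕ) (x : Jtor (M * q) (p ^ k)) (y : Jtor M (p ^ k)),
        (y : JZero M) = betaPush M q (x : JZero (M * q)) →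
          C'.θ k y = (Aβ.map (Int.cast : ℤ → ZMod (p ^ k))).mulVec (C.θ k x)) ∧
      (∀ (k : ℕ) (x : Jtor (M * q) (p ^ k)),
        (Aα.map (Int.cast : ℤ → ZMod (p ^ k))).mulVec (C.θ k x) = 0 →
          alphaPush M q (x : JZero (M * q)) = 0) ∧
      (∀ (k : ℕ) (x : Jtor (M * q) (p ^ k)),
        (Aβ.map (Int.cast : ℤ → ZMod (p ^ k))).mulVec (C.θ k x) = 0 →
          betaPush M q (x : JZero (M * q)) = 0) := by
  have hNS' : ∀ ℓ : ℕ, ℓ.Prime → ℓ ∣ M → ℓ ∈ S :=
    fun ℓ hℓ h => hNS ℓ hℓ (Dvd.dvd.mul_right h q)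
  obtain ⟨r, b, hb⟩ := Betti.stmt_basis (M * q)
  obtain ⟨r', b', hb'⟩ := Betti.stmt_basis M
  obtain ⟨C, hr, hθ, hT, -⟩ := exists_tateCoords_spec (M * q) p S hp hNS ι hb
  obtain ⟨C', hr', hθ', hT', -⟩ := exists_tateCoords_spec M p S hp hNS' ι hb'
  subst hr
  subst hr'
  simp only [Fin.cast_eq_self] at hθ hθ' hT hT'
  obtain ⟨Aα, Aβ, hα, hβ⟩ := exists_pushMatrices M q hb hb'
  have hn : ∀ k : ℕ, p ^ k ≠ 0 := fun k => pow_ne_zero k hp.ne_zero
  exact ⟨C, C', b, b', Aα, Aβ, hb, hb', hθ, hθ', hT, hT', hα, hβ,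
    fun k x y hxy => theta_alphaPush hBα hb' hα (hn k) ι (hθ k x) (hθ' k y) hxy,
    fun k x y hxy => theta_betaPush hBβ hb' hβ (hn k) ι (hθ k x) (hθ' k y) hxy,
    fun k x hv => alphaPush_eq_zero_of_coords hBα hα (hn k) ι (hθ k x) hv,
    fun k x hv => betaPush_eq_zero_of_coords hBβ hβ (hn k) ι (hθ k x) hv⟩

end Fermat.Agent.L.Pivot.Geom.H81
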